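import Mathlib

/-!
# PROJECT D (S48), blocks B1 / B2: the permutation principle (helper7).  Mathlib only.

`K` a field, `Ω` a field over `K`, `x y : ι → Ω` two families with the same algebraic relations over
`K` (`MvPolynomial.aeval x p = 0 ↔ MvPolynomial.aeval y p = 0`).  Then there is a `K`-isomorphism
`K(x) ≃ K(y)` of the generated subfields with `x i ↦ y i` (`adjoinEquiv`, `adjoinEquiv_gen`).
In particular, if a permutation `π` of the index set preserves the relations of `x`, it extends to a
`K`-automorphism of `K(x)` (`permAut`, `permAut_gen`).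

Analytic criterion (`relations_iff_of_comp`): if the relations of `x`, `y` are detected by families of
functions `X Y : ι → T → R` on a set `T` (e.g. the formal relations of `q`-expansions by the
analytic relations of the functions on `ℍ`) and `Y i = X i ∘ γ` for a *surjective* `γ : T → T`,
then `x` and `y` have the same relations.
-/

set_option autoImplicit false
set_option linter.unusedSectionVars false

noncomputable section

namespace Fermat.Agent.S48.B.B1.PermPrinciple

open IntermediateField IntermediateField.algebraAdjoinAdjoin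

variable {K : Type*} [Field K] {Ω : Type*} [Field Ω] [Algebra K Ω] {ι : Type*}

/-- the two families have the same algebraic relations over `K` -/
def SameRelations (K : Type*) [Field K] {Ω : Type*} [Field Ω] [Algebra K Ω] {ι : Type*}
    (x y : ι → Ω) : Prop :=
  ∀ p : MvPolynomial ι K, MvPolynomial.aeval x p = 0 ↔ MvPolynomial.aeval y p = 0

theorem SameRelations.symm {x y : ι → Ω} (h : SameRelations K x y) : SameRelations K y x :=
  fun p => (h p).symm

theorem SameRelations.refl (x : ι → Ω) : SameRelations K x x := fun _ => Iff.rfl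

theorem SameRelations.trans {x y z : ι → Ω} (h : SameRelations K x y) (h' : SameRelations K y z) :
    SameRelations K x z := fun p => (h p).trans (h' p)

/-- evaluation at `x`, with values in the generated subalgebra -/
def evalAdjoin (K : Type*) [Field K] {Ω : Type*} [Field Ω] [Algebra K Ω] {ι : Type*}
    (x : ι → Ω) : MvPolynomial ι K →ₐ[K] Algebra.adjoin K (Set.range x) :=
  (MvPolynomial.aeval x).codRestrict (Algebra.adjoin K (Set.range x)) fun p => by
    rw [Algebra.adjoin_range_eq_range_aeval]
    exact ⟨p, rfl⟩

theorem coe_evalAdjoin (x : ι → Ω) (p : MvPolynomial ι K) :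
    ((evalAdjoin K x p : Algebra.adjoin K (Set.range x)) : Ω) = MvPolynomial.aeval x p := rfl

theorem evalAdjoin_surjective (x : ι → Ω) : Function.Surjective (evalAdjoin K x) := by
  rintro ⟨a, ha⟩
  rw [Algebra.adjoin_range_eq_range_aeval] at ha
  obtain ⟨p, rfl⟩ := ha
  exact ⟨p, rfl⟩

theorem ker_evalAdjoin_eq {x y : ι → Ω} (h : SameRelations K x y) :
    RingHom.ker (evalAdjoin K x) = RingHom.ker (evalAdjoin K y) := by
  ext p
  rw [RingHom.mem_ker, RingHom.mem_ker]
  have e : ∀ z : ι → Ω, evalAdjoin K z p = 0 ↔ MvPolynomial.aeval z p = 0 := fun z => by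
    rw [← coe_evalAdjoin]
    exact Subtype.ext_iff
  rw [e x, e y]
  exact h p

/-- the isomorphism of the generated subalgebras -/
def algAdjoinEquiv {x y : ι → Ω} (h : SameRelations K x y) :
    Algebra.adjoin K (Set.range x) ≃ₐ[K] Algebra.adjoin K (Set.range y) :=
  (Ideal.quotientKerAlgEquivOfSurjective (evalAdjoin_surjective x)).symm.trans
    ((Ideal.quotientEquivAlgOfEq K (ker_evalAdjoin_eq h)).trans
      (Ideal.quotientKerAlgEquivOfSurjective (evalAdjoin_surjective y)))

theorem algAdjoinEquiv_evalAdjoin {x y : ι → Ω} (h : SameRelations K x y)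
    (p : MvPolynomial ι K) : algAdjoinEquiv h (evalAdjoin K x p) = evalAdjoin K y p := by
  unfold algAdjoinEquiv
  rw [AlgEquiv.trans_apply, AlgEquiv.trans_apply,
    Ideal.quotientKerAlgEquivOfSurjective_symm_apply, Ideal.quotientEquivAlgOfEq_mk,
    Ideal.quotientKerAlgEquivOfSurjective_mk]

/-- **the isomorphism `K(x) ≃ K(y)`** -/
def adjoinEquiv {x y : ι → Ω} (h : SameRelations K x y) :
    IntermediateField.adjoin K (Set.range x) ≃ₐ[K] IntermediateField.adjoin K (Set.range y) :=
  IsFractionRing.algEquivOfAlgEquiv (algAdjoinEquiv h)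

theorem adjoinEquiv_algebraMap {x y : ι → Ω} (h : SameRelations K x y)
    (a : Algebra.adjoin K (Set.range x)) :
    adjoinEquiv h (algebraMap _ _ a) = algebraMap _ _ (algAdjoinEquiv h a) :=
  IsFractionRing.algEquivOfAlgEquiv_algebraMap _ a

/-- `adjoinEquiv` is evaluation-compatible: `p(x) ↦ p(y)` -/
theorem coe_adjoinEquiv_aeval {x y : ι → Ω} (h : SameRelations K x y) (p : MvPolynomial ι K)
    (hx : MvPolynomial.aeval x p ∈ IntermediateField.adjoin K (Set.range x)) :
    ((adjoinEquiv h ⟨MvPolynomial.aeval x p, hx⟩ :
      IntermediateField.adjoin K (Set.range y)) : Ω) = MvPolynomial.aeval y p := by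
  have h1 : (⟨MvPolynomial.aeval x p, hx⟩ : IntermediateField.adjoin K (Set.range x)) =
      algebraMap (Algebra.adjoin K (Set.range x)) _ (evalAdjoin K x p) := rfl
  rw [h1, adjoinEquiv_algebraMap, algAdjoinEquiv_evalAdjoin]
  rfl

/-- **`adjoinEquiv` sends `x i` to `y i`** -/
theorem coe_adjoinEquiv_gen {x y : ι → Ω} (h : SameRelations K x y) (i : ι)
    (hx : x i ∈ IntermediateField.adjoin K (Set.range x)) :
    ((adjoinEquiv h ⟨x i, hx⟩ : IntermediateField.adjoin K (Set.range y)) : Ω) = y i := by
  have hm : MvPolynomial.aeval (R := K) x (MvPolynomial.X i) ∈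
      IntermediateField.adjoin K (Set.range x) := by
    rw [MvPolynomial.aeval_X]
    exact hx
  have h1 := coe_adjoinEquiv_aeval h (MvPolynomial.X i) hm
  have h2 : (⟨MvPolynomial.aeval (R := K) x (MvPolynomial.X i), hm⟩ :
      IntermediateField.adjoin K (Set.range x)) = ⟨x i, hx⟩ :=
    Subtype.ext (MvPolynomial.aeval_X x i)
  rw [h2, MvPolynomial.aeval_X] at h1
  exact h1

theorem gen_mem_adjoin (x : ι → Ω) (i : ι) : x i ∈ IntermediateField.adjoin K (Set.range x) :=
  IntermediateField.subset_adjoin K _ ⟨i, rfl⟩

/-! ### Permutations of the generators -/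

theorem range_comp_perm (x : ι → Ω) (π : Equiv.Perm ι) : Set.range (x ∘ π) = Set.range x :=
  π.surjective.range_comp x

/-- a permutation of the generators preserving their relations, as a `K`-automorphism of `K(x)` -/
def permAut {x : ι → Ω} (π : Equiv.Perm ι) (h : SameRelations K x (x ∘ π)) :
    IntermediateField.adjoin K (Set.range x) ≃ₐ[K] IntermediateField.adjoin K (Set.range x) :=
  (adjoinEquiv h).trans (IntermediateField.equivOfEq (by rw [range_comp_perm]))

/-- **`permAut π` sends `x i` to `x (π i)`** -/
theorem coe_permAut_gen {x : ι → Ω} (π : Equiv.Perm ι) (h : SameRelations K x (x ∘ π)) (i : ι) :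
    ((permAut π h ⟨x i, gen_mem_adjoin x i⟩ : IntermediateField.adjoin K (Set.range x)) : Ω)
      = x (π i) := by
  unfold permAut
  rw [AlgEquiv.trans_apply]
  have := coe_adjoinEquiv_gen h i (gen_mem_adjoin x i)
  exact this

/-! ### The analytic criterion -/

/-- If the relations of `x` (resp. `y`) are exactly the polynomial identities satisfied by the
functions `X i` (resp. `Y i`) on a set `T`, and `Y i = X i ∘ γ` with `γ` surjective, then `x` and
`y` have the same relations. -/
theorem sameRelations_of_comp {T : Type*} {R : Type*} [CommRing R] [Algebra K R]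
    {x y : ι → Ω} (X Y : ι → T → R) (γ : T → T) (hγ : Function.Surjective γ)
    (hx : ∀ p : MvPolynomial ι K, MvPolynomial.aeval x p = 0 ↔
      ∀ t : T, MvPolynomial.aeval (fun i => X i t) p = 0)
    (hy : ∀ p : MvPolynomial ι K, MvPolynomial.aeval y p = 0 ↔
      ∀ t : T, MvPolynomial.aeval (fun i => Y i t) p = 0)
    (hXY : ∀ i t, Y i t = X i (γ t)) : SameRelations K x y := by
  intro p
  rw [hx p, hy p]
  constructor
  · intro h t
    have h1 : (fun i => Y i t) = fun i => X i (γ t) := funext fun i => hXY i t
    rw [h1]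
    exact h (γ t)
  · intro h t
    obtain ⟨s, rfl⟩ := hγ t
    have h1 : (fun i => X i (γ s)) = fun i => Y i s := funext fun i => (hXY i s).symm
    rw [h1]
    exact h s

end Fermat.Agent.S48.B.B1.PermPrinciple

end
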