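import Mathlib
import Fermat.Prelude.Def_ModularCurve_LaurentCoeff
import Fermat.Agent.S48.B.B1.PermPrinciple

/-!
# PROJECT D (S48), blocks B1 / B2: base change of generators and of relations (helper7)

Mathlib + the Prelude's `LaurentCoeff` + `PermPrinciple`.

* `laurentBaseChange_adjoin` : `L · ℚ(S) = L(coeffEmb S)` inside `L((q))`;
* `sameRelations_down` : two families of `K((q))` which have the same relations over `L` after the
  coefficientwise base change `K((q)) → L((q))` have the same relations over `K`;
* `sameRelations_up` : conversely (formal linear disjointness, through the `K`-linear functionals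
  of `L`).

Together with `PermPrinciple.permAut` this transports an automorphism permuting generators from
`ℂ` (where it is constructed analytically) to every field of characteristic zero.
-/

set_option autoImplicit false

noncomputable section

namespace Fermat.Agent.S48.B.B1.BaseChangeAdjoin

open ModularCurve IntermediateField
open Fermat.Agent.S48.B.B1.PermPrinciple

section Adjoin

variable (L : Type*) [Field L] [Algebra ℚ L]

theorem coeffEmb_algebraMap (r : ℚ) :
    coeffEmb L (algebraMap ℚ (LaurentSeries ℚ) r) =
      algebraMap L (LaurentSeries L) (algebraMap ℚ L r) := by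
  rw [algebraMap_laurentSeries_eq_single, algebraMap_laurentSeries_eq_single]
  exact coeffMap_single _ _ _

/-- **`L · ℚ(S) = L(coeffEmb S)`** -/
theorem laurentBaseChange_adjoin (S : Set (LaurentSeries ℚ)) :
    laurentBaseChange L (IntermediateField.adjoin ℚ S) =
      IntermediateField.adjoin L (⇑(coeffEmb L) '' S) := by
  have key : ∀ y ∈ IntermediateField.adjoin ℚ S,
      coeffEmb L y ∈ IntermediateField.adjoin L (⇑(coeffEmb L) '' S) := by
    intro y hy
    induction hy using IntermediateField.adjoin_induction with
    | mem z hz => exact IntermediateField.subset_adjoin L _ ⟨z, hz, rfl⟩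
    | algebraMap r =>
        rw [coeffEmb_algebraMap]
        exact IntermediateField.algebraMap_mem _ _
    | add x y _ _ ihx ihy => rw [map_add]; exact add_mem ihx ihy
    | inv x _ ihx => rw [map_inv₀]; exact inv_mem ihx
    | mul x y _ _ ihx ihy => rw [map_mul]; exact mul_mem ihx ihy
  apply le_antisymm
  · refine IntermediateField.adjoin_le_iff.mpr ?_
    rintro _ ⟨y, hy, rfl⟩
    exact key y hy
  · exact IntermediateField.adjoin.mono L _ _
      (Set.image_mono (IntermediateField.subset_adjoin ℚ S))

end Adjoin

/-! ### Transfer of relations -/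

section Relations

variable {K L : Type*} [Field K] [Field L] [Algebra K L] {ι : Type*}

/-- the coefficientwise base change `K((q)) → L((q))` -/
abbrev bcR (K L : Type*) [Field K] [Field L] [Algebra K L] :
    LaurentSeries K →+* LaurentSeries L :=
  coeffMap (algebraMap K L)

theorem bcR_injective : Function.Injective (bcR K L) := by
  intro x y h
  ext n
  have h1 : (bcR K L x).coeff n = (bcR K L y).coeff n := by rw [h]
  exact (algebraMap K L).injective h1

theorem bcR_algebraMap (c : K) :
    bcR K L (algebraMap K (LaurentSeries K) c) =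
      algebraMap L (LaurentSeries L) (algebraMap K L c) := by
  rw [algebraMap_laurentSeries_eq_single, algebraMap_laurentSeries_eq_single]
  exact coeffMap_single _ _ _

theorem aeval_bcR (x : ι → LaurentSeries K) (p : MvPolynomial ι K) :
    MvPolynomial.aeval (fun i => bcR K L (x i)) (MvPolynomial.map (algebraMap K L) p) =
      bcR K L (MvPolynomial.aeval x p) := by
  induction p using MvPolynomial.induction_on with
  | C a =>
      rw [MvPolynomial.map_C, MvPolynomial.aeval_C, MvPolynomial.aeval_C, bcR_algebraMap]
  | add p q hp hq => rw [map_add, map_add, map_add, map_add, hp, hq]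
  | mul_X p i hp =>
      rw [map_mul, map_mul, map_mul, map_mul, MvPolynomial.map_X, MvPolynomial.aeval_X,
        MvPolynomial.aeval_X, hp]

/-- **down**: relations over the big field detect relations over the small one -/
theorem sameRelations_down {x y : ι → LaurentSeries K}
    (h : SameRelations L (fun i => bcR K L (x i)) (fun i => bcR K L (y i))) :
    SameRelations K x y := by
  intro p
  have hx := aeval_bcR (L := L) x p
  have hy := aeval_bcR (L := L) y p
  have h0 := h (MvPolynomial.map (algebraMap K L) p)
  rw [hx, hy] at h0
  constructor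
  · intro hp
    have h1 := h0.mp (by rw [hp, map_zero])
    exact bcR_injective (h1.trans (map_zero _).symm)
  · intro hp
    have h1 := h0.mpr (by rw [hp, map_zero])
    exact bcR_injective (h1.trans (map_zero _).symm)

/-- the monomial `x^m` -/
def mon (x : ι → LaurentSeries K) (m : ι →₀ ℕ) : LaurentSeries K := m.prod fun i k => x i ^ k

theorem coeff_algebraMap_mul' {F : Type*} [Field F] (c : F) (z : LaurentSeries F) (n : ℤ) :
    (algebraMap F (LaurentSeries F) c * z).coeff n = c * z.coeff n := by
  rw [algebraMap_laurentSeries_eq_single]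
  exact HahnSeries.coeff_single_zero_mul

theorem coeff_finset_sum {F : Type*} [Field F] {α : Type*} (s : Finset α)
    (f : α → LaurentSeries F) (n : ℤ) :
    (∑ a ∈ s, f a).coeff n = ∑ a ∈ s, (f a).coeff n :=
  map_sum (HahnSeries.coeff.addMonoidHom n) f s

theorem coeff_aeval_bcR (x : ι → LaurentSeries K) (p : MvPolynomial ι L) (n : ℤ) :
    (MvPolynomial.aeval (fun i => bcR K L (x i)) p).coeff n =
      ∑ m ∈ p.support, MvPolynomial.coeff m p * algebraMap K L ((mon x m).coeff n) := by
  rw [MvPolynomial.aeval_def, MvPolynomial.eval₂_eq, coeff_finset_sum]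
  refine Finset.sum_congr rfl fun m _ => ?_
  rw [coeff_algebraMap_mul']
  congr 1
  have h1 : ∏ i ∈ m.support, bcR K L (x i) ^ m i = bcR K L (mon x m) := by
    unfold mon Finsupp.prod
    rw [map_prod]
    exact Finset.prod_congr rfl fun i _ => (map_pow _ _ _).symm
  rw [h1]
  rfl

/-- the polynomial with the coefficients `φ (c_m)` -/
def polyφ (φ : L →ₗ[K] K) (p : MvPolynomial ι L) : MvPolynomial ι K :=
  ∑ m ∈ p.support, MvPolynomial.monomial m (φ (MvPolynomial.coeff m p))

theorem coeff_aeval_polyφ (x : ι → LaurentSeries K) (φ : L →ₗ[K] K) (p : MvPolynomial ι L)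
    (n : ℤ) :
    (MvPolynomial.aeval x (polyφ φ p)).coeff n =
      ∑ m ∈ p.support, φ (MvPolynomial.coeff m p) * (mon x m).coeff n := by
  unfold polyφ
  rw [map_sum, coeff_finset_sum]
  refine Finset.sum_congr rfl fun m _ => ?_
  rw [MvPolynomial.aeval_monomial, coeff_algebraMap_mul']
  rfl

theorem apply_coeff_aeval_bcR (x : ι → LaurentSeries K) (φ : L →ₗ[K] K) (p : MvPolynomial ι L)
    (n : ℤ) :
    φ ((MvPolynomial.aeval (fun i => bcR K L (x i)) p).coeff n) =
      (MvPolynomial.aeval x (polyφ φ p)).coeff n := by
  rw [coeff_aeval_bcR, coeff_aeval_polyφ, map_sum]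
  refine Finset.sum_congr rfl fun m _ => ?_
  have h1 : MvPolynomial.coeff m p * algebraMap K L ((mon x m).coeff n) =
      ((mon x m).coeff n) • MvPolynomial.coeff m p := by
    rw [Algebra.smul_def, mul_comm]
  rw [h1, map_smul, smul_eq_mul, mul_comm]

theorem aeval_bcR_eq_zero_iff (x : ι → LaurentSeries K) (p : MvPolynomial ι L) :
    MvPolynomial.aeval (fun i => bcR K L (x i)) p = 0 ↔
      ∀ φ : L →ₗ[K] K, MvPolynomial.aeval x (polyφ φ p) = 0 := by
  constructor
  · intro h φ
    ext n
    rw [← apply_coeff_aeval_bcR, h]
    exact map_zero φ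
  · intro h
    ext n
    have h1 : ∀ φ : Module.Dual K L,
        φ ((MvPolynomial.aeval (fun i => bcR K L (x i)) p).coeff n) = 0 := by
      intro φ
      rw [apply_coeff_aeval_bcR, h φ]
      rfl
    exact (Module.forall_dual_apply_eq_zero_iff K _).mp h1

/-- **up**: formal linear disjointness -/
theorem sameRelations_up {x y : ι → LaurentSeries K} (h : SameRelations K x y) :
    SameRelations L (fun i => bcR K L (x i)) (fun i => bcR K L (y i)) := by
  intro p
  rw [aeval_bcR_eq_zero_iff, aeval_bcR_eq_zero_iff]
  exact forall_congr' fun φ => h (polyφ φ p)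

end Relations

end Fermat.Agent.S48.B.B1.BaseChangeAdjoin

end
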