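import Mathlib
import Fermat.Agent.S48.B.Defs.Model
import Fermat.Agent.S20.IsMF
import Fermat.Agent.S23.QRing
import Fermat.Agent.S24.FF
import Fermat.Agent.S24.DegreeAlg

/-!
# PROJECT D (S48), part B, block B1 = S24' : the characteristic-zero function field of `X₁(M)`.
# The typed seams (helper7, leader B1; RULING D-2 of helper8)

Everything here is a `def ... : Prop` (plus the handful of names needed to state them); the bricks
of B1 prove them or implications between them.  Model = `Defs/Model.lean` (helper8): `F1 M ⊆ ℚ((q))`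
generated by the `j(q^d)`, `d ∣ M`, and the Fricke functions `h_a`, `a ≠ 0`.

```
 (W)  WpForms M                      : the weight-2 forms `℘_a` on `Γ₁(M)` with `q`-expansion `12 tateX M a + 1`
 (W) ⟹ FrickeRep M                  : `h_a` is a quotient of forms of weight 12 on `Γ₁(M)`        [Rep-a]
 FrickeRep ⟹ RepLe M                : `ℂ·F1 M ⊆ repSet1 M`                                        [Rep-b]
 (W) + slash ⟹ DiamondExists M      : the diamond automorphisms exist (over every `L`)            [Dia]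
 relations ⟹ DegLe M ; DiamondExists + main's `Degree` (level `Γ₀(M)`) ⟹ Deg1 M                  [Deg]
 Deg1 + RepLe ⟹ RepEq M             : `ℂ·F1 M = repSet1 M`                                        [Rep-c]
 Deg1 + expansions ⟹ Places1 M      : places over `j = a` are the orbits on `SL₂(ℤ) ⧸ ±Γ₁(M)`    [Pl]
 Places1 + counting + main's Hurwitz ⟹ Genus1 M                                                   [Gen]
```
-/

set_option autoImplicit false

noncomputable section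

namespace Fermat.Agent.S48.B.B1.Seams

open ModularCurve AlgebraicCurve IntermediateField CongruenceSubgroup ModularGroup MulAction
  UpperHalfPlane
open Fermat.Agent.S20 Fermat.Agent.S23.QRing Fermat.Agent.S48.B.Defs.Model
open scoped MatrixGroups ModularForm

local notation "Kb" => AlgebraicClosure ℚ

/-! ### Groups -/

/-- `Γ₁(M)` inside `GL₂(ℝ)` (the level of the forms; twin of `S20.G0`) -/
abbrev G1 (M : ℕ) : Subgroup (GL (Fin 2) ℝ) := (Gamma1 M : Subgroup (GL (Fin 2) ℝ))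

/-- `±Γ₁(M)`: the stabiliser of the weight-zero functions; the places of `X₁(M)` over a point of
the `j`-line are orbits on `SL(2,ℤ) ⧸ PG1 M` -/
def PG1 (M : ℕ) : Subgroup SL(2, ℤ) := Gamma1 M ⊔ Subgroup.zpowers (-1 : SL(2, ℤ))

/-- the index set of the places over a generic point -/
abbrev Q1 (M : ℕ) : Type := SL(2, ℤ) ⧸ PG1 M

/-! ### Representatives (twin of `S24.RepHom.IsRepOf`) -/

/-- Power series as Laurent series. -/
abbrev ofPS : PowerSeries ℂ →+* LaurentSeries ℂ := HahnSeries.ofPowerSeries ℤ ℂ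

/-- the pair `(a, b)` of forms of weight `k` on `Γ₁(M)` represents the Laurent series `g` -/
structure IsRepOf1 (M : ℕ) (g : LaurentSeries ℂ) (k : ℤ) (a b : ℍ → ℂ) : Prop where
  ha : IsMF (G1 M) k a
  hb : IsMF (G1 M) k b
  hb0 : b ≠ 0
  eq : ofPS (qx a) = g * ofPS (qx b)

/-- `g` is the `q`-expansion of a quotient of two forms of the same weight on `Γ₁(M)` -/
def IsRepC1 (M : ℕ) (g : LaurentSeries ℂ) : Prop := ∃ (k : ℤ) (a b : ℍ → ℂ), IsRepOf1 M g k a b

/-- the `q`-expansions of the modular functions on `Γ₁(M)` (a subfield: brick `RepHom1`) -/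
def repSet1 (M : ℕ) : Set (LaurentSeries ℂ) := {g | IsRepC1 M g}

/-! ### (W) the Weierstrass forms -/

/-- the `q`-expansion `12 X(q^a, q^M) + 1` of `℘_a = 12 (2πi)⁻² ℘(aτ; ℤ + Mτℤ)` -/
def wpSeries (M : ℕ) (a : ZMod M) : PowerSeries ℂ := (12 * tateX M a + 1).map (Int.castRingHom ℂ)

/-- **(W)** the division values of `℘`: a family `P a`, `a ≠ 0`, of modular forms of weight `2` on
`Γ₁(M)` with the `q`-expansions `wpSeries M a`, permuted by `Γ₀(M)`:
`P a ∣[2] σ = P (σ₀₀ a)` (row vector convention: `℘_v(γτ) = j(γ,τ)² ℘_{vγ}(τ)`, `v = (a, 0)`). -/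
def WpForms (M : ℕ) : Prop :=
  ∃ P : ZMod M → ℍ → ℂ,
    (∀ a : ZMod M, a ≠ 0 → IsMF (G1 M) 2 (P a) ∧ qx (P a) = wpSeries M a) ∧
    ∀ a : ZMod M, a ≠ 0 → ∀ σ : SL(2, ℤ), σ ∈ Gamma0 M →
      (P a) ∣[(2 : ℤ)] σ = P (((σ 0 0 : ℤ) : ZMod M) * a)

/-! ### [B-rep] -/

variable (M : ℕ) [NeZero M]

/-- **[Rep-a]** every Fricke function is a quotient of forms of weight `12` on `Γ₁(M)` -/
def FrickeRep : Prop :=
  ∀ a : ZMod M, a ≠ 0 → ∃ A B : ℍ → ℂ, IsRepOf1 M (frickeH ℂ M a) 12 A B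

/-- **[Rep-b]** -/
def RepLe : Prop := (laurentBaseChange ℂ (F1 M) : Set (LaurentSeries ℂ)) ⊆ repSet1 M

/-- **[B-rep] = [Rep-c]** the elements of `ℂ·F1 M` are exactly the `q`-expansions of the quotients
of forms of equal weight on `Γ₁(M)` -/
def RepEq : Prop := (laurentBaseChange ℂ (F1 M) : Set (LaurentSeries ℂ)) = repSet1 M

/-! ### [B-deg] -/

/-- `j` as an element of `ℚ̄(X₁(M))` -/
def jgen1 : F1Bar M :=
  IntermediateField.inclusion (laurentBaseChange_mono Kb (full_le_F1 M))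
    (Fermat.Agent.S24.DegreeAlg.jgen M)

/-- `ℚ̄(X₀(M))` inside `ℚ̄(X₁(M))` -/
def F0in1 : IntermediateField Kb (F1Bar M) :=
  (IntermediateField.inclusion (laurentBaseChange_mono Kb (full_le_F1 M))).fieldRange

/-- **[Dia]** the diamond automorphisms exist, over every field of characteristic zero -/
def DiamondExists : Prop :=
  ∀ (L : Type) [Field L] [Algebra ℚ L] (d : (ZMod M)ˣ), ∃ δ, IsDiamondAut M L d δ

/-- upper bound for the degree, from the analytic relations -/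
def DegLe : Prop :=
  FiniteDimensional Kb⟮jgen1 M⟯ (F1Bar M) ∧
    Module.finrank Kb⟮jgen1 M⟯ (F1Bar M) ≤ Nat.card (Q1 M)

/-- **[B-deg]** `j` is a separating variable and `[ℚ̄(X₁(M)) : ℚ̄(j)] = [SL₂(ℤ) : ±Γ₁(M)]` -/
def Deg1 : Prop :=
  Fermat.Agent.S24.FF.IsFF Kb (jgen1 M) ∧
    Module.finrank Kb⟮jgen1 M⟯ (F1Bar M) = Nat.card (Q1 M)

/-- **[B-deg], Galois part** `ℚ̄(X₁(M)) / ℚ̄(X₀(M))` is Galois of degree `φ(M)/2` (`M ≥ 3`) and its
group consists of the diamond automorphisms -/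
def Gal1 : Prop :=
  3 ≤ M → IsGalois (F0in1 M) (F1Bar M) ∧ 2 * Module.finrank (F0in1 M) (F1Bar M) = M.totient ∧
    ∀ g : F1Bar M ≃ₐ[Kb] F1Bar M, (∀ x ∈ F0in1 M, g x = x) →
      ∃ d : (ZMod M)ˣ, IsDiamondAut M Kb d g

/-! ### [B-places] -/

/-- **[B-places]** the places of `ℚ̄(X₁(M))` over the points of the `j`-line are the orbits of
`1`, `S`, `S T`, `T` on `SL(2,ℤ) ⧸ ±Γ₁(M)` -/
def Places1 : Prop :=
  (∀ a : Kb, a ≠ 1728 → a ≠ 0 →
      Nat.card {v : Place Kb (F1Bar M) //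
        jgen1 M - algebraMap Kb _ a ∈ v.toValuationSubring.nonunits} = Nat.card (Q1 M)) ∧
    Nat.card {v : Place Kb (F1Bar M) //
        jgen1 M - algebraMap Kb _ 1728 ∈ v.toValuationSubring.nonunits}
      = Nat.card (orbitRel.Quotient (Subgroup.zpowers (S : SL(2, ℤ))) (Q1 M)) ∧
    Nat.card {v : Place Kb (F1Bar M) //
        jgen1 M - algebraMap Kb _ 0 ∈ v.toValuationSubring.nonunits}
      = Nat.card (orbitRel.Quotient (Subgroup.zpowers (S * T : SL(2, ℤ))) (Q1 M)) ∧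
    Nat.card {v : Place Kb (F1Bar M) // jgen1 M ∉ v.toValuationSubring}
      = Nat.card (orbitRel.Quotient (Subgroup.zpowers (T : SL(2, ℤ))) (Q1 M))

/-! ### Counting and [B-genus] -/

/-- `d₁(M) = [SL₂(ℤ) : ±Γ₁(M)] = φ(M) ψ(M) / 2` (`M ≥ 3`) -/
def d1 (M : ℕ) : ℕ := M.totient * dedekindPsi M / 2

/-- the number of cusps of `X₁(M)`, `M ≥ 5` : `(1/2) ∑_{d ∣ M} φ(d) φ(M/d)` -/
def cusps1 (M : ℕ) : ℕ := (∑ d ∈ M.divisors, d.totient * (M / d).totient) / 2

/-- the genus of `X₁(M)`, `M ≥ 5` -/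
def g1 (M : ℕ) : ℚ := 1 + (d1 M : ℚ) / 12 - (cusps1 M : ℚ) / 2

/-- **[Cnt]** the orbit counts on `SL(2,ℤ) ⧸ ±Γ₁(M)` for `M ≥ 5` : index, free action of `S` and
`S T`, number of `T`-orbits -/
def Counts1 : Prop :=
  5 ≤ M →
    Nat.card (Q1 M) = d1 M ∧ 2 ∣ M.totient * dedekindPsi M ∧
    2 * Nat.card (orbitRel.Quotient (Subgroup.zpowers (S : SL(2, ℤ))) (Q1 M)) = d1 M ∧
    3 * Nat.card (orbitRel.Quotient (Subgroup.zpowers (S * T : SL(2, ℤ))) (Q1 M)) = d1 M ∧
    Nat.card (orbitRel.Quotient (Subgroup.zpowers (T : SL(2, ℤ))) (Q1 M)) = cusps1 M ∧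
    2 ∣ ∑ d ∈ M.divisors, d.totient * (M / d).totient

/-- **[B-genus]** -/
def Genus1 : Prop :=
  ∀ [HasCanonicalDivisor (K := Kb) (F := F1Bar M)], 5 ≤ M →
    (genus Kb (F1Bar M) : ℚ) = g1 M

end Fermat.Agent.S48.B.B1.Seams

end
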