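import Mathlib
import Fermat.Agent.S48.B.B1.Seams
import Fermat.Agent.S24.RepHom

/-!
# PROJECT D (S48), block B1, brick R (helper7): twin of `S24/RepHom.lean` for `Γ₁(M)`

The represented series (`Seams.IsRepC1`) form a subfield `repField1 M` of `ℂ((q))`.  For every
expansion functional `T : HolHom P Ω` (main's `S24.RepHom.HolHom`, level-free, reused as is) and
every `γ ∈ SL(2, ℤ)` we construct `Lmap1 T γ : repField1 M →+* Ω`, `g ↦ T (a ∣ γ) / T (b ∣ γ)`.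
New with respect to the `Γ₀` original: `Lmap1 T γ` only depends on the coset `±Γ₁(M) γ`
(`Lmap1_mul_left` for `δ ∈ Γ₁(M)`, `Lmap1_neg` for `-1`, `Lmap1_mul_left_PG1` for `δ ∈ PG1 M`).
-/

set_option autoImplicit false
set_option linter.unusedSectionVars false

noncomputable section

namespace Fermat.Agent.S48.B.B1.RepHom1

open UpperHalfPlane CongruenceSubgroup Fermat.Agent.S20 Fermat.Agent.S23.QRing
open Fermat.Agent.S48.B.B1.Seams
open Fermat.Agent.S24.RepHom (HolHom mdiff_of_isMF mdiff_slash slash_ne_zero Lval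
  slash_eq_of_isMF_levelOne ofPS_injective)

open scoped ModularForm Manifold MatrixGroups

variable {M : ℕ} [NeZero M]

/-- A form for `Γ₁(M)` has a `q`-expansion in the sense of `QRing`. -/
theorem isQ_of_modularForm1 {k : ℤ} (f : ModularForm (G1 M) k) : IsQ f where
  periodic := SlashInvariantFormClass.periodic_comp_ofComplex f (by
    rw [CongruenceSubgroup.strictPeriods_Gamma1]
    exact AddSubgroup.mem_zmultiples 1)
  holo := ModularFormClass.holo f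
  bdd := ModularFormClass.bdd_at_infty f

theorem isQ_of_isMF1 {k : ℤ} {a : ℍ → ℂ} (h : IsMF (G1 M) k a) : IsQ a := by
  obtain ⟨F, rfl⟩ := h
  exact isQ_of_modularForm1 F

namespace IsRepOf1x

variable {g g' : LaurentSeries ℂ} {k k' : ℤ} {a b a' b' : ℍ → ℂ}

theorem qx_b_ne_zero (h : IsRepOf1 M g k a b) : ofPS (qx b) ≠ 0 := by
  intro h0
  have : qx b = 0 := ofPS_injective (by rw [h0, map_zero])
  exact h.hb0 ((qx_eq_zero_iff (isQ_of_isMF1 h.hb)).mp this)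

theorem zero : IsRepOf1 M 0 0 (0 : ℍ → ℂ) (1 : ℍ → ℂ) where
  ha := IsMF.zero
  hb := IsMF.const 1
  hb0 := one_ne_zero
  eq := by rw [qx_zero, map_zero, zero_mul]

theorem one : IsRepOf1 M 1 0 (1 : ℍ → ℂ) (1 : ℍ → ℂ) where
  ha := IsMF.const 1
  hb := IsMF.const 1
  hb0 := one_ne_zero
  eq := by rw [one_mul]

theorem const (c : ℂ) : IsRepOf1 M (HahnSeries.C c) 0 (fun _ => c) (1 : ℍ → ℂ) where
  ha := IsMF.const c
  hb := IsMF.const 1
  hb0 := one_ne_zero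
  eq := by rw [qx_const, qx_one, map_one, mul_one, HahnSeries.ofPowerSeries_C]

theorem mul_ne_zero' (h : IsRepOf1 M g k a b) (h' : IsRepOf1 M g' k' a' b') : b * b' ≠ 0 := by
  intro h0
  have h1 : qx (b * b') = 0 := by rw [h0, qx_zero]
  rw [qx_mul (isQ_of_isMF1 h.hb) (isQ_of_isMF1 h'.hb)] at h1
  rcases mul_eq_zero.mp h1 with h2 | h2
  · exact h.hb0 ((qx_eq_zero_iff (isQ_of_isMF1 h.hb)).mp h2)
  · exact h'.hb0 ((qx_eq_zero_iff (isQ_of_isMF1 h'.hb)).mp h2)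

theorem mul (h : IsRepOf1 M g k a b) (h' : IsRepOf1 M g' k' a' b') :
    IsRepOf1 M (g * g') (k + k') (a * a') (b * b') where
  ha := h.ha.mul h'.ha
  hb := h.hb.mul h'.hb
  hb0 := (IsRepOf1x.mul_ne_zero' h) h'
  eq := by
    rw [qx_mul (isQ_of_isMF1 h.ha) (isQ_of_isMF1 h'.ha), qx_mul (isQ_of_isMF1 h.hb) (isQ_of_isMF1 h'.hb),
      map_mul, map_mul, h.eq, h'.eq]
    ring

theorem add (h : IsRepOf1 M g k a b) (h' : IsRepOf1 M g' k' a' b') :
    IsRepOf1 M (g + g') (k + k') (a * b' + a' * b) (b * b') where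
  ha := (h.ha.mul h'.hb).add ((h'.ha.mul h.hb).cast (add_comm k' k))
  hb := h.hb.mul h'.hb
  hb0 := (IsRepOf1x.mul_ne_zero' h) h'
  eq := by
    have hab' := (isQ_of_isMF1 h.ha).mul (isQ_of_isMF1 h'.hb)
    have ha'b := (isQ_of_isMF1 h'.ha).mul (isQ_of_isMF1 h.hb)
    rw [qx_add hab' ha'b, qx_mul (isQ_of_isMF1 h.ha) (isQ_of_isMF1 h'.hb),
      qx_mul (isQ_of_isMF1 h'.ha) (isQ_of_isMF1 h.hb), qx_mul (isQ_of_isMF1 h.hb) (isQ_of_isMF1 h'.hb),
      map_add, map_mul, map_mul, map_mul, h.eq, h'.eq]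
    ring

theorem neg (h : IsRepOf1 M g k a b) : IsRepOf1 M (-g) k (-a) b where
  ha := h.ha.neg
  hb := h.hb
  hb0 := h.hb0
  eq := by
    rw [qx_neg (isQ_of_isMF1 h.ha), map_neg, h.eq]
    exact (neg_mul g (ofPS (qx b))).symm

theorem inv (h : IsRepOf1 M g k a b) (hg : g ≠ 0) : IsRepOf1 M g⁻¹ k b a where
  ha := h.hb
  hb := h.ha
  hb0 := by
    intro h0
    have h1 := h.eq
    rw [h0, qx_zero, map_zero] at h1
    rcases mul_eq_zero.mp h1.symm with h2 | h2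
    · exact hg h2
    · exact (IsRepOf1x.qx_b_ne_zero h) h2
  eq := by rw [h.eq, ← mul_assoc, inv_mul_cancel₀ hg, one_mul]

/-- Two representatives of the same series are proportional. -/
theorem cross (h : IsRepOf1 M g k a b) (h' : IsRepOf1 M g k' a' b') : a * b' = a' * b := by
  have hab' := (isQ_of_isMF1 h.ha).mul (isQ_of_isMF1 h'.hb)
  have ha'b := (isQ_of_isMF1 h'.ha).mul (isQ_of_isMF1 h.hb)
  refine qx_injective hab' ha'b (ofPS_injective ?_)
  rw [qx_mul (isQ_of_isMF1 h.ha) (isQ_of_isMF1 h'.hb), qx_mul (isQ_of_isMF1 h'.ha) (isQ_of_isMF1 h.hb),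
    map_mul, map_mul, h.eq, h'.eq]
  ring

end IsRepOf1x

/-- The field of `q`-expansions of modular functions for `Γ₁(M)` (quotients of forms of equal
weight), as a subfield of `ℂ((q))`. -/
def repField1 (M : ℕ) [NeZero M] : Subfield (LaurentSeries ℂ) where
  carrier := {g | IsRepC1 M g}
  mul_mem' := by
    rintro g g' ⟨k, a, b, h⟩ ⟨k', a', b', h'⟩
    exact ⟨_, _, _, (IsRepOf1x.mul h) h'⟩
  one_mem' := ⟨_, _, _, IsRepOf1x.one⟩
  add_mem' := by
    rintro g g' ⟨k, a, b, h⟩ ⟨k', a', b', h'⟩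
    exact ⟨_, _, _, (IsRepOf1x.add h) h'⟩
  zero_mem' := ⟨_, _, _, IsRepOf1x.zero⟩
  neg_mem' := by
    rintro g ⟨k, a, b, h⟩
    exact ⟨_, _, _, (IsRepOf1x.neg h)⟩
  inv_mem' := by
    rintro g ⟨k, a, b, h⟩
    by_cases hg : g = 0
    · subst hg
      rw [inv_zero]
      exact ⟨_, _, _, IsRepOf1x.zero⟩
    · exact ⟨_, _, _, (IsRepOf1x.inv h) hg⟩

theorem mem_repField1 {g : LaurentSeries ℂ} : g ∈ repField1 M ↔ IsRepC1 M g := Iff.rfl


/-- The class `P` contains all translates by `γ` of forms for `Γ₁(M)`. -/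
def SlashP1 (M : ℕ) (P : (ℍ → ℂ) → Prop) (γ : SL(2, ℤ)) : Prop :=
  ∀ (k : ℤ) (a : ℍ → ℂ), IsMF (G1 M) k a → P (a ∣[k] γ)

/-- Holomorphy is preserved by all translates. -/
theorem slashP1_mdiff (M : ℕ) (γ : SL(2, ℤ)) : SlashP1 M (fun f => MDiff f) γ :=
  fun _ _ h => mdiff_slash γ (mdiff_of_isMF h)

/-! ### The homomorphisms `Lmap` -/

section Lmap

variable {P : (ℍ → ℂ) → Prop} {Ω : Type*} [Field Ω] [Algebra ℂ Ω] (T : HolHom P Ω)
  (γ : SL(2, ℤ))

variable {T γ}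

theorem den_ne_zero1 (hP : SlashP1 M P γ) {g : LaurentSeries ℂ} {k : ℤ} {a b : ℍ → ℂ}
    (h : IsRepOf1 M g k a b) : T.T (b ∣[k] γ) ≠ 0 :=
  T.ne_zero (hP k b h.hb) (slash_ne_zero γ h.hb0)

/-- `Lval` does not depend on the representative. -/
theorem Lval1_eq (hP : SlashP1 M P γ) {g : LaurentSeries ℂ} {k k' : ℤ} {a b a' b' : ℍ → ℂ}
    (h : IsRepOf1 M g k a b) (h' : IsRepOf1 M g k' a' b') :
    Lval T γ k a b = Lval T γ k' a' b' := by
  unfold Lval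
  rw [div_eq_div_iff (den_ne_zero1 hP h) (den_ne_zero1 hP h')]
  have hc := (IsRepOf1x.cross h) h'
  have h1 : (a * b') ∣[k + k'] γ = (a ∣[k] γ) * (b' ∣[k'] γ) := ModularForm.mul_slash_SL2 k k' γ a b'
  have h2 : (a' * b) ∣[k' + k] γ = (a' ∣[k'] γ) * (b ∣[k] γ) := ModularForm.mul_slash_SL2 k' k γ a' b
  rw [add_comm k' k, ← hc, h1] at h2
  have h3 := congrArg T.T h2
  rw [T.map_mul _ _ (hP k a h.ha) (hP k' b' h'.hb),
    T.map_mul _ _ (hP k' a' h'.ha) (hP k b h.hb)] at h3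
  exact h3

variable (T γ)

/-- The underlying function of `Lmap`. -/
def Lfun1 (g : repField1 M) : Ω :=
  Lval T γ (Classical.choose g.2) (Classical.choose (Classical.choose_spec g.2))
    (Classical.choose (Classical.choose_spec (Classical.choose_spec g.2)))

variable {T γ}

theorem Lfun1_eq (hP : SlashP1 M P γ) (g : repField1 M) {k : ℤ} {a b : ℍ → ℂ}
    (h : IsRepOf1 M (g : LaurentSeries ℂ) k a b) :
    Lfun1 T γ g = Lval T γ k a b :=
  Lval1_eq hP (Classical.choose_spec (Classical.choose_spec (Classical.choose_spec g.2))) h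

variable (T γ)

/-- **The homomorphism attached to an expansion functional and a coset representative.** -/
def Lmap1 (hP : SlashP1 M P γ) : repField1 M →+* Ω where
  toFun := Lfun1 T γ
  map_one' := by
    rw [Lfun1_eq hP (1 : repField1 M) (IsRepOf1x.one (M := M))]
    unfold Lval
    exact div_self (den_ne_zero1 hP (IsRepOf1x.one (M := M)))
  map_mul' := by
    rintro ⟨g, k, a, b, h⟩ ⟨g', k', a', b', h'⟩
    have e1 : Lfun1 T γ ⟨g, k, a, b, h⟩ = Lval T γ k a b := Lfun1_eq hP _ h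
    have e2 : Lfun1 T γ ⟨g', k', a', b', h'⟩ = Lval T γ k' a' b' := Lfun1_eq hP _ h'
    have e3 : Lfun1 T γ ((⟨g, k, a, b, h⟩ : repField1 M) * (⟨g', k', a', b', h'⟩ : repField1 M))
        = Lval T γ (k + k') (a * a') (b * b') := Lfun1_eq hP _ ((IsRepOf1x.mul h) h')
    rw [e1, e2, e3]
    unfold Lval
    rw [ModularForm.mul_slash_SL2, ModularForm.mul_slash_SL2,
      T.map_mul _ _ (hP k a h.ha) (hP k' a' h'.ha),
      T.map_mul _ _ (hP k b h.hb) (hP k' b' h'.hb),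
      mul_div_mul_comm]
  map_zero' := by
    rw [Lfun1_eq hP (0 : repField1 M) (IsRepOf1x.zero (M := M))]
    unfold Lval
    rw [SlashAction.zero_slash, T.map_zero, zero_div]
  map_add' := by
    rintro ⟨g, k, a, b, h⟩ ⟨g', k', a', b', h'⟩
    have e1 : Lfun1 T γ ⟨g, k, a, b, h⟩ = Lval T γ k a b := Lfun1_eq hP _ h
    have e2 : Lfun1 T γ ⟨g', k', a', b', h'⟩ = Lval T γ k' a' b' := Lfun1_eq hP _ h'
    have e3 : Lfun1 T γ ((⟨g, k, a, b, h⟩ : repField1 M) + (⟨g', k', a', b', h'⟩ : repField1 M))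
        = Lval T γ (k + k') (a * b' + a' * b) (b * b') := Lfun1_eq hP _ ((IsRepOf1x.add h) h')
    rw [e1, e2, e3]
    unfold Lval
    have hb := den_ne_zero1 (T := T) hP h
    have hb' := den_ne_zero1 (T := T) hP h'
    have h2 : (a' * b) ∣[k + k'] γ = (a' ∣[k'] γ) * (b ∣[k] γ) := by
      rw [add_comm k k']
      exact ModularForm.mul_slash_SL2 k' k γ a' b
    rw [SlashAction.add_slash, ModularForm.mul_slash_SL2, h2, ModularForm.mul_slash_SL2,
      T.map_add _ _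
        (T.P_mul _ _ (hP k a h.ha) (hP k' b' h'.hb))
        (T.P_mul _ _ (hP k' a' h'.ha) (hP k b h.hb)),
      T.map_mul _ _ (hP k a h.ha) (hP k' b' h'.hb),
      T.map_mul _ _ (hP k' a' h'.ha) (hP k b h.hb),
      T.map_mul _ _ (hP k b h.hb) (hP k' b' h'.hb)]
    field_simp

variable {T γ}

/-- **Characterisation of `Lmap`.** -/
theorem Lmap1_spec (hP : SlashP1 M P γ) (g : repField1 M) {k : ℤ} {a b : ℍ → ℂ}
    (h : IsRepOf1 M (g : LaurentSeries ℂ) k a b) :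
    Lmap1 T γ hP g * T.T (b ∣[k] γ) = T.T (a ∣[k] γ) := by
  show Lfun1 T γ g * _ = _
  rw [Lfun1_eq hP g h]
  unfold Lval
  exact div_mul_cancel₀ _ (den_ne_zero1 hP h)

theorem Lmap1_eq_div (hP : SlashP1 M P γ) (g : repField1 M) {k : ℤ} {a b : ℍ → ℂ}
    (h : IsRepOf1 M (g : LaurentSeries ℂ) k a b) :
    Lmap1 T γ hP g = T.T (a ∣[k] γ) / T.T (b ∣[k] γ) :=
  Lfun1_eq hP g h

theorem const_mem_repField1 (c : ℂ) : HahnSeries.C c ∈ repField1 M :=
  ⟨_, _, _, IsRepOf1x.const c⟩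

/-- On constants, `Lmap` is the structure map. -/
theorem Lmap1_const (hP : SlashP1 M P γ) (c : ℂ) (hc : HahnSeries.C c ∈ repField1 M) :
    Lmap1 T γ hP ⟨HahnSeries.C c, hc⟩ = algebraMap ℂ Ω c := by
  rw [Lmap1_eq_div (T := T) hP ⟨HahnSeries.C c, hc⟩ (IsRepOf1x.const (M := M) c)]
  have h1 : (fun _ : ℍ => c) ∣[(0 : ℤ)] γ = fun _ => c := ModularForm.is_invariant_const γ c
  have h2 : (1 : ℍ → ℂ) ∣[(0 : ℤ)] γ = 1 := ModularForm.is_invariant_const γ 1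
  rw [h1, h2, T.map_const, T.map_one, div_one]

/-- On quotients of level one forms, `Lmap1 T γ` does not depend on `γ`. -/
theorem Lmap1_levelOne (hP : SlashP1 M P γ) (g : repField1 M) {k : ℤ} {a b : ℍ → ℂ}
    (h : IsRepOf1 M (g : LaurentSeries ℂ) k a b) (ha : IsMF 𝒮ℒ k a) (hb : IsMF 𝒮ℒ k b) :
    Lmap1 T γ hP g = T.T a / T.T b := by
  rw [Lmap1_eq_div hP g h, slash_eq_of_isMF_levelOne ha, slash_eq_of_isMF_levelOne hb]

/-- Translates by `δ * γ`, `δ ∈ Γ₀(N)`, are translates by `γ`. -/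
theorem slash_mul_left_of_mem1 {δ : SL(2, ℤ)} (hδ : δ ∈ Gamma1 M) {k : ℤ} {c : ℍ → ℂ}
    (hc : IsMF (G1 M) k c) : c ∣[k] (δ * γ) = c ∣[k] γ := by
  obtain ⟨F, rfl⟩ := hc
  rw [SlashAction.slash_mul]
  congr 1
  rw [ModularForm.SL_slash]
  exact SlashInvariantFormClass.slash_action_eq F _ ⟨δ, hδ, rfl⟩

theorem slashP1_mul_left {δ : SL(2, ℤ)} (hδ : δ ∈ Gamma1 M) (hP : SlashP1 M P γ) :
    SlashP1 M P (δ * γ) := fun k a h => by
  rw [slash_mul_left_of_mem1 hδ h]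
  exact hP k a h

/-- `Lmap1 T γ` only depends on the coset `Γ₀(N) γ`. -/
theorem Lmap1_mul_left {δ : SL(2, ℤ)} (hδ : δ ∈ Gamma1 M) (hP : SlashP1 M P γ) :
    Lmap1 (M := M) T (δ * γ) (slashP1_mul_left hδ hP) = Lmap1 T γ hP := by
  ext ⟨g, k, a, b, h⟩
  rw [Lmap1_eq_div _ _ h, Lmap1_eq_div _ _ h, slash_mul_left_of_mem1 hδ h.ha,
    slash_mul_left_of_mem1 hδ h.hb]

/-! ### The element `-1` (new with respect to the `Γ₀` original) -/

theorem denom_neg_one_SL' (z : ℂ) : denom ((-1 : SL(2, ℤ)) : GL (Fin 2) ℝ) z = -1 := by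
  simp [denom]

theorem slash_neg_one_SL' (f : ℍ → ℂ) (k : ℤ) :
    f ∣[k] (-1 : SL(2, ℤ)) = ((-1 : ℂ) ^ (-k)) • f := by
  funext z
  rw [ModularForm.SL_slash_apply, denom_neg_one_SL', ModularGroup.SL_neg_smul, one_smul,
    Pi.smul_apply, smul_eq_mul, mul_comm]

theorem slash_neg_mul (k : ℤ) (c : ℍ → ℂ) : c ∣[k] (-γ) = ((-1 : ℂ) ^ (-k)) • (c ∣[k] γ) := by
  have h : -γ = (-1 : SL(2, ℤ)) * γ := by rw [neg_one_mul]
  rw [h, SlashAction.slash_mul, slash_neg_one_SL', ModularForm.SL_smul_slash]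

theorem slashP1_neg (hP : SlashP1 M P γ) (hsm : ∀ (c : ℂ) (f : ℍ → ℂ), P f → P (c • f)) :
    SlashP1 M P (-γ) := fun k a h => by
  rw [slash_neg_mul]
  exact hsm _ _ (hP k a h)

/-- `Lmap1 T (-γ) = Lmap1 T γ`: the two representatives change by the same sign. -/
theorem Lmap1_neg (hP : SlashP1 M P γ) (hP' : SlashP1 M P (-γ)) (hc : ∀ c : ℂ, P (fun _ => c)) :
    Lmap1 (M := M) T (-γ) hP' = Lmap1 T γ hP := by
  ext ⟨g, k, a, b, h⟩
  rw [Lmap1_eq_div _ _ h, Lmap1_eq_div _ _ h, slash_neg_mul, slash_neg_mul]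
  have hsm : ∀ f : ℍ → ℂ, P f →
      T.T (((-1 : ℂ) ^ (-k)) • f) = algebraMap ℂ Ω ((-1 : ℂ) ^ (-k)) * T.T f := by
    intro f hf
    have h1 : ((-1 : ℂ) ^ (-k)) • f = (fun _ => ((-1 : ℂ) ^ (-k))) * f := rfl
    rw [h1, T.map_mul _ _ (hc _) hf, T.map_const]
  rw [hsm _ (hP k a h.ha), hsm _ (hP k b h.hb)]
  have hne : algebraMap ℂ Ω ((-1 : ℂ) ^ (-k)) ≠ 0 := by
    rw [Ne, map_eq_zero]
    exact zpow_ne_zero _ (by norm_num)
  rw [mul_div_mul_left _ _ hne]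

end Lmap

/-! ### The group `±Γ₁(M)` -/

section PG1

theorem mem_zpowers_neg_one {z : SL(2, ℤ)} (hz : z ∈ Subgroup.zpowers (-1 : SL(2, ℤ))) :
    z = 1 ∨ z = -1 := by
  obtain ⟨k, rfl⟩ := Subgroup.mem_zpowers_iff.mp hz
  rcases Int.even_or_odd k with hk | hk
  · exact Or.inl hk.neg_one_zpow
  · exact Or.inr hk.neg_one_zpow

theorem neg_one_mem_PG1 : (-1 : SL(2, ℤ)) ∈ PG1 M :=
  (le_sup_right : Subgroup.zpowers (-1 : SL(2, ℤ)) ≤ PG1 M) (Subgroup.mem_zpowers _)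

theorem Gamma1_le_PG1 : Gamma1 M ≤ PG1 M := le_sup_left

theorem mem_PG1_iff {δ : SL(2, ℤ)} : δ ∈ PG1 M ↔ δ ∈ Gamma1 M ∨ -δ ∈ Gamma1 M := by
  constructor
  · intro h
    have hn : (Subgroup.zpowers (-1 : SL(2, ℤ))).Normal := by
      refine ⟨fun n hn g => ?_⟩
      rcases mem_zpowers_neg_one hn with rfl | rfl
      · rw [mul_one, mul_inv_cancel]
        exact Subgroup.one_mem _
      · rw [mul_neg, mul_one, neg_mul, mul_inv_cancel]
        exact Subgroup.mem_zpowers _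
    obtain ⟨y, hy, z, hz, rfl⟩ := Subgroup.mem_sup_of_normal_right.mp h
    rcases mem_zpowers_neg_one hz with rfl | rfl
    · left
      rwa [mul_one]
    · right
      rwa [mul_neg, mul_one, neg_neg]
  · rintro (h | h)
    · exact Gamma1_le_PG1 h
    · have h1 : δ = (-δ) * (-1 : SL(2, ℤ)) := by rw [mul_neg, mul_one, neg_neg]
      rw [h1]
      exact Subgroup.mul_mem _ (Gamma1_le_PG1 h) neg_one_mem_PG1

end PG1

section LmapPG1

variable {P : (ℍ → ℂ) → Prop} {Ω : Type*} [Field Ω] [Algebra ℂ Ω] {T : HolHom P Ω}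
  {γ : SL(2, ℤ)}

/-- **`Lmap1 T γ` only depends on the coset `±Γ₁(M) γ`.** -/
theorem Lmap1_eq_of_mem_PG1 {δ : SL(2, ℤ)} (hδ : δ ∈ PG1 M) (hP : SlashP1 M P γ)
    (hP' : SlashP1 M P (δ * γ)) (hc : ∀ c : ℂ, P (fun _ => c)) :
    Lmap1 (M := M) T (δ * γ) hP' = Lmap1 T γ hP := by
  rcases mem_PG1_iff.mp hδ with h | h
  · exact Lmap1_mul_left h hP
  · have h1 : δ * γ = -((-δ) * γ) := by rw [neg_mul, neg_neg]
    have hP'' : SlashP1 M P ((-δ) * γ) := slashP1_mul_left h hP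
    have e : Lmap1 (M := M) T (δ * γ) hP' = Lmap1 T (-((-δ) * γ)) (h1 ▸ hP') := by
      congr 1
    rw [e, Lmap1_neg hP'' _ hc]
    exact Lmap1_mul_left h hP

end LmapPG1


end Fermat.Agent.S48.B.B1.RepHom1

end
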