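import Mathlib
import Fermat.Agent.S48.B.B1.Seams
import Fermat.Agent.S48.B.B1.RepHom1
import Fermat.Agent.S24.LevelRaise
import Fermat.Agent.S24.QBridge
import Fermat.Agent.S24.LmapSep

/-!
# PROJECT D (S48), block B1, brick Ra (helper7): `WpForms M → FrickeRep M`, explicitly

`h_a = (E₄E₆/Δ)(Mτ) · ℘_a(τ)` is represented by the pair of weight `12` forms on `Γ₁(M)`
`(E₄(Mτ) E₆(Mτ) ℘_a(τ), Δ(Mτ))`.

* `qExpansion_E6`, `wNorm_mul_delta` (formal), `ofPS_qx_wNum` : **(W-norm)**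
  `qx (E₄(M·) E₆(M·)) = (E₄E₆/Δ)(q^M) · qx (Δ(M·))`;
* `isRepOf1_fricke` : the explicit representative; `frickeRep_of_wpForms`;
* `frickeNum_slash`, `frickeDen_slash` : the action of `σ ∈ Γ₀(M)` on the representative
  (input of the brick `Diamond`);
* `isRepOf1_jd` : `j(q^e)`, `e ∣ M`, is represented by `Γ₀(M)`-invariant forms;
* `coeffEmb_frickeH` : `coeffEmb L (frickeH ℚ M a) = frickeH L M a`.
-/

set_option autoImplicit false
set_option linter.unusedSectionVars false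

noncomputable section

namespace Fermat.Agent.S48.B.B1.FrickeRepX

open UpperHalfPlane hiding I
open ModularForm CongruenceSubgroup ModularCurve
open Fermat.Agent.S20 Fermat.Agent.S23.QRing Fermat.Agent.S48.B.Defs.Model
open Fermat.Agent.S48.B.B1.Seams Fermat.Agent.S48.B.B1.RepHom1
open Fermat.Agent.S24.LevelRaise
open scoped MatrixGroups ModularForm Manifold

/-! ### The `q`-expansion of `E₆` -/

theorem qExpansion_E6 :
    qExpansion 1 E₆ = eisenstein6.map (Int.castRingHom ℂ) := by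
  ext m
  have h := EisensteinSeries.E_qExpansion_coeff (k := 6) (by norm_num) ⟨3, rfl⟩ m
  rw [show (qExpansion 1 E₆) = qExpansion 1 (E (k := 6) (by norm_num)) from rfl, h,
    PowerSeries.coeff_map]
  unfold eisenstein6
  rw [PowerSeries.coeff_mk]
  split_ifs with hm
  · simp
  · have hb : bernoulli 6 = 1 / 42 := by decide +kernel
    simp only [hb, ArithmeticFunction.sigma_apply, eq_intCast]
    push_cast
    ring

/-! ### The formal identity `(E₄E₆/Δ) · Δ = E₄E₆` -/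

theorem wNorm_mul_delta (R : Type*) [CommRing R] :
    wNorm R * HahnSeries.ofPowerSeries ℤ R
        ((PowerSeries.X * dedekindEtaUnit).map (Int.castRingHom R)) =
      HahnSeries.ofPowerSeries ℤ R ((eisenstein4 * eisenstein6).map (Int.castRingHom R)) := by
  have h1 : (eisenstein4 * eisenstein6 : PowerSeries ℤ) = wNum * dedekindEtaUnit := by
    unfold wNum
    rw [mul_assoc, mul_comm dedekindEtaUnitInv, dedekindEtaUnit_mul_inv, mul_one]
  have h2 : (HahnSeries.single (-1 : ℤ) (1 : R)) * (HahnSeries.single (1 : ℤ) (1 : R)) = 1 := by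
    rw [HahnSeries.single_mul_single]
    simp
  unfold wNorm
  rw [h1, map_mul, map_mul, map_mul, map_mul, PowerSeries.map_X, HahnSeries.ofPowerSeries_X]
  calc _ = (HahnSeries.single (-1 : ℤ) (1 : R) * HahnSeries.single (1 : ℤ) (1 : R)) *
        (HahnSeries.ofPowerSeries ℤ R (wNum.map (Int.castRingHom R)) *
          HahnSeries.ofPowerSeries ℤ R (dedekindEtaUnit.map (Int.castRingHom R))) := by ring
    _ = _ := by rw [h2, one_mul]

/-! ### The forms `E₄(Mτ)`, `E₆(Mτ)`, `Δ(Mτ)` -/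

variable (M : ℕ) [NeZero M]

/-- `τ ↦ E₄(Mτ)` -/
def e4M : ℍ → ℂ := ⇑(raise M M dvd_rfl E₄)

/-- `τ ↦ E₆(Mτ)` -/
def e6M : ℍ → ℂ := ⇑(raise M M dvd_rfl E₆)

/-- `τ ↦ Δ(Mτ)` -/
def dM : ℍ → ℂ := ⇑(raise M M dvd_rfl DeltaMF)

theorem isMF_e4M : IsMF (G0 M) 4 (e4M M) := ⟨_, rfl⟩

theorem isMF_e6M : IsMF (G0 M) 6 (e6M M) := ⟨_, rfl⟩

theorem isMF_dM : IsMF (G0 M) 12 (dM M) := ⟨_, rfl⟩

theorem e4M_apply (τ : ℍ) : e4M M τ = E₄ (heckeDiagMatrix M • τ) := raise_apply M M dvd_rfl E₄ τ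

theorem e6M_apply (τ : ℍ) : e6M M τ = E₆ (heckeDiagMatrix M • τ) := raise_apply M M dvd_rfl E₆ τ

theorem dM_apply (τ : ℍ) : dM M τ = ModularForm.discriminant (heckeDiagMatrix M • τ) :=
  raise_apply M M dvd_rfl DeltaMF τ

theorem dM_ne_zero : dM M ≠ 0 := by
  intro h0
  have h1 := dM_apply M UpperHalfPlane.I
  rw [h0] at h1
  exact ModularForm.discriminant_ne_zero _ h1.symm

theorem G1_le_G0 : G1 M ≤ G0 M := Subgroup.map_mono (Gamma1_in_Gamma0 M)

theorem isQ_of_isMF0 {k : ℤ} {f : ℍ → ℂ} (h : IsMF (G0 M) k f) : IsQ f :=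
  isQ_of_isMF1 (M := M) (h.mono (G1_le_G0 M))

theorem ofPS_qx_e4M :
    ofPS (qx (e4M M)) =
      qExpand ℂ M (HahnSeries.ofPowerSeries ℤ ℂ (eisenstein4.map (Int.castRingHom ℂ))) := by
  have h := ofPowerSeries_qExpansion_raise M M dvd_rfl E₄
  rw [Fermat.Agent.S24.QBridge.qExpansion_E4] at h
  exact h

theorem ofPS_qx_e6M :
    ofPS (qx (e6M M)) =
      qExpand ℂ M (HahnSeries.ofPowerSeries ℤ ℂ (eisenstein6.map (Int.castRingHom ℂ))) := by
  have h := ofPowerSeries_qExpansion_raise M M dvd_rfl E₆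
  rw [qExpansion_E6] at h
  exact h

theorem ofPS_qx_dM :
    ofPS (qx (dM M)) =
      qExpand ℂ M (HahnSeries.ofPowerSeries ℤ ℂ
        ((PowerSeries.X * dedekindEtaUnit).map (Int.castRingHom ℂ))) := by
  have h := ofPowerSeries_qExpansion_raise M M dvd_rfl DeltaMF
  rw [qExpansion_DeltaMF] at h
  rw [map_mul, PowerSeries.map_X]
  exact h

/-- **(W-norm)** `qx (E₄(M·) E₆(M·)) = (E₄E₆/Δ)(q^M) · qx (Δ(M·))` -/
theorem ofPS_qx_wNum :
    ofPS (qx (e4M M * e6M M)) = qExpand ℂ M (wNorm ℂ) * ofPS (qx (dM M)) := by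
  have hw := congrArg (qExpand ℂ M) (wNorm_mul_delta ℂ)
  rw [qx_mul (isQ_of_isMF0 M (isMF_e4M M)) (isQ_of_isMF0 M (isMF_e6M M)), map_mul, ofPS_qx_e4M,
    ofPS_qx_e6M, ofPS_qx_dM]
  simp only [map_mul] at hw ⊢
  exact hw.symm

/-! ### The explicit representative of `h_a` -/

/-- **[Rep-a], explicit**: `h_a` is represented by `(E₄(M·) E₆(M·) ℘_a, Δ(M·))`. -/
theorem isRepOf1_fricke {Pa : ℍ → ℂ} {a : ZMod M} (h1 : IsMF (G1 M) 2 Pa)
    (h2 : qx Pa = wpSeries M a) :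
    IsRepOf1 M (frickeH ℂ M a) 12 (e4M M * e6M M * Pa) (dM M) where
  ha := ((((isMF_e4M M).mono (G1_le_G0 M)).mul ((isMF_e6M M).mono (G1_le_G0 M))).mul h1).cast
    (by norm_num)
  hb := (isMF_dM M).mono (G1_le_G0 M)
  hb0 := dM_ne_zero M
  eq := by
    have hq : IsQ (e4M M * e6M M) :=
      (isQ_of_isMF0 M (isMF_e4M M)).mul (isQ_of_isMF0 M (isMF_e6M M))
    rw [qx_mul hq (isQ_of_isMF1 h1), map_mul, ofPS_qx_wNum, h2]
    show _ = qExpand ℂ M (wNorm ℂ) * ofPS (wpSeries M a) * _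
    ring

/-- **[Rep-a]** -/
theorem frickeRep_of_wpForms (h : WpForms M) : FrickeRep M := by
  obtain ⟨P, hP, -⟩ := h
  intro a ha
  exact ⟨_, _, isRepOf1_fricke M (hP a ha).1 (hP a ha).2⟩

/-! ### The action of `Γ₀(M)` on the representatives -/

theorem slash_eq_of_isMF_G0 {k : ℤ} {f : ℍ → ℂ} (hf : IsMF (G0 M) k f) {σ : SL(2, ℤ)}
    (hσ : σ ∈ Gamma0 M) : f ∣[k] σ = f := by
  obtain ⟨F, rfl⟩ := hf
  rw [ModularForm.SL_slash]
  exact SlashInvariantFormClass.slash_action_eq F _ ⟨σ, hσ, rfl⟩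

theorem frickeNum_slash {Pa Pb : ℍ → ℂ} {σ : SL(2, ℤ)} (hσ : σ ∈ Gamma0 M)
    (h : Pa ∣[(2 : ℤ)] σ = Pb) :
    (e4M M * e6M M * Pa) ∣[(12 : ℤ)] σ = e4M M * e6M M * Pb := by
  have e : (12 : ℤ) = 4 + 6 + 2 := by norm_num
  rw [e, ModularForm.mul_slash_SL2, ModularForm.mul_slash_SL2,
    slash_eq_of_isMF_G0 M (isMF_e4M M) hσ, slash_eq_of_isMF_G0 M (isMF_e6M M) hσ, h]

theorem frickeDen_slash {σ : SL(2, ℤ)} (hσ : σ ∈ Gamma0 M) : dM M ∣[(12 : ℤ)] σ = dM M :=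
  slash_eq_of_isMF_G0 M (isMF_dM M) hσ

/-! ### The generators `j(q^e)` -/

open Fermat.Agent.S24.LmapSep (numFun denFun isRepOf_jd) in
theorem isRepOf1_jd {e : ℕ} [NeZero e] (he : e ∣ M) :
    IsRepOf1 M (coeffEmb ℂ (qExpand ℚ e jq)) 12 (numFun e) (denFun e) :=
  ⟨(isRepOf_jd (N := M) he).ha.mono (G1_le_G0 M), (isRepOf_jd (N := M) he).hb.mono (G1_le_G0 M),
    (isRepOf_jd (N := M) he).hb0, (isRepOf_jd (N := M) he).eq⟩

open Fermat.Agent.S24.LmapSep (numFun denFun isRepOf_jd) in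
theorem jd_slash {e : ℕ} [NeZero e] (he : e ∣ M) {σ : SL(2, ℤ)} (hσ : σ ∈ Gamma0 M) :
    numFun e ∣[(12 : ℤ)] σ = numFun e ∧ denFun e ∣[(12 : ℤ)] σ = denFun e :=
  ⟨slash_eq_of_isMF_G0 M (isRepOf_jd (N := M) he).ha hσ,
    slash_eq_of_isMF_G0 M (isRepOf_jd (N := M) he).hb hσ⟩

/-! ### Base change of the Fricke functions -/

theorem map_map_intCast {R S : Type*} [CommRing R] [CommRing S] (f : R →+* S)
    (p : PowerSeries ℤ) :
    (p.map (Int.castRingHom R)).map f = p.map (Int.castRingHom S) := by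
  ext n
  rw [PowerSeries.coeff_map, PowerSeries.coeff_map, PowerSeries.coeff_map]
  simp

theorem coeffMap_wNorm {R S : Type*} [CommRing R] [CommRing S] (f : R →+* S) :
    coeffMap f (wNorm R) = wNorm S := by
  unfold wNorm
  rw [map_mul, coeffMap_single, map_one, ModularCurve.coeffMap_ofPowerSeries, map_map_intCast]

theorem coeffMap_frickeH {R S : Type*} [CommRing R] [CommRing S] (f : R →+* S) (a : ZMod M) :
    coeffMap f (frickeH R M a) = frickeH S M a := by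
  unfold frickeH
  rw [map_mul, coeffMap_qExpand, coeffMap_wNorm, ModularCurve.coeffMap_ofPowerSeries,
    map_map_intCast]

theorem coeffEmb_frickeH (L : Type*) [Field L] [Algebra ℚ L] (a : ZMod M) :
    coeffEmb L (frickeH ℚ M a) = frickeH L M a :=
  coeffMap_frickeH M (algebraMap ℚ L) a

end Fermat.Agent.S48.B.B1.FrickeRepX

end
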