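import Mathlib
import Fermat.Agent.S48.B.B1.Seams

/-!
# PROJECT D (S48), block B1: typed seams, second file (helper7, leader B1)

Additions asked by the consumers after `Seams.lean` (blob 3da8d40b, untouched):
* `FrickeInj M`  (helper2, brick Deg): proved in `TateX.lean` (`TateX.frickeInj`);
* `DiamondAn M`  (helper8, [B-ES]): the analytic form of the diamond automorphisms over `ℂ`;
* `Deg1p M ℓ`    (helper10 / helper8, `DegreeBeta1`): the degree of the mixed level `(M; ℓ)`.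
-/

set_option autoImplicit false

noncomputable section

namespace Fermat.Agent.S48.B.B1.Seams2

open ModularCurve IntermediateField CongruenceSubgroup UpperHalfPlane
open Fermat.Agent.S20 Fermat.Agent.S23.QRing Fermat.Agent.S48.B.Defs.Model
open Fermat.Agent.S48.B.B1.Seams
open scoped MatrixGroups ModularForm

local notation "Kb" => AlgebraicClosure ℚ

variable (M : ℕ) [NeZero M]

/-- the Fricke functions `h_a`, `a ≠ 0`, are pairwise distinct up to `a ↦ -a` -/
def FrickeInj : Prop :=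
  ∀ a b : ZMod M, a ≠ 0 → b ≠ 0 → frickeH ℚ M a = frickeH ℚ M b → a = b ∨ a = -b

/-- **[Dia], analytic form.** For `σ ∈ Γ₀(M)` with upper left entry `d` mod `M` there is a diamond
automorphism `δ` of `ℂ·F1 M` for `d` such that, whenever `(A, B)` represents `x`,
`(A ∣ σ, B ∣ σ)` represents `δ x`. -/
def DiamondAn : Prop :=
  ∀ σ : SL(2, ℤ), σ ∈ Gamma0 M → ∀ d : (ZMod M)ˣ, (d : ZMod M) = ((σ 0 0 : ℤ) : ZMod M) →
    ∃ δ, IsDiamondAut M ℂ d δ ∧
      ∀ (x : laurentBaseChange ℂ (F1 M)) (k : ℤ) (A B : ℍ → ℂ),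
        IsRepOf1 M (x : LaurentSeries ℂ) k A B →
          ofPS (qx (A ∣[k] σ)) =
            ((δ x : laurentBaseChange ℂ (F1 M)) : LaurentSeries ℂ) * ofPS (qx (B ∣[k] σ))

/-- `j` as an element of the function field of the mixed level `(M; ℓ)` over `ℚ̄` -/
def jgen1p (ℓ : ℕ) [NeZero ℓ] : laurentBaseChange Kb (F1p M ℓ) :=
  IntermediateField.inclusion (laurentBaseChange_mono Kb (F1_le_F1p M ℓ)) (jgen1 M)

/-- **[B-degp]** the degree of the mixed level `Γ₁(M) ∩ Γ₀(ℓ)`, `ℓ` a prime not dividing `M` -/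
def Deg1p (ℓ : ℕ) [NeZero ℓ] : Prop :=
  ℓ.Prime → ¬ ℓ ∣ M →
    Module.finrank Kb⟮jgen1p M ℓ⟯ (laurentBaseChange Kb (F1p M ℓ)) = Nat.card (Q1 M) * (ℓ + 1)

end Fermat.Agent.S48.B.B1.Seams2

end
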