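import Mathlib
import Fermat.Agent.S48.B.B1.Seams
import Fermat.Agent.S48.B.B1.Seams2
import Fermat.Agent.S48.B.B1.RepHom1
import Fermat.Agent.S48.B.B1.FrickeRepX
import Fermat.Agent.S48.B.B1.PermPrinciple
import Fermat.Agent.S48.B.B1.BaseChangeAdjoin

/-!
# PROJECT D (S48), block B1, brick Dia (helper7): the diamond automorphisms

`WpForms M → RepLe M → DiamondAn M` and `WpForms M → RepLe M → DiamondExists M`.

For `σ ∈ Γ₀(M)` the slash action `A ↦ A ∣ σ` preserves the forms on `Γ₁(M)` (normality), hence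
induces an automorphism `dmapR σ` of the field `repField1 M` of modular functions
(`g = qx A / qx B ↦ qx (A ∣ σ) / qx (B ∣ σ)`; this is `RepHom1.Lmap1` for the `q`-expansion functional).
It fixes `j(q^e)` and sends `h_a` to `h_{σ₀₀ a}` (`FrickeRepX`).  So the generators of `ℂ·F1 M` and their
permuted family have the same relations over `ℂ`, hence over `ℚ`, hence over every field `L` of
characteristic zero (`BaseChangeAdjoin`), and `PermPrinciple.permAut` gives the automorphism.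
-/

set_option autoImplicit false
set_option linter.unusedSectionVars false

noncomputable section

namespace Fermat.Agent.S48.B.B1.Diamond

open UpperHalfPlane hiding I
open ModularForm CongruenceSubgroup ModularCurve IntermediateField
open Fermat.Agent.S20 Fermat.Agent.S23.QRing Fermat.Agent.S48.B.Defs.Model
open Fermat.Agent.S48.B.B1.Seams Fermat.Agent.S48.B.B1.Seams2 Fermat.Agent.S48.B.B1.RepHom1
open Fermat.Agent.S48.B.B1.FrickeRepX Fermat.Agent.S48.B.B1.PermPrinciple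
open Fermat.Agent.S48.B.B1.BaseChangeAdjoin
open Fermat.Agent.S24.RepHom (HolHom slash_ne_zero ofPS_injective)
open scoped MatrixGroups ModularForm Manifold Pointwise

variable {M : ℕ} [NeZero M]

/-! ### The `q`-expansion functional -/

/-- the `q`-expansion as an expansion functional on the class `IsQ` -/
def qHol : HolHom (fun f : ℍ → ℂ => IsQ f) (LaurentSeries ℂ) where
  T f := ofPS (qx f)
  P_mul _ _ hf hg := hf.mul hg
  map_add f g hf hg := by rw [qx_add hf hg, map_add]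
  map_mul f g hf hg := by rw [qx_mul hf hg, map_mul]
  map_const c := by
    rw [qx_const, algebraMap_laurentSeries_eq_single]
    exact HahnSeries.ofPowerSeries_C c
  inj f hf h := (qx_eq_zero_iff hf).mp (ofPS_injective (h.trans (map_zero _).symm))

theorem qHol_T (f : ℍ → ℂ) : (qHol).T f = ofPS (qx f) := rfl

/-! ### `Γ₀(M)` normalises `Γ₁(M)` -/

theorem conj_mem_Gamma1 {σ γ : SL(2, ℤ)} (hσ : σ ∈ Gamma0 M) (hγ : γ ∈ Gamma1 M) :
    σ * γ * σ⁻¹ ∈ Gamma1 M := by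
  have hγ0 : γ ∈ Gamma0 M := Gamma1_in_Gamma0 M hγ
  have hg : Gamma0Map M ⟨γ, hγ0⟩ = 1 := ((Gamma1_mem M γ).mp hγ).2.1
  have h1 : (⟨σ, hσ⟩ : Gamma0 M) * ⟨γ, hγ0⟩ * (⟨σ, hσ⟩ : Gamma0 M)⁻¹ ∈ Gamma1' M := by
    rw [Gamma1_mem', map_mul, map_mul, hg, mul_one, ← map_mul, mul_inv_cancel, map_one]
  exact ⟨⟨_, h1⟩, Subgroup.mem_top _, rfl⟩

theorem G1_le_conj {σ : SL(2, ℤ)} (hσ : σ ∈ Gamma0 M) :
    G1 M ≤ ConjAct.toConjAct ((σ : GL (Fin 2) ℝ))⁻¹ • G1 M := by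
  rintro _ ⟨γ, hγ, rfl⟩
  rw [map_inv, Subgroup.mem_inv_pointwise_smul_iff, ConjAct.toConjAct_smul]
  exact ⟨σ * γ * σ⁻¹, conj_mem_Gamma1 hσ hγ, by rw [map_mul, map_mul, map_inv]; rfl⟩

/-- the translate by `σ ∈ Γ₀(M)` of a form on `Γ₁(M)` is a form on `Γ₁(M)` -/
theorem isMF1_slash {k : ℤ} {a : ℍ → ℂ} (h : IsMF (G1 M) k a) {σ : SL(2, ℤ)}
    (hσ : σ ∈ Gamma0 M) : IsMF (G1 M) k (a ∣[k] σ) := by
  obtain ⟨F, rfl⟩ := h
  have h1 : IsMF (ConjAct.toConjAct ((σ : GL (Fin 2) ℝ))⁻¹ • G1 M) k (⇑F ∣[k] σ) :=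
    ⟨ModularForm.translate F (σ : GL (Fin 2) ℝ), by
      rw [ModularForm.coe_translate, ModularForm.SL_slash]⟩
  exact h1.mono (G1_le_conj hσ)

theorem slashP1_isQ {σ : SL(2, ℤ)} (hσ : σ ∈ Gamma0 M) :
    SlashP1 M (fun f : ℍ → ℂ => IsQ f) σ :=
  fun _ _ h => isQ_of_isMF1 (isMF1_slash h hσ)

/-! ### The homomorphism of `repField1 M` attached to `σ ∈ Γ₀(M)` -/

/-- `g = qx a / qx b ↦ qx (a ∣ σ) / qx (b ∣ σ)` -/
def dmap (σ : SL(2, ℤ)) (hσ : σ ∈ Gamma0 M) : repField1 M →+* LaurentSeries ℂ :=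
  Lmap1 qHol σ (slashP1_isQ hσ)

theorem dmap_spec {σ : SL(2, ℤ)} (hσ : σ ∈ Gamma0 M) (g : repField1 M) {k : ℤ} {a b : ℍ → ℂ}
    (h : IsRepOf1 M (g : LaurentSeries ℂ) k a b) :
    dmap σ hσ g * ofPS (qx (b ∣[k] σ)) = ofPS (qx (a ∣[k] σ)) :=
  Lmap1_spec (T := qHol) (slashP1_isQ hσ) g h

theorem isRepOf1_dmap {σ : SL(2, ℤ)} (hσ : σ ∈ Gamma0 M) (g : repField1 M) {k : ℤ}
    {a b : ℍ → ℂ} (h : IsRepOf1 M (g : LaurentSeries ℂ) k a b) :
    IsRepOf1 M (dmap σ hσ g) k (a ∣[k] σ) (b ∣[k] σ) :=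
  ⟨isMF1_slash h.ha hσ, isMF1_slash h.hb hσ, slash_ne_zero σ h.hb0, (dmap_spec hσ g h).symm⟩

theorem dmap_mem {σ : SL(2, ℤ)} (hσ : σ ∈ Gamma0 M) (g : repField1 M) :
    dmap σ hσ g ∈ repField1 M := by
  obtain ⟨k, a, b, h⟩ := g.2
  exact ⟨k, _, _, isRepOf1_dmap hσ g h⟩

/-- a series is determined by a representative -/
theorem eq_of_isRepOf1 {g g' : LaurentSeries ℂ} {k : ℤ} {a b : ℍ → ℂ}
    (h : IsRepOf1 M g k a b) (h' : IsRepOf1 M g' k a b) : g = g' :=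
  mul_right_cancel₀ (IsRepOf1x.qx_b_ne_zero h) (h.eq.symm.trans h'.eq)

theorem dmap_eq_of_isRepOf1 {σ : SL(2, ℤ)} (hσ : σ ∈ Gamma0 M) (g : repField1 M)
    {g' : LaurentSeries ℂ} {k : ℤ} {a b : ℍ → ℂ}
    (h : IsRepOf1 M (g : LaurentSeries ℂ) k a b)
    (h' : IsRepOf1 M g' k (a ∣[k] σ) (b ∣[k] σ)) : dmap σ hσ g = g' :=
  eq_of_isRepOf1 (isRepOf1_dmap hσ g h) h'

/-- functoriality: `dmap τ ∘ dmap σ = id` when `σ τ = 1` -/
theorem dmap_dmap_of_mul_eq_one {σ τ : SL(2, ℤ)} (hσ : σ ∈ Gamma0 M) (hτ : τ ∈ Gamma0 M)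
    (hστ : σ * τ = 1) (g : repField1 M) :
    dmap τ hτ ⟨dmap σ hσ g, dmap_mem hσ g⟩ = (g : LaurentSeries ℂ) := by
  obtain ⟨k, a, b, h⟩ := g.2
  have h1 := isRepOf1_dmap hσ g h
  have h2 := isRepOf1_dmap hτ ⟨dmap σ hσ g, dmap_mem hσ g⟩ h1
  have e : ∀ c : ℍ → ℂ, (c ∣[k] σ) ∣[k] τ = c := fun c => by
    rw [← SlashAction.slash_mul, hστ, SlashAction.slash_one]
  rw [e, e] at h2
  exact eq_of_isRepOf1 h2 h

theorem dmap_const {σ : SL(2, ℤ)} (hσ : σ ∈ Gamma0 M) (c : ℂ)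
    (hc : algebraMap ℂ (LaurentSeries ℂ) c ∈ repField1 M) :
    dmap σ hσ ⟨algebraMap ℂ (LaurentSeries ℂ) c, hc⟩ = algebraMap ℂ (LaurentSeries ℂ) c := by
  have e : algebraMap ℂ (LaurentSeries ℂ) c = HahnSeries.C c :=
    algebraMap_laurentSeries_eq_single ℂ c
  have hc' : HahnSeries.C c ∈ repField1 M := e ▸ hc
  have h1 : (⟨algebraMap ℂ (LaurentSeries ℂ) c, hc⟩ : repField1 M) = ⟨HahnSeries.C c, hc'⟩ :=
    Subtype.ext e
  rw [h1]
  exact Lmap1_const (T := qHol) (slashP1_isQ hσ) c hc'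

/-- `repField1 M` as an intermediate field of `ℂ((q)) / ℂ` -/
def repIF1 (M : ℕ) [NeZero M] : IntermediateField ℂ (LaurentSeries ℂ) :=
  (repField1 M).toIntermediateField fun c => by
    have e : algebraMap ℂ (LaurentSeries ℂ) c = HahnSeries.C c :=
      algebraMap_laurentSeries_eq_single ℂ c
    rw [e]
    exact const_mem_repField1 c

theorem mem_repIF1 {x : LaurentSeries ℂ} : x ∈ repIF1 M ↔ x ∈ repField1 M := Iff.rfl

/-- the identity `repIF1 M → repField1 M` -/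
def toR (M : ℕ) [NeZero M] : repIF1 M →+* repField1 M where
  toFun g := ⟨g.1, g.2⟩
  map_one' := Subtype.ext rfl
  map_mul' _ _ := Subtype.ext rfl
  map_zero' := Subtype.ext rfl
  map_add' _ _ := Subtype.ext rfl

/-- `dmap σ` as a `ℂ`-algebra homomorphism -/
def dmapA (σ : SL(2, ℤ)) (hσ : σ ∈ Gamma0 M) : repIF1 M →ₐ[ℂ] LaurentSeries ℂ :=
  { (dmap σ hσ).comp (toR M) with
    commutes' := fun c => by
      have hc : algebraMap ℂ (LaurentSeries ℂ) c ∈ repField1 M := (repIF1 M).algebraMap_mem c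
      exact dmap_const hσ c hc }

theorem dmapA_apply {σ : SL(2, ℤ)} (hσ : σ ∈ Gamma0 M) (g : repIF1 M) :
    dmapA σ hσ g = dmap σ hσ ⟨g.1, g.2⟩ := rfl

/-! ### A general principle: algebra homomorphisms transport relations -/

theorem aeval_eq_zero_of_algHom {K : Type*} [Field K] {Ω : Type*} [Field Ω] [Algebra K Ω]
    {ι : Type*} {E : IntermediateField K Ω} (φ : E →ₐ[K] Ω) {x y : ι → Ω} (hx : ∀ i, x i ∈ E)
    (hφ : ∀ i, φ ⟨x i, hx i⟩ = y i) (p : MvPolynomial ι K)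
    (h : MvPolynomial.aeval x p = 0) : MvPolynomial.aeval y p = 0 := by
  have e1 := MvPolynomial.comp_aeval_apply (f := fun i => (⟨x i, hx i⟩ : E)) E.val p
  have e0 : (fun i => E.val (⟨x i, hx i⟩ : E)) = x := rfl
  rw [e0, h] at e1
  have e2 : MvPolynomial.aeval (fun i => (⟨x i, hx i⟩ : E)) p = 0 :=
    Subtype.ext e1
  have e3 := MvPolynomial.comp_aeval_apply (f := fun i => (⟨x i, hx i⟩ : E)) φ p
  have e4 : (fun i => φ (⟨x i, hx i⟩ : E)) = y := funext hφ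
  rw [e4, e2, map_zero] at e3
  exact e3.symm

/-! ### The generators of `F1 M` and their permutations -/

/-- the index set of the generators of `F1 M` -/
abbrev GenIdx (M : ℕ) : Type := {e : ℕ // e ∣ M} ⊕ {a : ZMod M // a ≠ 0}

theorem neZero_of_dvd' {e : ℕ} (he : e ∣ M) : NeZero e :=
  ⟨ne_zero_of_dvd_ne_zero (NeZero.ne M) he⟩

/-- the generators of `F1 M` over `ℚ` -/
def gen0 (M : ℕ) [NeZero M] : GenIdx M → LaurentSeries ℚ
  | Sum.inl e => haveI : NeZero e.1 := neZero_of_dvd' e.2; qExpand ℚ e.1 jq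
  | Sum.inr a => frickeH ℚ M a.1

theorem range_gen0 : Set.range (gen0 M) = divisorExpansions M ∪ frickeGenerators M := by
  ext x
  constructor
  · rintro ⟨i, rfl⟩
    rcases i with e | a
    · exact Or.inl ⟨e.1, neZero_of_dvd' e.2, e.2, rfl⟩
    · exact Or.inr ⟨a.1, a.2, rfl⟩
  · rintro (⟨e, _, he, rfl⟩ | ⟨a, ha, rfl⟩)
    · exact ⟨Sum.inl ⟨e, he⟩, rfl⟩
    · exact ⟨Sum.inr ⟨a, ha⟩, rfl⟩

theorem F1_eq_adjoin : F1 M = IntermediateField.adjoin ℚ (Set.range (gen0 M)) := by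
  rw [range_gen0]
  rfl

/-- the generators of `L·F1 M` -/
def genL (M : ℕ) [NeZero M] (L : Type*) [Field L] [Algebra ℚ L] : GenIdx M → LaurentSeries L :=
  fun i => coeffEmb L (gen0 M i)

theorem baseChange_eq_adjoin (L : Type*) [Field L] [Algebra ℚ L] :
    laurentBaseChange L (F1 M) = IntermediateField.adjoin L (Set.range (genL M L)) := by
  rw [F1_eq_adjoin, laurentBaseChange_adjoin, ← Set.range_comp]
  rfl

theorem genL_mem (L : Type*) [Field L] [Algebra ℚ L] (i : GenIdx M) :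
    genL M L i ∈ laurentBaseChange L (F1 M) := by
  rw [baseChange_eq_adjoin]
  exact gen_mem_adjoin _ i

/-- multiplication by a unit on the nonzero classes -/
def mulUnit (d : (ZMod M)ˣ) : Equiv.Perm {a : ZMod M // a ≠ 0} where
  toFun a := ⟨(d : ZMod M) * a.1, fun h => a.2 ((Units.mul_right_eq_zero d).mp h)⟩
  invFun a := ⟨((d⁻¹ : (ZMod M)ˣ) : ZMod M) * a.1,
    fun h => a.2 ((Units.mul_right_eq_zero d⁻¹).mp h)⟩
  left_inv a := Subtype.ext (by
    show ((d⁻¹ : (ZMod M)ˣ) : ZMod M) * ((d : ZMod M) * a.1) = a.1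
    rw [← mul_assoc, Units.inv_mul, one_mul])
  right_inv a := Subtype.ext (by
    show (d : ZMod M) * (((d⁻¹ : (ZMod M)ˣ) : ZMod M) * a.1) = a.1
    rw [← mul_assoc, Units.mul_inv, one_mul])

/-- the permutation of the generators attached to a unit `d` : `h_a ↦ h_{d a}` -/
def genPerm (d : (ZMod M)ˣ) : Equiv.Perm (GenIdx M) :=
  Equiv.sumCongr (Equiv.refl _) (mulUnit d)

theorem genPerm_inl (d : (ZMod M)ˣ) (e : {e : ℕ // e ∣ M}) :
    genPerm d (Sum.inl e) = Sum.inl e := rfl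

theorem genPerm_inr (d : (ZMod M)ˣ) (a : {a : ZMod M // a ≠ 0}) :
    genPerm d (Sum.inr a) = Sum.inr (mulUnit d a) := rfl

/-! ### The action of `dmap σ` on the generators -/

theorem genC_mem_repField1 (hle : RepLe M) (i : GenIdx M) : genL M ℂ i ∈ repField1 M :=
  hle (genL_mem ℂ i)

theorem dmap_gen {P : ZMod M → ℍ → ℂ}
    (hP : ∀ a : ZMod M, a ≠ 0 → IsMF (G1 M) 2 (P a) ∧ qx (P a) = wpSeries M a)
    (hPσ : ∀ a : ZMod M, a ≠ 0 → ∀ σ : SL(2, ℤ), σ ∈ Gamma0 M →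
      (P a) ∣[(2 : ℤ)] σ = P (((σ 0 0 : ℤ) : ZMod M) * a))
    (hle : RepLe M) {σ : SL(2, ℤ)} (hσ : σ ∈ Gamma0 M) (d : (ZMod M)ˣ)
    (hd : (d : ZMod M) = ((σ 0 0 : ℤ) : ZMod M)) (i : GenIdx M) :
    dmap σ hσ ⟨genL M ℂ i, genC_mem_repField1 hle i⟩ = genL M ℂ (genPerm d i) := by
  rcases i with e | a
  · have : NeZero e.1 := neZero_of_dvd' e.2
    have h : IsRepOf1 M (genL M ℂ (Sum.inl e)) 12 _ _ := isRepOf1_jd M e.2
    have hs := jd_slash M e.2 hσ
    refine dmap_eq_of_isRepOf1 hσ _ h ?_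
    rw [hs.1, hs.2]
    exact h
  · have ha' : (d : ZMod M) * a.1 ≠ 0 := (mulUnit d a).2
    have h : IsRepOf1 M (genL M ℂ (Sum.inr a)) 12 (e4M M * e6M M * P a.1) (dM M) := by
      rw [show genL M ℂ (Sum.inr a) = frickeH ℂ M a.1 from coeffEmb_frickeH M ℂ a.1]
      exact isRepOf1_fricke M (hP a.1 a.2).1 (hP a.1 a.2).2
    have h' : IsRepOf1 M (genL M ℂ (genPerm d (Sum.inr a))) 12
        (e4M M * e6M M * P ((d : ZMod M) * a.1)) (dM M) := by
      rw [show genL M ℂ (genPerm d (Sum.inr a)) = frickeH ℂ M ((d : ZMod M) * a.1) from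
        coeffEmb_frickeH M ℂ _]
      exact isRepOf1_fricke M (hP _ ha').1 (hP _ ha').2
    refine dmap_eq_of_isRepOf1 hσ _ h ?_
    rw [frickeNum_slash M hσ (hPσ a.1 a.2 σ hσ), frickeDen_slash M hσ, ← hd]
    exact h'

/-! ### The relations -/

theorem sameRelations_C (hW : WpForms M) (hle : RepLe M) {σ : SL(2, ℤ)} (hσ : σ ∈ Gamma0 M)
    (d : (ZMod M)ˣ) (hd : (d : ZMod M) = ((σ 0 0 : ℤ) : ZMod M)) :
    SameRelations ℂ (genL M ℂ) (genL M ℂ ∘ genPerm d) := by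
  obtain ⟨P, hP, hPσ⟩ := hW
  intro p
  have hx : ∀ i, genL M ℂ i ∈ repIF1 M := fun i => genC_mem_repField1 hle i
  constructor
  · exact aeval_eq_zero_of_algHom (dmapA σ hσ) hx (fun i => dmap_gen hP hPσ hle hσ d hd i) p
  · have hσ' : σ⁻¹ ∈ Gamma0 M := inv_mem hσ
    have hx' : ∀ i, (genL M ℂ ∘ genPerm d) i ∈ repIF1 M := fun i => hx _
    refine aeval_eq_zero_of_algHom (dmapA σ⁻¹ hσ') hx' (fun i => ?_) p
    have h1 := dmap_dmap_of_mul_eq_one hσ hσ' (mul_inv_cancel σ)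
      ⟨genL M ℂ i, genC_mem_repField1 hle i⟩
    have h2 := dmap_gen hP hPσ hle hσ d hd i
    have h3 : (⟨dmap σ hσ ⟨genL M ℂ i, genC_mem_repField1 hle i⟩, dmap_mem hσ _⟩ :
        repField1 M) = ⟨genL M ℂ (genPerm d i), genC_mem_repField1 hle _⟩ := Subtype.ext h2
    rw [h3] at h1
    exact h1

theorem sameRelations_Q (hW : WpForms M) (hle : RepLe M) {σ : SL(2, ℤ)} (hσ : σ ∈ Gamma0 M)
    (d : (ZMod M)ˣ) (hd : (d : ZMod M) = ((σ 0 0 : ℤ) : ZMod M)) :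
    SameRelations ℚ (gen0 M) (gen0 M ∘ genPerm d) :=
  sameRelations_down (L := ℂ) (sameRelations_C hW hle hσ d hd)

theorem sameRelations_L (L : Type*) [Field L] [Algebra ℚ L] (hW : WpForms M) (hle : RepLe M)
    {σ : SL(2, ℤ)} (hσ : σ ∈ Gamma0 M) (d : (ZMod M)ˣ)
    (hd : (d : ZMod M) = ((σ 0 0 : ℤ) : ZMod M)) :
    SameRelations L (genL M L) (genL M L ∘ genPerm d) :=
  sameRelations_up (L := L) (sameRelations_Q hW hle hσ d hd)

/-- every unit is the upper left entry of an element of `Γ₀(M)` -/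
theorem exists_mem_Gamma0 (d : (ZMod M)ˣ) :
    ∃ σ : SL(2, ℤ), σ ∈ Gamma0 M ∧ (d : ZMod M) = ((σ 0 0 : ℤ) : ZMod M) := by
  have hc : Nat.Coprime (d : ZMod M).val M := ZMod.val_coe_unit_coprime d
  have hc' : IsCoprime (((d : ZMod M).val : ℕ) : ℤ) (M : ℤ) := Nat.isCoprime_iff_coprime.mpr hc
  obtain ⟨u, v, huv⟩ := hc'
  have hdet : Matrix.det !![(((d : ZMod M).val : ℕ) : ℤ), -v; (M : ℤ), u] = 1 := by
    rw [Matrix.det_fin_two_of]
    linarith
  let σ : SL(2, ℤ) := ⟨!![(((d : ZMod M).val : ℕ) : ℤ), -v; (M : ℤ), u], hdet⟩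
  refine ⟨σ, ?_, ?_⟩
  · rw [Gamma0_mem]
    show (((M : ℤ)) : ZMod M) = 0
    simp
  · show (d : ZMod M) = ((((d : ZMod M).val : ℕ) : ℤ) : ZMod M)
    simp

/-! ### The automorphism -/

/-- the diamond automorphism of `L·F1 M`, from the permutation principle -/
def diamondOf (L : Type*) [Field L] [Algebra ℚ L] (d : (ZMod M)ˣ)
    (h : SameRelations L (genL M L) (genL M L ∘ genPerm d)) :
    laurentBaseChange L (F1 M) ≃ₐ[L] laurentBaseChange L (F1 M) :=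
  (IntermediateField.equivOfEq (baseChange_eq_adjoin L)).trans
    ((permAut (genPerm d) h).trans (IntermediateField.equivOfEq (baseChange_eq_adjoin L).symm))

theorem coe_diamondOf_gen (L : Type*) [Field L] [Algebra ℚ L] (d : (ZMod M)ˣ)
    (h : SameRelations L (genL M L) (genL M L ∘ genPerm d)) (i : GenIdx M)
    (y : laurentBaseChange L (F1 M)) (hy : (y : LaurentSeries L) = genL M L i) :
    ((diamondOf L d h y : laurentBaseChange L (F1 M)) : LaurentSeries L) =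
      genL M L (genPerm d i) := by
  unfold diamondOf
  rw [AlgEquiv.trans_apply, AlgEquiv.trans_apply]
  have h1 : IntermediateField.equivOfEq (baseChange_eq_adjoin L) y =
      ⟨genL M L i, gen_mem_adjoin _ i⟩ := Subtype.ext hy
  rw [h1]
  exact coe_permAut_gen (genPerm d) h i

theorem isDiamondAut_diamondOf (L : Type*) [Field L] [Algebra ℚ L] (d : (ZMod M)ˣ)
    (h : SameRelations L (genL M L) (genL M L ∘ genPerm d)) :
    IsDiamondAut M L d (diamondOf L d h) := by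
  refine ⟨fun e inst he y hy => ?_, fun a ha y y' hy hy' => ?_⟩
  · apply Subtype.ext
    have h1 := coe_diamondOf_gen L d h (Sum.inl ⟨e, he⟩) y hy
    rw [h1, genPerm_inl]
    exact hy.symm
  · apply Subtype.ext
    have h1 := coe_diamondOf_gen L d h (Sum.inr ⟨a, ha⟩) y hy
    rw [h1]
    exact hy'.symm

/-! ### The seams -/

/-- **[Dia]** -/
theorem diamondExists_of (hW : WpForms M) (hle : RepLe M) : DiamondExists M := by
  intro L _ _ d
  obtain ⟨σ, hσ, hd⟩ := exists_mem_Gamma0 d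
  exact ⟨_, isDiamondAut_diamondOf L d (sameRelations_L L hW hle hσ d hd)⟩

theorem baseChange_le_repIF1 (hle : RepLe M) : laurentBaseChange ℂ (F1 M) ≤ repIF1 M :=
  fun _ hx => hle hx

/-- **[Dia], analytic form** -/
theorem diamondAn_of (hW : WpForms M) (hle : RepLe M) : DiamondAn M := by
  intro σ hσ d hd
  have hrel := sameRelations_C hW hle hσ d hd
  obtain ⟨P, hP, hPσ⟩ := hW
  refine ⟨diamondOf ℂ d hrel, isDiamondAut_diamondOf ℂ d hrel, ?_⟩
  have key : ∀ x : laurentBaseChange ℂ (F1 M),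
      ((diamondOf ℂ d hrel x : laurentBaseChange ℂ (F1 M)) : LaurentSeries ℂ) =
        dmap σ hσ ⟨x, hle x.2⟩ := by
    have h12 : (laurentBaseChange ℂ (F1 M)).val.comp (diamondOf ℂ d hrel).toAlgHom =
        (dmapA σ hσ).comp (IntermediateField.inclusion (baseChange_le_repIF1 hle)) := by
      refine IntermediateField.algHom_ext_of_eq_adjoin ℂ (baseChange_eq_adjoin ℂ) ?_
      rintro _ ⟨i, rfl⟩
      have e1 := coe_diamondOf_gen ℂ d hrel i ⟨genL M ℂ i, genL_mem ℂ i⟩ rfl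
      have e2 := dmap_gen hP hPσ hle hσ d hd i
      exact e1.trans e2.symm
    intro x
    exact AlgHom.congr_fun h12 x
  intro x k A B hrep
  rw [key x]
  exact (dmap_spec hσ ⟨x, hle x.2⟩ hrep).symm

end Fermat.Agent.S48.B.B1.Diamond

end
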