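import Mathlib
import Fermat.Agent.S48.B.B1.Diamond

/-!
# PROJECT D (S48), block B1 (helper7): uniqueness and composition of the diamond automorphisms

`IsDiamondAut M L d δ` only speaks about the generators `genL M L i` of `L·F1 M`
(`Diamond.baseChange_eq_adjoin`), hence determines `δ`.
-/

set_option autoImplicit false
set_option linter.unusedSectionVars false

noncomputable section

namespace Fermat.Agent.S48.B.B1.DiamondUnique

open ModularCurve IntermediateField
open Fermat.Agent.S48.B.Defs.Model Fermat.Agent.S48.B.B1.Seams Fermat.Agent.S48.B.B1.Seams2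
open Fermat.Agent.S48.B.B1.Diamond

variable {M : ℕ} [NeZero M] {L : Type*} [Field L] [Algebra ℚ L]

/-- the generator `genL M L i` as an element of `L·F1 M` -/
def genE (M : ℕ) [NeZero M] (L : Type*) [Field L] [Algebra ℚ L] (i : GenIdx M) :
    laurentBaseChange L (F1 M) := ⟨genL M L i, genL_mem L i⟩

@[simp] theorem coe_genE (i : GenIdx M) : ((genE M L i : laurentBaseChange L (F1 M)) :
    LaurentSeries L) = genL M L i := rfl

/-- `IsDiamondAut` in terms of the generators -/
theorem isDiamondAut_iff_gen (d : (ZMod M)ˣ)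
    (δ : laurentBaseChange L (F1 M) ≃ₐ[L] laurentBaseChange L (F1 M)) :
    IsDiamondAut M L d δ ↔ ∀ i : GenIdx M, δ (genE M L i) = genE M L (genPerm d i) := by
  constructor
  · rintro ⟨h1, h2⟩ i
    rcases i with e | a
    · exact h1 e.1 (neZero_of_dvd' e.2) e.2 (genE M L (Sum.inl e)) rfl
    · exact h2 a.1 a.2 (genE M L (Sum.inr a)) (genE M L (genPerm d (Sum.inr a))) rfl rfl
  · intro h
    refine ⟨fun e inst he y hy => ?_, fun a ha y y' hy hy' => ?_⟩
    · have e1 : y = genE M L (Sum.inl ⟨e, he⟩) := Subtype.ext hy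
      rw [e1]
      exact h (Sum.inl ⟨e, he⟩)
    · have e1 : y = genE M L (Sum.inr ⟨a, ha⟩) := Subtype.ext hy
      have e2 : y' = genE M L (genPerm d (Sum.inr ⟨a, ha⟩)) := Subtype.ext hy'
      rw [e1, e2]
      exact h (Sum.inr ⟨a, ha⟩)

/-- two algebra homomorphisms out of `L·F1 M` which agree on the generators are equal -/
theorem algHom_ext_gen {Ω : Type*} [Semiring Ω] [Algebra L Ω]
    {φ₁ φ₂ : laurentBaseChange L (F1 M) →ₐ[L] Ω}
    (h : ∀ i : GenIdx M, φ₁ (genE M L i) = φ₂ (genE M L i)) : φ₁ = φ₂ := by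
  refine IntermediateField.algHom_ext_of_eq_adjoin L (baseChange_eq_adjoin L) ?_
  rintro _ ⟨i, rfl⟩
  exact h i

/-- **uniqueness** -/
theorem isDiamondAut_unique {d : (ZMod M)ˣ}
    {δ₁ δ₂ : laurentBaseChange L (F1 M) ≃ₐ[L] laurentBaseChange L (F1 M)}
    (h₁ : IsDiamondAut M L d δ₁) (h₂ : IsDiamondAut M L d δ₂) : δ₁ = δ₂ := by
  have h12 : δ₁.toAlgHom = δ₂.toAlgHom :=
    algHom_ext_gen fun i =>
      (((isDiamondAut_iff_gen d δ₁).mp h₁ i).trans ((isDiamondAut_iff_gen d δ₂).mp h₂ i).symm)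
  exact AlgEquiv.ext fun x => AlgHom.congr_fun h12 x

theorem isDiamondAut_refl : IsDiamondAut M L 1 AlgEquiv.refl := by
  rw [isDiamondAut_iff_gen]
  intro i
  rcases i with e | a
  · rfl
  · show genE M L (Sum.inr a) = genE M L (Sum.inr (mulUnit 1 a))
    congr 2
    apply Subtype.ext
    show a.1 = ((1 : (ZMod M)ˣ) : ZMod M) * a.1
    rw [Units.val_one, one_mul]

theorem genPerm_mul (d d' : (ZMod M)ˣ) (i : GenIdx M) :
    genPerm (d * d') i = genPerm d (genPerm d' i) := by
  rcases i with e | a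
  · rfl
  · show Sum.inr (mulUnit (d * d') a) = Sum.inr (mulUnit d (mulUnit d' a))
    congr 1
    apply Subtype.ext
    show ((d * d' : (ZMod M)ˣ) : ZMod M) * a.1 = (d : ZMod M) * ((d' : ZMod M) * a.1)
    rw [Units.val_mul, mul_assoc]

/-- composition: `⟨d d'⟩^* = ⟨d⟩^* ∘ ⟨d'⟩^*` (the group `(ℤ/M)ˣ` is commutative, either order) -/
theorem isDiamondAut_trans {d d' : (ZMod M)ˣ}
    {δ δ' : laurentBaseChange L (F1 M) ≃ₐ[L] laurentBaseChange L (F1 M)}
    (h : IsDiamondAut M L d δ) (h' : IsDiamondAut M L d' δ') :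
    IsDiamondAut M L (d * d') (δ'.trans δ) := by
  rw [isDiamondAut_iff_gen] at h h' ⊢
  intro i
  rw [AlgEquiv.trans_apply, h' i, h (genPerm d' i), genPerm_mul]

theorem isDiamondAut_symm {d : (ZMod M)ˣ}
    {δ : laurentBaseChange L (F1 M) ≃ₐ[L] laurentBaseChange L (F1 M)}
    (h : IsDiamondAut M L d δ) : IsDiamondAut M L d⁻¹ δ.symm := by
  rw [isDiamondAut_iff_gen] at h ⊢
  intro i
  rw [AlgEquiv.symm_apply_eq, h (genPerm d⁻¹ i), ← genPerm_mul, mul_inv_cancel]
  rcases i with e | a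
  · rfl
  · show genE M L (Sum.inr a) = genE M L (Sum.inr (mulUnit 1 a))
    congr 2
    apply Subtype.ext
    show a.1 = ((1 : (ZMod M)ˣ) : ZMod M) * a.1
    rw [Units.val_one, one_mul]

/-! ### `diamondAut` -/

theorem exists_isDiamondAut (hW : WpForms M) (hle : RepLe M) (d : (ZMod M)ˣ) :
    ∃ δ, IsDiamondAut M L d δ := by
  obtain ⟨σ, hσ, hd⟩ := exists_mem_Gamma0 d
  exact ⟨_, isDiamondAut_diamondOf L d (sameRelations_L L hW hle hσ d hd)⟩

/-- `diamondAut M L d` is the diamond automorphism -/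
theorem diamondAut_spec (hW : WpForms M) (hle : RepLe M) (d : (ZMod M)ˣ) :
    IsDiamondAut M L d (diamondAut M L d) :=
  isDiamondAut_diamondAut M L (exists_isDiamondAut hW hle d)

theorem diamondAut_gen (hW : WpForms M) (hle : RepLe M) (d : (ZMod M)ˣ) (i : GenIdx M) :
    diamondAut M L d (genE M L i) = genE M L (genPerm d i) :=
  (isDiamondAut_iff_gen d _).mp (diamondAut_spec hW hle d) i

theorem diamondAut_eq_of (hW : WpForms M) (hle : RepLe M) {d : (ZMod M)ˣ}
    {δ : laurentBaseChange L (F1 M) ≃ₐ[L] laurentBaseChange L (F1 M)}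
    (h : IsDiamondAut M L d δ) : diamondAut M L d = δ :=
  isDiamondAut_unique (diamondAut_spec hW hle d) h

theorem diamondAut_one (hW : WpForms M) (hle : RepLe M) :
    diamondAut M L (1 : (ZMod M)ˣ) = AlgEquiv.refl :=
  diamondAut_eq_of hW hle isDiamondAut_refl

theorem diamondAut_mul (hW : WpForms M) (hle : RepLe M) (d d' : (ZMod M)ˣ) :
    diamondAut M L (d * d') = (diamondAut M L d').trans (diamondAut M L d) :=
  diamondAut_eq_of hW hle
    (isDiamondAut_trans (diamondAut_spec hW hle d) (diamondAut_spec hW hle d'))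

theorem diamondAut_inv (hW : WpForms M) (hle : RepLe M) (d : (ZMod M)ˣ) :
    diamondAut M L d⁻¹ = (diamondAut M L d).symm :=
  diamondAut_eq_of hW hle (isDiamondAut_symm (diamondAut_spec hW hle d))

end Fermat.Agent.S48.B.B1.DiamondUnique

end
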