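import Mathlib
import Fermat.Agent.S24.RepAll
import Fermat.Agent.S28.PrimeCaseForm
import Fermat.Agent.S48.B.B1.Seams
import Fermat.Agent.S48.B.B1.RepHom1

/-!
# PROJECT D (S48), part B, block B1, brick [Rb / RepAll1]:
# every element of `ℚ̄(X₁(M))` is a quotient of forms on `Γ₁(M)`, given the Fricke representatives

Twin of main's `S24/RepAll.lean`.

* `isRepOf1_of_isRepOf` : a representation at level `Γ₀(M)` is a representation at level `Γ₁(M)`,
  hence main's `repField M ≤ repField1 M` and the generators `j(q^d)`, `d ∣ M`, are represented;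
* `coeffEmb_frickeH` : the Fricke series is compatible with base change of the coefficients;
* `repLe_of_frickeRep : Seams.FrickeRep M → Seams.RepLe M`  (**[Rep-b]**);
* `toRepField1 M ι h : F1Bar M →+* repField1 M` for `h : Seams.RepLe M`, the coefficientwise map
  along `ι : ℚ̄ →+* ℂ`, with `coe_toRepField1` (by `rfl`) and its value on constants.
-/

set_option autoImplicit false

open UpperHalfPlane CongruenceSubgroup ModularForm
open scoped MatrixGroups ModularForm Manifold

noncomputable section

namespace Fermat.Agent.S48.B.B1.RepAll1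

open Fermat.Agent.S20 Fermat.Agent.S23.QRing Fermat.Agent.S24.RepHom
open Fermat.Agent.S48.B.Defs.Model Fermat.Agent.S48.B.B1.Seams Fermat.Agent.S48.B.B1.RepHom1
open ModularCurve

local notation "Kb" => AlgebraicClosure ℚ

variable (M : ℕ) [NeZero M]

/-! ### From level `Γ₀(M)` to level `Γ₁(M)` -/

omit [NeZero M] in
/-- `G1 M ≤ G0 M` at the level of `GL (Fin 2) ℝ`. -/
theorem G1_le_G0 : G1 M ≤ G0 M := Subgroup.map_mono (Gamma1_in_Gamma0 M)

variable {M}

omit [NeZero M] in
theorem isMF1_of_isMF0 {k : ℤ} {a : ℍ → ℂ} (h : IsMF (G0 M) k a) : IsMF (G1 M) k a :=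
  h.mono (G1_le_G0 M)

omit [NeZero M] in
/-- A representation by forms on `Γ₀(M)` is a representation by forms on `Γ₁(M)`. -/
theorem isRepOf1_of_isRepOf {g : LaurentSeries ℂ} {k : ℤ} {a b : ℍ → ℂ}
    (h : IsRepOf M g k a b) : IsRepOf1 M g k a b :=
  ⟨isMF1_of_isMF0 h.ha, isMF1_of_isMF0 h.hb, h.hb0, h.eq⟩

variable (M)

/-- The `q`-expansions of the modular functions on `Γ₀(M)` are among those on `Γ₁(M)`. -/
theorem repField_le_repField1 : repField M ≤ repField1 M := by
  rintro g ⟨k, a, b, h⟩
  exact ⟨k, a, b, isRepOf1_of_isRepOf h⟩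

/-- The generators `j(q^d)`, `d ∣ M`, are represented by quotients of forms for `Γ₁(M)`. -/
theorem jd_mem_repField1 (d : ℕ) [NeZero d] (hd : d ∣ M) :
    coeffEmb ℂ (qExpand ℚ d jq) ∈ repField1 M :=
  repField_le_repField1 M (Fermat.Agent.S24.RepAll.jd_mem_repField M d hd)

omit [NeZero M] in
/-- Level one: `j(q)` is represented by the level one pair `E₄³`, `Δ`, at level `Γ₁(M)`. -/
theorem isRepOf1_j :
    IsRepOf1 M (coeffEmb ℂ jq) 12 (fun τ : ℍ => E₄ τ ^ 3) (ModularForm.discriminant : ℍ → ℂ) :=
  isRepOf1_of_isRepOf (Fermat.Agent.S24.RepAll.isRepOf_j M)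

/-- Constants of `ℂ((q))` are represented. -/
theorem algebraMap_mem_repField1 (c : ℂ) :
    algebraMap ℂ (LaurentSeries ℂ) c ∈ repField1 M := by
  rw [algebraMap_laurentSeries_eq_single]
  exact const_mem_repField1 c

/-! ### Base change of the Fricke series -/

theorem map_map_intCast {R S : Type*} [CommRing R] [CommRing S] (f : R →+* S)
    (p : PowerSeries ℤ) :
    (p.map (Int.castRingHom R)).map f = p.map (Int.castRingHom S) := by
  ext n
  simp

theorem coeffMap_wNorm {R S : Type*} [CommRing R] [CommRing S] (f : R →+* S) :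
    coeffMap f (wNorm R) = wNorm S := by
  unfold wNorm
  rw [map_mul, coeffMap_single, map_one, coeffMap_ofPowerSeries, map_map_intCast]

theorem coeffMap_frickeH {R S : Type*} [CommRing R] [CommRing S] (f : R →+* S) (a : ZMod M) :
    coeffMap f (frickeH R M a) = frickeH S M a := by
  unfold frickeH
  rw [map_mul, Fermat.Agent.S28.PrimeCaseForm.coeffMap_qExpand, coeffMap_wNorm,
    coeffMap_ofPowerSeries, map_map_intCast]

/-- The Fricke series over `L` is the image of the Fricke series over `ℚ`. -/
theorem coeffEmb_frickeH (L : Type*) [Field L] [Algebra ℚ L] (a : ZMod M) :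
    coeffEmb L (frickeH ℚ M a) = frickeH L M a :=
  coeffMap_frickeH M (algebraMap ℚ L) a

/-! ### [Rep-b] -/

theorem frickeH_mem_repField1 (hF : FrickeRep M) {a : ZMod M} (ha : a ≠ 0) :
    frickeH ℂ M a ∈ repField1 M := by
  obtain ⟨A, B, h⟩ := hF a ha
  exact ⟨12, A, B, h⟩

/-- Every element of `F1 M = ℚ(j(q^d), h_a)` is represented. -/
theorem coeffEmb_mem_repField1_aux (hF : FrickeRep M) {x : LaurentSeries ℚ}
    (hx' : x ∈ Subfield.closure
      (Set.range (algebraMap ℚ (LaurentSeries ℚ)) ∪ (divisorExpansions M ∪ frickeGenerators M))) :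
    coeffEmb ℂ x ∈ repField1 M := by
  induction hx' using Subfield.closure_induction with
  | mem y hy =>
    rcases hy with ⟨a, rfl⟩ | ⟨d, hd0, hd, rfl⟩ | ⟨a, ha, rfl⟩
    · have : coeffEmb ℂ (algebraMap ℚ (LaurentSeries ℚ) a) =
          algebraMap ℂ (LaurentSeries ℂ) (algebraMap ℚ ℂ a) := by
        rw [algebraMap_laurentSeries_eq_single, algebraMap_laurentSeries_eq_single, coeffEmb,
          coeffMap_single]
      rw [this]
      exact algebraMap_mem_repField1 M _
    · have := hd0
      exact jd_mem_repField1 M d hd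
    · rw [coeffEmb_frickeH]
      exact frickeH_mem_repField1 M hF ha
  | one => rw [map_one]; exact (repField1 M).one_mem
  | add y z _ _ hy hz => rw [map_add]; exact (repField1 M).add_mem hy hz
  | neg y _ hy => rw [map_neg]; exact (repField1 M).neg_mem hy
  | inv y _ hy => rw [map_inv₀]; exact (repField1 M).inv_mem hy
  | mul y z _ _ hy hz => rw [map_mul]; exact (repField1 M).mul_mem hy hz

theorem coeffEmb_mem_repField1 (hF : FrickeRep M) {x : LaurentSeries ℚ} (hx : x ∈ F1 M) :
    coeffEmb ℂ x ∈ repField1 M :=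
  coeffEmb_mem_repField1_aux M hF hx

theorem mem_repField1_of_mem_baseChange_aux (hF : FrickeRep M) {f : LaurentSeries ℂ}
    (hf' : f ∈ Subfield.closure
        (Set.range (algebraMap ℂ (LaurentSeries ℂ)) ∪
          (⇑(coeffEmb ℂ) '' (F1 M : Set (LaurentSeries ℚ))))) :
    f ∈ repField1 M := by
  induction hf' using Subfield.closure_induction with
  | mem y hy =>
    rcases hy with ⟨a, rfl⟩ | ⟨z, hz, rfl⟩
    · exact algebraMap_mem_repField1 M _
    · exact coeffEmb_mem_repField1 M hF hz
  | one => exact (repField1 M).one_mem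
  | add y z _ _ hy hz => exact (repField1 M).add_mem hy hz
  | neg y _ hy => exact (repField1 M).neg_mem hy
  | inv y _ hy => exact (repField1 M).inv_mem hy
  | mul y z _ _ hy hz => exact (repField1 M).mul_mem hy hz

/-- **[Rep-b]** `ℂ·F1 M ⊆ repSet1 M`, from the Fricke representatives. -/
theorem repLe_of_frickeRep (hF : FrickeRep M) : RepLe M := by
  intro f hf
  exact mem_repField1_of_mem_baseChange_aux M hF (mem_laurentBaseChange_iff.mp hf)

/-! ### The map `F1Bar M → repField1 M` -/

theorem coeffMap_mem_baseChange_aux (ι : Kb →+* ℂ) {f : LaurentSeries Kb}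
    (hf' : f ∈ Subfield.closure
        (Set.range (algebraMap Kb (LaurentSeries Kb)) ∪
          (⇑(coeffEmb Kb) '' (F1 M : Set (LaurentSeries ℚ))))) :
    coeffMap ι f ∈ laurentBaseChange ℂ (F1 M) := by
  induction hf' using Subfield.closure_induction with
  | mem y hy =>
    rcases hy with ⟨a, rfl⟩ | ⟨z, hz, rfl⟩
    · have : coeffMap ι (algebraMap Kb (LaurentSeries Kb) a) =
          algebraMap ℂ (LaurentSeries ℂ) (ι a) := by
        rw [algebraMap_laurentSeries_eq_single, algebraMap_laurentSeries_eq_single,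
          coeffMap_single]
      rw [this]
      exact (laurentBaseChange ℂ (F1 M)).algebraMap_mem _
    · have : coeffMap ι (coeffEmb Kb z) = coeffEmb ℂ z := by
        rw [coeffEmb, coeffMap_coeffMap]
        exact coeffMap_congr (RingHom.ext_rat _ _) z
      rw [this]
      exact coeffEmb_mem_laurentBaseChange ℂ hz
  | one => rw [map_one]; exact one_mem _
  | add y z _ _ hy hz => rw [map_add]; exact add_mem hy hz
  | neg y _ hy => rw [map_neg]; exact neg_mem hy
  | inv y _ hy => rw [map_inv₀]; exact inv_mem hy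
  | mul y z _ _ hy hz => rw [map_mul]; exact mul_mem hy hz

/-- The coefficientwise image of `ℚ̄(X₁(M))` lies in `ℂ·F1 M`. -/
theorem coeffMap_mem_laurentBaseChange_C (ι : Kb →+* ℂ) {f : LaurentSeries Kb}
    (hf : f ∈ F1Bar M) : coeffMap ι f ∈ laurentBaseChange ℂ (F1 M) :=
  coeffMap_mem_baseChange_aux M ι (mem_laurentBaseChange_iff.mp hf)

/-- Every element of `F1Bar M`, pushed to `ℂ((q))` along `ι`, is represented by a quotient of
forms for `Γ₁(M)`. -/
theorem coeffMap_mem_repField1 (ι : Kb →+* ℂ) (h : RepLe M) {f : LaurentSeries Kb}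
    (hf : f ∈ F1Bar M) : coeffMap ι f ∈ repField1 M :=
  h (coeffMap_mem_laurentBaseChange_C M ι hf)

/-- The same in `IsRepC1` form. -/
theorem exists_rep1 (ι : Kb →+* ℂ) (h : RepLe M) {f : LaurentSeries Kb} (hf : f ∈ F1Bar M) :
    IsRepC1 M (coeffMap ι f) :=
  coeffMap_mem_repField1 M ι h hf

/-- The ring homomorphism from `ℚ̄(X₁(M))` to the field of represented series. -/
def toRepField1 (ι : Kb →+* ℂ) (h : RepLe M) : F1Bar M →+* repField1 M where
  toFun f := ⟨coeffMap ι (f : LaurentSeries Kb), coeffMap_mem_repField1 M ι h f.2⟩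
  map_one' := Subtype.ext (map_one _)
  map_mul' _ _ := Subtype.ext (map_mul _ _ _)
  map_zero' := Subtype.ext (map_zero _)
  map_add' _ _ := Subtype.ext (map_add _ _ _)

@[simp]
theorem coe_toRepField1 (ι : Kb →+* ℂ) (h : RepLe M) (f : F1Bar M) :
    ((toRepField1 M ι h f : repField1 M) : LaurentSeries ℂ) =
      coeffMap ι (f : LaurentSeries Kb) := rfl

/-- The value on constants. -/
theorem toRepField1_algebraMap (ι : Kb →+* ℂ) (h : RepLe M) (c : Kb) :
    toRepField1 M ι h (algebraMap Kb (F1Bar M) c) =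
      ⟨HahnSeries.C (ι c), const_mem_repField1 (ι c)⟩ := by
  apply Subtype.ext
  rw [coe_toRepField1]
  show coeffMap ι (algebraMap Kb (LaurentSeries Kb) c) = HahnSeries.C (ι c)
  rw [algebraMap_laurentSeries_eq_single, coeffMap_single]
  rfl

theorem toRepField1_injective (ι : Kb →+* ℂ) (h : RepLe M) :
    Function.Injective (toRepField1 M ι h) :=
  (toRepField1 M ι h).injective

end Fermat.Agent.S48.B.B1.RepAll1

end
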