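import Mathlib
import Fermat.Agent.S48.B.B1.Seams
import Fermat.Agent.S48.B.B1.Count1.Index
import Fermat.Agent.S48.B.B1.Count1.Free
import Fermat.Agent.S48.B.B1.Count1.Cusps

/-!
# S48 / part B / block B1 / brick Cnt: the orbit counts on `SL(2,ℤ) ⧸ ±Γ₁(M)`

`counts1 M : Seams.Counts1 M`.
-/

set_option autoImplicit false

noncomputable section

namespace Fermat.Agent.S48.B.B1.Count1

open Fermat.Agent.S48.B.B1.Seams

/-- **[Cnt]** index of `±Γ₁(M)`, free action of `S` and `S T`, number of cusps (`M ≥ 5`) -/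
theorem counts1 (M : ℕ) [NeZero M] : Counts1 M := by
  intro hM
  refine ⟨Index.card_Q1 M (by omega), Index.two_dvd_totient_mul_psi M (by omega), ?_, ?_,
    Cusps.card_orbits_T M hM, Cusps.two_dvd_sum M hM⟩
  · rw [Free.two_mul_card_orbits_S M (by omega), Index.card_Q1 M (by omega)]
  · rw [Free.three_mul_card_orbits_ST M (by omega), Index.card_Q1 M (by omega)]

end Fermat.Agent.S48.B.B1.Count1

end
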