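import Mathlib
import Fermat.Agent.S48.B.B1.Seams
import Fermat.Agent.S48.B.B1.RepHom1
import Fermat.Agent.S30.Analytic.RepFieldEq

/-!
# PROJECT D (S48), block B1, brick RepRel1 (helper2): relations of degree `[SL₂(ℤ) : ±Γ₁(M)]`

Twin of the sections Hol / Relation / Transfer / Upper of main's `S30/Analytic/RepFieldEq.lean`
with `(G0 N, Gamma0 N)` replaced by `(G1 M, PG1 M)`.

* `exists_monic_relation_sub` : main's `DegreeRel.exists_monic_relation_of` for an arbitrary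
  subgroup `Γ` of finite index in `SL(2, ℤ)`;
* `holAlg1 M` : the `q`-expansions of the holomorphic invariant functions `a / Δ ^ m`, `a` a form
  of weight `12 m` on `Γ₁(M)`; every element satisfies a monic relation of degree
  `card (Q1 M)` over `ℂ[j]`;
* `exists_relation_of_mem_repSet1` : **every element of `repSet1 M` satisfies a nonzero relation
  `P(j, x) = 0` of `x`-degree `≤ card (Q1 M)`.**
-/

set_option autoImplicit false
set_option linter.unusedSectionVars false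

noncomputable section

namespace Fermat.Agent.S48.B.B1.RepRel1

/-! ### The monic relation for a subgroup of finite index -/

section Generic

open UpperHalfPlane hiding I
open ModularForm Filter Complex MatrixGroups Function
open Fermat.Agent.LevelOne.JBasic Fermat.Agent.S24.LevelOnePoly Fermat.Agent.S24.DegreeRel

variable (Γ : Subgroup SL(2, ℤ))

/-- translate of `r` attached to a coset -/
def translG (r : ℍ → ℂ) (q : SL(2, ℤ) ⧸ Γ) : ℍ → ℂ :=
  fun τ => r (q.out⁻¹ • τ)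

variable {Γ}

lemma translG_mk {r : ℍ → ℂ} (hinv : ∀ γ ∈ Γ, ∀ τ, r (γ • τ) = r τ) (γ : SL(2, ℤ))
    (τ : ℍ) : translG Γ r (γ : SL(2, ℤ) ⧸ Γ) τ = r (γ⁻¹ • τ) := by
  set q : SL(2, ℤ) ⧸ Γ := (γ : SL(2, ℤ) ⧸ Γ) with hq
  have h1 : ((q.out : SL(2, ℤ)) : SL(2, ℤ) ⧸ Γ) = (γ : SL(2, ℤ) ⧸ Γ) :=
    QuotientGroup.out_eq' q
  have h2 : q.out⁻¹ * γ ∈ Γ := QuotientGroup.eq.mp h1
  have h3 : (q.out⁻¹ * γ)⁻¹ ∈ Γ := Γ.inv_mem h2
  have : γ⁻¹ • τ = (q.out⁻¹ * γ)⁻¹ • (q.out⁻¹ • τ) := by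
    rw [← mul_smul]; congr 1; group
  rw [this, hinv _ h3]
  rfl

lemma translG_smul {r : ℍ → ℂ} (hinv : ∀ γ ∈ Γ, ∀ τ, r (γ • τ) = r τ) (g : SL(2, ℤ))
    (q : SL(2, ℤ) ⧸ Γ) (τ : ℍ) : translG Γ r q (g • τ) = translG Γ r (g⁻¹ • q) τ := by
  obtain ⟨γ, rfl⟩ := QuotientGroup.mk_surjective q
  have : g⁻¹ • (γ : SL(2, ℤ) ⧸ Γ) = ((g⁻¹ * γ : SL(2, ℤ)) : SL(2, ℤ) ⧸ Γ) := rfl
  rw [this, translG_mk hinv, translG_mk hinv, ← mul_smul]
  congr 1; group

/-- **Monic relation of degree `[SL(2,ℤ) : Γ]` over `ℂ[j]`** for a `Γ`-invariant holomorphic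
function all of whose `SL(2,ℤ)`-translates have moderate growth at `i∞`. -/
theorem exists_monic_relation_sub [Finite (SL(2, ℤ) ⧸ Γ)] (r : ℍ → ℂ)
    (hinv : ∀ γ ∈ Γ, ∀ τ, r (γ • τ) = r τ)
    (hmod : ∀ g : SL(2, ℤ), (fun τ => r (g • τ)) ∈ modAlg) :
    ∃ Φ : Polynomial (Polynomial ℂ), Φ.Monic ∧
      Φ.natDegree = Nat.card (SL(2, ℤ) ⧸ Γ) ∧
      ∀ τ : ℍ, Polynomial.eval (r τ) (Φ.map (Polynomial.evalRingHom (jFun τ))) = 0 := by
  classical
  let _ : Fintype (SL(2, ℤ) ⧸ Γ) := Fintype.ofFinite _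
  set μ := Fintype.card (SL(2, ℤ) ⧸ Γ) with hμ
  let a : SL(2, ℤ) ⧸ Γ → modAlg := fun q => ⟨translG Γ r q, hmod q.out⁻¹⟩
  let Ψ : Polynomial modAlg := ∏ q, (Polynomial.X - Polynomial.C (a q))
  have hΨmonic : Ψ.Monic := Polynomial.monic_prod_of_monic _ _ fun q _ => Polynomial.monic_X_sub_C _
  have hΨdeg : Ψ.natDegree = μ := by
    rw [Polynomial.natDegree_prod_of_monic _ _ fun q _ => Polynomial.monic_X_sub_C _]
    simp [hμ]
  let ev : ℍ → modAlg →+* ℂ := fun τ =>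
    (Pi.evalRingHom (fun _ : ℍ => ℂ) τ).comp (modAlg.val : modAlg →+* (ℍ → ℂ))
  have hev : ∀ τ q, ev τ (a q) = translG Γ r q τ := fun τ q => rfl
  have hΨmap : ∀ τ, Ψ.map (ev τ) = ∏ q, (Polynomial.X - Polynomial.C (translG Γ r q τ)) := by
    intro τ
    simp only [Ψ, Polynomial.map_prod, Polynomial.map_sub, Polynomial.map_X, Polynomial.map_C, hev]
  have hΨinv : ∀ (g : SL(2, ℤ)) τ, Ψ.map (ev (g • τ)) = Ψ.map (ev τ) := by
    intro g τ
    rw [hΨmap, hΨmap]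
    simp_rw [translG_smul hinv]
    exact Equiv.prod_comp (MulAction.toPerm (g⁻¹ : SL(2, ℤ)))
      (fun q => Polynomial.X - Polynomial.C (translG Γ r q τ))
  -- coefficient functions
  let c : ℕ → ℍ → ℂ := fun i => ((Ψ.coeff i : modAlg) : ℍ → ℂ)
  have hc : ∀ i τ, c i τ = (Ψ.map (ev τ)).coeff i := by
    intro i τ; rw [Polynomial.coeff_map]; rfl
  have hcinv : ∀ i (g : SL(2, ℤ)) τ, c i (g • τ) = c i τ := by
    intro i g τ; rw [hc, hc, hΨinv]
  have hcmem : ∀ i, c i ∈ modAlg := fun i => (Ψ.coeff i).2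
  have hP : ∀ i, ∃ P : Polynomial ℂ, ∀ τ, c i τ = P.eval (jFun τ) := by
    intro i
    obtain ⟨hmd, m, hm⟩ := hcmem i
    obtain ⟨P, -, hP⟩ := exists_polynomial_of_invariant hmd (hcinv i) m hm
    exact ⟨P, hP⟩
  choose P hPc using hP
  set R : Polynomial (Polynomial ℂ) :=
    ∑ i ∈ Finset.range μ, Polynomial.C (P i) * Polynomial.X ^ i with hR
  have hRdeg : R.degree < μ := by
    rw [Polynomial.degree_lt_iff_coeff_zero]
    intro m hm
    rw [hR, Polynomial.finsetSum_coeff]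
    refine Finset.sum_eq_zero fun i hi => ?_
    rw [Polynomial.coeff_C_mul_X_pow]
    have : i < μ := Finset.mem_range.mp hi
    rw [if_neg (by omega)]
  have hnat : (Polynomial.X ^ μ + R).natDegree = μ := by
    have h1 : R.degree < (Polynomial.X ^ μ : Polynomial (Polynomial ℂ)).degree := by
      rw [Polynomial.degree_X_pow]; exact hRdeg
    rw [Polynomial.natDegree_add_eq_left_of_degree_lt h1, Polynomial.natDegree_X_pow]
  refine ⟨Polynomial.X ^ μ + R, Polynomial.monic_X_pow_add hRdeg,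
    hnat.trans (by rw [hμ, Nat.card_eq_fintype_card]), ?_⟩
  intro τ
  have hmapmonic : (Ψ.map (ev τ)).Monic := hΨmonic.map _
  have hmapdeg : (Ψ.map (ev τ)).natDegree = μ := by
    rw [hΨmonic.natDegree_map, hΨdeg]
  have hΦ : (Polynomial.X ^ μ + R).map (Polynomial.evalRingHom (jFun τ)) = Ψ.map (ev τ) := by
    conv_rhs => rw [hmapmonic.as_sum, hmapdeg]
    rw [Polynomial.map_add, Polynomial.map_pow, Polynomial.map_X, hR, Polynomial.map_sum]
    congr 1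
    refine Finset.sum_congr rfl fun i _ => ?_
    rw [Polynomial.map_mul, Polynomial.map_C, Polynomial.map_pow, Polynomial.map_X,
      Polynomial.coe_evalRingHom, ← hPc, hc]
  rw [hΦ, hΨmap, Polynomial.eval_prod]
  refine Finset.prod_eq_zero (Finset.mem_univ ((1 : SL(2, ℤ)) : SL(2, ℤ) ⧸ Γ)) ?_
  rw [Polynomial.eval_sub, Polynomial.eval_X, Polynomial.eval_C, translG_mk hinv]
  simp

end Generic

/-! ### the algebra of `q`-expansions of holomorphic invariant functions `a / Δ ^ m` -/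

section Hol

open UpperHalfPlane CongruenceSubgroup ModularForm Filter
open Fermat.Agent.S20 Fermat.Agent.S23.QRing Fermat.Agent.S24.RepAll
  Fermat.Agent.S24.LmapJ Fermat.Agent.LevelOne.JBasic Fermat.Agent.S24.LevelRaise
  Fermat.Agent.S30.Analytic.RepFieldEq Fermat.Agent.S48.B.B1.Seams Fermat.Agent.S48.B.B1.RepHom1

open Fermat.Agent.S24.RepHom hiding ofPS

open scoped MatrixGroups ModularForm Manifold

local notation "Δ" => ModularForm.discriminant

variable (M : ℕ) [NeZero M]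

theorem G1_le_G0 : G1 M ≤ G0 M :=
  Subgroup.map_mono (Gamma1_in_Gamma0 M)

/-- A form for `Γ₀(M)` is a form for `Γ₁(M)`. -/
theorem isMF_of_G0 {k : ℤ} {f : ℍ → ℂ} (h : IsMF (G0 M) k f) : IsMF (G1 M) k f :=
  h.mono (G1_le_G0 M)

theorem isMF_disc1 : IsMF (G1 M) 12 (Δ : ℍ → ℂ) := isMF_of_G0 M (isMF_disc M)

theorem isMF_disc_pow1 (m : ℕ) : IsMF (G1 M) (12 * m) ((Δ : ℍ → ℂ) ^ m) :=
  isMF_of_G0 M (isMF_disc_pow M m)

/-- `q`-expansions of the functions `a / Δ ^ m`, `a` a form of weight `12 m` for `Γ₁(M)` -/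
def holAlg1 : Subalgebra ℂ (LaurentSeries ℂ) where
  carrier := {z | ∃ (m : ℕ) (a : ℍ → ℂ), IsMF (G1 M) (12 * m) a ∧ z * dser ^ m = ofPS (qx a)}
  mul_mem' := by
    rintro z z' ⟨m, a, ha, hz⟩ ⟨m', a', ha', hz'⟩
    refine ⟨m + m', a * a', (ha.mul ha').cast (by push_cast; ring), ?_⟩
    rw [qx_mul (isQ_of_isMF1 ha) (isQ_of_isMF1 ha'), map_mul, ← hz, ← hz', pow_add]
    ring
  add_mem' := by
    rintro z z' ⟨m, a, ha, hz⟩ ⟨m', a', ha', hz'⟩
    have h1 : IsMF (G1 M) (12 * (m + m' : ℕ)) (a * (Δ : ℍ → ℂ) ^ m') :=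
      (ha.mul (isMF_disc_pow1 M m')).cast (by push_cast; ring)
    have h2 : IsMF (G1 M) (12 * (m + m' : ℕ)) (a' * (Δ : ℍ → ℂ) ^ m) :=
      (ha'.mul (isMF_disc_pow1 M m)).cast (by push_cast; ring)
    refine ⟨m + m', a * (Δ : ℍ → ℂ) ^ m' + a' * (Δ : ℍ → ℂ) ^ m, h1.add h2, ?_⟩
    rw [qx_add (isQ_of_isMF1 h1) (isQ_of_isMF1 h2),
      qx_mul (isQ_of_isMF1 ha) (isQ_of_isMF1 (isMF_disc_pow1 M m')),
      qx_mul (isQ_of_isMF1 ha') (isQ_of_isMF1 (isMF_disc_pow1 M m)), map_add, map_mul, map_mul,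
      ofPS_qx_disc_pow, ofPS_qx_disc_pow, ← hz, ← hz', pow_add]
    ring
  algebraMap_mem' := by
    intro c
    refine ⟨0, fun _ => c, (IsMF.const c).cast (by simp), ?_⟩
    rw [pow_zero, mul_one, qx_const, HahnSeries.ofPowerSeries_C, LaurentSeries.algebraMap_apply]

theorem mem_holAlg1 {z : LaurentSeries ℂ} : z ∈ holAlg1 M ↔
    ∃ (m : ℕ) (a : ℍ → ℂ), IsMF (G1 M) (12 * m) a ∧ z * dser ^ m = ofPS (qx a) := Iff.rfl

theorem jC_mem_holAlg1 : jC ∈ holAlg1 M := by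
  refine ⟨1, ⇑E4cube, isMF_of_G0 M ((isRepOf_jC M).ha.cast (by norm_num)), ?_⟩
  have := (isRepOf_jC M).eq
  rw [pow_one, dser]
  exact this.symm

end Hol

/-! ### the monic relation of degree `card (Q1 M)` for the elements of `holAlg1 M` -/

section Relation

open UpperHalfPlane CongruenceSubgroup ModularForm Filter
open Fermat.Agent.S20 Fermat.Agent.S23.QRing Fermat.Agent.S24.RepAll
  Fermat.Agent.S24.LmapJ Fermat.Agent.LevelOne.JBasic Fermat.Agent.S24.LevelRaise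
  Fermat.Agent.S24.DegreeRel Fermat.Agent.S24.LevelOnePoly
  Fermat.Agent.S30.Analytic.RepFieldEq Fermat.Agent.S48.B.B1.Seams Fermat.Agent.S48.B.B1.RepHom1

open Fermat.Agent.S24.RepHom hiding ofPS

open scoped MatrixGroups ModularForm Manifold

local notation "Δ" => ModularForm.discriminant

variable {M : ℕ} [NeZero M]

instance finite_Q1 : Finite (Q1 M) := by
  have h : (PG1 M).FiniteIndex := Subgroup.finiteIndex_of_le (Gamma1_le_PG1 (M := M))
  exact Subgroup.finite_quotient_of_finiteIndex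

theorem smul_eq_of_isMF1 {k : ℤ} {a : ℍ → ℂ} (ha : IsMF (G1 M) k a) {γ : SL(2, ℤ)}
    (hγ : γ ∈ Gamma1 M) (τ : ℍ) : a (γ • τ) = denom γ τ ^ k * a τ := by
  obtain ⟨A, rfl⟩ := ha
  have hγ' : (γ : GL (Fin 2) ℝ) ∈ G1 M := ⟨γ, hγ, rfl⟩
  exact SlashInvariantForm.slash_action_eqn'' A hγ' τ

theorem rfun_smul_of_mem1 {m : ℕ} {a : ℍ → ℂ} (ha : IsMF (G1 M) (12 * m) a) {γ : SL(2, ℤ)}
    (hγ : γ ∈ Gamma1 M) (τ : ℍ) : rfun m a (γ • τ) = rfun m a τ := by
  have hd : denom γ τ ≠ 0 := denom_ne_zero γ τ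
  have hΔ : Δ τ ≠ 0 := discriminant_ne_zero τ
  rw [rfun, rfun, smul_eq_of_isMF1 ha hγ, Fermat.Agent.S24.LevelOnePoly.discriminant_smul, mul_pow,
    ← zpow_natCast (denom γ τ ^ (12 : ℤ)) m, ← zpow_mul]
  field_simp

theorem rfun_smul_of_mem_PG1 {m : ℕ} {a : ℍ → ℂ} (ha : IsMF (G1 M) (12 * m) a) {γ : SL(2, ℤ)}
    (hγ : γ ∈ PG1 M) (τ : ℍ) : rfun m a (γ • τ) = rfun m a τ := by
  rcases mem_PG1_iff.mp hγ with h | h
  · exact rfun_smul_of_mem1 ha h τ
  · have h1 := rfun_smul_of_mem1 ha h τ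
    rwa [ModularGroup.SL_neg_smul] at h1

theorem rfun_comp_mem_modAlg1 {m : ℕ} {a : ℍ → ℂ} (ha : IsMF (G1 M) (12 * m) a) (g : SL(2, ℤ)) :
    (fun τ => rfun m a (g • τ)) ∈ modAlg := by
  obtain ⟨A, rfl⟩ := ha
  have hfun : (fun τ => rfun m (⇑A) (g • τ)) = (⇑A ∣[(12 * m : ℤ)] g) / (Δ : ℍ → ℂ) ^ m := by
    funext τ
    rw [rfun_smul]
    rfl
  rw [hfun]
  refine ⟨(mdiff_slash g A.holo').div (Fermat.Agent.S24.LevelOnePoly.mdiff_discriminant.pow m)
    (fun τ => pow_ne_zero m (discriminant_ne_zero τ)), m, ?_⟩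
  have h2 : (fun τ => ((⇑A ∣[(12 * m : ℤ)] g) / (Δ : ℍ → ℂ) ^ m) τ * Δ τ ^ m) =
      ⇑A ∣[(12 * m : ℤ)] g := by
    funext τ
    simp only [Pi.div_apply, Pi.pow_apply]
    exact div_mul_cancel₀ _ (pow_ne_zero m (discriminant_ne_zero τ))
  rw [h2]
  exact ModularFormClass.bdd_at_infty_slash A g

/-- the monic relation of degree `card (Q1 M)` over `ℂ[j]`, function level -/
theorem exists_monic_relation_rfun1 {m : ℕ} {a : ℍ → ℂ} (ha : IsMF (G1 M) (12 * m) a) :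
    ∃ Φ : Polynomial (Polynomial ℂ), Φ.Monic ∧
      Φ.natDegree = Nat.card (Q1 M) ∧
      ∀ τ : ℍ, Polynomial.eval (rfun m a τ) (Φ.map (Polynomial.evalRingHom (jFun τ))) = 0 :=
  exists_monic_relation_sub (Γ := PG1 M) (rfun m a)
    (fun _ hγ τ => rfun_smul_of_mem_PG1 ha hγ τ) (fun g => rfun_comp_mem_modAlg1 ha g)

end Relation

/-! ### transfer of relations from functions to Laurent series -/

section Transfer

open UpperHalfPlane CongruenceSubgroup ModularForm Filter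
open Fermat.Agent.S20 Fermat.Agent.S24.RepAll
  Fermat.Agent.S24.LmapJ Fermat.Agent.LevelOne.JBasic Fermat.Agent.S24.LevelRaise
  Fermat.Agent.S24.QRep
  Fermat.Agent.S30.Analytic.RepFieldEq Fermat.Agent.S48.B.B1.Seams Fermat.Agent.S48.B.B1.RepHom1

open scoped MatrixGroups ModularForm Manifold

local notation "Δ" => ModularForm.discriminant
local notation "𝕢" => Function.Periodic.qParam

variable {M : ℕ} [NeZero M]

theorem rep_rfun1 {m : ℕ} {a : ℍ → ℂ} (ha : IsMF (G1 M) (12 * m) a) {z : LaurentSeries ℂ}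
    (hz : z * dser ^ m = ofPS (Fermat.Agent.S23.QRing.qx a)) : Rep (rfun m a) z := by
  have hfun : (fun τ : ℍ => rfun m a τ * 𝕢 1 τ ^ m) = a * Ufun ^ m := by
    funext τ
    simp only [rfun, Pi.mul_apply, Pi.pow_apply, Ufun, div_pow]
    ring
  have haQ : IsQ a := isQ_bridge (isQ_of_isMF1 ha)
  refine ⟨m, ?_, ?_⟩
  · rw [hfun]
    exact haQ.mul (isQ_Ufun.pow m)
  · rw [hfun, haQ.qExpansion_mul (isQ_Ufun.pow m), isQ_Ufun.qExpansion_pow, map_mul, map_pow]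
    have h1 : ofPS (qExpansion 1 a) = z * dser ^ m := hz.symm
    rw [h1, mul_assoc, ← mul_pow, mul_comm dser, ofPS_qExpansion_Ufun_mul_dser,
      HahnSeries.single_pow, one_pow]
    simp

/-- **every element of `holAlg1 M` satisfies a monic relation of degree `card (Q1 M)` over
`ℂ[j]`** -/
theorem exists_monic_relation_of_mem_holAlg1 {z : LaurentSeries ℂ} (hz : z ∈ holAlg1 M) :
    ∃ Φ : Polynomial (Polynomial ℂ), Φ.Monic ∧
      Φ.natDegree = Nat.card (Q1 M) ∧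
      Polynomial.eval₂
        (Polynomial.aeval jC : Polynomial ℂ →ₐ[ℂ] LaurentSeries ℂ).toRingHom z Φ = 0 := by
  obtain ⟨m, a, ha, hza⟩ := hz
  obtain ⟨Φ, hmon, hdeg, hrel⟩ := exists_monic_relation_rfun1 ha
  refine ⟨Φ, hmon, hdeg, ?_⟩
  rw [(rep_poly₂ (rep_rfun1 ha hza) Φ).eq_zero_iff]
  exact funext hrel

end Transfer

/-! ### every element of `repSet1 M` has degree `≤ card (Q1 M)` over `ℂ(j)` -/

section Upper

open UpperHalfPlane CongruenceSubgroup ModularForm Filter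
open Fermat.Agent.S20 Fermat.Agent.S23.QRing Fermat.Agent.S24.RepAll
  Fermat.Agent.S24.LmapJ Fermat.Agent.LevelOne.JBasic Fermat.Agent.S24.LevelRaise
  Fermat.Agent.S30.Analytic.RepFieldEq Fermat.Agent.S48.B.B1.Seams Fermat.Agent.S48.B.B1.RepHom1

open Fermat.Agent.S24.RepHom hiding ofPS

open scoped MatrixGroups ModularForm Manifold

local notation "Δ" => ModularForm.discriminant

variable (M : ℕ) [NeZero M]

theorem evJ_mem_holAlg1 (s : Polynomial ℂ) : evJ s ∈ holAlg1 M := by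
  have := Polynomial.aeval_subalgebra_coe s (holAlg1 M) ⟨jC, jC_mem_holAlg1 M⟩
  show Polynomial.aeval jC s ∈ holAlg1 M
  rw [← this]
  exact SetLike.coe_mem _

/-- clearing the denominator: a nonzero element of `holAlg1 M` divides a nonzero polynomial in `j`
inside `holAlg1 M` -/
theorem exists_mul_eq_evJ1 {z : LaurentSeries ℂ} (hz : z ∈ holAlg1 M) (hz0 : z ≠ 0) :
    ∃ s : Polynomial ℂ, s ≠ 0 ∧ ∃ t ∈ holAlg1 M, z * t = evJ s := by
  obtain ⟨Φ, hmon, -, hrel⟩ := exists_monic_relation_of_mem_holAlg1 hz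
  obtain ⟨q, hq, hqX⟩ := Polynomial.exists_eq_pow_rootMultiplicity_mul_and_not_dvd Φ hmon.ne_zero 0
  simp only [Polynomial.C_0, sub_zero, Polynomial.X_dvd_iff] at hq hqX
  have h1 : Polynomial.eval₂ (evJ) z q = 0 := by
    rw [hq, Polynomial.eval₂_mul, Polynomial.eval₂_pow, Polynomial.eval₂_X] at hrel
    exact (mul_eq_zero.mp hrel).resolve_left (pow_ne_zero _ hz0)
  obtain ⟨q', hq'⟩ := Polynomial.X_dvd_sub_C (p := q)
  have h2 : q = Polynomial.X * q' + Polynomial.C (q.coeff 0) := by rw [← hq']; ring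
  have h3 : z * Polynomial.eval₂ (evJ) z q' + evJ (q.coeff 0) = 0 := by
    rw [h2, Polynomial.eval₂_add, Polynomial.eval₂_mul, Polynomial.eval₂_X, Polynomial.eval₂_C]
      at h1
    exact h1
  have hmem : ∀ p : Polynomial (Polynomial ℂ), Polynomial.eval₂ (evJ) z p ∈ holAlg1 M := by
    intro p
    induction p using Polynomial.induction_on with
    | C a => rw [Polynomial.eval₂_C]; exact evJ_mem_holAlg1 M a
    | add p q hp hq => rw [Polynomial.eval₂_add]; exact (holAlg1 M).add_mem hp hq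
    | monomial n a _ =>
      rw [Polynomial.eval₂_mul, Polynomial.eval₂_C, Polynomial.eval₂_pow, Polynomial.eval₂_X]
      exact (holAlg1 M).mul_mem (evJ_mem_holAlg1 M a) ((holAlg1 M).pow_mem hz _)
  refine ⟨q.coeff 0, hqX, -Polynomial.eval₂ (evJ) z q', (holAlg1 M).neg_mem (hmem q'), ?_⟩
  linear_combination (-1 : LaurentSeries ℂ) * h3

theorem isMF_E₄1 : IsMF (G1 M) 4 (⇑ModularForm.E₄ : ℍ → ℂ) := isMF_of_G0 M (isMF_E₄ M)

/-- **Upper bound**: every element of `repSet1 M` satisfies a nonzero two-variable relation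
`P(j, x) = 0` of `x`-degree `≤ card (Q1 M) = [SL(2, ℤ) : ±Γ₁(M)]`. -/
theorem exists_relation_of_mem_repSet1 {x : LaurentSeries ℂ} (hx : x ∈ repSet1 M) :
    ∃ P : Polynomial (Polynomial ℂ), P ≠ 0 ∧
      P.natDegree ≤ Nat.card (Q1 M) ∧ Polynomial.eval₂ (evJ) x P = 0 := by
  obtain ⟨k, a, b, h⟩ := hx
  set j : ℕ := (-k).toNat with hj
  set m : ℕ := k.toNat with hm
  have hkjm : k + (j : ℤ) = (m : ℤ) := by
    rw [hj, hm]
    rcases le_or_gt 0 k with hk | hk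
    · rw [Int.toNat_of_nonneg hk, Int.toNat_of_nonpos (by omega)]
      simp
    · rw [Int.toNat_of_nonpos hk.le, Int.toNat_of_nonneg (by omega)]
      simp
  -- the auxiliary forms
  set c : ℍ → ℂ := (⇑ModularForm.E₄ : ℍ → ℂ) ^ (3 * j) with hc
  have hcMF : IsMF (G1 M) (12 * j) c := ((isMF_E₄1 M).pow (3 * j)).cast (by push_cast; ring)
  have hcQ : IsQ c := isQ_of_isMF1 hcMF
  have haQ : IsQ a := isQ_of_isMF1 h.ha
  have hbQ : IsQ b := isQ_of_isMF1 h.hb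
  have hb11 : IsMF (G1 M) (11 * k) (b ^ 11) := (h.hb.pow 11).cast (by push_cast; ring)
  have hb12 : IsMF (G1 M) (12 * k) (b ^ 12) := (h.hb.pow 12).cast (by push_cast; ring)
  have hn1 : IsMF (G1 M) (12 * m) (a * b ^ 11 * c) :=
    ((h.ha.mul hb11).mul hcMF).cast (by rw [← hkjm]; ring)
  have hn2 : IsMF (G1 M) (12 * m) (b ^ 12 * c) :=
    (hb12.mul hcMF).cast (by rw [← hkjm]; ring)
  have hd0 : dser ^ m ≠ 0 := pow_ne_zero m dser_ne_zero
  have hqb : ofPS (qx b) ≠ 0 := IsRepOf1x.qx_b_ne_zero h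
  have hqc : ofPS (qx c) ≠ 0 := by
    rw [hc, qx_pow (isQ_of_isMF1 (isMF_E₄1 M)), map_pow]
    refine pow_ne_zero _ ?_
    intro h0
    have h1 : qx (⇑ModularForm.E₄ : ℍ → ℂ) = 0 := ofPS_injective (by rw [h0, map_zero])
    exact E₄_fun_ne_zero ((qx_eq_zero_iff (isQ_of_isMF1 (isMF_E₄1 M))).mp h1)
  have e1 : ofPS (qx (a * b ^ 11 * c)) = ofPS (qx a) * ofPS (qx b) ^ 11 * ofPS (qx c) := by
    rw [qx_mul (haQ.mul (hbQ.pow 11)) hcQ, qx_mul haQ (hbQ.pow 11), qx_pow hbQ, map_mul, map_mul,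
      map_pow]
  have e2 : ofPS (qx (b ^ 12 * c)) = ofPS (qx b) ^ 12 * ofPS (qx c) := by
    rw [qx_mul (hbQ.pow 12) hcQ, qx_pow hbQ, map_mul, map_pow]
  set z1 : LaurentSeries ℂ := ofPS (qx (a * b ^ 11 * c)) / dser ^ m with hz1
  set z2 : LaurentSeries ℂ := ofPS (qx (b ^ 12 * c)) / dser ^ m with hz2
  have hz1mem : z1 ∈ holAlg1 M := ⟨m, _, hn1, div_mul_cancel₀ _ hd0⟩
  have hz2mem : z2 ∈ holAlg1 M := ⟨m, _, hn2, div_mul_cancel₀ _ hd0⟩
  have hz2ne : z2 ≠ 0 := by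
    rw [hz2, e2]
    exact div_ne_zero (mul_ne_zero (pow_ne_zero _ hqb) hqc) hd0
  have hxz : x * z2 = z1 := by
    rw [hz1, hz2, e1, e2, h.eq]
    field_simp
  obtain ⟨s, hs0, t, ht, hzt⟩ := exists_mul_eq_evJ1 M hz2mem hz2ne
  have hy : evJ s * x ∈ holAlg1 M := by
    have : evJ s * x = z1 * t := by rw [← hzt, ← hxz]; ring
    rw [this]
    exact (holAlg1 M).mul_mem hz1mem ht
  obtain ⟨Φ, hmon, hdeg, hrel⟩ := exists_monic_relation_of_mem_holAlg1 hy
  refine ⟨Φ.comp (Polynomial.C s * Polynomial.X), ?_, ?_, ?_⟩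
  · intro h0
    have := congrArg (fun q => Polynomial.coeff q Φ.natDegree) h0
    simp only [Polynomial.comp_C_mul_X_coeff, Polynomial.coeff_zero] at this
    rw [hmon.coeff_natDegree, one_mul] at this
    exact pow_ne_zero _ hs0 this
  · calc (Φ.comp (Polynomial.C s * Polynomial.X)).natDegree
        ≤ Φ.natDegree * (Polynomial.C s * Polynomial.X).natDegree := Polynomial.natDegree_comp_le
      _ ≤ Φ.natDegree * 1 := by
          gcongr
          exact (Polynomial.natDegree_C_mul_le _ _).trans (by simp)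
      _ = Nat.card (Q1 M) := by rw [mul_one, hdeg]
  · rw [Polynomial.eval₂_comp, Polynomial.eval₂_mul, Polynomial.eval₂_C, Polynomial.eval₂_X]
    exact hrel

end Upper

end Fermat.Agent.S48.B.B1.RepRel1
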