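import Mathlib
import Fermat.Agent.S48.B.ES.RepG
import Fermat.Agent.S48.B.B1.RepRel1
import Fermat.Agent.S30.Analytic.RepFieldEq

/-!
# PROJECT D (S48), block B1, brick RepRelG (helper2): relations of degree `[SL₂(ℤ) : ±Γ]`, any `Γ`

The level-free version of `RepRel1.lean`, on helper8's `ES/RepG.lean`: `Γ ≤ SL(2, ℤ)` any subgroup
of finite index with `T ∈ Γ`; `±Γ := Γ ⊔ ⟨-1⟩`.

* `holAlgG Γ` : the `q`-expansions of the holomorphic invariant functions `a / Δ ^ m`, `a` a form of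
  weight `12 m` on `Γ`;
* `exists_relation_of_isRepCG` : **every `x` with `IsRepCG Γ x` satisfies a nonzero relation
  `P(j, x) = 0` of `x`-degree `≤ [SL(2, ℤ) : ±Γ]`.**
-/

set_option autoImplicit false
set_option linter.unusedSectionVars false

noncomputable section

namespace Fermat.Agent.S48.B.B1.RepRelG

open UpperHalfPlane CongruenceSubgroup ModularForm Filter
open Fermat.Agent.S20 Fermat.Agent.S23.QRing Fermat.Agent.S24.RepAll
  Fermat.Agent.S24.LmapJ Fermat.Agent.LevelOne.JBasic Fermat.Agent.S24.LevelRaise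
  Fermat.Agent.S24.DegreeRel Fermat.Agent.S24.LevelOnePoly
  Fermat.Agent.S30.Analytic.RepFieldEq Fermat.Agent.S48.B.ES.RepG

open Fermat.Agent.S24.RepHom

open scoped MatrixGroups ModularForm Manifold

local notation "Δ" => ModularForm.discriminant
local notation "𝕢" => Function.Periodic.qParam

/-- `±Γ` -/
abbrev PG (Γ : Subgroup SL(2, ℤ)) : Subgroup SL(2, ℤ) := Γ ⊔ Subgroup.zpowers (-1 : SL(2, ℤ))

/-- the subgroup of `SL(2, ℤ)` leaving a function on `ℍ` invariant -/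
def invSub (r : ℍ → ℂ) : Subgroup SL(2, ℤ) where
  carrier := {γ | ∀ τ : ℍ, r (γ • τ) = r τ}
  one_mem' := fun τ => by rw [one_smul]
  mul_mem' := fun {a b} ha hb τ => by rw [mul_smul, ha, hb]
  inv_mem' := fun {a} ha τ => by
    have h := ha (a⁻¹ • τ)
    rw [smul_inv_smul] at h
    exact h.symm

theorem mem_invSub {r : ℍ → ℂ} {γ : SL(2, ℤ)} : γ ∈ invSub r ↔ ∀ τ : ℍ, r (γ • τ) = r τ := Iff.rfl

theorem neg_one_mem_invSub (r : ℍ → ℂ) : (-1 : SL(2, ℤ)) ∈ invSub r := by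
  intro τ
  rw [ModularGroup.SL_neg_smul, one_smul]

theorem PG_le_invSub {Γ : Subgroup SL(2, ℤ)} {r : ℍ → ℂ} (h : Γ ≤ invSub r) : PG Γ ≤ invSub r :=
  sup_le h ((Subgroup.zpowers_le).mpr (neg_one_mem_invSub r))

variable (Γ : Subgroup SL(2, ℤ)) [hT : Fact (ModularGroup.T ∈ Γ)]

/-! ### the algebra of `q`-expansions of holomorphic invariant functions `a / Δ ^ m` -/

theorem GG_le_SL : GG Γ ≤ 𝒮ℒ :=
  Subgroup.map_le_range (Matrix.SpecialLinearGroup.mapGL ℝ) Γ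

/-- A level one form is a form for `Γ`. -/
theorem isMF_of_levelOne {k : ℤ} {f : ℍ → ℂ} (h : IsMF 𝒮ℒ k f) : IsMF (GG Γ) k f :=
  h.mono (GG_le_SL Γ)

theorem isMF_discG : IsMF (GG Γ) 12 (Δ : ℍ → ℂ) := isMF_of_levelOne Γ isMF_discriminant

theorem isMF_disc_powG (m : ℕ) : IsMF (GG Γ) (12 * m) ((Δ : ℍ → ℂ) ^ m) :=
  ((isMF_discG Γ).pow m).cast (mul_comm _ _)

/-- `q`-expansions of the functions `a / Δ ^ m`, `a` a form of weight `12 m` for `Γ` -/
def holAlgG : Subalgebra ℂ (LaurentSeries ℂ) where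
  carrier := {z | ∃ (m : ℕ) (a : ℍ → ℂ), IsMF (GG Γ) (12 * m) a ∧ z * dser ^ m = ofPS (qx a)}
  mul_mem' := by
    rintro z z' ⟨m, a, ha, hz⟩ ⟨m', a', ha', hz'⟩
    refine ⟨m + m', a * a', (ha.mul ha').cast (by push_cast; ring), ?_⟩
    rw [qx_mul (isQ_of_isMFG ha) (isQ_of_isMFG ha'), map_mul, ← hz, ← hz', pow_add]
    ring
  add_mem' := by
    rintro z z' ⟨m, a, ha, hz⟩ ⟨m', a', ha', hz'⟩
    have h1 : IsMF (GG Γ) (12 * (m + m' : ℕ)) (a * (Δ : ℍ → ℂ) ^ m') :=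
      (ha.mul (isMF_disc_powG Γ m')).cast (by push_cast; ring)
    have h2 : IsMF (GG Γ) (12 * (m + m' : ℕ)) (a' * (Δ : ℍ → ℂ) ^ m) :=
      (ha'.mul (isMF_disc_powG Γ m)).cast (by push_cast; ring)
    refine ⟨m + m', a * (Δ : ℍ → ℂ) ^ m' + a' * (Δ : ℍ → ℂ) ^ m, h1.add h2, ?_⟩
    rw [qx_add (isQ_of_isMFG h1) (isQ_of_isMFG h2),
      qx_mul (isQ_of_isMFG ha) (isQ_of_isMFG (isMF_disc_powG Γ m')),
      qx_mul (isQ_of_isMFG ha') (isQ_of_isMFG (isMF_disc_powG Γ m)), map_add, map_mul, map_mul,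
      ofPS_qx_disc_pow, ofPS_qx_disc_pow, ← hz, ← hz', pow_add]
    ring
  algebraMap_mem' := by
    intro c
    refine ⟨0, fun _ => c, (IsMF.const c).cast (by simp), ?_⟩
    rw [pow_zero, mul_one, qx_const, HahnSeries.ofPowerSeries_C, LaurentSeries.algebraMap_apply]

theorem mem_holAlgG {z : LaurentSeries ℂ} : z ∈ holAlgG Γ ↔
    ∃ (m : ℕ) (a : ℍ → ℂ), IsMF (GG Γ) (12 * m) a ∧ z * dser ^ m = ofPS (qx a) := Iff.rfl

theorem jC_mem_holAlgG : jC ∈ holAlgG Γ := by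
  refine ⟨1, ⇑E4cube, isMF_of_levelOne Γ ((IsMF.coe E4cube).cast (by norm_num)), ?_⟩
  have := ofPS_qx_E4cube
  rw [pow_one, dser]
  exact this.symm

/-! ### the monic relation of degree `[SL(2, ℤ) : ±Γ]` for the elements of `holAlgG Γ` -/

variable {Γ}

theorem smul_eq_of_isMFG {k : ℤ} {a : ℍ → ℂ} (ha : IsMF (GG Γ) k a) {γ : SL(2, ℤ)}
    (hγ : γ ∈ Γ) (τ : ℍ) : a (γ • τ) = denom γ τ ^ k * a τ := by
  obtain ⟨A, rfl⟩ := ha
  have hγ' : (γ : GL (Fin 2) ℝ) ∈ GG Γ := ⟨γ, hγ, rfl⟩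
  exact SlashInvariantForm.slash_action_eqn'' A hγ' τ

theorem rfun_smul_of_memG {m : ℕ} {a : ℍ → ℂ} (ha : IsMF (GG Γ) (12 * m) a) {γ : SL(2, ℤ)}
    (hγ : γ ∈ Γ) (τ : ℍ) : rfun m a (γ • τ) = rfun m a τ := by
  have hd : denom γ τ ≠ 0 := denom_ne_zero γ τ
  have hΔ : Δ τ ≠ 0 := discriminant_ne_zero τ
  rw [rfun, rfun, smul_eq_of_isMFG ha hγ, Fermat.Agent.S24.LevelOnePoly.discriminant_smul, mul_pow,
    ← zpow_natCast (denom γ τ ^ (12 : ℤ)) m, ← zpow_mul]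
  field_simp

theorem rfun_smul_of_mem_PG {m : ℕ} {a : ℍ → ℂ} (ha : IsMF (GG Γ) (12 * m) a) {γ : SL(2, ℤ)}
    (hγ : γ ∈ PG Γ) (τ : ℍ) : rfun m a (γ • τ) = rfun m a τ := by
  have h1 : Γ ≤ invSub (rfun m a) := fun δ hδ τ => rfun_smul_of_memG ha hδ τ
  exact PG_le_invSub h1 hγ τ

theorem rfun_comp_mem_modAlgG [Γ.FiniteIndex] {m : ℕ} {a : ℍ → ℂ} (ha : IsMF (GG Γ) (12 * m) a) (g : SL(2, ℤ)) :
    (fun τ => rfun m a (g • τ)) ∈ modAlg := by
  obtain ⟨A, rfl⟩ := ha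
  have hfun : (fun τ => rfun m (⇑A) (g • τ)) = (⇑A ∣[(12 * m : ℤ)] g) / (Δ : ℍ → ℂ) ^ m := by
    funext τ
    rw [rfun_smul]
    rfl
  rw [hfun]
  refine ⟨(mdiff_slash g A.holo').div (Fermat.Agent.S24.LevelOnePoly.mdiff_discriminant.pow m)
    (fun τ => pow_ne_zero m (discriminant_ne_zero τ)), m, ?_⟩
  have h2 : (fun τ => ((⇑A ∣[(12 * m : ℤ)] g) / (Δ : ℍ → ℂ) ^ m) τ * Δ τ ^ m) =
      ⇑A ∣[(12 * m : ℤ)] g := by
    funext τ
    simp only [Pi.div_apply, Pi.pow_apply]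
    exact div_mul_cancel₀ _ (pow_ne_zero m (discriminant_ne_zero τ))
  rw [h2]
  exact ModularFormClass.bdd_at_infty_slash A g

variable [hfin : Γ.FiniteIndex]

instance finite_quotient_PG : Finite (SL(2, ℤ) ⧸ PG Γ) := by
  have h : (PG Γ).FiniteIndex := Subgroup.finiteIndex_of_le (le_sup_left : Γ ≤ PG Γ)
  exact Subgroup.finite_quotient_of_finiteIndex

/-- the monic relation of degree `[SL(2, ℤ) : ±Γ]` over `ℂ[j]`, function level -/
theorem exists_monic_relation_rfunG {m : ℕ} {a : ℍ → ℂ} (ha : IsMF (GG Γ) (12 * m) a) :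
    ∃ Φ : Polynomial (Polynomial ℂ), Φ.Monic ∧
      Φ.natDegree = Nat.card (SL(2, ℤ) ⧸ PG Γ) ∧
      ∀ τ : ℍ, Polynomial.eval (rfun m a τ) (Φ.map (Polynomial.evalRingHom (jFun τ))) = 0 :=
  RepRel1.exists_monic_relation_sub (Γ := PG Γ) (rfun m a)
    (fun _ hγ τ => rfun_smul_of_mem_PG ha hγ τ) (fun g => rfun_comp_mem_modAlgG ha g)

/-! ### transfer of relations from functions to Laurent series -/

open Fermat.Agent.S24.QRep in
theorem rep_rfunG {m : ℕ} {a : ℍ → ℂ} (ha : IsMF (GG Γ) (12 * m) a) {z : LaurentSeries ℂ}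
    (hz : z * dser ^ m = ofPS (Fermat.Agent.S23.QRing.qx a)) : Rep (rfun m a) z := by
  have hfun : (fun τ : ℍ => rfun m a τ * 𝕢 1 τ ^ m) = a * Ufun ^ m := by
    funext τ
    simp only [rfun, Pi.mul_apply, Pi.pow_apply, Ufun, div_pow]
    ring
  have haQ : Fermat.Agent.S24.QRep.IsQ a := isQ_bridge (isQ_of_isMFG ha)
  refine ⟨m, ?_, ?_⟩
  · rw [hfun]
    exact haQ.mul (isQ_Ufun.pow m)
  · rw [hfun, haQ.qExpansion_mul (isQ_Ufun.pow m), isQ_Ufun.qExpansion_pow, map_mul, map_pow]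
    have h1 : ofPS (qExpansion 1 a) = z * dser ^ m := hz.symm
    rw [h1, mul_assoc, ← mul_pow, mul_comm dser, ofPS_qExpansion_Ufun_mul_dser,
      HahnSeries.single_pow, one_pow]
    simp

/-- **every element of `holAlgG Γ` satisfies a monic relation of degree `[SL(2, ℤ) : ±Γ]` over
`ℂ[j]`** -/
theorem exists_monic_relation_of_mem_holAlgG {z : LaurentSeries ℂ} (hz : z ∈ holAlgG Γ) :
    ∃ Φ : Polynomial (Polynomial ℂ), Φ.Monic ∧
      Φ.natDegree = Nat.card (SL(2, ℤ) ⧸ PG Γ) ∧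
      Polynomial.eval₂
        (Polynomial.aeval jC : Polynomial ℂ →ₐ[ℂ] LaurentSeries ℂ).toRingHom z Φ = 0 := by
  obtain ⟨m, a, ha, hza⟩ := hz
  obtain ⟨Φ, hmon, hdeg, hrel⟩ := exists_monic_relation_rfunG ha
  refine ⟨Φ, hmon, hdeg, ?_⟩
  rw [(rep_poly₂ (rep_rfunG ha hza) Φ).eq_zero_iff]
  exact funext hrel

/-! ### every represented series has degree `≤ [SL(2, ℤ) : ±Γ]` over `ℂ(j)` -/

variable (Γ)

theorem evJ_mem_holAlgG (s : Polynomial ℂ) : evJ s ∈ holAlgG Γ := by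
  have := Polynomial.aeval_subalgebra_coe s (holAlgG Γ) ⟨jC, jC_mem_holAlgG Γ⟩
  show Polynomial.aeval jC s ∈ holAlgG Γ
  rw [← this]
  exact SetLike.coe_mem _

/-- clearing the denominator: a nonzero element of `holAlgG Γ` divides a nonzero polynomial in `j`
inside `holAlgG Γ` -/
theorem exists_mul_eq_evJG {z : LaurentSeries ℂ} (hz : z ∈ holAlgG Γ) (hz0 : z ≠ 0) :
    ∃ s : Polynomial ℂ, s ≠ 0 ∧ ∃ t ∈ holAlgG Γ, z * t = evJ s := by
  obtain ⟨Φ, hmon, -, hrel⟩ := exists_monic_relation_of_mem_holAlgG hz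
  obtain ⟨q, hq, hqX⟩ := Polynomial.exists_eq_pow_rootMultiplicity_mul_and_not_dvd Φ hmon.ne_zero 0
  simp only [Polynomial.C_0, sub_zero, Polynomial.X_dvd_iff] at hq hqX
  have h1 : Polynomial.eval₂ (evJ) z q = 0 := by
    rw [hq, Polynomial.eval₂_mul, Polynomial.eval₂_pow, Polynomial.eval₂_X] at hrel
    exact (mul_eq_zero.mp hrel).resolve_left (pow_ne_zero _ hz0)
  obtain ⟨q', hq'⟩ := Polynomial.X_dvd_sub_C (p := q)
  have h2 : q = Polynomial.X * q' + Polynomial.C (q.coeff 0) := by rw [← hq']; ring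
  have h3 : z * Polynomial.eval₂ (evJ) z q' + evJ (q.coeff 0) = 0 := by
    rw [h2, Polynomial.eval₂_add, Polynomial.eval₂_mul, Polynomial.eval₂_X, Polynomial.eval₂_C]
      at h1
    exact h1
  have hmem : ∀ p : Polynomial (Polynomial ℂ), Polynomial.eval₂ (evJ) z p ∈ holAlgG Γ := by
    intro p
    induction p using Polynomial.induction_on with
    | C a => rw [Polynomial.eval₂_C]; exact evJ_mem_holAlgG Γ a
    | add p q hp hq => rw [Polynomial.eval₂_add]; exact (holAlgG Γ).add_mem hp hq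
    | monomial n a _ =>
      rw [Polynomial.eval₂_mul, Polynomial.eval₂_C, Polynomial.eval₂_pow, Polynomial.eval₂_X]
      exact (holAlgG Γ).mul_mem (evJ_mem_holAlgG Γ a) ((holAlgG Γ).pow_mem hz _)
  refine ⟨q.coeff 0, hqX, -Polynomial.eval₂ (evJ) z q', (holAlgG Γ).neg_mem (hmem q'), ?_⟩
  linear_combination (-1 : LaurentSeries ℂ) * h3

theorem isMF_E₄G : IsMF (GG Γ) 4 (⇑ModularForm.E₄ : ℍ → ℂ) :=
  isMF_of_levelOne Γ (IsMF.coe ModularForm.E₄)

/-- **Upper bound**: every series represented by a quotient of forms for `Γ` satisfies a nonzero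
two-variable relation `P(j, x) = 0` of `x`-degree `≤ [SL(2, ℤ) : ±Γ]`. -/
theorem exists_relation_of_isRepCG {x : LaurentSeries ℂ} (hx : IsRepCG Γ x) :
    ∃ P : Polynomial (Polynomial ℂ), P ≠ 0 ∧
      P.natDegree ≤ Nat.card (SL(2, ℤ) ⧸ PG Γ) ∧ Polynomial.eval₂ (evJ) x P = 0 := by
  obtain ⟨k, a, b, h⟩ := hx
  set j : ℕ := (-k).toNat with hj
  set m : ℕ := k.toNat with hm
  have hkjm : k + (j : ℤ) = (m : ℤ) := by
    rw [hj, hm]
    rcases le_or_gt 0 k with hk | hk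
    · rw [Int.toNat_of_nonneg hk, Int.toNat_of_nonpos (by omega)]
      simp
    · rw [Int.toNat_of_nonpos hk.le, Int.toNat_of_nonneg (by omega)]
      simp
  -- the auxiliary forms
  set c : ℍ → ℂ := (⇑ModularForm.E₄ : ℍ → ℂ) ^ (3 * j) with hc
  have hcMF : IsMF (GG Γ) (12 * j) c := ((isMF_E₄G Γ).pow (3 * j)).cast (by push_cast; ring)
  have hcQ : IsQ c := isQ_of_isMFG hcMF
  have haQ : IsQ a := isQ_of_isMFG h.ha
  have hbQ : IsQ b := isQ_of_isMFG h.hb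
  have hb11 : IsMF (GG Γ) (11 * k) (b ^ 11) := (h.hb.pow 11).cast (by push_cast; ring)
  have hb12 : IsMF (GG Γ) (12 * k) (b ^ 12) := (h.hb.pow 12).cast (by push_cast; ring)
  have hn1 : IsMF (GG Γ) (12 * m) (a * b ^ 11 * c) :=
    ((h.ha.mul hb11).mul hcMF).cast (by rw [← hkjm]; ring)
  have hn2 : IsMF (GG Γ) (12 * m) (b ^ 12 * c) :=
    (hb12.mul hcMF).cast (by rw [← hkjm]; ring)
  have hd0 : dser ^ m ≠ 0 := pow_ne_zero m dser_ne_zero
  have hqb : ofPS (qx b) ≠ 0 := h.qx_b_ne_zero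
  have hqc : ofPS (qx c) ≠ 0 := by
    rw [hc, qx_pow (isQ_of_isMFG (isMF_E₄G Γ)), map_pow]
    refine pow_ne_zero _ ?_
    intro h0
    have h1 : qx (⇑ModularForm.E₄ : ℍ → ℂ) = 0 := ofPS_injective (by rw [h0, map_zero])
    exact E₄_fun_ne_zero ((qx_eq_zero_iff (isQ_of_isMFG (isMF_E₄G Γ))).mp h1)
  have e1 : ofPS (qx (a * b ^ 11 * c)) = ofPS (qx a) * ofPS (qx b) ^ 11 * ofPS (qx c) := by
    rw [qx_mul (haQ.mul (hbQ.pow 11)) hcQ, qx_mul haQ (hbQ.pow 11), qx_pow hbQ, map_mul, map_mul,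
      map_pow]
  have e2 : ofPS (qx (b ^ 12 * c)) = ofPS (qx b) ^ 12 * ofPS (qx c) := by
    rw [qx_mul (hbQ.pow 12) hcQ, qx_pow hbQ, map_mul, map_pow]
  set z1 : LaurentSeries ℂ := ofPS (qx (a * b ^ 11 * c)) / dser ^ m with hz1
  set z2 : LaurentSeries ℂ := ofPS (qx (b ^ 12 * c)) / dser ^ m with hz2
  have hz1mem : z1 ∈ holAlgG Γ := ⟨m, _, hn1, div_mul_cancel₀ _ hd0⟩
  have hz2mem : z2 ∈ holAlgG Γ := ⟨m, _, hn2, div_mul_cancel₀ _ hd0⟩
  have hz2ne : z2 ≠ 0 := by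
    rw [hz2, e2]
    exact div_ne_zero (mul_ne_zero (pow_ne_zero _ hqb) hqc) hd0
  have hxz : x * z2 = z1 := by
    rw [hz1, hz2, e1, e2, h.eq]
    field_simp
  obtain ⟨s, hs0, t, ht, hzt⟩ := exists_mul_eq_evJG Γ hz2mem hz2ne
  have hy : evJ s * x ∈ holAlgG Γ := by
    have : evJ s * x = z1 * t := by rw [← hzt, ← hxz]; ring
    rw [this]
    exact (holAlgG Γ).mul_mem hz1mem ht
  obtain ⟨Φ, hmon, hdeg, hrel⟩ := exists_monic_relation_of_mem_holAlgG hy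
  refine ⟨Φ.comp (Polynomial.C s * Polynomial.X), ?_, ?_, ?_⟩
  · intro h0
    have := congrArg (fun q => Polynomial.coeff q Φ.natDegree) h0
    simp only [Polynomial.comp_C_mul_X_coeff, Polynomial.coeff_zero] at this
    rw [hmon.coeff_natDegree, one_mul] at this
    exact pow_ne_zero _ hs0 this
  · calc (Φ.comp (Polynomial.C s * Polynomial.X)).natDegree
        ≤ Φ.natDegree * (Polynomial.C s * Polynomial.X).natDegree := Polynomial.natDegree_comp_le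
      _ ≤ Φ.natDegree * 1 := by
          gcongr
          exact (Polynomial.natDegree_C_mul_le _ _).trans (by simp)
      _ = Nat.card (SL(2, ℤ) ⧸ PG Γ) := by rw [mul_one, hdeg]
  · rw [Polynomial.eval₂_comp, Polynomial.eval₂_mul, Polynomial.eval₂_C, Polynomial.eval₂_X]
    exact hrel

end Fermat.Agent.S48.B.B1.RepRelG
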