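import Mathlib
import Fermat.Agent.S48.B.Defs.Model

/-!
# PROJECT D (S48), block B1, brick F (helper7): formal facts on the Tate series `tateX M a`

* `coeff_tateX` : the coefficient formula, `ind M a d = [d ≡ a] + [d ≡ -a] - 2 [d ≡ 0]`;
* `tateX_neg` : `tateX M (-a) = tateX M a`;
* `lead M a = min a.val (M - a.val)` : for `a ≠ 0` the coefficients of `tateX M a` below `lead M a`
  vanish and the coefficient at `lead M a` is `1` or `2`;
* `tateX_eq_iff` : `tateX M a = tateX M b ↔ a = b ∨ a = -b` (`a, b ≠ 0`);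
* `frickeH_eq_iff` : the same for the Fricke functions over a field of characteristic zero: the
  diamond automorphisms `h_a ↦ h_{d a}`, `d ∈ (ℤ/M)ˣ/±1`, are pairwise distinct.
-/

set_option autoImplicit false
set_option linter.unusedSectionVars false

noncomputable section

namespace Fermat.Agent.S48.B.B1.TateX

open ModularCurve Fermat.Agent.S48.B.Defs.Model

variable (M : ℕ) [NeZero M]

/-- `[d ≡ a] + [d ≡ -a] - 2 [d ≡ 0]` -/
def ind (a : ZMod M) (d : ℕ) : ℤ :=
  ((if ((d : ℕ) : ZMod M) = a then 1 else 0) + (if ((d : ℕ) : ZMod M) = -a then 1 else 0)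
      - 2 * (if ((d : ℕ) : ZMod M) = 0 then 1 else 0))

theorem coeff_tateX (a : ZMod M) (n : ℕ) :
    PowerSeries.coeff n (tateX M a) = ∑ d ∈ n.divisors, ((n / d : ℕ) : ℤ) * ind M a d := by
  unfold tateX
  rw [PowerSeries.coeff_mk]
  rfl

theorem ind_neg (a : ZMod M) (d : ℕ) : ind M (-a) d = ind M a d := by
  unfold ind
  rw [neg_neg]
  ring

theorem tateX_neg (a : ZMod M) : tateX M (-a) = tateX M a := by
  ext n
  rw [coeff_tateX, coeff_tateX]
  exact Finset.sum_congr rfl fun d _ => by rw [ind_neg]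

/-- the order of `tateX M a` -/
def lead (a : ZMod M) : ℕ := min a.val (M - a.val)

variable {M}

theorem val_pos_of_ne_zero {a : ZMod M} (ha : a ≠ 0) : 0 < a.val :=
  Nat.pos_of_ne_zero fun h => ha ((ZMod.val_eq_zero a).mp h)

theorem lead_pos {a : ZMod M} (ha : a ≠ 0) : 0 < lead M a := by
  have h1 := val_pos_of_ne_zero ha
  have h2 := ZMod.val_lt a
  unfold lead
  omega

theorem lead_lt {a : ZMod M} (ha : a ≠ 0) : lead M a < M := by
  have h1 := val_pos_of_ne_zero ha
  have h2 := ZMod.val_lt a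
  unfold lead
  omega

theorem natCast_eq_iff_of_lt {a : ZMod M} {d : ℕ} (hd : d < M) :
    ((d : ℕ) : ZMod M) = a ↔ d = a.val := by
  constructor
  · intro h
    rw [← h, ZMod.val_natCast, Nat.mod_eq_of_lt hd]
  · intro h
    rw [h, ZMod.natCast_zmod_val]

theorem neg_val_of_ne_zero {a : ZMod M} (ha : a ≠ 0) : (-a).val = M - a.val := by
  rw [ZMod.neg_val, if_neg ha]

theorem natCast_ne_zero_of_lt {d : ℕ} (hd0 : 0 < d) (hd : d < M) : ((d : ℕ) : ZMod M) ≠ 0 := by
  intro h
  rw [ZMod.natCast_eq_zero_iff] at h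
  exact absurd (Nat.le_of_dvd hd0 h) (by omega)

theorem ind_eq_zero_of_lt {a : ZMod M} (ha : a ≠ 0) {d : ℕ} (hd0 : 0 < d)
    (hd : d < lead M a) : ind M a d = 0 := by
  have h1 := val_pos_of_ne_zero ha
  have h2 := ZMod.val_lt a
  have hdM : d < M := lt_trans hd (lead_lt ha)
  have hlead : lead M a = min a.val (M - a.val) := rfl
  have e1 : ¬ ((d : ℕ) : ZMod M) = a := by
    rw [natCast_eq_iff_of_lt hdM]
    omega
  have e2 : ¬ ((d : ℕ) : ZMod M) = -a := by
    rw [natCast_eq_iff_of_lt hdM, neg_val_of_ne_zero ha]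
    omega
  have e3 : ¬ ((d : ℕ) : ZMod M) = 0 := natCast_ne_zero_of_lt hd0 hdM
  unfold ind
  rw [if_neg e1, if_neg e2, if_neg e3]
  ring

theorem ind_lead_pos {a : ZMod M} (ha : a ≠ 0) : 0 < ind M a (lead M a) := by
  have h1 := val_pos_of_ne_zero ha
  have h2 := ZMod.val_lt a
  have hdM : lead M a < M := lead_lt ha
  have hlead : lead M a = min a.val (M - a.val) := rfl
  have e3 : ¬ ((lead M a : ℕ) : ZMod M) = 0 := natCast_ne_zero_of_lt (lead_pos ha) hdM
  have e12 : ((lead M a : ℕ) : ZMod M) = a ∨ ((lead M a : ℕ) : ZMod M) = -a := by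
    rw [natCast_eq_iff_of_lt hdM, natCast_eq_iff_of_lt hdM, neg_val_of_ne_zero ha]
    omega
  unfold ind
  rw [if_neg e3]
  rcases e12 with e | e
  · rw [if_pos e]
    split_ifs <;> norm_num
  · rw [if_pos e]
    split_ifs <;> norm_num

theorem coeff_tateX_of_lt {a : ZMod M} (ha : a ≠ 0) {n : ℕ} (hn : n < lead M a) :
    PowerSeries.coeff n (tateX M a) = 0 := by
  rw [coeff_tateX]
  refine Finset.sum_eq_zero fun d hd => ?_
  have hd' := Nat.mem_divisors.mp hd
  have hd0 : 0 < d := Nat.pos_of_dvd_of_pos hd'.1 (Nat.pos_of_ne_zero hd'.2)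
  have hdn : d ≤ n := Nat.le_of_dvd (Nat.pos_of_ne_zero hd'.2) hd'.1
  rw [ind_eq_zero_of_lt ha hd0 (lt_of_le_of_lt hdn hn), mul_zero]

theorem coeff_tateX_lead {a : ZMod M} (ha : a ≠ 0) :
    PowerSeries.coeff (lead M a) (tateX M a) = ind M a (lead M a) := by
  have hpos := lead_pos ha
  rw [coeff_tateX, Finset.sum_eq_single_of_mem (lead M a)
    (Nat.mem_divisors_self _ hpos.ne')]
  · rw [Nat.div_self hpos, Nat.cast_one, one_mul]
  · intro d hd hne
    have hd' := Nat.mem_divisors.mp hd
    have hd0 : 0 < d := Nat.pos_of_dvd_of_pos hd'.1 hpos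
    have hdn : d ≤ lead M a := Nat.le_of_dvd hpos hd'.1
    rw [ind_eq_zero_of_lt ha hd0 (lt_of_le_of_ne hdn hne), mul_zero]

theorem coeff_tateX_lead_ne_zero {a : ZMod M} (ha : a ≠ 0) :
    PowerSeries.coeff (lead M a) (tateX M a) ≠ 0 := by
  rw [coeff_tateX_lead ha]
  exact (ind_lead_pos ha).ne'

theorem lead_eq_of_tateX_eq {a b : ZMod M} (ha : a ≠ 0) (hb : b ≠ 0)
    (h : tateX M a = tateX M b) : lead M a = lead M b := by
  rcases lt_trichotomy (lead M a) (lead M b) with hlt | heq | hgt
  · exact absurd (h ▸ coeff_tateX_of_lt hb hlt) (coeff_tateX_lead_ne_zero ha)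
  · exact heq
  · exact absurd (h ▸ coeff_tateX_of_lt ha hgt) (coeff_tateX_lead_ne_zero hb)

theorem eq_or_eq_neg_of_lead_eq {a b : ZMod M} (ha : a ≠ 0) (hb : b ≠ 0)
    (h : lead M a = lead M b) : a = b ∨ a = -b := by
  have h1 := val_pos_of_ne_zero ha
  have h2 := ZMod.val_lt a
  have h3 := val_pos_of_ne_zero hb
  have h4 := ZMod.val_lt b
  have hla : lead M a = min a.val (M - a.val) := rfl
  have hlb : lead M b = min b.val (M - b.val) := rfl
  have h5 : a.val = b.val ∨ a.val = M - b.val := by omega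
  rcases h5 with h5 | h5
  · exact Or.inl (ZMod.val_injective M h5)
  · right
    apply ZMod.val_injective M
    rw [neg_val_of_ne_zero hb]
    exact h5

/-- **`tateX M a = tateX M b ↔ a = ± b`** -/
theorem tateX_eq_iff {a b : ZMod M} (ha : a ≠ 0) (hb : b ≠ 0) :
    tateX M a = tateX M b ↔ a = b ∨ a = -b := by
  constructor
  · intro h
    exact eq_or_eq_neg_of_lead_eq ha hb (lead_eq_of_tateX_eq ha hb h)
  · rintro (rfl | rfl)
    · rfl
    · exact tateX_neg M b

/-! ### The Fricke functions -/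

theorem constantCoeff_eisenstein6 : PowerSeries.constantCoeff eisenstein6 = 1 := by
  rw [← PowerSeries.coeff_zero_eq_constantCoeff]
  unfold eisenstein6
  rw [PowerSeries.coeff_mk, if_pos rfl]

theorem constantCoeff_wNum : PowerSeries.constantCoeff wNum = 1 := by
  unfold wNum
  rw [map_mul, map_mul, constantCoeff_eisenstein4, constantCoeff_eisenstein6,
    constantCoeff_dedekindEtaUnitInv, mul_one, mul_one]

theorem wNorm_ne_zero (L : Type*) [Field L] : wNorm L ≠ 0 := by
  unfold wNorm
  refine mul_ne_zero ?_ ?_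
  · intro h
    have h1 := congrArg (fun x : LaurentSeries L => x.coeff (-1)) h
    simp only [HahnSeries.coeff_single_same, HahnSeries.coeff_zero] at h1
    exact one_ne_zero h1
  · intro h
    have h1 : wNum.map (Int.castRingHom L) = 0 :=
      HahnSeries.ofPowerSeries_injective (by rw [h, map_zero])
    have h2 := congrArg (PowerSeries.constantCoeff (R := L)) h1
    rw [← PowerSeries.coeff_zero_eq_constantCoeff, PowerSeries.coeff_map,
      PowerSeries.coeff_zero_eq_constantCoeff, constantCoeff_wNum, map_one, map_zero] at h2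
    exact one_ne_zero h2

theorem map_tateX_injective (L : Type*) [Field L] [CharZero L] {x y : PowerSeries ℤ}
    (h : (12 * x + 1).map (Int.castRingHom L) = (12 * y + 1).map (Int.castRingHom L)) : x = y := by
  have hinj : Function.Injective (PowerSeries.map (Int.castRingHom L)) := by
    intro u v huv
    ext n
    have := congrArg (PowerSeries.coeff n) huv
    rw [PowerSeries.coeff_map, PowerSeries.coeff_map] at this
    exact Int.cast_injective this
  have h1 : 12 * x + 1 = 12 * y + 1 := hinj h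
  have h2 : (12 : PowerSeries ℤ) * x = 12 * y := add_right_cancel h1
  ext n
  have h3 := congrArg (PowerSeries.coeff n) h2
  have h12 : (12 : PowerSeries ℤ) = PowerSeries.C (12 : ℤ) := by
    rw [map_ofNat]
  rw [h12, PowerSeries.coeff_C_mul, PowerSeries.coeff_C_mul] at h3
  exact mul_left_cancel₀ (by norm_num) h3

/-- **`h_a = h_b ↔ a = ± b`** over any field of characteristic zero -/
theorem frickeH_eq_iff (L : Type*) [Field L] [CharZero L] {a b : ZMod M} (ha : a ≠ 0)
    (hb : b ≠ 0) : frickeH L M a = frickeH L M b ↔ a = b ∨ a = -b := by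
  constructor
  · intro h
    unfold frickeH at h
    have h0 : qExpand L M (wNorm L) ≠ 0 := by
      intro h0
      exact wNorm_ne_zero L (qExpand_injective (R := L) M (by rw [h0, map_zero]))
    have h1 := mul_left_cancel₀ h0 h
    have h2 := HahnSeries.ofPowerSeries_injective h1
    exact (tateX_eq_iff ha hb).mp (map_tateX_injective L h2)
  · intro h
    unfold frickeH
    rw [(tateX_eq_iff ha hb).mpr h]

theorem frickeH_neg (L : Type*) [CommRing L] (a : ZMod M) : frickeH L M (-a) = frickeH L M a := by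
  unfold frickeH
  rw [tateX_neg]

end Fermat.Agent.S48.B.B1.TateX

end
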