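import Mathlib
import Fermat.Agent.S48.B.B1.Seams2
import Fermat.Agent.S48.B.B1.TateX

/-!
# PROJECT D (S48), block B1: `Seams2.FrickeInj M` is a theorem (helper7)
-/

set_option autoImplicit false

namespace Fermat.Agent.S48.B.B1.FrickeInj

open Fermat.Agent.S48.B.B1

theorem frickeInj (M : ℕ) [NeZero M] : Seams2.FrickeInj M :=
  fun _ _ ha hb h => (TateX.frickeH_eq_iff ℚ ha hb).mp h

end Fermat.Agent.S48.B.B1.FrickeInj
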