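import Mathlib
import Fermat.Agent.S48.B.B1.Seams
import Fermat.Agent.S48.B.B1.Seams2
import Fermat.Agent.S48.B.B1.FrickeInj
import Fermat.Agent.S48.B.B1.Degree1.Upper
import Fermat.Agent.S48.B.B1.Degree1.Index
import Fermat.Agent.S24.Degree

/-!
# PROJECT D (S48), block B1, brick Deg (helper2): the degree of `X₁(M)` over the `j`-line

* `Upper.degLe_of_repLe : RepLe M → DegLe M` (file `Degree1/Upper.lean`);
* `deg1_of`, `gal1_of` : `DegLe M → DiamondExists M → Seams2.FrickeInj M → Deg1 M` and `… → Gal1 M`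
  (`Seams2.FrickeInj M` is the theorem `FrickeInj.frickeInj M` of helper7).

The tower `ℚ̄(j) ⊆ ℚ̄(X₀(M)) ⊆ ℚ̄(X₁(M))`: the bottom has degree `[SL₂(ℤ) : Γ₀(M)]` (main's
`Degree.finrank_eq_card`), the top has at least `|(ℤ/M)ˣ / ±1|` automorphisms (the diamond
automorphisms, pairwise distinct up to sign by `FrickeInj`), and
`[SL₂(ℤ) : ±Γ₁(M)] = [SL₂(ℤ) : Γ₀(M)] · |(ℤ/M)ˣ / ±1|` (file `Degree1/Index.lean`).
-/

set_option autoImplicit false
set_option linter.unusedSectionVars false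

noncomputable section

namespace Fermat.Agent.S48.B.B1.Degree1

open Polynomial ModularCurve IntermediateField CongruenceSubgroup
open Fermat.Agent.S24.DegreeAlg Fermat.Agent.S48.B.Defs.Model Fermat.Agent.S48.B.B1.Seams
open Fermat.Agent.S48.B.B1.Degree1.Upper Fermat.Agent.S48.B.B1.Degree1.Index
open Fermat.Agent.S48.B.B1.Seams2 (FrickeInj)
open scoped MatrixGroups

local notation "Kb" => AlgebraicClosure ℚ

variable (M : ℕ) [NeZero M]

/-! ### The tower -/

/-- the inclusion `ℚ̄(X₀(M)) → ℚ̄(X₁(M))` -/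
abbrev incl : modularFunctionFieldBar M →ₐ[Kb] F1Bar M :=
  IntermediateField.inclusion (laurentBaseChange_mono Kb (full_le_F1 M))

theorem F0in1_eq_map : F0in1 M = (⊤ : IntermediateField Kb (modularFunctionFieldBar M)).map (incl M) :=
  AlgHom.fieldRange_eq_map (incl M)

theorem adjoin_jgen1_eq_map : Kb⟮jgen1 M⟯ = (Kb⟮jgen M⟯).map (incl M) := by
  rw [IntermediateField.adjoin_map, Set.image_singleton]
  rfl

theorem adjoin_jgen1_le : Kb⟮jgen1 M⟯ ≤ F0in1 M := by
  rw [IntermediateField.adjoin_simple_le_iff]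
  exact ⟨jgen M, rfl⟩

/-- the bottom of the tower -/
theorem relfinrank_bottom :
    IntermediateField.relfinrank Kb⟮jgen1 M⟯ (F0in1 M) = Nat.card (SL(2, ℤ) ⧸ Gamma0 M) := by
  rw [F0in1_eq_map, adjoin_jgen1_eq_map, IntermediateField.relfinrank_map_map,
    IntermediateField.relfinrank_top_right]
  exact Fermat.Agent.S24.Degree.finrank_eq_card M

/-- the tower law -/
theorem finrank_tower :
    Module.finrank Kb⟮jgen1 M⟯ (F1Bar M) =
      Nat.card (SL(2, ℤ) ⧸ Gamma0 M) * Module.finrank (F0in1 M) (F1Bar M) := by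
  have h := IntermediateField.relfinrank_mul_relfinrank (adjoin_jgen1_le M)
    (le_top : F0in1 M ≤ ⊤)
  rw [IntermediateField.relfinrank_top_right, IntermediateField.relfinrank_top_right,
    relfinrank_bottom] at h
  exact h.symm

theorem card_Gamma0_pos : 0 < Nat.card (SL(2, ℤ) ⧸ Gamma0 M) := by
  have : Finite (SL(2, ℤ) ⧸ Gamma0 M) := Subgroup.finite_quotient_of_finiteIndex
  exact Nat.card_pos

theorem finiteDimensional_top (hLe : DegLe M) : FiniteDimensional (F0in1 M) (F1Bar M) := by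
  have := hLe.1
  have h1 : 0 < Module.finrank Kb⟮jgen1 M⟯ (F1Bar M) := Module.finrank_pos
  rw [finrank_tower] at h1
  have hfree : Module.Free (F0in1 M) (F1Bar M) := Module.Free.of_divisionRing _ _
  exact Module.finite_of_finrank_pos (Nat.pos_of_mul_pos_left h1)

/-! ### The diamond automorphisms -/

variable {M}

/-- a diamond automorphism fixes `ℚ̄(X₀(M))` -/
theorem fix_of_isDiamondAut {d : (ZMod M)ˣ} {δ : F1Bar M ≃ₐ[Kb] F1Bar M}
    (h : IsDiamondAut M Kb d δ) (x : F1Bar M) (hx : x ∈ F0in1 M) : δ x = x := by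
  obtain ⟨y, rfl⟩ := hx
  have hy : y ∈ IntermediateField.adjoin Kb (Set.range (jdivF M)) := by
    rw [adjoin_range_jdivF_eq_top]
    exact IntermediateField.mem_top
  induction hy using IntermediateField.adjoin_induction with
  | mem z hz =>
    obtain ⟨e, rfl⟩ := hz
    exact h.1 e.1 (neZero_of_dvd e.2) e.2 _ rfl
  | algebraMap r =>
    show δ (incl M (algebraMap Kb _ r)) = incl M (algebraMap Kb _ r)
    rw [AlgHom.commutes, AlgEquiv.commutes]
  | add z w _ _ hz hw => rw [map_add, map_add, hz, hw]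
  | inv z _ hz => rw [map_inv₀, map_inv₀, hz]
  | mul z w _ _ hz hw => rw [map_mul, map_mul, hz, hw]

variable (M)

/-- an automorphism over `ℚ̄` fixing `ℚ̄(X₀(M))` as an automorphism over `ℚ̄(X₀(M))` -/
def liftAut (δ : F1Bar M ≃ₐ[Kb] F1Bar M) (hδ : ∀ x ∈ F0in1 M, δ x = x) :
    F1Bar M ≃ₐ[F0in1 M] F1Bar M :=
  { δ.toRingEquiv with
    commutes' := fun x => hδ x.1 x.2 }

theorem liftAut_apply (δ : F1Bar M ≃ₐ[Kb] F1Bar M) (hδ : ∀ x ∈ F0in1 M, δ x = x) (y : F1Bar M) :
    liftAut M δ hδ y = δ y := rfl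

/-- the chosen diamond automorphism -/
def dia (hDia : DiamondExists M) (d : (ZMod M)ˣ) : F1Bar M ≃ₐ[Kb] F1Bar M :=
  Classical.choose (hDia Kb d)

theorem dia_spec (hDia : DiamondExists M) (d : (ZMod M)ˣ) : IsDiamondAut M Kb d (dia M hDia d) :=
  Classical.choose_spec (hDia Kb d)

/-- the diamond automorphism over `ℚ̄(X₀(M))` -/
def diaF (hDia : DiamondExists M) (d : (ZMod M)ˣ) : F1Bar M ≃ₐ[F0in1 M] F1Bar M :=
  liftAut M (dia M hDia d) (fix_of_isDiamondAut (dia_spec M hDia d))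

/-- the Fricke function `h_a` as an element of `ℚ̄(X₁(M))` -/
def hbar (a : ZMod M) (ha : a ≠ 0) : F1Bar M :=
  ⟨coeffEmb Kb (frickeH ℚ M a), coeffEmb_mem_laurentBaseChange Kb (frickeH_mem_F1 M ha)⟩

/-- two diamond automorphisms agree only if the indices agree up to sign -/
theorem eq_or_eq_neg_of_diaF_eq (hDia : DiamondExists M) (hF : FrickeInj M) {d d' : (ZMod M)ˣ}
    (h : diaF M hDia d = diaF M hDia d') : d = d' ∨ d = -d' := by
  rcases Nat.lt_or_ge 1 M with hM | hM
  · have : Fact (1 < M) := ⟨hM⟩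
    have h1 : (1 : ZMod M) ≠ 0 := one_ne_zero
    have hd : (d : ZMod M) * 1 ≠ 0 := by rw [mul_one]; exact d.ne_zero
    have hd' : (d' : ZMod M) * 1 ≠ 0 := by rw [mul_one]; exact d'.ne_zero
    have e1 : dia M hDia d (hbar M 1 h1) = hbar M _ hd :=
      (dia_spec M hDia d).2 1 h1 _ _ rfl rfl
    have e2 : dia M hDia d' (hbar M 1 h1) = hbar M _ hd' :=
      (dia_spec M hDia d').2 1 h1 _ _ rfl rfl
    have e3 : dia M hDia d (hbar M 1 h1) = dia M hDia d' (hbar M 1 h1) := by
      have := congrArg (fun g : F1Bar M ≃ₐ[F0in1 M] F1Bar M => g (hbar M 1 h1)) h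
      exact this
    rw [e1, e2] at e3
    have e4 : coeffEmb Kb (frickeH ℚ M ((d : ZMod M) * 1)) =
        coeffEmb Kb (frickeH ℚ M ((d' : ZMod M) * 1)) := congrArg Subtype.val e3
    have e5 := (coeffEmb Kb).injective e4
    rcases hF _ _ hd hd' e5 with h6 | h6
    · left
      rw [mul_one, mul_one] at h6
      exact Units.ext h6
    · right
      rw [mul_one, mul_one] at h6
      exact Units.ext (by rw [h6, Units.val_neg])
  · have hM1 : M = 1 := le_antisymm hM (Nat.pos_of_ne_zero (NeZero.ne M))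
    subst hM1
    left
    exact Subsingleton.elim _ _

/-- the map `(ℤ/M)ˣ / ±1 → Aut(ℚ̄(X₁(M)) / ℚ̄(X₀(M)))` -/
def diaQ (hDia : DiamondExists M) (c : (ZMod M)ˣ ⧸ pm M) : F1Bar M ≃ₐ[F0in1 M] F1Bar M :=
  diaF M hDia c.out

theorem diaQ_injective (hDia : DiamondExists M) (hF : FrickeInj M) :
    Function.Injective (diaQ M hDia) := by
  intro c c' h
  have h1 := eq_or_eq_neg_of_diaF_eq M hDia hF h
  rw [← QuotientGroup.out_eq' c, ← QuotientGroup.out_eq' c', QuotientGroup.eq, mem_pm]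
  rcases h1 with h2 | h2
  · left
    rw [h2, inv_mul_cancel]
  · right
    rw [h2, ← neg_inv, neg_mul, inv_mul_cancel]

/-! ### The degree -/

/-- the chain of inequalities -/
theorem card_quot_le (hLe : DegLe M) (hDia : DiamondExists M) (hF : FrickeInj M) :
    Nat.card ((ZMod M)ˣ ⧸ pm M) ≤ Nat.card (F1Bar M ≃ₐ[F0in1 M] F1Bar M) ∧
      Nat.card (F1Bar M ≃ₐ[F0in1 M] F1Bar M) ≤ Module.finrank (F0in1 M) (F1Bar M) := by
  have := finiteDimensional_top M hLe
  refine ⟨Nat.card_le_card_of_injective _ (diaQ_injective M hDia hF), ?_⟩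
  rw [Nat.card_eq_fintype_card]
  exact AlgEquiv.card_le

theorem finrank_top_eq (hLe : DegLe M) (hDia : DiamondExists M) (hF : FrickeInj M) :
    Module.finrank (F0in1 M) (F1Bar M) = Nat.card ((ZMod M)ˣ ⧸ pm M) ∧
      Nat.card (F1Bar M ≃ₐ[F0in1 M] F1Bar M) = Nat.card ((ZMod M)ˣ ⧸ pm M) := by
  obtain ⟨h1, h2⟩ := card_quot_le M hLe hDia hF
  have h3 := hLe.2
  rw [finrank_tower, card_Q1] at h3
  have h4 := Nat.le_of_mul_le_mul_left h3 (card_Gamma0_pos M)
  exact ⟨le_antisymm h4 (h1.trans h2), le_antisymm (h2.trans h4) h1⟩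

/-- **[B-deg]** -/
theorem deg1_of (hLe : DegLe M) (hDia : DiamondExists M) (hF : FrickeInj M) : Deg1 M := by
  refine ⟨⟨transcendental_jgen1 M, hLe.1⟩, ?_⟩
  rw [finrank_tower, (finrank_top_eq M hLe hDia hF).1, card_Q1]

/-- **[B-deg], Galois part** -/
theorem gal1_of (hLe : DegLe M) (hDia : DiamondExists M) (hF : FrickeInj M) : Gal1 M := by
  intro hM
  have hfd := finiteDimensional_top M hLe
  obtain ⟨h1, h2⟩ := finrank_top_eq M hLe hDia hF
  refine ⟨IsGalois.of_card_aut_eq_finrank _ _ (h2.trans h1.symm), ?_, ?_⟩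
  · rw [h1]
    exact two_mul_card_quot M hM
  · intro g hg
    have hbij : Function.Bijective (diaQ M hDia) :=
      (diaQ_injective M hDia hF).bijective_of_nat_card_le h2.le
    obtain ⟨c, hc⟩ := hbij.2 (liftAut M g hg)
    refine ⟨c.out, ?_⟩
    have hgd : g = dia M hDia c.out := by
      refine AlgEquiv.ext fun y => ?_
      have := congrArg (fun φ : F1Bar M ≃ₐ[F0in1 M] F1Bar M => φ y) hc
      exact this.symm
    rw [hgd]
    exact dia_spec M hDia c.out

/-- **[B-deg]** from `RepLe` and `DiamondExists` alone (`FrickeInj` is helper7's theorem) -/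
theorem deg1_of_repLe (hRep : RepLe M) (hDia : DiamondExists M) : Deg1 M :=
  deg1_of M (degLe_of_repLe M hRep) hDia (Fermat.Agent.S48.B.B1.FrickeInj.frickeInj M)

/-- **[B-deg], Galois part** from `RepLe` and `DiamondExists` alone -/
theorem gal1_of_repLe (hRep : RepLe M) (hDia : DiamondExists M) : Gal1 M :=
  gal1_of M (degLe_of_repLe M hRep) hDia (Fermat.Agent.S48.B.B1.FrickeInj.frickeInj M)

end Fermat.Agent.S48.B.B1.Degree1
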