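import Mathlib
import Fermat.Agent.S24.DegreeRel
import Fermat.Agent.S24.Growth
import Fermat.Agent.S24.LevelRaise
import Fermat.Agent.S48.B.B1.Seams
import Fermat.Agent.S48.G1.HeckeOpM

/-!
# PROJECT D (S48), part B, block B1, brick Dr: the analytic relations of level `Γ₁(M)`

* `ratio_comp_mem_modAlg`: for a modular form `A` of weight `12` on `Γ₁(M)` and `g ∈ SL(2, ℤ)`,
  the translate `τ ↦ A(gτ) / Δ(M gτ)` is holomorphic of moderate growth at `i∞`;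
* `Hfun M P a = E₄(M·) E₆(M·) P_a / Δ(M·)`: the analytic Fricke function;
* `exists_monic_relation1`: every polynomial in the `j(dτ)`, `d ∣ M`, and the `Hfun M P a`, `a ≠ 0`,
  satisfies a monic relation of degree `[SL(2, ℤ) : ±Γ₁(M)]` over `ℂ[j]`, given the engine
  (hypothesis `RelEngine`, brick `RelH` of helper29).
-/

set_option autoImplicit false

open UpperHalfPlane hiding I
open ModularForm EisensteinSeries Filter Complex MatrixGroups Function CongruenceSubgroup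
open Matrix.SpecialLinearGroup
open scoped Real Topology Manifold

noncomputable section

namespace Fermat.Agent.S48.B.B1.DegreeRel1

open Fermat.Agent.LevelOne.JBasic Fermat.Agent.S24.LevelOnePoly Fermat.Agent.S24.Growth
open Fermat.Agent.S23.ThetaE12 Fermat.Agent.S24.DegreeRel Fermat.Agent.S20
open Fermat.Agent.S48.B.B1.Seams

local notation "Δ" => ModularForm.discriminant
local notation "𝕢" => Periodic.qParam

/-! ### Growth of `1 / Δ(Uτ)` for an upper triangular `U` -/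

/-- For an upper triangular `U = (a b; 0 d)` with `a, d > 0` and `a / d ≤ m`, `Δ(τ)^m / Δ(Uτ)` is
bounded at `i∞`. -/
theorem isBoundedAtImInfty_inv_discriminant_upperTriangular (a b d : ℝ) (had : a * d ≠ 0)
    (ha : 0 < a) (hd : 0 < d) (m : ℕ) (hm : a / d ≤ m) :
    IsBoundedAtImInfty
      (fun τ : ℍ => (Δ (upperTriangularGL a b d had • τ))⁻¹ * Δ τ ^ m) := by
  -- `q(Uτ) / Δ(Uτ)` is bounded
  have h1 : IsBoundedAtImInfty (fun τ : ℍ =>
      𝕢 1 ((upperTriangularGL a b d had • τ : ℍ) : ℂ) / Δ (upperTriangularGL a b d had • τ)) := by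
    have h0 : Tendsto (fun τ : ℍ => (𝕢 1 (τ : ℂ) / Δ τ)) atImInfty (𝓝 (1⁻¹)) := by
      refine (tendsto_discriminant_div_qParam.inv₀ one_ne_zero).congr fun τ => ?_
      rw [inv_div]
    exact (h0.comp (tendsto_upperTriangularGL_smul a b d had ha hd)).isBigO_one ℝ
  -- `(Δ/q)^m` is bounded
  have h2 : IsBoundedAtImInfty (fun τ : ℍ => (Δ τ / 𝕢 1 τ) ^ m) :=
    (tendsto_discriminant_div_qParam.pow m).isBigO_one ℝ
  -- `q(τ)^m / q(Uτ)` is bounded (by `1`)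
  have h3 : IsBoundedAtImInfty (fun τ : ℍ => 𝕢 1 (τ : ℂ) ^ m /
      𝕢 1 ((upperTriangularGL a b d had • τ : ℍ) : ℂ)) := by
    rw [IsBoundedAtImInfty, BoundedAtFilter, Asymptotics.isBigO_iff]
    refine ⟨1, Eventually.of_forall fun τ => ?_⟩
    rw [norm_div, norm_pow, norm_qParam_one, norm_qParam_one,
      im_upperTriangularGL_smul a b d had ha hd, ← Real.exp_nat_mul, ← Real.exp_sub]
    simp only [Pi.one_apply, norm_one, mul_one]
    rw [Real.exp_le_one_iff]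
    have hy := τ.im_pos
    have hpi := Real.pi_pos
    have : (0 : ℝ) ≤ (m - a / d) * τ.im := mul_nonneg (sub_nonneg.mpr hm) hy.le
    nlinarith
  refine ((h1.mul h2).mul h3).congr' (Eventually.of_forall fun τ => ?_) (EventuallyEq.refl _ _)
  have hq : 𝕢 1 (τ : ℂ) ≠ 0 := Periodic.qParam_ne_zero _
  have hq' : 𝕢 1 ((upperTriangularGL a b d had • τ : ℍ) : ℂ) ≠ 0 := Periodic.qParam_ne_zero _
  have hΔ' := discriminant_ne_zero (upperTriangularGL a b d had • τ)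
  simp only [Pi.mul_apply]
  rw [div_pow]
  field_simp

/-! ### The translates of `A / Δ(M·)` -/

section ratio

variable {M : ℕ} [NeZero M]

theorem discriminant_slash_SL (δ : SL(2, ℤ)) : (Δ : ℍ → ℂ) ∣[(12 : ℤ)] mapGL ℝ δ = Δ :=
  SlashInvariantFormClass.slash_action_eq CuspForm.discriminant _ ⟨δ, rfl⟩

/-- The Hermite form of `diag(M, 1) g` computes the translates of `A / Δ(M·)`. -/
theorem ratio_comp_eq (A : ℍ → ℂ) (g : SL(2, ℤ)) :
    ∃ (a b d : ℤ) (had : (a : ℝ) * (d : ℝ) ≠ 0), 0 < a ∧ 0 < d ∧ a * d = M ∧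
      ∀ τ : ℍ, A (g • τ) / Δ (heckeDiagMatrix M • (g • τ)) =
        ((d : ℝ) : ℂ) ^ (12 : ℤ) * (A ∣[(12 : ℤ)] g) τ *
          (Δ (upperTriangularGL a b d had • τ))⁻¹ := by
  have hM : M ≠ 0 := NeZero.ne M
  obtain ⟨δ, a, b, d, had, ha, hd, hadM, -, hmat⟩ := exists_hermite hM g
  refine ⟨a, b, d, had, ha, hd, hadM, fun τ => ?_⟩
  have haR : (0 : ℝ) < a := by exact_mod_cast ha
  have hdR : (0 : ℝ) < d := by exact_mod_cast hd
  have hden : denom (g : GL (Fin 2) ℝ) τ ≠ 0 := denom_ne_zero _ _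
  -- `A(gτ)` through the slash
  have hA : A (g • τ) = (A ∣[(12 : ℤ)] g) τ * denom g τ ^ (12 : ℤ) := by
    rw [ModularForm.SL_slash_apply, mul_assoc, ← zpow_add₀ hden]
    norm_num
  -- `Δ(M gτ)` through the slash
  have hB1 : ((Δ : ℍ → ℂ) ∣[(12 : ℤ)] heckeDiagMatrix M) ∣[(12 : ℤ)] mapGL ℝ g =
      (Δ : ℍ → ℂ) ∣[(12 : ℤ)] upperTriangularGL a b d had := by
    rw [← SlashAction.slash_mul, hmat, SlashAction.slash_mul, discriminant_slash_SL]
  have hB2 := congrFun hB1 τ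
  have hB3 : (((Δ : ℍ → ℂ) ∣[(12 : ℤ)] heckeDiagMatrix M) ∣[(12 : ℤ)] mapGL ℝ g) τ =
      (M : ℂ) ^ (11 : ℤ) * Δ (heckeDiagMatrix M • (g • τ)) * denom g τ ^ (-(12 : ℤ)) := by
    have h0 := ModularForm.SL_slash_apply (k := 12) ((Δ : ℍ → ℂ) ∣[(12 : ℤ)] heckeDiagMatrix M) g τ
    rw [ModularForm.SL_slash] at h0
    refine h0.trans ?_
    rw [slash_heckeDiagMatrix_apply 12 hM]
    norm_num
  rw [hB3, slash_upperTriangularGL_apply 12 a b d had (mul_pos haR hdR)] at hB2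
  have hMC : ((((a : ℝ) * (d : ℝ) : ℝ)) : ℂ) = (M : ℂ) := by
    have : ((a : ℝ) * (d : ℝ) : ℝ) = (M : ℝ) := by exact_mod_cast hadM
    rw [this]; simp
  rw [hMC] at hB2
  have hM11 : (M : ℂ) ^ (11 : ℤ) ≠ 0 := zpow_ne_zero _ (by exact_mod_cast hM)
  have hd0 : ((d : ℝ) : ℂ) ≠ 0 := by
    have : (d : ℝ) ≠ 0 := ne_of_gt hdR
    exact_mod_cast this
  have hΔU := discriminant_ne_zero (upperTriangularGL a b d had • τ)
  have hΔ : Δ (heckeDiagMatrix M • (g • τ)) =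
      Δ (upperTriangularGL a b d had • τ) * ((d : ℝ) : ℂ) ^ (-(12 : ℤ)) * denom g τ ^ (12 : ℤ) := by
    have h1 : (12 - 1 : ℤ) = 11 := by norm_num
    rw [h1] at hB2
    have h2 : (M : ℂ) ^ (11 : ℤ) * Δ (heckeDiagMatrix M • (g • τ)) =
        (M : ℂ) ^ (11 : ℤ) * (Δ (upperTriangularGL a b d had • τ) * ((d : ℝ) : ℂ) ^ (-(12 : ℤ)) *
          denom g τ ^ (12 : ℤ)) := by
      have h3 : denom g τ ^ (-(12 : ℤ)) * denom g τ ^ (12 : ℤ) = 1 := by
        rw [← zpow_add₀ hden]; norm_num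
      calc (M : ℂ) ^ (11 : ℤ) * Δ (heckeDiagMatrix M • (g • τ))
          = ((M : ℂ) ^ (11 : ℤ) * Δ (heckeDiagMatrix M • (g • τ)) * denom g τ ^ (-(12 : ℤ))) *
              denom g τ ^ (12 : ℤ) := by rw [mul_assoc _ _ (denom g τ ^ (12 : ℤ)), h3, mul_one]
        _ = _ := by rw [hB2]; ring
    exact mul_left_cancel₀ hM11 h2
  rw [hA, hΔ]
  have hd12 : ((d : ℝ) : ℂ) ^ (-(12 : ℤ)) * ((d : ℝ) : ℂ) ^ (12 : ℤ) = 1 := by
    rw [← zpow_add₀ hd0]; norm_num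
  have hden12 : denom g τ ^ (12 : ℤ) ≠ 0 := zpow_ne_zero _ hden
  have hdn : ((d : ℝ) : ℂ) ^ (-(12 : ℤ)) ≠ 0 := zpow_ne_zero _ hd0
  field_simp

theorem mdiff_comp_smul {A : ℍ → ℂ} (hA : MDiff A) (G : GL (Fin 2) ℝ) (hG : 0 < G.det.val) :
    MDiff (fun τ : ℍ => A (G • τ)) :=
  hA.comp (UpperHalfPlane.mdifferentiable_smul hG)

theorem det_mapGL_pos (g : SL(2, ℤ)) : 0 < (mapGL ℝ g : GL (Fin 2) ℝ).det.val := by simp

/-- **Growth of the translates of `A / Δ(M·)`.** -/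
theorem ratio_comp_mem_modAlg {A : ℍ → ℂ} (hA : IsMF (G1 M) 12 A) (g : SL(2, ℤ)) :
    (fun τ : ℍ => A (g • τ) / Δ (heckeDiagMatrix M • (g • τ))) ∈ modAlg := by
  obtain ⟨F, rfl⟩ := hA
  rw [mem_modAlg]
  constructor
  · have h1 : MDiff (fun τ : ℍ => F ((mapGL ℝ g : GL (Fin 2) ℝ) • τ)) :=
      mdiff_comp_smul (ModularFormClass.holo F) _ (det_mapGL_pos g)
    have h2 : MDiff (fun τ : ℍ => Δ ((heckeDiagMatrix M * mapGL ℝ g) • τ)) :=
      mdiff_comp_smul mdiff_discriminant _ (by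
        rw [map_mul]
        exact mul_pos (det_heckeDiagMatrix_pos M) (by simp))
    have h3 : (fun τ : ℍ => F (g • τ) / Δ (heckeDiagMatrix M • (g • τ))) =
        (fun τ : ℍ => F ((mapGL ℝ g : GL (Fin 2) ℝ) • τ)) /
          fun τ : ℍ => Δ ((heckeDiagMatrix M * mapGL ℝ g) • τ) := by
      funext τ
      rw [Pi.div_apply, mul_smul]
      rfl
    rw [h3]
    exact h1.div h2 fun τ => discriminant_ne_zero _
  · obtain ⟨a, b, d, had, ha, hd, hadM, hform⟩ := ratio_comp_eq (M := M) (⇑F) g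
    have haR : (0 : ℝ) < a := by exact_mod_cast ha
    have hdR : (0 : ℝ) < d := by exact_mod_cast hd
    refine ⟨M, ?_⟩
    have hm : (a : ℝ) / d ≤ M := by
      have hd1 : (1 : ℝ) ≤ d := by exact_mod_cast hd
      have hadR : (a : ℝ) * d = M := by exact_mod_cast hadM
      rw [div_le_iff₀ hdR]
      nlinarith
    have hb1 : IsBoundedAtImInfty ((⇑F) ∣[(12 : ℤ)] g) :=
      (Fermat.Agent.S48.G1.mdfQ_modularForm F).2 _ (Fermat.Agent.S48.A.Neb.mapGL_mem_ratGL g)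
    have hb2 := isBoundedAtImInfty_inv_discriminant_upperTriangular a b d had haR hdR M hm
    have hb3 : IsBoundedAtImInfty (fun _ : ℍ => ((d : ℝ) : ℂ) ^ (12 : ℤ)) :=
      Filter.const_boundedAtFilter _ _
    refine ((hb3.mul hb1).mul hb2).congr' (Eventually.of_forall fun τ => ?_) (EventuallyEq.refl _ _)
    simp only [Pi.mul_apply]
    rw [hform τ]
    ring

end ratio

/-! ### The quotients `A / Δ^m` for `A` of weight `12 m` (the route of RULING B1-2) -/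

section weightZero

variable {M : ℕ} [NeZero M]

/-- `r = A / Δ^m`, `A` of weight `12 m`. -/
def divDelta (A : ℍ → ℂ) (m : ℕ) (τ : ℍ) : ℂ := A τ / Δ τ ^ m

/-- The translate of `A / Δ^m` by `g ∈ SL(2, ℤ)` is `(A ∣[12 m] g) / Δ^m`. -/
theorem divDelta_comp_eq (A : ℍ → ℂ) (m : ℕ) (g : SL(2, ℤ)) (τ : ℍ) :
    divDelta A m (g • τ) = (A ∣[(12 * (m : ℤ))] g) τ / Δ τ ^ m := by
  have hden : denom (g : GL (Fin 2) ℝ) τ ≠ 0 := denom_ne_zero _ _
  have hA : A (g • τ) = (A ∣[(12 * (m : ℤ))] g) τ * denom g τ ^ (12 * (m : ℤ)) := by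
    rw [ModularForm.SL_slash_apply, mul_assoc, ← zpow_add₀ hden, neg_add_cancel, zpow_zero,
      mul_one]
  have hΔ : Δ (g • τ) ^ m = denom g τ ^ (12 * (m : ℤ)) * Δ τ ^ m := by
    rw [discriminant_smul, mul_pow, ← zpow_natCast (denom g τ ^ (12 : ℤ)) m, ← zpow_mul]
  rw [divDelta, hA, hΔ, mul_comm ((A ∣[(12 * (m : ℤ))] g) τ),
    mul_div_mul_left _ _ (zpow_ne_zero _ hden)]

omit [NeZero M] in
/-- `A / Δ^m` is `Γ₁(M)`-invariant. -/
theorem divDelta_smul_of_mem_Gamma1 {A : ℍ → ℂ} {m : ℕ} (hA : IsMF (G1 M) (12 * (m : ℤ)) A)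
    (γ : SL(2, ℤ)) (hγ : γ ∈ Gamma1 M) (τ : ℍ) : divDelta A m (γ • τ) = divDelta A m τ := by
  obtain ⟨F, rfl⟩ := hA
  have h : (⇑F) ∣[(12 * (m : ℤ))] γ = ⇑F :=
    SlashInvariantFormClass.slash_action_eq F _ (Subgroup.mem_map_of_mem (mapGL ℝ) hγ)
  rw [divDelta_comp_eq, h, divDelta]

omit [NeZero M] in
theorem mdiff_divDelta {A : ℍ → ℂ} (hA : MDiff A) (m : ℕ) : MDiff (divDelta A m) := by
  have h2 : MDiff (fun τ : ℍ => Δ τ ^ m) := mdiff_discriminant.pow m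
  exact hA.div h2 fun τ => pow_ne_zero _ (discriminant_ne_zero τ)

/-- **Growth.** For `A` of weight `12 m` on `Γ₁(M)`, every `SL(2, ℤ)`-translate of `A / Δ^m` is
holomorphic on `ℍ` with at most a pole of order `m` at `i∞`. -/
theorem divDelta_comp_mem_modAlg {A : ℍ → ℂ} {m : ℕ} (hA : IsMF (G1 M) (12 * (m : ℤ)) A)
    (g : SL(2, ℤ)) : (fun τ : ℍ => divDelta A m (g • τ)) ∈ modAlg := by
  obtain ⟨F, rfl⟩ := hA
  rw [mem_modAlg]
  constructor
  · have h1 : MDiff (divDelta (⇑F) m) := mdiff_divDelta (ModularFormClass.holo F) m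
    exact mdiff_comp_smul h1 (mapGL ℝ g) (det_mapGL_pos g)
  · refine ⟨m, ?_⟩
    have hb1 : IsBoundedAtImInfty ((⇑F) ∣[(12 * (m : ℤ))] g) :=
      (Fermat.Agent.S48.G1.mdfQ_modularForm F).2 _ (Fermat.Agent.S48.A.Neb.mapGL_mem_ratGL g)
    refine hb1.congr' (Eventually.of_forall fun τ => ?_) (EventuallyEq.refl _ _)
    show (⇑F ∣[(12 * (m : ℤ))] g) τ = divDelta (⇑F) m (g • τ) * Δ τ ^ m
    rw [divDelta_comp_eq, div_mul_cancel₀ _ (pow_ne_zero _ (discriminant_ne_zero τ))]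

omit [NeZero M] in
/-- The same for the group `±Γ₁(M)`. -/
theorem divDelta_smul_of_mem_PG1 {A : ℍ → ℂ} {m : ℕ} (hA : IsMF (G1 M) (12 * (m : ℤ)) A) :
    ∀ γ ∈ PG1 M, ∀ τ : ℍ, divDelta A m (γ • τ) = divDelta A m τ := by
  let S : Subgroup SL(2, ℤ) :=
    { carrier := {γ | ∀ τ : ℍ, divDelta A m (γ • τ) = divDelta A m τ}
      mul_mem' := fun {x y} hx hy τ => by rw [mul_smul, hx, hy]
      one_mem' := fun τ => by rw [one_smul]
      inv_mem' := fun {x} hx τ => by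
        have := hx (x⁻¹ • τ)
        rw [← mul_smul, mul_inv_cancel, one_smul] at this
        exact this.symm }
  have h1 : Gamma1 M ≤ S := fun γ hγ τ => divDelta_smul_of_mem_Gamma1 hA γ hγ τ
  have h2 : Subgroup.zpowers (-1 : SL(2, ℤ)) ≤ S := by
    rw [Subgroup.zpowers_le]
    intro τ
    have : (-1 : SL(2, ℤ)) • τ = τ := by
      apply UpperHalfPlane.ext
      rw [UpperHalfPlane.specialLinearGroup_apply]
      simp
    rw [this]
  intro γ hγ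
  exact (sup_le h1 h2 : PG1 M ≤ S) hγ

end weightZero

/-! ### The analytic Fricke functions and the relations -/

section relation

variable (M : ℕ) [NeZero M]

/-- `τ ↦ f(Mτ)` is a modular form on `Γ₁(M)` for `f` of level one. -/
theorem isMF_raise {k : ℤ} (f : ModularForm 𝒮ℒ k) :
    IsMF (G1 M) k (fun τ : ℍ => f (heckeDiagMatrix M • τ)) := by
  have h1 : IsMF (G0 M) k (⇑(Fermat.Agent.S24.LevelRaise.raise M M dvd_rfl f)) := IsMF.coe _
  have h2 : IsMF (G1 M) k (⇑(Fermat.Agent.S24.LevelRaise.raise M M dvd_rfl f)) :=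
    h1.mono (Subgroup.map_mono (Gamma1_in_Gamma0 M))
  refine h2.congr ?_
  funext τ
  exact Fermat.Agent.S24.LevelRaise.raise_apply M M dvd_rfl f τ

/-- The numerator `E₄(M·) E₆(M·) P` of the analytic Fricke function. -/
def Hnum (P : ℍ → ℂ) (τ : ℍ) : ℂ :=
  E₄ (heckeDiagMatrix M • τ) * E₆ (heckeDiagMatrix M • τ) * P τ

theorem isMF_Hnum {P : ℍ → ℂ} (hP : IsMF (G1 M) 2 P) : IsMF (G1 M) 12 (Hnum M P) := by
  have h4 := isMF_raise M E₄
  have h6 := isMF_raise M E₆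
  have h := (h4.mul h6).mul hP
  have hk : (4 : ℤ) + 6 + 2 = 12 := by norm_num
  refine (h.cast hk).congr ?_
  funext τ
  rfl

/-- **The analytic Fricke function** `H = E₄(M·) E₆(M·) P / Δ(M·)`, `P` of weight `2`. -/
def Hfun (P : ℍ → ℂ) (τ : ℍ) : ℂ := Hnum M P τ / Δ (heckeDiagMatrix M • τ)

theorem Hfun_comp_mem_modAlg {P : ℍ → ℂ} (hP : IsMF (G1 M) 2 P) (g : SL(2, ℤ)) :
    (fun τ : ℍ => Hfun M P (g • τ)) ∈ modAlg :=
  ratio_comp_mem_modAlg (isMF_Hnum M hP) g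

/-- `f(Mτ)` for `f` of level one transforms under `Γ₀(M)` with the automorphy factor. -/
theorem raise_smul_of_mem_Gamma0 {k : ℤ} (f : ModularForm 𝒮ℒ k) (γ : SL(2, ℤ))
    (hγ : γ ∈ Gamma0 M) (τ : ℍ) :
    f (heckeDiagMatrix M • (γ • τ)) = denom γ τ ^ k * f (heckeDiagMatrix M • τ) := by
  have h := SlashInvariantForm.slash_action_eqn''
    (Fermat.Agent.S24.LevelRaise.raise M M dvd_rfl f)
    (Subgroup.mem_map_of_mem (mapGL ℝ) hγ) τ
  rw [Fermat.Agent.S24.LevelRaise.raise_apply, Fermat.Agent.S24.LevelRaise.raise_apply] at h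
  exact h

theorem discriminant_raise_smul_of_mem_Gamma0 (γ : SL(2, ℤ)) (hγ : γ ∈ Gamma0 M) (τ : ℍ) :
    Δ (heckeDiagMatrix M • (γ • τ)) = denom γ τ ^ (12 : ℤ) * Δ (heckeDiagMatrix M • τ) :=
  raise_smul_of_mem_Gamma0 M Fermat.Agent.S24.LevelRaise.DeltaMF γ hγ τ

omit [NeZero M] in
/-- Weight-`k` invariance, pointwise. -/
theorem isMF_smul {k : ℤ} {P : ℍ → ℂ} (hP : IsMF (G1 M) k P) (γ : SL(2, ℤ)) (hγ : γ ∈ Gamma1 M)
    (τ : ℍ) : P (γ • τ) = denom γ τ ^ k * P τ := by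
  obtain ⟨F, rfl⟩ := hP
  exact SlashInvariantForm.slash_action_eqn'' F (Subgroup.mem_map_of_mem (mapGL ℝ) hγ) τ

/-- The analytic Fricke function is `Γ₁(M)`-invariant. -/
theorem Hfun_smul_of_mem_Gamma1 {P : ℍ → ℂ} (hP : IsMF (G1 M) 2 P) (γ : SL(2, ℤ))
    (hγ : γ ∈ Gamma1 M) (τ : ℍ) : Hfun M P (γ • τ) = Hfun M P τ := by
  have h12 := isMF_smul M (isMF_Hnum M hP) γ hγ τ
  have hΔ := discriminant_raise_smul_of_mem_Gamma0 M γ (Gamma1_in_Gamma0 M hγ) τ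
  have hden : denom (γ : GL (Fin 2) ℝ) τ ≠ 0 := denom_ne_zero _ _
  rw [Hfun, Hfun, h12, hΔ, mul_div_mul_left _ _ (zpow_ne_zero _ hden)]

/-- The index type of the generators of `ℂ(X₁(M))`: the `j(dτ)`, `d ∣ M`, and the `H_a`, `a ≠ 0`. -/
abbrev GenIdx (M : ℕ) : Type := {d : ℕ // d ∣ M} ⊕ {a : ZMod M // a ≠ 0}

/-- The analytic point `((j(dτ))_{d ∣ M}, (H_a(τ))_{a ≠ 0})`. -/
def gvec1 (P : ZMod M → ℍ → ℂ) (τ : ℍ) : GenIdx M → ℂ
  | Sum.inl d => jFun (heckeDiagMatrix d.1 • τ)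
  | Sum.inr a => Hfun M (P a.1) τ

/-- The function `τ ↦ ρ((j(dτ))_d, (H_a(τ))_a)`. -/
def rP1 (P : ZMod M → ℍ → ℂ) (ρ : MvPolynomial (GenIdx M) ℂ) (τ : ℍ) : ℂ :=
  MvPolynomial.eval (gvec1 M P τ) ρ

theorem gvec1_comp_mem_modAlg {P : ZMod M → ℍ → ℂ}
    (hP : ∀ a : ZMod M, a ≠ 0 → IsMF (G1 M) 2 (P a)) (g : SL(2, ℤ)) (i : GenIdx M) :
    (fun τ : ℍ => gvec1 M P (g • τ) i) ∈ modAlg := by
  rcases i with d | a
  · have : NeZero d.1 := ⟨fun h => NeZero.ne M (by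
      have := d.2; rw [h] at this; exact Nat.eq_zero_of_zero_dvd this)⟩
    exact jd_comp_mem_modAlg d.1 g
  · exact Hfun_comp_mem_modAlg M (hP a.1 a.2) g

theorem rP1_comp_mem_modAlg {P : ZMod M → ℍ → ℂ}
    (hP : ∀ a : ZMod M, a ≠ 0 → IsMF (G1 M) 2 (P a)) (ρ : MvPolynomial (GenIdx M) ℂ)
    (g : SL(2, ℤ)) : (fun τ : ℍ => rP1 M P ρ (g • τ)) ∈ modAlg := by
  let a : GenIdx M → modAlg := fun i =>
    ⟨fun τ => gvec1 M P (g • τ) i, gvec1_comp_mem_modAlg M hP g i⟩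
  have : (fun τ => rP1 M P ρ (g • τ)) = ((MvPolynomial.aeval a ρ : modAlg) : ℍ → ℂ) := by
    ext τ
    let ev : modAlg →ₐ[ℂ] ℂ :=
      (Pi.evalAlgHom ℂ (fun _ : ℍ => ℂ) τ).comp modAlg.val
    have h1 : ev (MvPolynomial.aeval a ρ) = MvPolynomial.aeval (fun d => ev (a d)) ρ :=
      MvPolynomial.comp_aeval_apply a ev ρ
    have h2 : ev (MvPolynomial.aeval a ρ) = ((MvPolynomial.aeval a ρ : modAlg) : ℍ → ℂ) τ := rfl
    rw [← h2, h1, rP1, MvPolynomial.aeval_eq_eval]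
    rfl
  rw [this]
  exact (MvPolynomial.aeval a ρ).2

theorem gvec1_smul_of_mem_Gamma1 {P : ZMod M → ℍ → ℂ}
    (hP : ∀ a : ZMod M, a ≠ 0 → IsMF (G1 M) 2 (P a)) (γ : SL(2, ℤ)) (hγ : γ ∈ Gamma1 M)
    (τ : ℍ) : gvec1 M P (γ • τ) = gvec1 M P τ := by
  funext i
  rcases i with d | a
  · have : NeZero d.1 := ⟨fun h => NeZero.ne M (by
      have := d.2; rw [h] at this; exact Nat.eq_zero_of_zero_dvd this)⟩
    exact jFun_heckeDiagMatrix_smul_of_mem_Gamma0 d.2 γ (Gamma1_in_Gamma0 M hγ) τ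
  · exact Hfun_smul_of_mem_Gamma1 M (hP a.1 a.2) γ hγ τ

/-- `-1` acts trivially on `ℍ`. -/
theorem neg_one_smul' (τ : ℍ) : (-1 : SL(2, ℤ)) • τ = τ := by
  apply UpperHalfPlane.ext
  rw [UpperHalfPlane.specialLinearGroup_apply]
  simp

theorem rP1_smul_of_mem_PG1 {P : ZMod M → ℍ → ℂ}
    (hP : ∀ a : ZMod M, a ≠ 0 → IsMF (G1 M) 2 (P a)) (ρ : MvPolynomial (GenIdx M) ℂ) :
    ∀ γ ∈ PG1 M, ∀ τ : ℍ, rP1 M P ρ (γ • τ) = rP1 M P ρ τ := by
  -- the stabiliser of `rP1`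
  let S : Subgroup SL(2, ℤ) :=
    { carrier := {γ | ∀ τ : ℍ, rP1 M P ρ (γ • τ) = rP1 M P ρ τ}
      mul_mem' := fun {x y} hx hy τ => by rw [mul_smul, hx, hy]
      one_mem' := fun τ => by rw [one_smul]
      inv_mem' := fun {x} hx τ => by
        have := hx (x⁻¹ • τ)
        rw [← mul_smul, mul_inv_cancel, one_smul] at this
        exact this.symm }
  have h1 : Gamma1 M ≤ S := fun γ hγ τ => by
    show MvPolynomial.eval (gvec1 M P (γ • τ)) ρ = MvPolynomial.eval (gvec1 M P τ) ρ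
    rw [gvec1_smul_of_mem_Gamma1 M hP γ hγ τ]
  have h2 : Subgroup.zpowers (-1 : SL(2, ℤ)) ≤ S := by
    rw [Subgroup.zpowers_le]
    intro τ
    rw [neg_one_smul']
  intro γ hγ
  exact (sup_le h1 h2 : PG1 M ≤ S) hγ

theorem finite_Q1 : Finite (Q1 M) := by
  have h1 : (Gamma1 M).FiniteIndex := inferInstance
  have h2 : (PG1 M).FiniteIndex := Subgroup.finiteIndex_of_le (le_sup_left : Gamma1 M ≤ PG1 M)
  exact Subgroup.finite_quotient_of_finiteIndex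

/-- The relation engine (brick `RelH` of helper29: main's `exists_monic_relation_of` for an
arbitrary subgroup of finite index). -/
def RelEngine : Prop :=
  ∀ (H : Subgroup SL(2, ℤ)) [Finite (SL(2, ℤ) ⧸ H)] (r : ℍ → ℂ),
    (∀ γ ∈ H, ∀ τ, r (γ • τ) = r τ) → (∀ g : SL(2, ℤ), (fun τ => r (g • τ)) ∈ modAlg) →
    ∃ Φ : Polynomial (Polynomial ℂ), Φ.Monic ∧ Φ.natDegree = Nat.card (SL(2, ℤ) ⧸ H) ∧
      ∀ τ : ℍ, Polynomial.eval (r τ) (Φ.map (Polynomial.evalRingHom (jFun τ))) = 0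

/-- **[Dr]** Every polynomial expression in the `j(dτ)`, `d ∣ M`, and the analytic Fricke functions
`H_a`, `a ≠ 0`, satisfies a monic relation of degree `[SL(2,ℤ) : ±Γ₁(M)]` over `ℂ[j]`. -/
theorem exists_monic_relation1 (hE : RelEngine) (P : ZMod M → ℍ → ℂ)
    (hP : ∀ a : ZMod M, a ≠ 0 → IsMF (G1 M) 2 (P a)) (ρ : MvPolynomial (GenIdx M) ℂ) :
    ∃ Φ : Polynomial (Polynomial ℂ), Φ.Monic ∧ Φ.natDegree = Nat.card (Q1 M) ∧
      ∀ τ : ℍ, Polynomial.eval (MvPolynomial.eval (gvec1 M P τ) ρ)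
        (Φ.map (Polynomial.evalRingHom (jFun τ))) = 0 := by
  have := finite_Q1 M
  exact hE (PG1 M) (rP1 M P ρ) (rP1_smul_of_mem_PG1 M hP ρ) (rP1_comp_mem_modAlg M hP ρ)

end relation

end Fermat.Agent.S48.B.B1.DegreeRel1
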