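import Mathlib
import Fermat.Agent.S24.QRep
import Fermat.Agent.S48.B.B1.DegreeRel1

/-!
# PROJECT D (S48), part B, block B1, brick Ra: the Fricke functions are quotients of forms

`frickeRep_of_wpForms : Seams.WpForms M → Seams.FrickeRep M`: with `P a` the Weierstrass form of
weight `2`, `h_a` is the `q`-expansion of `E₄(M·) E₆(M·) P_a / Δ(M·)`.
-/

set_option autoImplicit false

open UpperHalfPlane hiding I
open ModularForm EisensteinSeries Filter Complex MatrixGroups Function CongruenceSubgroup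
open Matrix.SpecialLinearGroup
open scoped Real Topology Manifold

noncomputable section

namespace Fermat.Agent.S48.B.B1.FrickeRep

open Fermat.Agent.S24.QRep Fermat.Agent.S20
open Fermat.Agent.S48.B.B1.Seams Fermat.Agent.S48.B.B1.DegreeRel1 Fermat.Agent.S48.B.Defs.Model
open ModularCurve

local notation "Δ" => ModularForm.discriminant
local notation "𝕢" => Periodic.qParam

/-! ### The `q`-expansion of `E₆` -/

theorem bernoulli'_five : bernoulli' 5 = 0 := by
  have h1 : Nat.choose 5 2 = 10 := by decide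
  have h2 : Nat.choose 5 3 = 10 := by decide
  have h3 : Nat.choose 5 4 = 5 := by decide
  rw [bernoulli'_def]
  norm_num [Finset.sum_range_succ, Finset.sum_range_zero, h1, h2, h3]

theorem bernoulli'_six : bernoulli' 6 = 1 / 42 := by
  have h1 : Nat.choose 6 2 = 15 := by decide
  have h2 : Nat.choose 6 3 = 20 := by decide
  have h3 : Nat.choose 6 4 = 15 := by decide
  have h4 : Nat.choose 6 5 = 6 := by decide
  rw [bernoulli'_def]
  norm_num [Finset.sum_range_succ, Finset.sum_range_zero, h1, h2, h3, h4, bernoulli'_five]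

theorem bernoulli_six : bernoulli 6 = 1 / 42 := by
  rw [bernoulli_eq_bernoulli'_of_ne_one (by norm_num), bernoulli'_six]

/-- The `q`-expansion of `E₆` is the formal series `eisenstein6`. -/
theorem qExpansion_E6 : qExpansion 1 E₆ = eisenstein6.map (Int.castRingHom ℂ) := by
  ext m
  rw [EisensteinSeries.E_qExpansion_coeff (by norm_num) ⟨3, rfl⟩ m, PowerSeries.coeff_map]
  change _ = (Int.castRingHom ℂ) ((PowerSeries.mk fun n : ℕ =>
    if n = 0 then (1 : ℤ) else -504 * ∑ d ∈ n.divisors, (d : ℤ) ^ 5).coeff m)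
  rw [PowerSeries.coeff_mk]
  split_ifs with h
  · simp
  · have hb : bernoulli 6 = 1 / 42 := bernoulli_six
    rw [hb]
    simp only [ArithmeticFunction.sigma_apply, eq_intCast]
    push_cast
    ring

/-! ### `E₄ E₆ / Δ` and its dilation -/

/-- `E₄ E₆`. -/
def EE : ℍ → ℂ := (⇑E₄) * (⇑E₆)

/-- `E₄ E₆ · q / Δ`, a holomorphic function of `q` with expansion `wNum`. -/
def W1 : ℍ → ℂ := EE * Ufun

theorem isQ_EE : IsQ EE := (isQ_modularForm E₄).mul (isQ_modularForm E₆)

theorem isQ_W1 : IsQ W1 := isQ_EE.mul isQ_Ufun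

theorem qExpansion_W1 : qExpansion 1 W1 = wNum.map (Int.castRingHom ℂ) := by
  change _ = (eisenstein4 * eisenstein6 * dedekindEtaUnitInv).map (Int.castRingHom ℂ)
  rw [W1, isQ_EE.qExpansion_mul isQ_Ufun, EE,
    (isQ_modularForm E₄).qExpansion_mul (isQ_modularForm E₆), Fermat.Agent.S24.QBridge.qExpansion_E4,
    qExpansion_E6, qExpansion_Ufun, map_mul, map_mul]

theorem EE_mul_qParam : EE * (fun τ : ℍ => 𝕢 1 τ) = W1 * Δ := by
  rw [W1, mul_assoc, Ufun_mul_discriminant]

/-- The Laurent expansion of `E₄ E₆` is `wNorm · (expansion of Δ)`. -/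
theorem ofPS_qExpansion_EE :
    ofPS (qExpansion 1 EE) = wNorm ℂ * ofPS (qExpansion 1 Δ) := by
  have h1 : qExpansion 1 EE * PowerSeries.X =
      wNum.map (Int.castRingHom ℂ) * qExpansion 1 Δ := by
    rw [← qExpansion_qParam, ← isQ_EE.qExpansion_mul isQ_qParam, EE_mul_qParam,
      isQ_W1.qExpansion_mul isQ_discriminant, qExpansion_W1]
  have h2 := congrArg ofPS h1
  rw [map_mul, map_mul] at h2
  have hX : ofPS (PowerSeries.X : PowerSeries ℂ) = HahnSeries.single (1 : ℤ) (1 : ℂ) :=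
    HahnSeries.ofPowerSeries_X
  rw [hX] at h2
  have hs : HahnSeries.single (1 : ℤ) (1 : ℂ) * HahnSeries.single (-1 : ℤ) (1 : ℂ) = 1 := by
    rw [HahnSeries.single_mul_single]
    simp
  calc ofPS (qExpansion 1 EE)
      = ofPS (qExpansion 1 EE) * (HahnSeries.single (1 : ℤ) (1 : ℂ) *
          HahnSeries.single (-1 : ℤ) (1 : ℂ)) := by rw [hs, mul_one]
    _ = (ofPS (qExpansion 1 EE) * HahnSeries.single (1 : ℤ) (1 : ℂ)) *
          HahnSeries.single (-1 : ℤ) (1 : ℂ) := by ring
    _ = wNorm ℂ * ofPS (qExpansion 1 Δ) := by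
        change _ = HahnSeries.single (-1 : ℤ) (1 : ℂ) * ofPS (wNum.map (Int.castRingHom ℂ)) *
          ofPS (qExpansion 1 Δ)
        rw [h2]
        ring

variable (M : ℕ) [NeZero M]

/-- The Laurent expansion of `(E₄ E₆)(M·)`. -/
theorem ofPS_qExpansion_dil_EE :
    ofPS (qExpansion 1 (dil M EE)) =
      qExpand ℂ M (wNorm ℂ) * ofPS (qExpansion 1 (dil M Δ)) := by
  change HahnSeries.ofPowerSeries ℤ ℂ (qExpansion 1 (dil M EE)) =
    qExpand ℂ M (wNorm ℂ) * HahnSeries.ofPowerSeries ℤ ℂ (qExpansion 1 (dil M Δ))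
  rw [ofPowerSeries_qExpansion_dil isQ_EE, ofPowerSeries_qExpansion_dil isQ_discriminant]
  have h : HahnSeries.ofPowerSeries ℤ ℂ (qExpansion 1 EE) =
      wNorm ℂ * HahnSeries.ofPowerSeries ℤ ℂ (qExpansion 1 Δ) := ofPS_qExpansion_EE
  rw [h, map_mul]

/-! ### The representation of the Fricke functions -/

theorem isQ_of_isMF1 {k : ℤ} {A : ℍ → ℂ} (hA : IsMF (G1 M) k A) : IsQ A := by
  obtain ⟨F, rfl⟩ := hA
  exact ⟨SlashInvariantFormClass.periodic_comp_ofComplex F
      (Fermat.Agent.S48.A.Neb.one_mem_strictPeriods_Gamma1 M),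
    ModularFormClass.holo F, ModularFormClass.bdd_at_infty F⟩

omit [NeZero M] in
theorem Hnum_eq (P : ℍ → ℂ) : Hnum M P = dil M EE * P := by
  funext τ
  rfl

omit [NeZero M] in
theorem dil_discriminant_ne_zero : dil M (Δ : ℍ → ℂ) ≠ 0 := by
  intro h
  have := congrFun h UpperHalfPlane.I
  exact discriminant_ne_zero _ this

theorem isMF_dil_discriminant : IsMF (G1 M) 12 (dil M (Δ : ℍ → ℂ)) :=
  isMF_raise M Fermat.Agent.S24.LevelRaise.DeltaMF

/-- **The analytic Fricke function has the formal Fricke function as its expansion.** -/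
theorem isRepOf1_Hnum {P : ℍ → ℂ} {a : ZMod M} (hP : IsMF (G1 M) 2 P)
    (hq : Fermat.Agent.S23.QRing.qx P = wpSeries M a) :
    IsRepOf1 M (frickeH ℂ M a) 12 (Hnum M P) (dil M (Δ : ℍ → ℂ)) where
  ha := isMF_Hnum M hP
  hb := isMF_dil_discriminant M
  hb0 := dil_discriminant_ne_zero M
  eq := by
    have hP' : IsQ P := isQ_of_isMF1 M hP
    have h1 : Fermat.Agent.S23.QRing.qx (Hnum M P) =
        qExpansion 1 (dil M EE) * Fermat.Agent.S23.QRing.qx P := by
      rw [Hnum_eq]
      exact (isQ_EE.dil M).qExpansion_mul hP'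
    have h2 : Fermat.Agent.S23.QRing.qx (dil M (Δ : ℍ → ℂ)) = qExpansion 1 (dil M Δ) := rfl
    rw [h1, h2, map_mul, ofPS_qExpansion_dil_EE, hq]
    change _ = qExpand ℂ M (wNorm ℂ) *
      HahnSeries.ofPowerSeries ℤ ℂ ((12 * tateX M a + 1).map (Int.castRingHom ℂ)) * _
    change _ * ofPS ((12 * tateX M a + 1).map (Int.castRingHom ℂ)) = _
    ring

/-- **[Rep-a]** -/
theorem frickeRep_of_wpForms (h : WpForms M) : FrickeRep M := by
  obtain ⟨P, hP, -⟩ := h
  intro a ha
  exact ⟨Hnum M (P a), dil M (Δ : ℍ → ℂ), isRepOf1_Hnum M (hP a ha).1 (hP a ha).2⟩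

end Fermat.Agent.S48.B.B1.FrickeRep
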