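import Mathlib
import Fermat.Agent.S24.LaurentCusp
import Fermat.Agent.S48.B.B1.Seams

/-!
# PROJECT D (S48), part B, block B1, brick [Pl / LaurentCusp1]:
# Laurent expansions at `i∞` in the parameter `q_M` for the level `Γ₁(M)`

Twin of main's `S24/LaurentCusp.lean`.  That file only imports Mathlib and is generic (the class
`IsCuspHol`, the map `cuspExp`, the period refinement, the translations, the level one orders)
except for six lemmas about forms of level `Γ₀(N)`; it is imported and reused as it is, and only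
the level specific lemmas are typed again here, for `ModularForm (Gamma1 M) k`.

One real difference with `Γ₀`: the places of `X₁(M)` are indexed by `Q1 M = SL(2,ℤ) ⧸ ±Γ₁(M)`, so
the width hypothesis of the place count reads `γ T^w γ⁻¹ ∈ PG1 M`, and at an irregular cusp
(`-γ T^w γ⁻¹ ∈ Γ₁(M)`) a slash of odd weight is only anti-periodic.  No case distinction is needed:
`a / b = (a b) / (b b)`, the weight `k + k` is even, and a form of even weight on `Γ₁(M)` is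
invariant under all of `PG1 M`.  So `dvd_width_mul_log_valuation1` holds for every `M`, every weight,
with the `PG1 M` width.
-/

set_option autoImplicit false

open UpperHalfPlane hiding I
open Complex Filter Function ModularForm CongruenceSubgroup
open Fermat.Agent.S24.LaurentCusp Fermat.Agent.S48.B.B1.Seams
open scoped Real Manifold Topology MatrixGroups CongruenceSubgroup ModularForm

noncomputable section

namespace Fermat.Agent.S48.B.B1.LaurentCusp1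

variable {M : ℕ}

/-! ### The groups -/

theorem Gamma_le_Gamma1 (M : ℕ) : CongruenceSubgroup.Gamma M ≤ Gamma1 M := by
  intro γ hγ
  rw [Gamma_mem] at hγ
  rw [Gamma1_mem]
  exact ⟨hγ.1, hγ.2.2.2, hγ.2.2.1⟩

theorem conj_T_pow_mem1 (M : ℕ) (γ : SL(2, ℤ)) :
    γ * ModularGroup.T ^ (M : ℤ) * γ⁻¹ ∈ Gamma1 M := by
  apply Gamma_le_Gamma1 M
  have hT : ModularGroup.T ^ (M : ℤ) ∈ CongruenceSubgroup.Gamma M := by
    have := ModularGroup_T_pow_mem_Gamma (M : ℤ) (M : ℤ) dvd_rfl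
    simpa using this
  exact (Gamma_normal (N := M)).conj_mem _ hT γ

theorem conj_T_pow_mem_PG1 (M : ℕ) (γ : SL(2, ℤ)) :
    γ * ModularGroup.T ^ (M : ℤ) * γ⁻¹ ∈ PG1 M :=
  (le_sup_left : Gamma1 M ≤ PG1 M) (conj_T_pow_mem1 M γ)

/-! ### The stabiliser of a function under the slash action -/

/-- The subgroup of `SL(2, ℤ)` fixing `f` under the slash action of weight `k`. -/
def slashStab (k : ℤ) (f : ℍ → ℂ) : Subgroup SL(2, ℤ) where
  carrier := {δ | f ∣[k] δ = f}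
  one_mem' := SlashAction.slash_one k f
  mul_mem' := by
    intro a b ha hb
    show f ∣[k] (a * b) = f
    rw [SlashAction.slash_mul, show f ∣[k] a = f from ha, show f ∣[k] b = f from hb]
  inv_mem' := by
    intro a ha
    show f ∣[k] a⁻¹ = f
    have h1 : f ∣[k] a = f := ha
    calc f ∣[k] a⁻¹ = (f ∣[k] a) ∣[k] a⁻¹ := by rw [h1]
      _ = f ∣[k] (a * a⁻¹) := (SlashAction.slash_mul k a a⁻¹ f).symm
      _ = f := by rw [mul_inv_cancel, SlashAction.slash_one]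

theorem mem_slashStab {k : ℤ} {f : ℍ → ℂ} {δ : SL(2, ℤ)} :
    δ ∈ slashStab k f ↔ f ∣[k] δ = f := Iff.rfl

/-- In even weight, `-1` acts trivially. -/
theorem slash_neg_one_of_even {k : ℤ} (hk : Even k) (f : ℍ → ℂ) :
    f ∣[k] (-1 : SL(2, ℤ)) = f := by
  funext τ
  rw [SL_slash_apply, ModularGroup.SL_neg_smul, one_smul, ModularGroup.denom_apply]
  have h10 : ((-1 : SL(2, ℤ)) 1 0 : ℤ) = 0 := by simp
  have h11 : ((-1 : SL(2, ℤ)) 1 1 : ℤ) = -1 := by simp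
  rw [h10, h11]
  have : ((0 : ℤ) : ℂ) * (τ : ℂ) + ((-1 : ℤ) : ℂ) = -1 := by push_cast; ring
  rw [this, hk.neg.neg_one_zpow, mul_one]

/-- A form of level `Γ₁(M)` is fixed by `Γ₁(M)`. -/
theorem Gamma1_le_slashStab {k : ℤ} (A : ModularForm (Gamma1 M) k) :
    Gamma1 M ≤ slashStab k ⇑A := by
  intro δ hδ
  rw [mem_slashStab, SL_slash]
  exact SlashInvariantForm.slash_action_eqn A _ (Subgroup.mem_map_of_mem _ hδ)

/-- A form of even weight and level `Γ₁(M)` is fixed by `±Γ₁(M)`. -/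
theorem PG1_le_slashStab {k : ℤ} (hk : Even k) (A : ModularForm (Gamma1 M) k) :
    PG1 M ≤ slashStab k ⇑A := by
  refine sup_le (Gamma1_le_slashStab A) ?_
  rw [Subgroup.zpowers_le]
  exact slash_neg_one_of_even hk _

/-! ### Slashes of forms of level `Γ₁(M)` -/

theorem slash_conj_invariant_of_le {k : ℤ} {f : ℍ → ℂ} {H : Subgroup SL(2, ℤ)}
    (hH : H ≤ slashStab k f) (γ δ : SL(2, ℤ)) (hδ : γ * δ * γ⁻¹ ∈ H) :
    (f ∣[k] γ) ∣[k] δ = f ∣[k] γ := by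
  have hinv : f ∣[k] (γ * δ * γ⁻¹) = f := hH hδ
  calc (f ∣[k] γ) ∣[k] δ = f ∣[k] (γ * δ) := (SlashAction.slash_mul k γ δ f).symm
    _ = f ∣[k] ((γ * δ * γ⁻¹) * γ) := by
        congr 1
        group
    _ = (f ∣[k] (γ * δ * γ⁻¹)) ∣[k] γ := SlashAction.slash_mul k _ γ f
    _ = f ∣[k] γ := by rw [hinv]

theorem slash_conj_invariant1 {k : ℤ} (A : ModularForm (Gamma1 M) k) (γ δ : SL(2, ℤ))
    (hδ : γ * δ * γ⁻¹ ∈ Gamma1 M) : (⇑A ∣[k] γ) ∣[k] δ = ⇑A ∣[k] γ :=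
  slash_conj_invariant_of_le (Gamma1_le_slashStab A) γ δ hδ

theorem slash_conj_invariant_PG1 {k : ℤ} (hk : Even k) (A : ModularForm (Gamma1 M) k)
    (γ δ : SL(2, ℤ)) (hδ : γ * δ * γ⁻¹ ∈ PG1 M) : (⇑A ∣[k] γ) ∣[k] δ = ⇑A ∣[k] γ :=
  slash_conj_invariant_of_le (PG1_le_slashStab hk A) γ δ hδ

/-- The slash `A ∣[k] γ` of a form of level `Γ₁(M)` is `w`-periodic whenever
`γ T^w γ⁻¹ ∈ Γ₁(M)`. -/
theorem periodic_slash1 {k : ℤ} (A : ModularForm (Gamma1 M) k) (γ : SL(2, ℤ)) {w : ℕ}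
    (hw : γ * ModularGroup.T ^ (w : ℤ) * γ⁻¹ ∈ Gamma1 M) :
    Periodic ((⇑A ∣[k] γ) ∘ ofComplex) (w : ℝ) :=
  periodic_of_slash_T_zpow (slash_conj_invariant1 A γ _ hw)

/-- In even weight, `γ T^w γ⁻¹ ∈ ±Γ₁(M)` is enough. -/
theorem periodic_slash_PG1 {k : ℤ} (hk : Even k) (A : ModularForm (Gamma1 M) k) (γ : SL(2, ℤ))
    {w : ℕ} (hw : γ * ModularGroup.T ^ (w : ℤ) * γ⁻¹ ∈ PG1 M) :
    Periodic ((⇑A ∣[k] γ) ∘ ofComplex) (w : ℝ) :=
  periodic_of_slash_T_zpow (slash_conj_invariant_PG1 hk A γ _ hw)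

variable [NeZero M]

theorem isCuspHol_slash1 {k : ℤ} (A : ModularForm (Gamma1 M) k) (γ : SL(2, ℤ)) :
    IsCuspHol M (⇑A ∣[k] γ) where
  hol := by
    rw [SL_slash]
    exact (ModularFormClass.holo A).slash k _
  per := periodic_slash1 A γ (conj_T_pow_mem1 M γ)
  bdd := ModularFormClass.bdd_at_infty_slash A γ

/-- Function level version, in the language of the seams. -/
theorem isCuspHol_slash_of_isMF {k : ℤ} {a : ℍ → ℂ} (ha : Fermat.Agent.S20.IsMF (G1 M) k a)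
    (γ : SL(2, ℤ)) : IsCuspHol M (a ∣[k] γ) := by
  obtain ⟨A, rfl⟩ := ha
  exact isCuspHol_slash1 A γ

/-! ### Divisibility of the order by `M / width` -/

/-- The `q_M`-order of `A ∣[k] γ` is divisible by `M / w` if `γ T^w γ⁻¹ ∈ Γ₁(M)`. -/
theorem dvd_order_cuspExp_slash1 {k : ℤ} (A : ModularForm (Gamma1 M) k) (γ : SL(2, ℤ)) {w d : ℕ}
    (hM : w * d = M) (hw0 : 0 < w) (hw : γ * ModularGroup.T ^ (w : ℤ) * γ⁻¹ ∈ Gamma1 M) :
    (d : ℤ) ∣ (cuspExp M (⇑A ∣[k] γ)).order :=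
  dvd_order_cuspExp_of_period hM hw0 (isCuspHol_slash1 A γ).hol (periodic_slash1 A γ hw)
    (isCuspHol_slash1 A γ).bdd

/-- Even weight: the `q_M`-order of `A ∣[k] γ` is divisible by `M / w` if
`γ T^w γ⁻¹ ∈ ±Γ₁(M)`. -/
theorem dvd_order_cuspExp_slash_PG1 {k : ℤ} (hk : Even k) (A : ModularForm (Gamma1 M) k)
    (γ : SL(2, ℤ)) {w d : ℕ} (hM : w * d = M) (hw0 : 0 < w)
    (hw : γ * ModularGroup.T ^ (w : ℤ) * γ⁻¹ ∈ PG1 M) :
    (d : ℤ) ∣ (cuspExp M (⇑A ∣[k] γ)).order :=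
  dvd_order_cuspExp_of_period hM hw0 (isCuspHol_slash1 A γ).hol (periodic_slash_PG1 hk A γ hw)
    (isCuspHol_slash1 A γ).bdd

/-- Quotient version in even weight. -/
theorem dvd_width_mul_log_valuation_even {k : ℤ} (hk : Even k) (A B : ModularForm (Gamma1 M) k)
    (γ : SL(2, ℤ)) {w : ℕ} (hwM : w ∣ M) (hw0 : 0 < w)
    (hw : γ * ModularGroup.T ^ (w : ℤ) * γ⁻¹ ∈ PG1 M)
    (hA : cuspExp M (⇑A ∣[k] γ) ≠ 0) (hB : cuspExp M (⇑B ∣[k] γ) ≠ 0) :
    (M : ℤ) ∣ (w : ℤ) * WithZero.log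
      (Valued.v (cuspExp M (⇑A ∣[k] γ) / cuspExp M (⇑B ∣[k] γ))) := by
  obtain ⟨d, hd⟩ := hwM
  rw [log_valuation_eq (div_ne_zero hA hB), order_div_eq hA hB]
  obtain ⟨a, ha⟩ := dvd_order_cuspExp_slash_PG1 hk A γ hd.symm hw0 hw
  obtain ⟨b, hb⟩ := dvd_order_cuspExp_slash_PG1 hk B γ hd.symm hw0 hw
  rw [ha, hb]
  refine ⟨-(a - b), ?_⟩
  rw [hd]
  push_cast
  ring

/-- **Quotient version, in the shape of the hypothesis `hs` of the place count**, any weight, with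
the width taken in `Q1 M = SL(2,ℤ) ⧸ ±Γ₁(M)`. -/
theorem dvd_width_mul_log_valuation1 {k : ℤ} (A B : ModularForm (Gamma1 M) k) (γ : SL(2, ℤ))
    {w : ℕ} (hwM : w ∣ M) (hw0 : 0 < w)
    (hw : γ * ModularGroup.T ^ (w : ℤ) * γ⁻¹ ∈ PG1 M)
    (hA : cuspExp M (⇑A ∣[k] γ) ≠ 0) (hB : cuspExp M (⇑B ∣[k] γ) ≠ 0) :
    (M : ℤ) ∣ (w : ℤ) * WithZero.log
      (Valued.v (cuspExp M (⇑A ∣[k] γ) / cuspExp M (⇑B ∣[k] γ))) := by
  have hAc := isCuspHol_slash1 A γ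
  have hBc := isCuspHol_slash1 B γ
  have e1 : ⇑(A.mul B) ∣[k + k] γ = (⇑A ∣[k] γ) * (⇑B ∣[k] γ) := by
    rw [ModularForm.coe_mul]
    exact mul_slash_SL2 k k γ ⇑A ⇑B
  have e2 : ⇑(B.mul B) ∣[k + k] γ = (⇑B ∣[k] γ) * (⇑B ∣[k] γ) := by
    rw [ModularForm.coe_mul]
    exact mul_slash_SL2 k k γ ⇑B ⇑B
  have hk : Even (k + k) := ⟨k, rfl⟩
  have key := dvd_width_mul_log_valuation_even hk (A.mul B) (B.mul B) γ hwM hw0 hw
    (by rw [e1, cuspExp_mul hAc hBc]; exact mul_ne_zero hA hB)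
    (by rw [e2, cuspExp_mul hBc hBc]; exact mul_ne_zero hB hB)
  rw [e1, e2, cuspExp_mul hAc hBc, cuspExp_mul hBc hBc, mul_div_mul_right _ _ hB] at key
  exact key

/-- Function level version of `dvd_width_mul_log_valuation1`. -/
theorem dvd_width_mul_log_valuation_of_isMF {k : ℤ} {a b : ℍ → ℂ}
    (ha : Fermat.Agent.S20.IsMF (G1 M) k a) (hb : Fermat.Agent.S20.IsMF (G1 M) k b)
    (γ : SL(2, ℤ)) {w : ℕ} (hwM : w ∣ M) (hw0 : 0 < w)
    (hw : γ * ModularGroup.T ^ (w : ℤ) * γ⁻¹ ∈ PG1 M)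
    (hA : cuspExp M (a ∣[k] γ) ≠ 0) (hB : cuspExp M (b ∣[k] γ) ≠ 0) :
    (M : ℤ) ∣ (w : ℤ) * WithZero.log
      (Valued.v (cuspExp M (a ∣[k] γ) / cuspExp M (b ∣[k] γ))) := by
  obtain ⟨A, rfl⟩ := ha
  obtain ⟨B, rfl⟩ := hb
  exact dvd_width_mul_log_valuation1 A B γ hwM hw0 hw hA hB

end Fermat.Agent.S48.B.B1.LaurentCusp1

end
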