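import Mathlib
import Fermat.Agent.S24.OrbitsCusp
import Fermat.Agent.S48.B.B1.Seams
import Fermat.Agent.S48.B.B1.RepHom1
import Fermat.Agent.S48.B.B1.LaurentCusp1
import Fermat.Agent.S48.B.B1.RepAll1

/-!
# PROJECT D (S48), part B, block B1, brick [Pl / Orbits1Cusp]: the places over the cusps of `X₁(M)`

Twin of main's `S24/OrbitsCusp.lean`.  The poles of `j` on `X₁(M)` correspond bijectively to the
orbits of `T` on `Q1 M = SL(2, ℤ) ⧸ ±Γ₁(M)`: instantiation of main's abstract place count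
(`S24/PlaceCount`, `S24/LemmaA`, `S24/Hurwitz`, all generic) at the expansion functional
"`q_M`-expansion at `i∞`" (main's `OrbitsCusp.cuspHom`, generic in the level).

Hypothesis-first on the three upstream bricks of B1:

* `toRep : F1Bar M →+* repField1 M` with `(toRep f : ℂ((q))) = coeffMap ι f`
  (brick `RepAll1`: it exists as soon as `Seams.RepLe M` holds);
* `hsep : Function.Injective (L M toRep)` (brick `Lmap1Sep`: the embeddings attached to different
  cosets of `±Γ₁(M)` are different);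
* `Seams.Deg1 M` (brick `Degree1`).

The output `card_poles_of_deg1` is the fourth component of `Seams.Places1 M`;
`card_poles_of_repLe` is the same with the producer `RepAll1.toRepField1 M ι hrep` plugged in.
-/

set_option autoImplicit false
set_option linter.unusedSectionVars false

noncomputable section

namespace Fermat.Agent.S48.B.B1.Orbits1Cusp

open UpperHalfPlane hiding I
open CongruenceSubgroup ModularForm WithZero AlgebraicCurve
open Fermat.Agent.S20 Fermat.Agent.S24.RepHom Fermat.Agent.S24.LaurentCusp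
  Fermat.Agent.S24.OrbitDefs
open Fermat.Agent.S24
open Fermat.Agent.S24.OrbitsCusp (cuspHom cuspHom_T isCuspHol_sub_closed card_orbit_zpowers
  mem_nonunits_of_v_eq_exp coeffMap_coeffEmb)
open Fermat.Agent.S48.B.Defs.Model Fermat.Agent.S48.B.B1.Seams Fermat.Agent.S48.B.B1.RepHom1
  Fermat.Agent.S48.B.B1.LaurentCusp1

open scoped MatrixGroups ModularForm Manifold

local notation "Kb" => AlgebraicClosure ℚ

variable (M : ℕ) [NeZero M]

/-! ### The cusp expansion functional on the represented series of level `Γ₁(M)` -/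

/-- All slashes of forms for `Γ₁(M)` are in the class `IsCuspHol M`. -/
theorem slashP1_cusp (γ : SL(2, ℤ)) : SlashP1 M (IsCuspHol M) γ :=
  fun _ _ ha => isCuspHol_slash_of_isMF ha γ

/-- The homomorphism "expansion of `f ∘ γ` at `i∞`" on the represented series. -/
def Λrep1 (γ : SL(2, ℤ)) : repField1 M →+* LaurentSeries ℂ :=
  Lmap1 (cuspHom M) γ (slashP1_cusp M γ)

theorem Λrep1_mul_left {δ : SL(2, ℤ)} (hδ : δ ∈ PG1 M) (γ : SL(2, ℤ)) :
    Λrep1 M (δ * γ) = Λrep1 M γ :=
  Lmap1_eq_of_mem_PG1 hδ (slashP1_cusp M γ) (slashP1_cusp M (δ * γ))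
    (fun c => IsCuspHol.const M c)

theorem Λrep1_eq_div (γ : SL(2, ℤ)) (g : repField1 M) {k : ℤ} {a b : ℍ → ℂ}
    (h : IsRepOf1 M (g : LaurentSeries ℂ) k a b) :
    Λrep1 M γ g = cuspExp M (a ∣[k] γ) / cuspExp M (b ∣[k] γ) :=
  Lmap1_eq_div (slashP1_cusp M γ) g h

/-- Valuation of `Λrep1`: translation by `T ^ n` on the right does not change it. -/
theorem v_Λrep1_mul_T_zpow (γ : SL(2, ℤ)) (n : ℤ) (g : repField1 M) :
    v (Λrep1 M (γ * ModularGroup.T ^ n) g) = v (Λrep1 M γ g) := by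
  obtain ⟨k, a, b, h⟩ := g.2
  rw [Λrep1_eq_div M _ g h, Λrep1_eq_div M _ g h, map_div₀, map_div₀,
    SlashAction.slash_mul, SlashAction.slash_mul]
  have ha := slashP1_cusp M γ k a h.ha
  have hb := slashP1_cusp M γ k b h.hb
  show (Valued.v _ : ℤᵐ⁰) / Valued.v _ = Valued.v _ / Valued.v _
  rw [valuation_cuspExp_slash_T_zpow ha, valuation_cuspExp_slash_T_zpow hb]

/-! ### Widths: the orbits of `T` on `SL(2, ℤ) ⧸ ±Γ₁(M)` -/

instance finite_Q1 : Finite (Q1 M) := by
  have : (PG1 M).FiniteIndex := Subgroup.finiteIndex_of_le (Gamma1_le_PG1 (M := M))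
  exact Subgroup.finite_quotient_of_finiteIndex

/-- The width of the cusp attached to the coset `q`: the size of its `T`-orbit. -/
def width1 (q : Q1 M) : ℕ :=
  Function.minimalPeriod ((ModularGroup.T : SL(2, ℤ)) • · : Q1 M → _) q

theorem T_pow_smul1 (q : Q1 M) : (ModularGroup.T ^ M : SL(2, ℤ)) • q = q := by
  rw [smul_eq_iff]
  have h := conj_T_pow_mem_PG1 M (Quotient.out q)⁻¹
  rw [inv_inv, zpow_natCast] at h
  exact h

theorem isPeriodicPt1 (q : Q1 M) :
    Function.IsPeriodicPt ((ModularGroup.T : SL(2, ℤ)) • · : Q1 M → _) M q := by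
  show ((ModularGroup.T : SL(2, ℤ)) • · : Q1 M → _)^[M] q = q
  rw [smul_iterate_apply]
  exact T_pow_smul1 M q

theorem width1_dvd (q : Q1 M) : width1 M q ∣ M :=
  (isPeriodicPt1 M q).minimalPeriod_dvd

theorem width1_pos (q : Q1 M) : 0 < width1 M q :=
  (isPeriodicPt1 M q).minimalPeriod_pos (Nat.pos_of_ne_zero (NeZero.ne M))

theorem card_orbit1 (q : Q1 M) :
    Nat.card (MulAction.orbit (Subgroup.zpowers (ModularGroup.T : SL(2, ℤ))) q) = width1 M q :=
  card_orbit_zpowers _ q

theorem conj_T_width1_mem (q : Q1 M) :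
    (Quotient.out q)⁻¹ * ModularGroup.T ^ (width1 M q : ℤ) * ((Quotient.out q)⁻¹)⁻¹ ∈ PG1 M := by
  have h : (ModularGroup.T ^ width1 M q : SL(2, ℤ)) • q = q := by
    have := Function.isPeriodicPt_minimalPeriod
      ((ModularGroup.T : SL(2, ℤ)) • · : Q1 M → _) q
    have h2 : ((ModularGroup.T : SL(2, ℤ)) • · : Q1 M → _)^[width1 M q] q = q := this
    rwa [smul_iterate_apply] at h2
  rw [smul_eq_iff] at h
  rw [inv_inv, zpow_natCast]
  exact h

/-! ### The family of embeddings of `ℚ̄(X₁(M))` -/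

variable (toRep : F1Bar M →+* repField1 M)

/-- Expansion of `f ∘ γ` at `i∞`, on `F1Bar M`. -/
def Λ (γ : SL(2, ℤ)) : F1Bar M →+* LaurentSeries ℂ :=
  (Λrep1 M γ).comp toRep

theorem Λ_apply (γ : SL(2, ℤ)) (f : F1Bar M) : Λ M toRep γ f = Λrep1 M γ (toRep f) := rfl

theorem Λ_mul_left : ∀ δ ∈ PG1 M, ∀ γ : SL(2, ℤ), Λ M toRep (δ * γ) = Λ M toRep γ := by
  intro δ hδ γ
  unfold Λ
  rw [Λrep1_mul_left M hδ γ]

/-- The family indexed by `Q1 M = SL(2, ℤ) ⧸ ±Γ₁(M)`. -/
def L (q : Q1 M) : F1Bar M →+* LaurentSeries ℂ :=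
  Lq (PG1 M) (Λ M toRep) q

theorem L_eq (q : Q1 M) : L M toRep q = Λ M toRep (Quotient.out q)⁻¹ := rfl

/-- **`hsame`**: the pull-backs of the valuation ring along `L (T • q)` and `L q` agree. -/
theorem comap_L_T_smul (q : Q1 M) :
    v.valuationSubring.comap (L M toRep ((ModularGroup.T : SL(2, ℤ)) • q)) =
      v.valuationSubring.comap (L M toRep q) := by
  have h1 : L M toRep ((ModularGroup.T : SL(2, ℤ)) • q) =
      Λ M toRep ((Quotient.out q)⁻¹ * (ModularGroup.T : SL(2, ℤ)) ^ (-1 : ℤ)) := by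
    rw [zpow_neg_one]
    exact Lq_smul (Λ_mul_left M toRep) _ q
  ext f
  rw [ValuationSubring.mem_comap, ValuationSubring.mem_comap, Valuation.mem_valuationSubring_iff,
    Valuation.mem_valuationSubring_iff, h1, L_eq, Λ_apply, Λ_apply, v_Λrep1_mul_T_zpow]

/-- **`hs`**: `M` divides `width * log (v (L q f))`. -/
theorem dvd_width1_mul_log (q : Q1 M) (f : F1Bar M) (hf : f ≠ 0) :
    (M : ℤ) ∣ (width1 M q : ℤ) * log (v (L M toRep q f)) := by
  have hne : L M toRep q f ≠ 0 := (map_ne_zero _).mpr hf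
  obtain ⟨k, a, b, h⟩ := (toRep f).2
  have e : L M toRep q f =
      cuspExp M (a ∣[k] (Quotient.out q)⁻¹) / cuspExp M (b ∣[k] (Quotient.out q)⁻¹) := by
    rw [L_eq, Λ_apply]
    exact Λrep1_eq_div M _ _ h
  rw [e] at hne ⊢
  have hA : cuspExp M (a ∣[k] (Quotient.out q)⁻¹) ≠ 0 := fun h0 => hne (by rw [h0, zero_div])
  have hB : cuspExp M (b ∣[k] (Quotient.out q)⁻¹) ≠ 0 := fun h0 => hne (by rw [h0, div_zero])
  exact dvd_width_mul_log_valuation_of_isMF h.ha h.hb _ (width1_dvd M q) (width1_pos M q)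
    (conj_T_width1_mem M q) hA hB

/-! ### The values of the embeddings on constants and on `j` -/

variable (htoRep : ∀ f : F1Bar M, ((toRep f : repField1 M) : LaurentSeries ℂ) =
  ModularCurve.coeffMap ι (f : LaurentSeries Kb))

include htoRep

theorem toRep_algebraMap (c : Kb) :
    toRep (algebraMap Kb (F1Bar M) c) = ⟨HahnSeries.C (ι c), const_mem_repField1 (ι c)⟩ := by
  apply Subtype.ext
  rw [htoRep]
  show ModularCurve.coeffMap ι (algebraMap Kb (LaurentSeries Kb) c) = HahnSeries.C (ι c)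
  rw [ModularCurve.algebraMap_laurentSeries_eq_single, ModularCurve.coeffMap_single]
  rfl

/-- **`hconst`/`hK`**: on constants every `L q` is the structure map. -/
theorem L_algebraMap (q : Q1 M) (c : Kb) :
    L M toRep q (algebraMap Kb (F1Bar M) c) = algebraMap ℂ (LaurentSeries ℂ) (ι c) := by
  rw [L_eq, Λ_apply, toRep_algebraMap M toRep htoRep]
  exact Lmap1_const (slashP1_cusp M _) (ι c) _

theorem v_L_algebraMap_le (q : Q1 M) (c : Kb) :
    v (L M toRep q (algebraMap Kb (F1Bar M) c)) ≤ 1 := by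
  rw [L_algebraMap M toRep htoRep, algebraMap_eq_ofPS_C]
  exact v_ofPS_le_one _

omit htoRep in
theorem coe_jgen1 : ((jgen1 M : F1Bar M) : LaurentSeries Kb) =
    ModularCurve.coeffEmb Kb ModularCurve.jq := by
  rw [← DegreeAlg.coe_jgen M]
  rfl

/-- **`hLx`**: the value on `j` is the level one quotient, independent of `q`. -/
theorem L_jgen1 (q : Q1 M) :
    L M toRep q (jgen1 M) =
      cuspExp M (fun τ : ℍ => E₄ τ ^ 3) / cuspExp M ModularForm.discriminant := by
  rw [L_eq, Λ_apply]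
  have h : IsRepOf1 M ((toRep (jgen1 M) : repField1 M) : LaurentSeries ℂ) 12
      (fun τ : ℍ => E₄ τ ^ 3) (ModularForm.discriminant : ℍ → ℂ) := by
    rw [htoRep, coe_jgen1, coeffMap_coeffEmb]
    exact RepAll1.isRepOf1_j M
  exact Lmap1_levelOne (slashP1_cusp M _) _ h RepAll.isMF_E4cube RepAll.isMF_discriminant

/-- **`hm`**: `1/j` has valuation `exp (-M)` under every `L q`. -/
theorem v_L_jgen1_inv (q : Q1 M) :
    v (L M toRep q (jgen1 M)⁻¹) = exp (-(M : ℤ)) := by
  rw [map_inv₀, L_jgen1 M toRep htoRep, inv_div]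
  have h4 : IsCuspHol M (⇑E₄) := (isCuspHol_one_of_class E₄).of_one
  have e : (fun τ : ℍ => E₄ τ ^ 3) = (⇑E₄ : ℍ → ℂ) ^ 3 := rfl
  rw [e, cuspExp_pow h4]
  exact valuation_discriminant_div_E₄_cube

/-! ### The count of the places over the cusps -/

/-- **(O-∞), in the `x⁻¹` form.** -/
theorem card_inv_zeros1 [Fintype (Q1 M)]
    (hsep : Function.Injective (L M toRep))
    (hx : FF.IsFF Kb (jgen1 M))
    (hcard : Fintype.card (Q1 M) =
      Module.finrank (IntermediateField.adjoin Kb {jgen1 M}) (F1Bar M)) :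
    Nat.card {w : Place Kb (F1Bar M) // (jgen1 M)⁻¹ ∈ w.toValuationSubring.nonunits} =
      Nat.card (MulAction.orbitRel.Quotient (Subgroup.zpowers (ModularGroup.T : SL(2, ℤ)))
        (Q1 M)) := by
  have hM0 : 0 < M := Nat.pos_of_ne_zero (NeZero.ne M)
  have := Hurwitz.finite_inv_zeros hx
  refine PlaceCount.card_places_eq_card_orbits v (ModularGroup.T : SL(2, ℤ)) (L M toRep)
    (jgen1 M)⁻¹ ?_ ?_ M hM0 (v_L_jgen1_inv M toRep htoRep) (comap_L_T_smul M toRep) ?_ ?_
  · rw [Hurwitz.finsum_ord_inv hx, hcard]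
  · intro w hw
    exact LemmaA.exists_place_eq_comap_inv v.valuationSubring (L M toRep) hx hcard hsep
      (fun q q' c => by rw [L_algebraMap M toRep htoRep, L_algebraMap M toRep htoRep])
      (fun q q' => by rw [L_jgen1 M toRep htoRep, L_jgen1 M toRep htoRep])
      (fun q c => (Valuation.mem_valuationSubring_iff _ _).mpr
        (v_L_algebraMap_le M toRep htoRep q c))
      (fun q => mem_nonunits_of_v_eq_exp hM0 (v_L_jgen1_inv M toRep htoRep q)) w hw
  · intro q
    rw [card_orbit_zpowers]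
    exact width1_dvd M q
  · intro q f hf
    rw [card_orbit_zpowers]
    exact dvd_width1_mul_log M toRep q f hf

/-- **(O-∞)**: the poles of `j` on `X₁(M)` are in bijection with the orbits of `T` on
`SL(2, ℤ) ⧸ ±Γ₁(M)`. -/
theorem card_poles1 [Fintype (Q1 M)]
    (hsep : Function.Injective (L M toRep))
    (hx : FF.IsFF Kb (jgen1 M))
    (hcard : Fintype.card (Q1 M) =
      Module.finrank (IntermediateField.adjoin Kb {jgen1 M}) (F1Bar M)) :
    Nat.card {w : Place Kb (F1Bar M) // jgen1 M ∉ w.toValuationSubring} =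
      Nat.card (MulAction.orbitRel.Quotient (Subgroup.zpowers (ModularGroup.T : SL(2, ℤ)))
        (Q1 M)) := by
  rw [← card_inv_zeros1 M toRep htoRep hsep hx hcard]
  exact Nat.card_congr (Equiv.subtypeEquivRight fun w => (Hurwitz.inv_mem_nonunits_iff hx w).symm)

/-- **(O-∞)** from `Seams.Deg1 M`: the fourth component of `Seams.Places1 M`. -/
theorem card_poles_of_deg1
    (hsep : Function.Injective (L M toRep)) (hdeg : Deg1 M) :
    Nat.card {w : Place Kb (F1Bar M) // jgen1 M ∉ w.toValuationSubring} =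
      Nat.card (MulAction.orbitRel.Quotient (Subgroup.zpowers (ModularGroup.T : SL(2, ℤ)))
        (Q1 M)) := by
  let _ : Fintype (Q1 M) := Fintype.ofFinite _
  exact card_poles1 M toRep htoRep hsep hdeg.1 (by rw [hdeg.2, Nat.card_eq_fintype_card])

omit htoRep in
/-- **(O-∞)** with the producer `RepAll1.toRepField1` plugged in: from `Seams.RepLe M`,
`Seams.Deg1 M` and the separation of the embeddings. -/
theorem card_poles_of_repLe (hrep : RepLe M)
    (hsep : Function.Injective (L M (RepAll1.toRepField1 M ι hrep))) (hdeg : Deg1 M) :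
    Nat.card {w : Place Kb (F1Bar M) // jgen1 M ∉ w.toValuationSubring} =
      Nat.card (MulAction.orbitRel.Quotient (Subgroup.zpowers (ModularGroup.T : SL(2, ℤ)))
        (Q1 M)) :=
  card_poles_of_deg1 M (RepAll1.toRepField1 M ι hrep) (fun _ => rfl) hsep hdeg

end Fermat.Agent.S48.B.B1.Orbits1Cusp

end
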