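import Mathlib
import Fermat.Agent.S24.LmapJ
import Fermat.Agent.S48.B.B1.RepHom1

/-!
# PROJECT D (S48), block B1, brick Pl (helper27): twin of `S24/LmapJ.lean` for `Γ₁(M)`

The function `j` in the represented field `repField1 M` and its local orders.  The level-free part
of `S24.LmapJ` (`valued_ofPS`, `valued_C`, `jC`, `num`, `isMF_num`, `num_eq_mul`, ...) is reused
from main.

* `jrep1 M : repField1 M` (represented by the level one pair `(E₄³, Δ)`), `crep1 M c`;
* `Lmap1_jrep_sub`: for an expansion functional `T` which is the Taylor expansion at `τ` on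
  holomorphic functions, `Lmap1 T γ (jrep1 - crep1 c) = ofPS (taylorAt τ (jFun - c))`;
* `valued_Lmap1_jrep_sub`: its valuation is `exp (-n)`, `n = 3 / 2 / 1` (`c = jFun τ`);
* `valued_Lmap1_const`: constants `≠ 0` have valuation `1`.
-/

set_option autoImplicit false

noncomputable section

namespace Fermat.Agent.S48.B.B1.Lmap1J

open UpperHalfPlane CongruenceSubgroup ModularForm WithZero
open Fermat.Agent.S20 Fermat.Agent.S23.QRing Fermat.Agent.S24.Taylor
open Fermat.Agent.S24.RepHom (HolHom mdiff_of_isMF ofPS_injective)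
open Fermat.Agent.S24.LevelRaise Fermat.Agent.LevelOne.JBasic
open Fermat.Agent.S24.LmapJ (valued_ofPS valued_C jC ofPS_qx_E4cube DeltaMF_ne_zero isMF_num
  num_apply mdiff_jFun_sub num_eq_mul)
open Fermat.Agent.S48.B.B1.Seams Fermat.Agent.S48.B.B1.RepHom1
open scoped ModularForm Manifold MatrixGroups

variable {M : ℕ} [NeZero M]

theorem G1_le_SL (M : ℕ) : G1 M ≤ 𝒮ℒ :=
  Subgroup.map_le_range (Matrix.SpecialLinearGroup.mapGL ℝ) (Gamma1 M)

omit [NeZero M] in
/-- A level one form is a form for `Γ₁(M)`. -/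
theorem isMF_ofLevelOne1 {k : ℤ} {f : ℍ → ℂ} (h : IsMF 𝒮ℒ k f) : IsMF (G1 M) k f :=
  h.mono (G1_le_SL M)

/-- `j - c` is represented by the level one pair `(E₄³ - c Δ, Δ)`. -/
theorem isRepOf1_jC_sub (M : ℕ) [NeZero M] (c : ℂ) :
    IsRepOf1 M (jC - HahnSeries.C c) 12 (Fermat.Agent.S24.LmapJ.num c) (⇑DeltaMF) where
  ha := isMF_ofLevelOne1 (isMF_num c)
  hb := isMF_ofLevelOne1 (IsMF.coe DeltaMF)
  hb0 := DeltaMF_ne_zero
  eq := by
    have hQ1 : IsQ (⇑E4cube) := isQ_of_levelOne E4cube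
    have hQ2 : IsQ (⇑DeltaMF) := isQ_of_levelOne DeltaMF
    rw [Fermat.Agent.S24.LmapJ.num, qx_sub hQ1 (hQ2.smul c), qx_smul c hQ2, map_sub,
      ofPS_qx_E4cube, sub_mul, PowerSeries.smul_eq_C_mul, map_mul]
    congr 1
    rw [show Seams.ofPS (PowerSeries.C c) = HahnSeries.C c from
      HahnSeries.ofPowerSeries_C (Γ := ℤ) c]

theorem isRepOf1_jC (M : ℕ) [NeZero M] : IsRepOf1 M jC 12 (⇑E4cube) (⇑DeltaMF) := by
  have h := isRepOf1_jC_sub M 0
  have e1 : jC - HahnSeries.C (0 : ℂ) = jC := by rw [map_zero, sub_zero]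
  have e2 : Fermat.Agent.S24.LmapJ.num 0 = ⇑E4cube := by
    rw [Fermat.Agent.S24.LmapJ.num, zero_smul, sub_zero]
  rwa [e1, e2] at h

theorem jC_mem1 (M : ℕ) [NeZero M] : jC ∈ repField1 M := ⟨_, _, _, isRepOf1_jC M⟩

/-- The function `j` as an element of the represented field. -/
def jrep1 (M : ℕ) [NeZero M] : repField1 M := ⟨jC, jC_mem1 M⟩

/-- A constant as an element of the represented field. -/
def crep1 (M : ℕ) [NeZero M] (c : ℂ) : repField1 M := ⟨HahnSeries.C c, const_mem_repField1 c⟩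

theorem coe_jrep1_sub_crep1 (c : ℂ) :
    ((jrep1 M - crep1 M c : repField1 M) : LaurentSeries ℂ) = jC - HahnSeries.C c := rfl

section Lmap

variable {P : (ℍ → ℂ) → Prop} (T : HolHom P (LaurentSeries ℂ))

/-- Non-zero constants have valuation `1` under every `Lmap1`. -/
theorem valued_Lmap1_const (γ : SL(2, ℤ)) (hP : SlashP1 M P γ) {c : ℂ} (hc : c ≠ 0) :
    Valued.v (Lmap1 T γ hP (crep1 M c)) = 1 := by
  rw [crep1, Lmap1_const hP c (const_mem_repField1 c)]
  have : algebraMap ℂ (LaurentSeries ℂ) c = HahnSeries.C c := by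
    rw [HahnSeries.algebraMap_apply', ← HahnSeries.ofPowerSeries_C]
    rfl
  rw [this]
  exact valued_C hc

variable {τ : ℍ} (hT : ∀ f : ℍ → ℂ, MDiff f → T.T f = Seams.ofPS (taylorAt τ f))
include hT

/-- For the Taylor expansion at `τ`, `Lmap1 T γ (j - c)` is the Taylor series of `jFun - c`
(for every `γ`). -/
theorem Lmap1_jrep_sub (γ : SL(2, ℤ)) (hP : SlashP1 M P γ) (c : ℂ) :
    Lmap1 T γ hP (jrep1 M - crep1 M c) = Seams.ofPS (taylorAt τ fun z : ℍ => jFun z - c) := by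
  have hrep : IsRepOf1 M ((jrep1 M - crep1 M c : repField1 M) : LaurentSeries ℂ) 12
      (Fermat.Agent.S24.LmapJ.num c)
      (⇑DeltaMF) := isRepOf1_jC_sub M c
  have hΔmd : MDiff (⇑DeltaMF : ℍ → ℂ) := mdiff_of_isMF (IsMF.coe DeltaMF)
  rw [Lmap1_levelOne hP _ hrep (isMF_num c) (IsMF.coe DeltaMF),
    hT _ (mdiff_of_isMF (isMF_num c)), hT _ hΔmd, num_eq_mul,
    taylorAt_mul τ hΔmd (mdiff_jFun_sub c), map_mul]
  have hne : Seams.ofPS (taylorAt τ (⇑DeltaMF)) ≠ 0 := by
    intro h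
    have h1 : taylorAt τ (⇑DeltaMF) = 0 := ofPS_injective (by rw [h, map_zero])
    exact DeltaMF_ne_zero ((taylorAt_eq_zero_iff τ hΔmd).mp h1)
  rw [mul_comm, mul_div_assoc, div_self hne, mul_one]

/-- **Local order of `j - j(τ)`** in the Taylor expansion at `τ`: `3` if `j(τ) = 0`, `2` if
`j(τ) = 1728`, `1` otherwise; the same for every translate. -/
theorem valued_Lmap1_jrep_sub (γ : SL(2, ℤ)) (hP : SlashP1 M P γ) :
    Valued.v (Lmap1 T γ hP (jrep1 M - crep1 M (jFun τ))) =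
      exp (-((if jFun τ = 0 then 3 else if jFun τ = 1728 then 2 else 1 : ℕ) : ℤ)) := by
  rw [Lmap1_jrep_sub T hT γ hP]
  have hmd := mdiff_jFun_sub (jFun τ)
  have hord : (taylorAt τ fun z : ℍ => jFun z - jFun τ).order =
      ((if jFun τ = 0 then 3 else if jFun τ = 1728 then 2 else 1 : ℕ) : ℕ∞) := by
    rw [order_taylorAt τ hmd]
    have := analyticOrderAt_jSub τ
    have e : ((fun z : ℍ => jFun z - jFun τ) ∘ ofComplex) = jSub (jFun τ) := rfl
    rw [e, this]
    split_ifs <;> rfl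
  have hne : (taylorAt τ fun z : ℍ => jFun z - jFun τ) ≠ 0 := by
    intro h
    rw [h, PowerSeries.order_zero] at hord
    exact ENat.top_ne_natCast _ hord
  exact (valued_ofPS hne).trans (by rw [hord, ENat.toNat_natCast])

end Lmap

end Fermat.Agent.S48.B.B1.Lmap1J
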