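import Mathlib
import Fermat.Agent.S24.TaylorInv
import Fermat.Agent.S24.OrbitDefs
import Fermat.Agent.S24.LmapTaylor
import Fermat.Agent.S48.B.B1.RepHom1

/-!
# PROJECT D (S48), block B1, brick Pl (helper27): twin of `S24/LmapTaylor.lean` for `Γ₁(M)`

The homomorphisms `Lmap1` for the Taylor expansion functional.  The level-free part of
`S24.LmapTaylor` (`valued_ofPS_div`, `log_valued_ofPS_div`, `order_taylorAt_slash`,
`comap_eq_of_valued_eq`, `S_smul_I`, `tay_T_of_mdiff`) is reused from main.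

* `log_valued_Lmap1_of`: `log v (Lmap1 T γ g) = -(ord_τ (a ∣ γ) - ord_τ (b ∣ γ))` for the Taylor
  functional at `τ`.
* `valued_Lmap1_mul_of`: `v (Lmap1 (tay τ) (γ * σ) g) = v (Lmap1 (tay (σ • τ)) γ g)`.
* `(Inv)`: divisibility of `log (v (Lmap1 (tay τ) γ g))` at the elliptic points, for a conjugate in
  `±Γ₁(M)` (the sign `(-1) ^ k` is the same for the two members of a representing pair).
-/

set_option autoImplicit false
set_option linter.unusedSectionVars false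

noncomputable section

open UpperHalfPlane Filter Topology PowerSeries CongruenceSubgroup WithZero
open scoped Manifold MatrixGroups ModularForm

namespace Fermat.Agent.S48.B.B1.Lmap1Taylor

open Fermat.Agent.S24.Taylor Fermat.Agent.S24.TaylorInv
open Fermat.Agent.S24.RepHom (HolHom mdiff_of_isMF mdiff_slash slash_ne_zero)
open Fermat.Agent.S24.OrbitDefs (v tay)
open Fermat.Agent.S24.LmapTaylor (valued_ofPS_div log_valued_ofPS_div order_taylorAt_slash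
  comap_eq_of_valued_eq S_smul_I tay_T_of_mdiff)
open Fermat.Agent.S20
open Fermat.Agent.S48.B.B1.Seams Fermat.Agent.S48.B.B1.RepHom1

variable {M : ℕ} [NeZero M]

theorem num_ne_zero_of_isRepOf1 {g : LaurentSeries ℂ} {k : ℤ} {a b : ℍ → ℂ}
    (h : IsRepOf1 M g k a b) (hg : g ≠ 0) : a ≠ 0 := (IsRepOf1x.inv h hg).hb0

/-- If `γ σ γ⁻¹ ∈ ±Γ₁(M)`, the translate by `γ` of a form for `Γ₁(M)` is `σ`-invariant up to a
sign which only depends on the weight. -/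
theorem exists_sign_slash_of_conj (γ σ : SL(2, ℤ)) (hconj : γ * σ * γ⁻¹ ∈ PG1 M) (k : ℤ) :
    ∃ ε : ℂ, ∀ c : ℍ → ℂ, IsMF (G1 M) k c → (c ∣[k] γ) ∣[k] σ = ε • (c ∣[k] γ) := by
  have e : γ * σ = (γ * σ * γ⁻¹) * γ := by group
  rcases mem_PG1_iff.mp hconj with h | h
  · refine ⟨1, fun c hc => ?_⟩
    rw [← SlashAction.slash_mul, e, slash_mul_left_of_mem1 h hc, one_smul]
  · refine ⟨(-1 : ℂ) ^ (-k), fun c hc => ?_⟩
    have e' : γ * σ = -((-(γ * σ * γ⁻¹)) * γ) := by rw [neg_mul, neg_neg, ← e]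
    rw [← SlashAction.slash_mul, e', slash_neg_mul, slash_mul_left_of_mem1 h hc]

/-- If `γ σ γ⁻¹ ∈ ±Γ₁(M)`, the quotient `(a ∣ γ) / (b ∣ γ)` is `σ`-invariant (in cross-multiplied
form). -/
theorem cross_invariant_of_conj1 (γ σ : SL(2, ℤ)) (hconj : γ * σ * γ⁻¹ ∈ PG1 M) {k : ℤ}
    {a b : ℍ → ℂ} (ha : IsMF (G1 M) k a) (hb : IsMF (G1 M) k b) (z : ℍ) :
    (a ∣[k] γ) (σ • z) * (b ∣[k] γ) z = (a ∣[k] γ) z * (b ∣[k] γ) (σ • z) := by
  obtain ⟨ε, key⟩ := exists_sign_slash_of_conj γ σ hconj k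
  have hval : ∀ {c : ℍ → ℂ}, IsMF (G1 M) k c → ∀ z : ℍ,
      (c ∣[k] γ) (σ • z) = ε * (c ∣[k] γ) z * denom (σ : GL (Fin 2) ℝ) z ^ k := by
    intro c hc z
    have h1 := congrFun (key c hc) z
    rw [ModularForm.SL_slash_apply, Pi.smul_apply, smul_eq_mul] at h1
    rw [← h1, mul_assoc, ← zpow_add₀ (denom_ne_zero _ _), neg_add_cancel, zpow_zero, mul_one]
  rw [hval ha z, hval hb z]
  ring

section general

variable {P : (ℍ → ℂ) → Prop} (T : HolHom P (LaurentSeries ℂ)) (τ : ℍ)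
  (hT : ∀ f : ℍ → ℂ, MDiff f → T.T f = Seams.ofPS (taylorAt τ f))
include hT

theorem Lmap1_eq_of (γ : SL(2, ℤ)) (hP : SlashP1 M P γ) (g : repField1 M) {k : ℤ} {a b : ℍ → ℂ}
    (h : IsRepOf1 M (g : LaurentSeries ℂ) k a b) :
    Lmap1 T γ hP g =
      Seams.ofPS (taylorAt τ (a ∣[k] γ)) / Seams.ofPS (taylorAt τ (b ∣[k] γ)) := by
  rw [Lmap1_eq_div hP g h, hT _ (mdiff_slash γ (mdiff_of_isMF h.ha)),
    hT _ (mdiff_slash γ (mdiff_of_isMF h.hb))]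

theorem log_valued_Lmap1_of (γ : SL(2, ℤ)) (hP : SlashP1 M P γ) (g : repField1 M) (hg : g ≠ 0)
    {k : ℤ} {a b : ℍ → ℂ} (h : IsRepOf1 M (g : LaurentSeries ℂ) k a b) :
    log (Valued.v (Lmap1 T γ hP g) : ℤᵐ⁰) =
      -(((taylorAt τ (a ∣[k] γ)).order.toNat : ℤ) - ((taylorAt τ (b ∣[k] γ)).order.toNat : ℤ)) := by
  have hg' : (g : LaurentSeries ℂ) ≠ 0 := fun h0 => hg (Subtype.ext h0)
  have ha0 : a ∣[k] γ ≠ 0 := slash_ne_zero γ (num_ne_zero_of_isRepOf1 h hg')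
  have hb0 : b ∣[k] γ ≠ 0 := slash_ne_zero γ h.hb0
  have ha : MDiff (a ∣[k] γ) := mdiff_slash γ (mdiff_of_isMF h.ha)
  have hb : MDiff (b ∣[k] γ) := mdiff_slash γ (mdiff_of_isMF h.hb)
  rw [Lmap1_eq_of T τ hT γ hP g h]
  exact log_valued_ofPS_div _ _ (fun h0 => ha0 ((taylorAt_eq_zero_iff τ ha).1 h0))
    (fun h0 => hb0 ((taylorAt_eq_zero_iff τ hb).1 h0))

theorem valued_Lmap1_of (γ : SL(2, ℤ)) (hP : SlashP1 M P γ) (g : repField1 M) (hg : g ≠ 0)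
    {k : ℤ} {a b : ℍ → ℂ} (h : IsRepOf1 M (g : LaurentSeries ℂ) k a b) :
    (Valued.v (Lmap1 T γ hP g) : ℤᵐ⁰) =
      exp (-(((taylorAt τ (a ∣[k] γ)).order.toNat : ℤ) -
        ((taylorAt τ (b ∣[k] γ)).order.toNat : ℤ))) := by
  have hg' : (g : LaurentSeries ℂ) ≠ 0 := fun h0 => hg (Subtype.ext h0)
  have ha0 : a ∣[k] γ ≠ 0 := slash_ne_zero γ (num_ne_zero_of_isRepOf1 h hg')
  have hb0 : b ∣[k] γ ≠ 0 := slash_ne_zero γ h.hb0
  have ha : MDiff (a ∣[k] γ) := mdiff_slash γ (mdiff_of_isMF h.ha)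
  have hb : MDiff (b ∣[k] γ) := mdiff_slash γ (mdiff_of_isMF h.hb)
  rw [Lmap1_eq_of T τ hT γ hP g h]
  exact valued_ofPS_div _ _ (fun h0 => ha0 ((taylorAt_eq_zero_iff τ ha).1 h0))
    (fun h0 => hb0 ((taylorAt_eq_zero_iff τ hb).1 h0))

omit hT in
/-- **Change of base point.** Expanding `f ∘ (γ σ)` at `τ` and `f ∘ γ` at `σ τ` gives the same
absolute value. -/
theorem valued_Lmap1_mul_of {P' : (ℍ → ℂ) → Prop} (T' : HolHom P' (LaurentSeries ℂ))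
    (σ γ : SL(2, ℤ)) (hP : SlashP1 M P (γ * σ)) (hP' : SlashP1 M P' γ)
    (hT : ∀ f : ℍ → ℂ, MDiff f → T.T f = Seams.ofPS (taylorAt τ f))
    (hT' : ∀ f : ℍ → ℂ, MDiff f → T'.T f = Seams.ofPS (taylorAt (σ • τ) f))
    (g : repField1 M) :
    (Valued.v (Lmap1 T (γ * σ) hP g) : ℤᵐ⁰) = Valued.v (Lmap1 T' γ hP' g) := by
  by_cases hg : g = 0
  · rw [hg, map_zero, map_zero, map_zero, map_zero]
  obtain ⟨k, a, b, h⟩ := g.2
  rw [valued_Lmap1_of T τ hT (γ * σ) hP g hg h, valued_Lmap1_of T' (σ • τ) hT' γ hP' g hg h]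
  have ha : MDiff (a ∣[k] γ) := mdiff_slash γ (mdiff_of_isMF h.ha)
  have hb : MDiff (b ∣[k] γ) := mdiff_slash γ (mdiff_of_isMF h.hb)
  rw [SlashAction.slash_mul, SlashAction.slash_mul, order_taylorAt_slash ha k σ τ,
    order_taylorAt_slash hb k σ τ]

/-- **(Inv) for `Lmap1`.** If `σ` fixes `τ` and `γ σ γ⁻¹ ∈ ±Γ₁(M)`, then the multiplier of `σ` at
`τ` to the power `log v (Lmap1 T γ g)` is `1`. -/
theorem denom_zpow_log_valued_Lmap1_of (γ σ : SL(2, ℤ)) (hP : SlashP1 M P γ)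
    (hconj : γ * σ * γ⁻¹ ∈ PG1 M) (hfix : σ • τ = τ) (g : repField1 M) (hg : g ≠ 0) :
    denom (σ : GL (Fin 2) ℝ) τ ^ (2 * log (Valued.v (Lmap1 T γ hP g) : ℤᵐ⁰)) = 1 := by
  obtain ⟨k, a, b, h⟩ := g.2
  have hg' : (g : LaurentSeries ℂ) ≠ 0 := fun h0 => hg (Subtype.ext h0)
  have ha0 : a ∣[k] γ ≠ 0 := slash_ne_zero γ (num_ne_zero_of_isRepOf1 h hg')
  have hb0 : b ∣[k] γ ≠ 0 := slash_ne_zero γ h.hb0
  have ha : MDiff (a ∣[k] γ) := mdiff_slash γ (mdiff_of_isMF h.ha)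
  have hb : MDiff (b ∣[k] γ) := mdiff_slash γ (mdiff_of_isMF h.hb)
  have hmain := denom_zpow_eq_one_of_invariant ha hb ha0 hb0 σ τ hfix
    (cross_invariant_of_conj1 γ σ hconj h.ha h.hb)
  rw [log_valued_Lmap1_of T τ hT γ hP g hg h, mul_neg, zpow_neg, hmain, inv_one]

end general

/-! ### The elliptic points -/

open Fermat.Agent.LevelOne.JBasic in
/-- At `τ = i`: if `γ S γ⁻¹ ∈ ±Γ₁(M)` then all `Lmap1`-orders are even. -/
theorem two_dvd_log_valued_Lmap1_of {P : (ℍ → ℂ) → Prop} (T : HolHom P (LaurentSeries ℂ))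
    (hT : ∀ f : ℍ → ℂ, MDiff f → T.T f = Seams.ofPS (taylorAt UpperHalfPlane.I f))
    (γ : SL(2, ℤ)) (hP : SlashP1 M P γ) (hconj : γ * ModularGroup.S * γ⁻¹ ∈ PG1 M)
    (g : repField1 M) :
    (2 : ℤ) ∣ log (Valued.v (Lmap1 T γ hP g) : ℤᵐ⁰) := by
  by_cases hg : g = 0
  · rw [hg, map_zero, map_zero, log_zero]
    exact dvd_zero _
  obtain ⟨k, a, b, h⟩ := g.2
  have hg' : (g : LaurentSeries ℂ) ≠ 0 := fun h0 => hg (Subtype.ext h0)
  have ha0 : a ∣[k] γ ≠ 0 := slash_ne_zero γ (num_ne_zero_of_isRepOf1 h hg')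
  have hb0 : b ∣[k] γ ≠ 0 := slash_ne_zero γ h.hb0
  have ha : MDiff (a ∣[k] γ) := mdiff_slash γ (mdiff_of_isMF h.ha)
  have hb : MDiff (b ∣[k] γ) := mdiff_slash γ (mdiff_of_isMF h.hb)
  rw [log_valued_Lmap1_of T _ hT γ hP g hg h, dvd_neg]
  exact two_dvd_of_S_invariant ha hb ha0 hb0 (cross_invariant_of_conj1 γ _ hconj h.ha h.hb)

open Fermat.Agent.LevelOne.JBasic in
/-- At `τ = ρ`: if `γ (S T) γ⁻¹ ∈ ±Γ₁(M)` then all `Lmap1`-orders are divisible by `3`. -/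
theorem three_dvd_log_valued_Lmap1_of {P : (ℍ → ℂ) → Prop} (T : HolHom P (LaurentSeries ℂ))
    (hT : ∀ f : ℍ → ℂ, MDiff f → T.T f = Seams.ofPS (taylorAt rho f)) (γ : SL(2, ℤ))
    (hP : SlashP1 M P γ) (hconj : γ * (ModularGroup.S * ModularGroup.T) * γ⁻¹ ∈ PG1 M)
    (g : repField1 M) :
    (3 : ℤ) ∣ log (Valued.v (Lmap1 T γ hP g) : ℤᵐ⁰) := by
  by_cases hg : g = 0
  · rw [hg, map_zero, map_zero, log_zero]
    exact dvd_zero _
  obtain ⟨k, a, b, h⟩ := g.2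
  have hg' : (g : LaurentSeries ℂ) ≠ 0 := fun h0 => hg (Subtype.ext h0)
  have ha0 : a ∣[k] γ ≠ 0 := slash_ne_zero γ (num_ne_zero_of_isRepOf1 h hg')
  have hb0 : b ∣[k] γ ≠ 0 := slash_ne_zero γ h.hb0
  have ha : MDiff (a ∣[k] γ) := mdiff_slash γ (mdiff_of_isMF h.ha)
  have hb : MDiff (b ∣[k] γ) := mdiff_slash γ (mdiff_of_isMF h.hb)
  rw [log_valued_Lmap1_of T _ hT γ hP g hg h, dvd_neg]
  exact three_dvd_of_ST_invariant ha hb ha0 hb0 (cross_invariant_of_conj1 γ _ hconj h.ha h.hb)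

/-! ### Specialisation to `OrbitDefs.tay` -/

theorem v_Lmap1_tay_mul (τ : ℍ) (γ σ : SL(2, ℤ)) (g : repField1 M) :
    v (Lmap1 (tay τ) (γ * σ) (slashP1_mdiff M (γ * σ)) g) =
      v (Lmap1 (tay (σ • τ)) γ (slashP1_mdiff M γ) g) :=
  valued_Lmap1_mul_of (tay τ) τ (tay (σ • τ)) σ γ _ _ (tay_T_of_mdiff τ) (tay_T_of_mdiff _) g

/-- `hsame`: right multiplication by an element of the stabiliser of `τ` does not change the
absolute value. -/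
theorem v_Lmap1_tay_mul_of_fix (τ : ℍ) (γ σ : SL(2, ℤ)) (hfix : σ • τ = τ) (g : repField1 M) :
    v (Lmap1 (tay τ) (γ * σ) (slashP1_mdiff M (γ * σ)) g) =
      v (Lmap1 (tay τ) γ (slashP1_mdiff M γ) g) := by
  have := v_Lmap1_tay_mul τ γ σ g
  rwa [hfix] at this

theorem comap_Lmap1_tay_mul_of_fix (τ : ℍ) (γ σ : SL(2, ℤ)) (hfix : σ • τ = τ) :
    v.valuationSubring.comap (Lmap1 (M := M) (tay τ) (γ * σ) (slashP1_mdiff M (γ * σ))) =
      v.valuationSubring.comap (Lmap1 (tay τ) γ (slashP1_mdiff M γ)) :=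
  comap_eq_of_valued_eq _ _ _ (v_Lmap1_tay_mul_of_fix τ γ σ hfix)

theorem denom_zpow_log_v_Lmap1_tay (τ : ℍ) (γ σ : SL(2, ℤ))
    (hconj : γ * σ * γ⁻¹ ∈ PG1 M) (hfix : σ • τ = τ) (g : repField1 M) (hg : g ≠ 0) :
    denom (σ : GL (Fin 2) ℝ) τ ^ (2 * log (v (Lmap1 (tay τ) γ (slashP1_mdiff M γ) g))) = 1 :=
  denom_zpow_log_valued_Lmap1_of (tay τ) τ (tay_T_of_mdiff τ) γ σ _ hconj hfix g hg

theorem two_dvd_log_v_Lmap1_tay (γ : SL(2, ℤ))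
    (hconj : γ * ModularGroup.S * γ⁻¹ ∈ PG1 M) (g : repField1 M) :
    (2 : ℤ) ∣ log (v (Lmap1 (tay UpperHalfPlane.I) γ (slashP1_mdiff M γ) g)) :=
  two_dvd_log_valued_Lmap1_of _ (tay_T_of_mdiff _) γ _ hconj g

open Fermat.Agent.LevelOne.JBasic in
theorem three_dvd_log_v_Lmap1_tay (γ : SL(2, ℤ))
    (hconj : γ * (ModularGroup.S * ModularGroup.T) * γ⁻¹ ∈ PG1 M) (g : repField1 M) :
    (3 : ℤ) ∣ log (v (Lmap1 (tay rho) γ (slashP1_mdiff M γ) g)) :=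
  three_dvd_log_valued_Lmap1_of _ (tay_T_of_mdiff _) γ _ hconj g

end Fermat.Agent.S48.B.B1.Lmap1Taylor
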