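import Mathlib
import Fermat.Agent.S24.LemmaA
import Fermat.Agent.S24.PlaceCount
import Fermat.Agent.S24.Hurwitz
import Fermat.Agent.S24.OrbitsAbs
import Fermat.Agent.S48.B.B1.RepHom1

/-!
# PROJECT D (S48), block B1, brick Pl (helper27): twin of `S24/OrbitsAbs.lean` for `Γ₁(M)`

For an expansion functional `T : HolHom P (LaurentSeries ℂ)` (Taylor expansion at a point of `ℍ`,
or `q_M`-expansion at the cusp `∞`), an embedding `φ : F1Bar M →+* repField1 M` (the map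
`toRepField1 M ι` of brick `RepAll1`; here a variable, only its value on constants is used), the
family of ring homomorphisms `Lq1 q = Lmap1 T (out q)⁻¹ ∘ φ : F1Bar M →+* ℂ((t))`,
`q ∈ SL(2,ℤ) ⧸ ±Γ₁(M)`, and an element `d ∈ SL(2,ℤ)`, we combine Lemma A (`S24.LemmaA`), Lemma B
(`S24.PlaceCount`) and the fundamental identity (`S24.Hurwitz`), all three level-free on main, into:
the number of places of `F1Bar M = \bar ℚ(X₁(M))` over the point is the number of `⟨d⟩`-orbits on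
`SL(2,ℤ) ⧸ ±Γ₁(M)`.  The case-specific analytic inputs are hypotheses.
-/

set_option autoImplicit false

noncomputable section

namespace Fermat.Agent.S48.B.B1.Orbits1Abs

open UpperHalfPlane CongruenceSubgroup ModularCurve AlgebraicCurve MulAction WithZero Module
open IntermediateField
open Fermat.Agent.S24.RepHom (HolHom)
open Fermat.Agent.S24 Fermat.Agent.S24.FF
open Fermat.Agent.S48.B.Defs.Model Fermat.Agent.S48.B.B1.Seams Fermat.Agent.S48.B.B1.RepHom1
open scoped MatrixGroups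

variable (M : ℕ) [NeZero M]

local notation "Kb" => AlgebraicClosure ℚ

instance finiteIndexPG1 : (PG1 M).FiniteIndex :=
  Subgroup.finiteIndex_of_le (Gamma1_le_PG1 (M := M))

instance finiteQ1 : Finite (Q1 M) := Subgroup.finite_quotient_of_finiteIndex

instance fintypeQ1 : Fintype (Q1 M) := Fintype.ofFinite _

variable {P : (ℍ → ℂ) → Prop} (T : HolHom P (LaurentSeries ℂ))
  (hP : ∀ γ : SL(2, ℤ), SlashP1 M P γ) (hPc : ∀ c : ℂ, P (fun _ => c))
  (ι : Kb →+* ℂ) (φ : F1Bar M →+* repField1 M)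

/-- The family of embeddings `F1Bar M →+* ℂ((t))` indexed by the left cosets of `±Γ₁(M)`. -/
def Lq1 (q : Q1 M) : F1Bar M →+* LaurentSeries ℂ :=
  (Lmap1 T (Quotient.out q)⁻¹ (hP _)).comp φ

theorem Lq1_apply (q : Q1 M) (f : F1Bar M) :
    Lq1 M T hP φ q f = Lmap1 T (Quotient.out q)⁻¹ (hP _) (φ f) := rfl

theorem Lmap1_of_eq {γ γ' : SL(2, ℤ)} (h : γ = γ') :
    Lmap1 T γ (hP γ) = Lmap1 T γ' (hP γ') := by
  subst h
  rfl

include hPc in
/-- `Lmap1` only depends on the right coset of `±Γ₁(M)`; version with arbitrary `SlashP1`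
proofs. -/
theorem Lmap1_congr {γ γ' : SL(2, ℤ)} (h : γ' * γ⁻¹ ∈ PG1 M) :
    Lmap1 T γ' (hP γ') = Lmap1 T γ (hP γ) := by
  have h1 : γ' = (γ' * γ⁻¹) * γ := by group
  have h2 := Lmap1_eq_of_mem_PG1 (T := T) (γ := γ) h (hP γ) (hP _) hPc
  rw [← h2]
  exact Lmap1_of_eq M T hP h1

/-! ### Constants -/

variable (hφ : ∀ c : Kb, φ (algebraMap Kb (F1Bar M) c) =
  ⟨HahnSeries.C (ι c), const_mem_repField1 (ι c)⟩)

include hφ in
theorem Lq1_algebraMap (q : (Q1 M)) (c : Kb) :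
    Lq1 M T hP φ q (algebraMap Kb (F1Bar M) c) = algebraMap ℂ (LaurentSeries ℂ) (ι c) := by
  rw [Lq1_apply, hφ, Lmap1_const]

/-! ### Dependence on the coset -/

include hPc in
theorem Lq1_eq_of_out (q : (Q1 M)) (γ : SL(2, ℤ)) (hγ : (γ : (Q1 M)) = q) :
    Lq1 M T hP φ q = (Lmap1 T γ⁻¹ (hP _)).comp φ := by
  have h1 : ((Quotient.out q : SL(2, ℤ)) : (Q1 M)) = (γ : (Q1 M)) := by
    rw [hγ]; exact Quotient.out_eq' q
  have h2 := QuotientGroup.eq.mp h1
  have h3 : (Quotient.out q)⁻¹ * (γ⁻¹)⁻¹ ∈ PG1 M := by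
    rw [inv_inv]
    exact h2
  show (Lmap1 T (Quotient.out q)⁻¹ (hP _)).comp φ = _
  rw [Lmap1_congr M T hP hPc h3]

include hPc in
theorem Lq1_smul (d : SL(2, ℤ)) (q : (Q1 M)) :
    Lq1 M T hP φ (d • q)
      = (Lmap1 T ((Quotient.out q)⁻¹ * d⁻¹) (hP _)).comp φ := by
  have h := Lq1_eq_of_out M T hP hPc φ (d • q) (d * Quotient.out q) (by
    show ((d * Quotient.out q : SL(2, ℤ)) : (Q1 M)) = d • q
    conv_rhs => rw [← Quotient.out_eq' q]
    rfl)
  rw [h, Lmap1_of_eq M T hP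
    (by group : (d * Quotient.out q)⁻¹ = (Quotient.out q)⁻¹ * d⁻¹)]

/-! ### The abstract count -/

section main

variable (hFF : IsFF Kb (jgen1 M)) (hdeg : finrank Kb⟮jgen1 M⟯ (F1Bar M) = Nat.card (Q1 M))
  (hsep : ∀ γ γ' : SL(2, ℤ),
    (∀ f : (F1Bar M), Lmap1 T γ (hP γ) (φ f)
      = Lmap1 T γ' (hP γ') (φ f)) → γ' * γ⁻¹ ∈ PG1 M)
  (hLx : ∀ γ γ' : SL(2, ℤ), Lmap1 T γ (hP γ) (φ (jgen1 M))
      = Lmap1 T γ' (hP γ') (φ (jgen1 M)))

include hsep in
theorem Lq1_injective : Function.Injective (Lq1 M T hP φ) := by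
  intro q q' h
  have h1 := hsep (Quotient.out q)⁻¹ (Quotient.out q')⁻¹ (fun f => by
    have := congrArg (fun φ : (F1Bar M) →+* LaurentSeries ℂ => φ f) h
    exact this)
  rw [inv_inv] at h1
  have h2 : ((Quotient.out q' : SL(2, ℤ)) : (Q1 M)) = ((Quotient.out q : SL(2, ℤ)) : (Q1 M)) :=
    QuotientGroup.eq.mpr h1
  have e1 : ((Quotient.out q' : SL(2, ℤ)) : (Q1 M)) = q' := Quotient.out_eq' q'
  have e2 : ((Quotient.out q : SL(2, ℤ)) : (Q1 M)) = q := Quotient.out_eq' q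
  rw [e1, e2] at h2
  exact h2.symm

include hPc hφ hFF hdeg hsep hLx in
/-- **Finite points.**  Number of places over `j = a` is the number of `⟨d⟩`-orbits. -/
theorem card_zeros_eq_card_orbits (a : Kb) (d : SL(2, ℤ)) (m : ℕ) (hm0 : 0 < m)
    (hm : ∀ γ : SL(2, ℤ), Valued.v (Lmap1 T γ (hP γ)
      (φ (jgen1 M - algebraMap Kb (F1Bar M) a))) = exp (-(m : ℤ)))
    (hsame : ∀ (γ : SL(2, ℤ)) (g : repField1 M),
      Valued.v (Lmap1 T (γ * d⁻¹) (hP _) g) ≤ 1 ↔ Valued.v (Lmap1 T γ (hP γ) g) ≤ 1)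
    (hdvd : ∀ q : (Q1 M), Nat.card (orbit (Subgroup.zpowers d) q) ∣ m)
    (hs : ∀ (q : (Q1 M)) (g : repField1 M), g ≠ 0 →
      (m : ℤ) ∣ (Nat.card (orbit (Subgroup.zpowers d) q) : ℤ)
        * log (Valued.v (Lmap1 T (Quotient.out q)⁻¹ (hP _) g))) :
    Nat.card {v : Place Kb (F1Bar M) //
        jgen1 M - algebraMap Kb (F1Bar M) a ∈ v.toValuationSubring.nonunits}
      = Nat.card (orbitRel.Quotient (Subgroup.zpowers d) (Q1 M)) := by
  have := Hurwitz.finite_zeros hFF a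
  have hcard : Fintype.card (Q1 M) = finrank Kb⟮jgen1 M⟯ (F1Bar M) := by
    rw [hdeg, Nat.card_eq_fintype_card]
  refine PlaceCount.card_places_eq_card_orbits (K := Kb) (Valued.v) d (Lq1 M T hP φ)
    (jgen1 M - algebraMap Kb (F1Bar M) a) ?_ ?_ m hm0 ?_ ?_ hdvd ?_
  · rw [Hurwitz.finsum_ord_zeros hFF a, hcard]
  · intro v hv
    refine LemmaA.exists_place_eq_comap_sub _ (Lq1 M T hP φ) hFF a hcard
      (Lq1_injective M T hP φ hsep) ?_ ?_ ?_ ?_ v hv
    · intro q q' c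
      rw [Lq1_algebraMap M T hP ι φ hφ, Lq1_algebraMap M T hP ι φ hφ]
    · intro q q'
      exact hLx _ _
    · intro q c
      rw [Lq1_algebraMap M T hP ι φ hφ]
      exact OrbitsAbs.v_algebraMap_le_one _
    · intro q
      have hequiv := Valuation.isEquiv_valuation_valuationSubring
        (Valued.v : Valuation (LaurentSeries ℂ) ℤᵐ⁰)
      rw [ValuationSubring.mem_nonunits_iff, ← hequiv.lt_one_iff_lt_one, Lq1_apply, hm, ← exp_zero,
        exp_lt_exp]
      omega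
  · intro q
    exact hm _
  · intro q
    rw [Lq1_smul M T hP hPc φ]
    ext f
    rw [ValuationSubring.mem_comap, ValuationSubring.mem_comap,
      Valuation.mem_valuationSubring_iff, Valuation.mem_valuationSubring_iff,
      RingHom.comp_apply, Lq1_apply]
    exact hsame _ _
  · intro q f hf
    refine hs q (φ f) ?_
    exact (map_ne_zero _).mpr hf


include hPc hφ hFF hdeg hsep hLx in
/-- **Poles.**  Number of places over `j = ∞` is the number of `⟨d⟩`-orbits. -/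
theorem card_inv_zeros_eq_card_orbits (d : SL(2, ℤ)) (m : ℕ) (hm0 : 0 < m)
    (hm : ∀ γ : SL(2, ℤ), Valued.v (Lmap1 T γ (hP γ)
      (φ (jgen1 M)⁻¹)) = exp (-(m : ℤ)))
    (hsame : ∀ (γ : SL(2, ℤ)) (g : repField1 M),
      Valued.v (Lmap1 T (γ * d⁻¹) (hP _) g) ≤ 1 ↔ Valued.v (Lmap1 T γ (hP γ) g) ≤ 1)
    (hdvd : ∀ q : (Q1 M), Nat.card (orbit (Subgroup.zpowers d) q) ∣ m)
    (hs : ∀ (q : (Q1 M)) (g : repField1 M), g ≠ 0 →
      (m : ℤ) ∣ (Nat.card (orbit (Subgroup.zpowers d) q) : ℤ)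
        * log (Valued.v (Lmap1 T (Quotient.out q)⁻¹ (hP _) g))) :
    Nat.card {v : Place Kb (F1Bar M) // (jgen1 M)⁻¹ ∈ v.toValuationSubring.nonunits}
      = Nat.card (orbitRel.Quotient (Subgroup.zpowers d) (Q1 M)) := by
  have := Hurwitz.finite_inv_zeros hFF
  have hcard : Fintype.card (Q1 M) = finrank Kb⟮jgen1 M⟯ (F1Bar M) := by
    rw [hdeg, Nat.card_eq_fintype_card]
  refine PlaceCount.card_places_eq_card_orbits (K := Kb) (Valued.v) d (Lq1 M T hP φ)
    (jgen1 M)⁻¹ ?_ ?_ m hm0 ?_ ?_ hdvd ?_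
  · rw [Hurwitz.finsum_ord_inv hFF, hcard]
  · intro v hv
    refine LemmaA.exists_place_eq_comap_inv _ (Lq1 M T hP φ) hFF hcard
      (Lq1_injective M T hP φ hsep) ?_ ?_ ?_ ?_ v hv
    · intro q q' c
      rw [Lq1_algebraMap M T hP ι φ hφ, Lq1_algebraMap M T hP ι φ hφ]
    · intro q q'
      exact hLx _ _
    · intro q c
      rw [Lq1_algebraMap M T hP ι φ hφ]
      exact OrbitsAbs.v_algebraMap_le_one _
    · intro q
      have hequiv := Valuation.isEquiv_valuation_valuationSubring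
        (Valued.v : Valuation (LaurentSeries ℂ) ℤᵐ⁰)
      rw [ValuationSubring.mem_nonunits_iff, ← hequiv.lt_one_iff_lt_one, Lq1_apply, hm, ← exp_zero,
        exp_lt_exp]
      omega
  · intro q
    exact hm _
  · intro q
    rw [Lq1_smul M T hP hPc φ]
    ext f
    rw [ValuationSubring.mem_comap, ValuationSubring.mem_comap,
      Valuation.mem_valuationSubring_iff, Valuation.mem_valuationSubring_iff,
      RingHom.comp_apply, Lq1_apply]
    exact hsame _ _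
  · intro q f hf
    refine hs q (φ f) ?_
    exact (map_ne_zero _).mpr hf

include hPc hφ hFF hdeg hsep hLx in
/-- **Poles**, in the shape of `Hurwitz.genus_eq`. -/
theorem card_poles_eq_card_orbits (d : SL(2, ℤ)) (m : ℕ) (hm0 : 0 < m)
    (hm : ∀ γ : SL(2, ℤ), Valued.v (Lmap1 T γ (hP γ)
      (φ (jgen1 M)⁻¹)) = exp (-(m : ℤ)))
    (hsame : ∀ (γ : SL(2, ℤ)) (g : repField1 M),
      Valued.v (Lmap1 T (γ * d⁻¹) (hP _) g) ≤ 1 ↔ Valued.v (Lmap1 T γ (hP γ) g) ≤ 1)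
    (hdvd : ∀ q : (Q1 M), Nat.card (orbit (Subgroup.zpowers d) q) ∣ m)
    (hs : ∀ (q : (Q1 M)) (g : repField1 M), g ≠ 0 →
      (m : ℤ) ∣ (Nat.card (orbit (Subgroup.zpowers d) q) : ℤ)
        * log (Valued.v (Lmap1 T (Quotient.out q)⁻¹ (hP _) g))) :
    Nat.card {v : Place Kb (F1Bar M) // jgen1 M ∉ v.toValuationSubring}
      = Nat.card (orbitRel.Quotient (Subgroup.zpowers d) (Q1 M)) := by
  rw [(Hurwitz.card_poles hFF).trans (Hurwitz.card_inv_zeros hFF).symm]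
  exact card_inv_zeros_eq_card_orbits M T hP hPc ι φ hφ hFF hdeg hsep hLx d m hm0 hm hsame hdvd hs

end main

end Fermat.Agent.S48.B.B1.Orbits1Abs
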