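import Mathlib
import Fermat.Agent.S20.CountOrbitSize
import Fermat.Agent.S24.OrbitDefs
import Fermat.Agent.S24.OrbitsPtGlue
import Fermat.Agent.S48.B.B1.RepHom1

/-!
# PROJECT D (S48), block B1, brick Pl (helper27): twin of `S24/OrbitsPtGlue.lean` for `Γ₁(M)`

The general (level-free) part of `S24.OrbitsPtGlue` is reused from main.  Here: the instances
`d = S`, `m = 2` and `d = S * T`, `m = 3` on `Q1 M = SL(2,ℤ) ⧸ ±Γ₁(M)` (`S ^ 2 = (S T) ^ 3 = -1`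
acts trivially because `-1 ∈ ±Γ₁(M)` is central), and the conjugates of a fixed coset.
-/

set_option autoImplicit false

open CongruenceSubgroup ModularGroup MulAction
open Fermat.Agent.S48.B.B1.Seams Fermat.Agent.S48.B.B1.RepHom1
open scoped MatrixGroups

namespace Fermat.Agent.S48.B.B1.Orbits1PtGlue

variable (M : ℕ) [NeZero M]

/-- `-1` acts trivially on `SL(2,ℤ) ⧸ ±Γ₁(M)`. -/
theorem neg_one_smul1 (q : Q1 M) : (-1 : SL(2, ℤ)) • q = q := by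
  induction q using QuotientGroup.induction_on with
  | H g =>
    rw [MulAction.Quotient.smul_mk, QuotientGroup.eq]
    have e : ((-1 : SL(2, ℤ)) • g)⁻¹ * g = -1 := by
      have e1 : ((-1 : SL(2, ℤ)))⁻¹ = -1 := by decide
      rw [smul_eq_mul, mul_inv_rev, e1, mul_neg, mul_one, neg_mul, inv_mul_cancel]
    rw [e]
    exact neg_one_mem_PG1

theorem S_sq_smul1 (q : Q1 M) : (S : SL(2, ℤ)) ^ 2 • q = q := by
  have e2 : (S : SL(2, ℤ)) ^ 2 = -1 := by decide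
  rw [e2, neg_one_smul1]

theorem ST_cube_smul1 (q : Q1 M) : (S * T : SL(2, ℤ)) ^ 3 • q = q := by
  have e3 : (S * T : SL(2, ℤ)) ^ 3 = -1 := by decide
  rw [e3, neg_one_smul1]

/-- `hdvd` for `d = S`, `m = 2`. -/
theorem card_orbit_S_dvd (q : Q1 M) :
    Nat.card (orbit (Subgroup.zpowers (S : SL(2, ℤ))) q) ∣ 2 :=
  Fermat.Agent.S20.Count.card_orbit_zpowers_dvd _ q 2 (S_sq_smul1 M q)

/-- `hdvd` for `d = S * T`, `m = 3`. -/
theorem card_orbit_ST_dvd (q : Q1 M) :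
    Nat.card (orbit (Subgroup.zpowers (S * T : SL(2, ℤ))) q) ∣ 3 :=
  Fermat.Agent.S20.Count.card_orbit_zpowers_dvd _ q 3 (ST_cube_smul1 M q)

/-- `hs` for `d = S`, `m = 2`, reduced to the fixed cosets. -/
theorem two_dvd_card_orbit_S_mul (q : Q1 M) (n : ℤ)
    (h : (S : SL(2, ℤ)) • q = q → (2 : ℤ) ∣ n) :
    ((2 : ℕ) : ℤ) ∣ (Nat.card (orbit (Subgroup.zpowers (S : SL(2, ℤ))) q) : ℤ) * n :=
  Fermat.Agent.S24.OrbitsPtGlue.dvd_card_orbit_mul S q Nat.prime_two (S_sq_smul1 M q) n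
    (fun hfix => by exact_mod_cast h hfix)

/-- `hs` for `d = S * T`, `m = 3`, reduced to the fixed cosets. -/
theorem three_dvd_card_orbit_ST_mul (q : Q1 M) (n : ℤ)
    (h : (S * T : SL(2, ℤ)) • q = q → (3 : ℤ) ∣ n) :
    ((3 : ℕ) : ℤ) ∣ (Nat.card (orbit (Subgroup.zpowers (S * T : SL(2, ℤ))) q) : ℤ) * n :=
  Fermat.Agent.S24.OrbitsPtGlue.dvd_card_orbit_mul (S * T) q Nat.prime_three (ST_cube_smul1 M q) n
    (fun hfix => by exact_mod_cast h hfix)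

omit [NeZero M] in
/-- `S • q = q` gives `γ * S * γ⁻¹ ∈ ±Γ₁(M)` for `γ = (out q)⁻¹`. -/
theorem conj_S_mem (q : Q1 M) (h : (S : SL(2, ℤ)) • q = q) :
    (Quotient.out q)⁻¹ * S * ((Quotient.out q)⁻¹)⁻¹ ∈ PG1 M :=
  Fermat.Agent.S24.OrbitsPtGlue.conj_mem_of_smul_eq S q h

omit [NeZero M] in
theorem conj_ST_mem (q : Q1 M) (h : (S * T : SL(2, ℤ)) • q = q) :
    (Quotient.out q)⁻¹ * (S * T) * ((Quotient.out q)⁻¹)⁻¹ ∈ PG1 M :=
  Fermat.Agent.S24.OrbitsPtGlue.conj_mem_of_smul_eq (S * T) q h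

end Fermat.Agent.S48.B.B1.Orbits1PtGlue
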