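import Mathlib
import Fermat.Agent.S24.OrbitDefs
import Fermat.Agent.S24.DegreeAlg
import Fermat.Agent.S24.DegreeLowerFormal
import Fermat.Agent.S24.OrbitsPtGlue
import Fermat.Agent.S48.B.B1.RepAll1
import Fermat.Agent.S48.B.B1.Orbits1Abs
import Fermat.Agent.S48.B.B1.Orbits1PtGlue
import Fermat.Agent.S48.B.B1.Lmap1J
import Fermat.Agent.S48.B.B1.Lmap1Taylor

/-!
# PROJECT D (S48), block B1, brick Pl (helper27): twin of `S24/OrbitsPtAlt.lean` for `Γ₁(M)`

Number of places of `F1Bar M = \bar ℚ(X₁(M))` over `j = a`:  `#Q1 M` for `a ≠ 0, 1728`, the number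
of `⟨S⟩`-orbits on `Q1 M = SL(2,ℤ) ⧸ ±Γ₁(M)` for `a = 1728`, the number of `⟨S T⟩`-orbits for
`a = 0` (the first three components of `Seams.Places1 M`), from

* `hle : Seams.RepLe M` (brick Rb, gives `RepAll1.toRepField1 M ι hle`),
* `hdeg : Seams.Deg1 M` (brick Deg),
* `hsep : SepTay M hle` (brick `Lmap1Sep`: the Taylor expansions of the translates separate the
  cosets of `±Γ₁(M)`; typed here as a `Prop`, closed by the producer in one line).

`places1_of` assembles `Seams.Places1 M` with the count over `j = ∞` (brick `Orbits1Cusp`).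
-/

set_option autoImplicit false

noncomputable section

namespace Fermat.Agent.S48.B.B1.Orbits1PtAlt

open UpperHalfPlane CongruenceSubgroup ModularCurve AlgebraicCurve MulAction WithZero Module
open IntermediateField ModularGroup
open Fermat.Agent.S24.RepHom (HolHom)
open Fermat.Agent.S24.FF
open Fermat.Agent.S24.OrbitDefs (tay)
open Fermat.Agent.S24.Taylor
open Fermat.Agent.LevelOne.JBasic
open Fermat.Agent.S48.B.Defs.Model Fermat.Agent.S48.B.B1.Seams Fermat.Agent.S48.B.B1.RepHom1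
open Fermat.Agent.S48.B.B1.RepAll1 Fermat.Agent.S48.B.B1.Orbits1Abs
open Fermat.Agent.S48.B.B1.Lmap1J Fermat.Agent.S48.B.B1.Lmap1Taylor
open scoped MatrixGroups Manifold

variable (M : ℕ) [NeZero M]

local notation "Kb" => AlgebraicClosure ℚ

local notation "ι₀" => Fermat.Agent.S24.OrbitDefs.ι

/-- **The separation seam** (producer: brick `Lmap1Sep`): two translates with the same Taylor
expansions of all the elements of `F1Bar M` lie in the same coset of `±Γ₁(M)`. -/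
def SepTay (hle : RepLe M) : Prop :=
  ∀ (τ : ℍ) (γ γ' : SL(2, ℤ)),
    (∀ f : F1Bar M, Lmap1 (tay τ) γ (slashP1_mdiff M γ) (toRepField1 M ι₀ hle f)
      = Lmap1 (tay τ) γ' (slashP1_mdiff M γ') (toRepField1 M ι₀ hle f)) →
    γ' * γ⁻¹ ∈ PG1 M

/-! ### The dictionary `F1Bar M ↔ repField1 M` -/

theorem coe_jgen1 : ((jgen1 M : F1Bar M) : LaurentSeries Kb) = coeffEmb Kb jq :=
  Fermat.Agent.S24.DegreeAlg.coe_jgen M

theorem toRepField1_jgen1 (ι : Kb →+* ℂ) (hle : RepLe M) :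
    toRepField1 M ι hle (jgen1 M) = jrep1 M := by
  apply Subtype.ext
  rw [coe_toRepField1, coe_jgen1, Fermat.Agent.S24.DegreeLowerFormal.coeffMap_coeffEmb]
  rfl

theorem toRepField1_const (ι : Kb →+* ℂ) (hle : RepLe M) (c : Kb) :
    toRepField1 M ι hle (algebraMap Kb (F1Bar M) c) = crep1 M (ι c) :=
  toRepField1_algebraMap M ι hle c

theorem toRepField1_jgen1_sub (ι : Kb →+* ℂ) (hle : RepLe M) (c : Kb) :
    toRepField1 M ι hle (jgen1 M - algebraMap Kb (F1Bar M) c)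
      = jrep1 M - crep1 M (ι c) := by
  rw [map_sub, toRepField1_jgen1, toRepField1_const]

/-! ### The hypotheses of `Orbits1Abs.card_zeros_eq_card_orbits` for `T = tay τ` -/

theorem hPc_mdiff : ∀ c : ℂ, (fun f : ℍ → ℂ => MDiff f) (fun _ => c) :=
  fun _ => mdifferentiable_const

theorem hLx_tay (ι : Kb →+* ℂ) (hle : RepLe M) (τ : ℍ) (γ γ' : SL(2, ℤ)) :
    Lmap1 (tay τ) γ (slashP1_mdiff M γ) (toRepField1 M ι hle (jgen1 M))
      = Lmap1 (tay τ) γ' (slashP1_mdiff M γ') (toRepField1 M ι hle (jgen1 M)) := by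
  rw [toRepField1_jgen1]
  have h := isRepOf1_jC M
  rw [Lmap1_levelOne (slashP1_mdiff M γ) (jrep1 M) h (Fermat.Agent.S20.IsMF.coe _)
      (Fermat.Agent.S20.IsMF.coe _),
    Lmap1_levelOne (slashP1_mdiff M γ') (jrep1 M) h (Fermat.Agent.S20.IsMF.coe _)
      (Fermat.Agent.S20.IsMF.coe _)]

theorem hm_tay (ι : Kb →+* ℂ) (hle : RepLe M) (τ : ℍ) (a : Kb) (ha : jFun τ = ι a)
    (γ : SL(2, ℤ)) :
    Valued.v (Lmap1 (tay τ) γ (slashP1_mdiff M γ)
      (toRepField1 M ι hle (jgen1 M - algebraMap Kb (F1Bar M) a)))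
      = exp (-((if jFun τ = 0 then 3 else if jFun τ = 1728 then 2 else 1 : ℕ) : ℤ)) := by
  rw [toRepField1_jgen1_sub, ← ha]
  exact valued_Lmap1_jrep_sub (tay τ) (Fermat.Agent.S24.LmapTaylor.tay_T_of_mdiff τ) γ
    (slashP1_mdiff M γ)

theorem hsame_tay (τ : ℍ) (d : SL(2, ℤ)) (hfix : d • τ = τ) (γ : SL(2, ℤ)) (g : repField1 M) :
    Valued.v (Lmap1 (tay τ) (γ * d⁻¹) (slashP1_mdiff M _) g) ≤ 1
      ↔ Valued.v (Lmap1 (tay τ) γ (slashP1_mdiff M γ) g) ≤ 1 := by
  have hfix' : d⁻¹ • τ = τ := by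
    conv_lhs => rw [← hfix]
    rw [inv_smul_smul]
  have := v_Lmap1_tay_mul_of_fix (M := M) τ γ d⁻¹ hfix' g
  unfold Fermat.Agent.S24.OrbitDefs.v at this
  rw [this]

/-! ### The three counts -/

section counts

variable (hle : RepLe M) (hdeg : Deg1 M) (hsep : SepTay M hle)
include hdeg hsep

/-- Generic points. -/
theorem card_generic (a : Kb) (h1728 : a ≠ 1728) (h0 : a ≠ 0) :
    Nat.card {v : Place Kb (F1Bar M) //
        jgen1 M - algebraMap Kb _ a ∈ v.toValuationSubring.nonunits}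
      = Nat.card (Q1 M) := by
  obtain ⟨τ, hτ⟩ := jFun_surjective (ι₀ a)
  have hτ0 : jFun τ ≠ 0 := by
    rw [hτ]
    exact (map_ne_zero _).mpr h0
  have hτ1728 : jFun τ ≠ 1728 := by
    rw [hτ]
    intro h
    apply h1728
    apply Fermat.Agent.S24.OrbitDefs.ι_injective
    rw [h, map_ofNat]
  have key := card_zeros_eq_card_orbits M (tay τ) (fun γ => slashP1_mdiff M γ) hPc_mdiff ι₀
    (toRepField1 M ι₀ hle) (toRepField1_algebraMap M ι₀ hle) hdeg.1 hdeg.2 (hsep τ)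
    (hLx_tay M _ hle τ) a
    (1 : SL(2, ℤ)) 1 Nat.one_pos
    (fun γ => by
      rw [hm_tay M _ hle τ a hτ γ, if_neg hτ0, if_neg hτ1728])
    (hsame_tay M τ 1 (one_smul _ _))
    (fun q => Fermat.Agent.S24.OrbitsPtGlue.card_orbit_one_dvd q)
    (fun q g _ => Fermat.Agent.S24.OrbitsPtGlue.one_dvd_card_orbit_mul _ q _)
  rw [key]
  exact Fermat.Agent.S24.OrbitsPtGlue.card_orbitRel_quotient_one

/-- The point `j = 1728`. -/
theorem card_1728 :
    Nat.card {v : Place Kb (F1Bar M) //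
        jgen1 M - algebraMap Kb _ 1728 ∈ v.toValuationSubring.nonunits}
      = Nat.card (orbitRel.Quotient (Subgroup.zpowers (S : SL(2, ℤ))) (Q1 M)) := by
  have hτ : jFun UpperHalfPlane.I = ι₀ 1728 := by
    rw [jFun_I, map_ofNat]
  have hτ0 : jFun UpperHalfPlane.I ≠ 0 := by
    rw [jFun_I]; norm_num
  exact card_zeros_eq_card_orbits M (tay UpperHalfPlane.I) (fun γ => slashP1_mdiff M γ) hPc_mdiff
    ι₀ (toRepField1 M ι₀ hle) (toRepField1_algebraMap M ι₀ hle) hdeg.1 hdeg.2 (hsep _)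
    (hLx_tay M _ hle _) 1728
    (S : SL(2, ℤ)) 2 (by norm_num)
    (fun γ => by
      rw [hm_tay M _ hle _ 1728 hτ γ, if_neg hτ0, if_pos jFun_I])
    (hsame_tay M _ S Fermat.Agent.S24.LmapTaylor.S_smul_I)
    (fun q => Orbits1PtGlue.card_orbit_S_dvd M q)
    (fun q g _ => Orbits1PtGlue.two_dvd_card_orbit_S_mul M q _ (fun hfix =>
      two_dvd_log_v_Lmap1_tay _ (Orbits1PtGlue.conj_S_mem M q hfix) g))

/-- The point `j = 0`. -/
theorem card_zero :
    Nat.card {v : Place Kb (F1Bar M) //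
        jgen1 M - algebraMap Kb _ 0 ∈ v.toValuationSubring.nonunits}
      = Nat.card (orbitRel.Quotient (Subgroup.zpowers (S * T : SL(2, ℤ))) (Q1 M)) := by
  have hτ : jFun rho = ι₀ 0 := by
    rw [jFun_rho, map_zero]
  exact card_zeros_eq_card_orbits M (tay rho) (fun γ => slashP1_mdiff M γ) hPc_mdiff
    ι₀ (toRepField1 M ι₀ hle) (toRepField1_algebraMap M ι₀ hle) hdeg.1 hdeg.2 (hsep _)
    (hLx_tay M _ hle _) 0
    (S * T : SL(2, ℤ)) 3 (by norm_num)
    (fun γ => by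
      rw [hm_tay M _ hle _ 0 hτ γ, if_pos jFun_rho])
    (hsame_tay M _ (S * T) ST_smul_rho)
    (fun q => Orbits1PtGlue.card_orbit_ST_dvd M q)
    (fun q g _ => Orbits1PtGlue.three_dvd_card_orbit_ST_mul M q _ (fun hfix =>
      three_dvd_log_v_Lmap1_tay _ (Orbits1PtGlue.conj_ST_mem M q hfix) g))

/-- **[B-places]** from the three point counts and the count over `j = ∞`. -/
theorem places1_of
    (hpoles : Nat.card {v : Place Kb (F1Bar M) // jgen1 M ∉ v.toValuationSubring}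
      = Nat.card (orbitRel.Quotient (Subgroup.zpowers (T : SL(2, ℤ))) (Q1 M))) :
    Places1 M :=
  ⟨fun a h1728 h0 => card_generic M hle hdeg hsep a h1728 h0, card_1728 M hle hdeg hsep,
    card_zero M hle hdeg hsep, hpoles⟩

end counts

end Fermat.Agent.S48.B.B1.Orbits1PtAlt
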