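import Mathlib
import Fermat.Agent.S24.LmapSep
import Fermat.Agent.S24.DegreeLowerFormal
import Fermat.Agent.S48.B.B1.Seams
import Fermat.Agent.S48.B.B1.RepHom1
import Fermat.Agent.S48.B.B1.TateX
import Fermat.Agent.S48.B.B1.FrickeRepX
import Fermat.Agent.S48.B.B1.Diamond
import Fermat.Agent.S48.B.B1.RepAll1
import Fermat.Agent.S48.B.B1.Orbits1Cusp
import Fermat.Agent.S48.B.B1.Orbits1PtAlt

/-!
# PROJECT D (S48), block B1, brick Pl / `Lmap1Sep` (helper7): twin of `S24/LmapSep.lean` for `Γ₁(M)`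

Separation of the homomorphisms `Lmap1 T γ` by `j(q^M)` and the Fricke function `h_1`:
if `Lmap1 T γ` and `Lmap1 T γ'` agree on these two elements then `γ' γ⁻¹ ∈ ±Γ₁(M)`.

* `j(q^M)` gives `δ := γ' γ⁻¹ ∈ Γ₀(M)` (main's `LmapSep.mem_Gamma0_of_Lmap_eq`);
* then `Lmap1 T (δ γ) h_a = Lmap1 T γ h_{δ₀₀ a}` (the `Γ₀(M)`-law of `(W)`), `Lmap1 T γ` is injective,
  so `h_1 = h_{δ₀₀}` and `δ₀₀ = ± 1` (`TateX.frickeH_eq_iff`), i.e. `δ ∈ ±Γ₁(M)`.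

Consumers: `Orbits1PtAlt.SepTay` (helper27) and the injectivity of `Orbits1Cusp.L` (helper20); with
them `places1_of_wpForms : WpForms M → RepLe M → Deg1 M → Places1 M`.
-/

set_option autoImplicit false
set_option linter.unusedSectionVars false

noncomputable section

namespace Fermat.Agent.S48.B.B1.Lmap1Sep

open UpperHalfPlane hiding I
open ModularForm CongruenceSubgroup ModularCurve
open Fermat.Agent.S20 Fermat.Agent.S23.QRing Fermat.Agent.S48.B.Defs.Model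
open Fermat.Agent.S48.B.B1.Seams Fermat.Agent.S48.B.B1.RepHom1
open Fermat.Agent.S48.B.B1.FrickeRepX
open Fermat.Agent.S24.RepHom (HolHom SlashP Lmap Lmap_eq_div)
open Fermat.Agent.S24.LmapSep (jdSeries numFun denFun isRepOf_jd jNrep jdRep Lmap_jdRep_eq_div
  mem_Gamma0_of_Lmap_eq mdiff_sub_closed)
open scoped MatrixGroups ModularForm Manifold

local notation "Kb" => AlgebraicClosure ℚ

variable {M : ℕ} [NeZero M]

/-! ### The two separating elements -/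

/-- `j(q^M)` as an element of `repField1 M` -/
def jN1 (M : ℕ) [NeZero M] : repField1 M :=
  ⟨jdSeries M, ⟨_, _, _, isRepOf1_jd M (dvd_refl M)⟩⟩

/-- `h_a` as an element of `repField1 M` -/
def hrep {P : ZMod M → ℍ → ℂ}
    (hP : ∀ a : ZMod M, a ≠ 0 → IsMF (G1 M) 2 (P a) ∧ qx (P a) = wpSeries M a)
    (a : ZMod M) (ha : a ≠ 0) : repField1 M :=
  ⟨frickeH ℂ M a, ⟨_, _, _, isRepOf1_fricke M (hP a ha).1 (hP a ha).2⟩⟩

section Sep

variable {Pc : (ℍ → ℂ) → Prop} {Ω : Type*} [Field Ω] [Algebra ℂ Ω]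

theorem slashP_of_slashP1 {γ : SL(2, ℤ)} (hP : SlashP1 M Pc γ) : SlashP M Pc γ :=
  fun k a h => hP k a (h.mono (G1_le_G0 M))

theorem Lmap1_jN1 (T : HolHom Pc Ω) {γ : SL(2, ℤ)} (hP : SlashP1 M Pc γ) :
    Lmap1 T γ hP (jN1 M) = Lmap T γ (slashP_of_slashP1 hP) (jNrep M) := by
  rw [Lmap1_eq_div hP (jN1 M) (isRepOf1_jd M (dvd_refl M))]
  exact (Lmap_jdRep_eq_div T (slashP_of_slashP1 hP) (dvd_refl M)).symm

/-- **Step 1**: `j(q^M)` separates the cosets of `Γ₀(M)` -/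
theorem mem_Gamma0_of_Lmap1_eq (T : HolHom Pc Ω)
    (hsub : ∀ f g : ℍ → ℂ, Pc f → Pc g → Pc (f - g)) {γ γ' : SL(2, ℤ)}
    (hP : SlashP1 M Pc γ) (hP' : SlashP1 M Pc γ')
    (h : Lmap1 T γ hP (jN1 M) = Lmap1 T γ' hP' (jN1 M)) : γ' * γ⁻¹ ∈ Gamma0 M := by
  rw [Lmap1_jN1, Lmap1_jN1] at h
  exact mem_Gamma0_of_Lmap_eq T hsub _ _ h

/-- the `Γ₀(M)`-law: `Lmap1 T (δ γ) h_a = Lmap1 T γ h_{δ₀₀ a}` -/
theorem Lmap1_mul_left_hrep (T : HolHom Pc Ω) {P : ZMod M → ℍ → ℂ}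
    (hP : ∀ a : ZMod M, a ≠ 0 → IsMF (G1 M) 2 (P a) ∧ qx (P a) = wpSeries M a)
    (hPσ : ∀ a : ZMod M, a ≠ 0 → ∀ σ : SL(2, ℤ), σ ∈ Gamma0 M →
      (P a) ∣[(2 : ℤ)] σ = P (((σ 0 0 : ℤ) : ZMod M) * a))
    {γ δ : SL(2, ℤ)} (hδ : δ ∈ Gamma0 M) (hPγ : SlashP1 M Pc γ) (hPδγ : SlashP1 M Pc (δ * γ))
    (a : ZMod M) (ha : a ≠ 0) (ha' : ((δ 0 0 : ℤ) : ZMod M) * a ≠ 0) :
    Lmap1 T (δ * γ) hPδγ (hrep hP a ha) = Lmap1 T γ hPγ (hrep hP _ ha') := by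
  rw [Lmap1_eq_div hPδγ (hrep hP a ha) (isRepOf1_fricke M (hP a ha).1 (hP a ha).2),
    Lmap1_eq_div hPγ (hrep hP _ ha') (isRepOf1_fricke M (hP _ ha').1 (hP _ ha').2),
    SlashAction.slash_mul, SlashAction.slash_mul, frickeNum_slash M hδ (hPσ a ha δ hδ),
    frickeDen_slash M hδ]

theorem hrep_injective {P : ZMod M → ℍ → ℂ}
    (hP : ∀ a : ZMod M, a ≠ 0 → IsMF (G1 M) 2 (P a) ∧ qx (P a) = wpSeries M a)
    {a b : ZMod M} (ha : a ≠ 0) (hb : b ≠ 0) (h : hrep hP a ha = hrep hP b hb) :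
    a = b ∨ a = -b :=
  (Fermat.Agent.S48.B.B1.TateX.frickeH_eq_iff ℂ ha hb).mp (congrArg Subtype.val h)

/-- an element of `Γ₀(M)` with upper left entry `±1` lies in `±Γ₁(M)` -/
theorem mem_PG1_of_entry {δ : SL(2, ℤ)} (hδ : δ ∈ Gamma0 M)
    (h : (1 : ZMod M) = ((δ 0 0 : ℤ) : ZMod M) ∨ (1 : ZMod M) = -((δ 0 0 : ℤ) : ZMod M)) :
    δ ∈ PG1 M := by
  rw [Gamma0_mem] at hδ
  have hdet : ((δ 0 0 : ℤ) : ZMod M) * ((δ 1 1 : ℤ) : ZMod M) = 1 := by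
    have h1 := Matrix.SpecialLinearGroup.det_coe δ
    rw [Matrix.det_fin_two] at h1
    have h2 := congrArg (fun x : ℤ => (x : ZMod M)) h1
    simp only [Int.cast_sub, Int.cast_mul, Int.cast_one] at h2
    rw [hδ, mul_zero, sub_zero] at h2
    exact h2
  rw [mem_PG1_iff]
  rcases h with h | h
  · left
    rw [Gamma1_mem]
    refine ⟨h.symm, ?_, hδ⟩
    rw [← h, one_mul] at hdet
    exact hdet
  · right
    rw [Gamma1_mem]
    have e00 : (((-δ : SL(2, ℤ)) 0 0 : ℤ) : ZMod M) = -((δ 0 0 : ℤ) : ZMod M) := by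
      rw [Matrix.SpecialLinearGroup.coe_neg, Matrix.neg_apply, Int.cast_neg]
    have e11 : (((-δ : SL(2, ℤ)) 1 1 : ℤ) : ZMod M) = -((δ 1 1 : ℤ) : ZMod M) := by
      rw [Matrix.SpecialLinearGroup.coe_neg, Matrix.neg_apply, Int.cast_neg]
    have e10 : (((-δ : SL(2, ℤ)) 1 0 : ℤ) : ZMod M) = -((δ 1 0 : ℤ) : ZMod M) := by
      rw [Matrix.SpecialLinearGroup.coe_neg, Matrix.neg_apply, Int.cast_neg]
    refine ⟨by rw [e00, ← h], ?_, by rw [e10, hδ, neg_zero]⟩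
    rw [e11]
    have h3 : ((δ 0 0 : ℤ) : ZMod M) = -1 := by rw [h, neg_neg]
    rw [h3] at hdet
    rw [← hdet]
    ring

/-- **Separation**: `Lmap1 T γ` and `Lmap1 T γ'` agree on `j(q^M)` and on `h_1` only if
`γ' γ⁻¹ ∈ ±Γ₁(M)`. -/
theorem mem_PG1_of_Lmap1_eq (T : HolHom Pc Ω)
    (hsub : ∀ f g : ℍ → ℂ, Pc f → Pc g → Pc (f - g)) {P : ZMod M → ℍ → ℂ}
    (hP : ∀ a : ZMod M, a ≠ 0 → IsMF (G1 M) 2 (P a) ∧ qx (P a) = wpSeries M a)
    (hPσ : ∀ a : ZMod M, a ≠ 0 → ∀ σ : SL(2, ℤ), σ ∈ Gamma0 M →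
      (P a) ∣[(2 : ℤ)] σ = P (((σ 0 0 : ℤ) : ZMod M) * a))
    {γ γ' : SL(2, ℤ)} (hPγ : SlashP1 M Pc γ) (hPγ' : SlashP1 M Pc γ')
    (hj : Lmap1 T γ hPγ (jN1 M) = Lmap1 T γ' hPγ' (jN1 M))
    (hh : ∀ (h1 : (1 : ZMod M) ≠ 0),
      Lmap1 T γ hPγ (hrep hP 1 h1) = Lmap1 T γ' hPγ' (hrep hP 1 h1)) :
    γ' * γ⁻¹ ∈ PG1 M := by
  have hδ := mem_Gamma0_of_Lmap1_eq T hsub hPγ hPγ' hj
  by_cases h1 : (1 : ZMod M) = 0
  · -- `M = 1`
    have hs : Subsingleton (ZMod M) := subsingleton_of_zero_eq_one h1.symm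
    refine Gamma1_le_PG1 ?_
    rw [Gamma1_mem]
    exact ⟨Subsingleton.elim _ _, Subsingleton.elim _ _, Subsingleton.elim _ _⟩
  · refine mem_PG1_of_entry hδ ?_
    have hunit : (((γ' * γ⁻¹) 0 0 : ℤ) : ZMod M) * 1 ≠ 0 := by
      rw [mul_one]
      intro h0
      rw [Gamma0_mem] at hδ
      have h2 := congrArg (fun x : ℤ => (x : ZMod M))
        (Matrix.SpecialLinearGroup.det_coe (γ' * γ⁻¹))
      rw [Matrix.det_fin_two] at h2
      simp only [Int.cast_sub, Int.cast_mul, Int.cast_one] at h2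
      rw [hδ, h0, zero_mul, mul_zero, sub_zero] at h2
      exact h1 h2.symm
    have e : γ' = (γ' * γ⁻¹) * γ := by rw [inv_mul_cancel_right]
    have hPδγ : SlashP1 M Pc ((γ' * γ⁻¹) * γ) := e ▸ hPγ'
    have hcongr : ∀ (γ₁ γ₂ : SL(2, ℤ)) (_ : γ₁ = γ₂) (h₁ : SlashP1 M Pc γ₁)
        (h₂ : SlashP1 M Pc γ₂), Lmap1 T γ₁ h₁ = Lmap1 T γ₂ h₂ := by
      intro γ₁ γ₂ e₁ h₁ h₂
      subst e₁
      rfl
    have h3 : Lmap1 T γ' hPγ' (hrep hP 1 h1) =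
        Lmap1 T ((γ' * γ⁻¹) * γ) hPδγ (hrep hP 1 h1) := by
      rw [hcongr γ' _ e hPγ' hPδγ]
    have h4 := Lmap1_mul_left_hrep T hP hPσ hδ hPγ hPδγ 1 h1 hunit
    have h5 := (hh h1).trans (h3.trans h4)
    have h6 := hrep_injective hP h1 hunit ((Lmap1 T γ hPγ).injective h5)
    rw [mul_one] at h6
    exact h6

/-! ### The two separating elements inside `F1Bar M` -/

section Consumers

open Fermat.Agent.S48.B.B1.RepAll1 (toRepField1 coe_toRepField1)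

local notation "ι₀" => Fermat.Agent.S24.OrbitDefs.ι

/-- `j(q^M)` in `F1Bar M` -/
def jNBar (M : ℕ) [NeZero M] : F1Bar M :=
  ⟨coeffEmb Kb (qExpand ℚ M jq), coeffEmb_mem_laurentBaseChange Kb (jqd_mem_F1 M (dvd_refl M))⟩

/-- `h_a` in `F1Bar M` -/
def hBar (M : ℕ) [NeZero M] (a : ZMod M) (ha : a ≠ 0) : F1Bar M :=
  ⟨coeffEmb Kb (frickeH ℚ M a), coeffEmb_mem_laurentBaseChange Kb (frickeH_mem_F1 M ha)⟩

theorem toRepField1_jNBar (hle : RepLe M) : toRepField1 M ι₀ hle (jNBar M) = jN1 M := by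
  apply Subtype.ext
  rw [coe_toRepField1]
  exact Fermat.Agent.S24.DegreeLowerFormal.coeffMap_coeffEmb ι₀ _

theorem toRepField1_hBar (hle : RepLe M) {P : ZMod M → ℍ → ℂ}
    (hP : ∀ a : ZMod M, a ≠ 0 → IsMF (G1 M) 2 (P a) ∧ qx (P a) = wpSeries M a)
    (a : ZMod M) (ha : a ≠ 0) : toRepField1 M ι₀ hle (hBar M a ha) = hrep hP a ha := by
  apply Subtype.ext
  rw [coe_toRepField1]
  show coeffMap ι₀ (coeffEmb Kb (frickeH ℚ M a)) = frickeH ℂ M a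
  rw [Fermat.Agent.S24.DegreeLowerFormal.coeffMap_coeffEmb, coeffEmb_frickeH]

/-- **Separation on `F1Bar M`**, for any expansion functional -/
theorem mem_PG1_of_forall_eq (hW : WpForms M) (hle : RepLe M) (T : HolHom Pc Ω)
    (hsub : ∀ f g : ℍ → ℂ, Pc f → Pc g → Pc (f - g)) {γ γ' : SL(2, ℤ)}
    (hPγ : SlashP1 M Pc γ) (hPγ' : SlashP1 M Pc γ')
    (h : ∀ f : F1Bar M, Lmap1 T γ hPγ (toRepField1 M ι₀ hle f) =
      Lmap1 T γ' hPγ' (toRepField1 M ι₀ hle f)) : γ' * γ⁻¹ ∈ PG1 M := by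
  obtain ⟨P, hP, hPσ⟩ := hW
  refine mem_PG1_of_Lmap1_eq T hsub hP hPσ hPγ hPγ' ?_ ?_
  · rw [← toRepField1_jNBar hle]
    exact h _
  · intro h1
    rw [← toRepField1_hBar hle hP 1 h1]
    exact h _

/-- **helper27's seam `Orbits1PtAlt.SepTay`** -/
theorem sepTay_of (hW : WpForms M) (hle : RepLe M) :
    Fermat.Agent.S48.B.B1.Orbits1PtAlt.SepTay M hle := by
  intro τ γ γ' h
  exact mem_PG1_of_forall_eq hW hle (Fermat.Agent.S24.OrbitDefs.tay τ) mdiff_sub_closed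
    (slashP1_mdiff M γ) (slashP1_mdiff M γ') h

/-- **helper20's hypothesis `hsep` of `Orbits1Cusp.card_poles_of_repLe`** -/
theorem injective_L_of (hW : WpForms M) (hle : RepLe M) :
    Function.Injective (Fermat.Agent.S48.B.B1.Orbits1Cusp.L M (toRepField1 M ι₀ hle)) := by
  intro q q' hqq
  have key : (Quotient.out q')⁻¹ * ((Quotient.out q)⁻¹)⁻¹ ∈ PG1 M := by
    refine mem_PG1_of_forall_eq hW hle (Fermat.Agent.S24.OrbitsCusp.cuspHom M)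
      (Fermat.Agent.S24.OrbitsCusp.isCuspHol_sub_closed M)
      (Fermat.Agent.S48.B.B1.Orbits1Cusp.slashP1_cusp M _)
      (Fermat.Agent.S48.B.B1.Orbits1Cusp.slashP1_cusp M _) ?_
    intro f
    exact RingHom.congr_fun hqq f
  rw [inv_inv] at key
  have h2 : ((Quotient.out q' : SL(2, ℤ)) : Q1 M) = (Quotient.out q : SL(2, ℤ)) :=
    QuotientGroup.eq.2 key
  rw [QuotientGroup.out_eq', QuotientGroup.out_eq'] at h2
  exact h2.symm

/-- **[B-places]** on `(W)`, `RepLe` and `Deg1` -/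
theorem places1_of_wpForms (hW : WpForms M) (hle : RepLe M) (hdeg : Deg1 M) : Places1 M :=
  Fermat.Agent.S48.B.B1.Orbits1PtAlt.places1_of M hle hdeg (sepTay_of hW hle)
    (Fermat.Agent.S48.B.B1.Orbits1Cusp.card_poles_of_repLe M hle (injective_L_of hW hle) hdeg)

end Consumers

end Sep

end Fermat.Agent.S48.B.B1.Lmap1Sep

end
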