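import Mathlib
import Fermat.Agent.S18.C.S24Ram
import Fermat.Agent.S18.A.FibreSep
import Fermat.Agent.S48.B.B1.Orbits1PtAlt
import Fermat.Agent.S48.B.B1.Orbits1Cusp

/-!
# PROJECT D (S48), block B1, brick Pl / [B-ram] (helper27): ramification of `F1Bar M / ℚ̄(j)`

Twin of main's `S18/C/S24Ram.lean` (finite places) and of the first half of `S37/Diff/RamX0.lean`
(cusps).  The abstract local form of Lemma B (`S24Ram.ord_eq_card_orbit`, level-free) is reused.

* `ord_jgen1_sub_eq_one` : over `a ≠ 0, 1728` every place is unramified;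
* `ord_jgen1_sub_1728_dvd` : over `1728`, `ord_v (j - 1728) ∣ 2`;
* `ord_jgen1_dvd` : over `0`, `ord_v j ∣ 3`;
* `ord_inv_jgen1_dvd` : at a pole of `j` the pole order divides `M`;
* `ram1_of` : the four clauses of the seam `Red.Seams.Ram1 M` (block B3), as a literal conjunction
  in the shape of the hypotheses of main's `S37.Diff.OrdBounds.integral_of_mem_canDiv`.

Inputs: `Seams.RepLe M`, `Seams.Deg1 M`, and the two instances of the separation brick `Lmap1Sep`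
(`Orbits1PtAlt.SepTay` for the Taylor functionals, injectivity of `Orbits1Cusp.L` for the cusp
functional).
-/

set_option autoImplicit false

noncomputable section

namespace Fermat.Agent.S48.B.B1.Ram1

open UpperHalfPlane CongruenceSubgroup ModularCurve AlgebraicCurve MulAction WithZero Module
open IntermediateField ModularGroup
open Fermat.Agent.S24
open Fermat.Agent.S24.RepHom (HolHom)
open Fermat.Agent.S24.FF
open Fermat.Agent.S24.OrbitDefs (tay)
open Fermat.Agent.S24.Taylor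
open Fermat.Agent.LevelOne.JBasic
open Fermat.Agent.S18.C
open Fermat.Agent.S48.B.Defs.Model Fermat.Agent.S48.B.B1.Seams Fermat.Agent.S48.B.B1.RepHom1
open Fermat.Agent.S48.B.B1.RepAll1 Fermat.Agent.S48.B.B1.Orbits1Abs
open Fermat.Agent.S48.B.B1.Lmap1J Fermat.Agent.S48.B.B1.Lmap1Taylor
open scoped MatrixGroups Manifold

variable (M : ℕ) [NeZero M]

local notation "Kb" => AlgebraicClosure ℚ

local notation "ι₀" => Fermat.Agent.S24.OrbitDefs.ι

section Abstract1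

variable {P : (ℍ → ℂ) → Prop} (T : HolHom P (LaurentSeries ℂ))
  (hP : ∀ γ : SL(2, ℤ), SlashP1 M P γ) (hPc : ∀ c : ℂ, P (fun _ => c))
  (ι : Kb →+* ℂ) (φ : F1Bar M →+* repField1 M)
  (hφ : ∀ c : Kb, φ (algebraMap Kb (F1Bar M) c) =
    ⟨HahnSeries.C (ι c), const_mem_repField1 (ι c)⟩)
  (hFF : IsFF Kb (jgen1 M)) (hdeg : finrank Kb⟮jgen1 M⟯ (F1Bar M) = Nat.card (Q1 M))
  (hsep : ∀ γ γ' : SL(2, ℤ),
    (∀ f : (F1Bar M), Lmap1 T γ (hP γ) (φ f)
      = Lmap1 T γ' (hP γ') (φ f)) → γ' * γ⁻¹ ∈ PG1 M)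
  (hLx : ∀ γ γ' : SL(2, ℤ), Lmap1 T γ (hP γ) (φ (jgen1 M))
      = Lmap1 T γ' (hP γ') (φ (jgen1 M)))

include hPc hφ hFF hdeg hsep hLx in
/-- Local form of `Orbits1Abs.card_zeros_eq_card_orbits`: the ramification index of a place over
`j = a` is the size of a `⟨d⟩`-orbit on `SL(2,ℤ) ⧸ ±Γ₁(M)`. -/
theorem ord_eq_card_orbit_of1 (a : Kb) (d : SL(2, ℤ)) (m : ℕ) (hm0 : 0 < m)
    (hm : ∀ γ : SL(2, ℤ), Valued.v (Lmap1 T γ (hP γ)
      (φ (jgen1 M - algebraMap Kb (F1Bar M) a))) = exp (-(m : ℤ)))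
    (hsame : ∀ (γ : SL(2, ℤ)) (g : repField1 M),
      Valued.v (Lmap1 T (γ * d⁻¹) (hP _) g) ≤ 1 ↔ Valued.v (Lmap1 T γ (hP γ) g) ≤ 1)
    (hdvd : ∀ q : (Q1 M), Nat.card (orbit (Subgroup.zpowers d) q) ∣ m)
    (hs : ∀ (q : (Q1 M)) (g : repField1 M), g ≠ 0 →
      (m : ℤ) ∣ (Nat.card (orbit (Subgroup.zpowers d) q) : ℤ)
        * log (Valued.v (Lmap1 T (Quotient.out q)⁻¹ (hP _) g)))
    (v : Place Kb (F1Bar M))
    (hv : jgen1 M - algebraMap Kb (F1Bar M) a ∈ v.toValuationSubring.nonunits) :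
    ∃ q : Q1 M, v.ord (jgen1 M - algebraMap Kb (F1Bar M) a)
      = (Nat.card (orbit (Subgroup.zpowers d) q) : ℤ) := by
  have := Fermat.Agent.S24.Hurwitz.finite_zeros hFF a
  have hcard : Fintype.card (Q1 M) = finrank Kb⟮jgen1 M⟯ (F1Bar M) := by
    rw [hdeg, Nat.card_eq_fintype_card]
  obtain ⟨q, -, hq⟩ := S24Ram.ord_eq_card_orbit (K := Kb) (Valued.v) d (Lq1 M T hP φ)
    (jgen1 M - algebraMap Kb (F1Bar M) a)
    (by rw [Fermat.Agent.S24.Hurwitz.finsum_ord_zeros hFF a, hcard])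
    (by
      intro v hv
      refine Fermat.Agent.S24.LemmaA.exists_place_eq_comap_sub _ (Lq1 M T hP φ) hFF a hcard
        (Lq1_injective M T hP φ hsep) ?_ ?_ ?_ ?_ v hv
      · intro q q' c
        rw [Lq1_algebraMap M T hP ι φ hφ, Lq1_algebraMap M T hP ι φ hφ]
      · intro q q'
        exact hLx _ _
      · intro q c
        rw [Lq1_algebraMap M T hP ι φ hφ]
        exact OrbitsAbs.v_algebraMap_le_one _
      · intro q
        have hequiv := Valuation.isEquiv_valuation_valuationSubring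
          (Valued.v : Valuation (LaurentSeries ℂ) ℤᵐ⁰)
        rw [ValuationSubring.mem_nonunits_iff, ← hequiv.lt_one_iff_lt_one, Lq1_apply, hm,
          ← exp_zero, exp_lt_exp]
        omega)
    m hm0 (fun q => hm _)
    (by
      intro q
      rw [Lq1_smul M T hP hPc φ]
      ext f
      rw [ValuationSubring.mem_comap, ValuationSubring.mem_comap,
        Valuation.mem_valuationSubring_iff, Valuation.mem_valuationSubring_iff,
        RingHom.comp_apply, Lq1_apply]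
      exact hsame _ _)
    hdvd
    (by
      intro q f hf
      refine hs q (φ f) ?_
      exact (map_ne_zero _).mpr hf)
    v hv
  exact ⟨q, hq⟩

end Abstract1

/-! ### The finite places -/

section finite

variable (hle : RepLe M) (hdeg : Deg1 M) (hsep : Orbits1PtAlt.SepTay M hle)
include hdeg hsep

/-- **Generic points are unramified.** -/
theorem ord_jgen1_sub_eq_one (a : Kb) (h1728 : a ≠ 1728) (h0 : a ≠ 0)
    (v : Place Kb (F1Bar M))
    (hv : jgen1 M - algebraMap Kb _ a ∈ v.toValuationSubring.nonunits) :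
    v.ord (jgen1 M - algebraMap Kb _ a) = 1 := by
  obtain ⟨τ, hτ⟩ := jFun_surjective (ι₀ a)
  have hτ0 : jFun τ ≠ 0 := by
    rw [hτ]
    exact (map_ne_zero _).mpr h0
  have hτ1728 : jFun τ ≠ 1728 := by
    rw [hτ]
    intro h
    apply h1728
    apply Fermat.Agent.S24.OrbitDefs.ι_injective
    rw [h, map_ofNat]
  obtain ⟨q, hq⟩ := ord_eq_card_orbit_of1 M (tay τ) (fun γ => slashP1_mdiff M γ)
    Orbits1PtAlt.hPc_mdiff ι₀ (toRepField1 M ι₀ hle) (toRepField1_algebraMap M ι₀ hle)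
    hdeg.1 hdeg.2 (hsep τ) (Orbits1PtAlt.hLx_tay M _ hle τ) a
    (1 : SL(2, ℤ)) 1 Nat.one_pos
    (fun γ => by
      rw [Orbits1PtAlt.hm_tay M _ hle τ a hτ γ, if_neg hτ0, if_neg hτ1728])
    (Orbits1PtAlt.hsame_tay M τ 1 (one_smul _ _))
    (fun q => OrbitsPtGlue.card_orbit_one_dvd q)
    (fun q g _ => OrbitsPtGlue.one_dvd_card_orbit_mul _ q _) v hv
  rw [hq]
  exact_mod_cast OrbitsPtGlue.card_orbit_one (G := SL(2, ℤ)) q

/-- **Over `j = 1728` the ramification index divides `2`.** -/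
theorem ord_jgen1_sub_1728_dvd (v : Place Kb (F1Bar M))
    (hv : jgen1 M - algebraMap Kb _ 1728 ∈ v.toValuationSubring.nonunits) :
    v.ord (jgen1 M - algebraMap Kb _ 1728) ∣ 2 := by
  have hτ : jFun UpperHalfPlane.I = ι₀ 1728 := by
    rw [jFun_I, map_ofNat]
  have hτ0 : jFun UpperHalfPlane.I ≠ 0 := by
    rw [jFun_I]; norm_num
  obtain ⟨q, hq⟩ := ord_eq_card_orbit_of1 M (tay UpperHalfPlane.I) (fun γ => slashP1_mdiff M γ)
    Orbits1PtAlt.hPc_mdiff ι₀ (toRepField1 M ι₀ hle) (toRepField1_algebraMap M ι₀ hle)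
    hdeg.1 hdeg.2 (hsep _) (Orbits1PtAlt.hLx_tay M _ hle _) 1728
    (S : SL(2, ℤ)) 2 (by norm_num)
    (fun γ => by
      rw [Orbits1PtAlt.hm_tay M _ hle _ 1728 hτ γ, if_neg hτ0, if_pos jFun_I])
    (Orbits1PtAlt.hsame_tay M _ S LmapTaylor.S_smul_I)
    (fun q => Orbits1PtGlue.card_orbit_S_dvd M q)
    (fun q g _ => Orbits1PtGlue.two_dvd_card_orbit_S_mul M q _ (fun hfix =>
      two_dvd_log_v_Lmap1_tay _ (Orbits1PtGlue.conj_S_mem M q hfix) g)) v hv
  rw [hq]
  exact_mod_cast Orbits1PtGlue.card_orbit_S_dvd M q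

/-- **Over `j = 0` the ramification index divides `3`.** -/
theorem ord_jgen1_dvd (v : Place Kb (F1Bar M))
    (hv : jgen1 M - algebraMap Kb _ 0 ∈ v.toValuationSubring.nonunits) :
    v.ord (jgen1 M - algebraMap Kb _ 0) ∣ 3 := by
  have hτ : jFun rho = ι₀ 0 := by
    rw [jFun_rho, map_zero]
  obtain ⟨q, hq⟩ := ord_eq_card_orbit_of1 M (tay rho) (fun γ => slashP1_mdiff M γ)
    Orbits1PtAlt.hPc_mdiff ι₀ (toRepField1 M ι₀ hle) (toRepField1_algebraMap M ι₀ hle)
    hdeg.1 hdeg.2 (hsep _) (Orbits1PtAlt.hLx_tay M _ hle _) 0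
    (S * T : SL(2, ℤ)) 3 (by norm_num)
    (fun γ => by
      rw [Orbits1PtAlt.hm_tay M _ hle _ 0 hτ γ, if_pos jFun_rho])
    (Orbits1PtAlt.hsame_tay M _ (S * T) ST_smul_rho)
    (fun q => Orbits1PtGlue.card_orbit_ST_dvd M q)
    (fun q g _ => Orbits1PtGlue.three_dvd_card_orbit_ST_mul M q _ (fun hfix =>
      three_dvd_log_v_Lmap1_tay _ (Orbits1PtGlue.conj_ST_mem M q hfix) g)) v hv
  rw [hq]
  exact_mod_cast Orbits1PtGlue.card_orbit_ST_dvd M q

omit hsep in
theorem jgen1_sub_ne_zero (a : Kb) : jgen1 M - algebraMap Kb (F1Bar M) a ≠ 0 :=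
  sub_ne_zero.mpr (hdeg.1.ne_algebraMap a)

/-- Over `j = 0`: `e ∈ {1, 3}`. -/
theorem ord_jgen1_eq_one_or_three (v : Place Kb (F1Bar M))
    (hv : jgen1 M - algebraMap Kb _ 0 ∈ v.toValuationSubring.nonunits) :
    v.ord (jgen1 M - algebraMap Kb _ 0) = 1 ∨ v.ord (jgen1 M - algebraMap Kb _ 0) = 3 := by
  have hpos := PlaceCount.ord_pos_of_mem_nonunits v (jgen1_sub_ne_zero M hdeg 0) hv
  have hdvd := ord_jgen1_dvd M hle hdeg hsep v hv
  have hle3 : v.ord (jgen1 M - algebraMap Kb _ 0) ≤ 3 := Int.le_of_dvd (by norm_num) hdvd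
  have h2 : v.ord (jgen1 M - algebraMap Kb _ 0) ≠ 2 := by
    intro h
    rw [h] at hdvd
    norm_num at hdvd
  omega

/-- Over `j = 1728`: `e ∈ {1, 2}`. -/
theorem ord_jgen1_sub_1728_eq_one_or_two (v : Place Kb (F1Bar M))
    (hv : jgen1 M - algebraMap Kb _ 1728 ∈ v.toValuationSubring.nonunits) :
    v.ord (jgen1 M - algebraMap Kb _ 1728) = 1 ∨ v.ord (jgen1 M - algebraMap Kb _ 1728) = 2 := by
  have hpos := PlaceCount.ord_pos_of_mem_nonunits v (jgen1_sub_ne_zero M hdeg 1728) hv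
  have hdvd := ord_jgen1_sub_1728_dvd M hle hdeg hsep v hv
  have hle2 : v.ord (jgen1 M - algebraMap Kb _ 1728) ≤ 2 := Int.le_of_dvd (by norm_num) hdvd
  omega

end finite

/-! ### The cusps -/

section cusps

variable (hle : RepLe M) (hdeg : Deg1 M)
  (hsepc : Function.Injective (Orbits1Cusp.L M (toRepField1 M ι₀ hle)))
include hdeg hsepc

/-- **Cusp widths divide `M`**: at a pole of `j` on `X₁(M)` the pole order divides `M`. -/
theorem ord_inv_jgen1_dvd (v : Place Kb (F1Bar M))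
    (hv : (jgen1 M)⁻¹ ∈ v.toValuationSubring.nonunits) :
    v.ord (jgen1 M)⁻¹ ∣ (M : ℤ) := by
  have hx := hdeg.1
  have := Hurwitz.finite_inv_zeros hx
  have hcard : Fintype.card (Q1 M) = Module.finrank Kb⟮jgen1 M⟯ (F1Bar M) := by
    rw [hdeg.2, Nat.card_eq_fintype_card]
  have hM0 : 0 < M := Nat.pos_of_ne_zero (NeZero.ne M)
  have htoRep : ∀ f : F1Bar M, ((toRepField1 M ι₀ hle f : repField1 M) : LaurentSeries ℂ) =
      ModularCurve.coeffMap ι₀ (f : LaurentSeries Kb) := fun _ => rfl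
  obtain ⟨q, -, hq⟩ := S24Ram.ord_eq_card_orbit (K := Kb) OrbitDefs.v
    (ModularGroup.T : SL(2, ℤ)) (Orbits1Cusp.L M (toRepField1 M ι₀ hle)) (jgen1 M)⁻¹
    (by rw [Hurwitz.finsum_ord_inv hx, hcard])
    (fun w hw => LemmaA.exists_place_eq_comap_inv OrbitDefs.v.valuationSubring
      (Orbits1Cusp.L M (toRepField1 M ι₀ hle)) hx hcard hsepc
      (fun q q' c => by
        rw [Orbits1Cusp.L_algebraMap M _ htoRep, Orbits1Cusp.L_algebraMap M _ htoRep])
      (fun q q' => by rw [Orbits1Cusp.L_jgen1 M _ htoRep, Orbits1Cusp.L_jgen1 M _ htoRep])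
      (fun q c => (Valuation.mem_valuationSubring_iff _ _).mpr
        (Orbits1Cusp.v_L_algebraMap_le M _ htoRep q c))
      (fun q => OrbitsCusp.mem_nonunits_of_v_eq_exp hM0
        (Orbits1Cusp.v_L_jgen1_inv M _ htoRep q)) w hw)
    M hM0 (Orbits1Cusp.v_L_jgen1_inv M _ htoRep) (Orbits1Cusp.comap_L_T_smul M _)
    (fun q => by
      rw [OrbitsCusp.card_orbit_zpowers]
      exact Orbits1Cusp.width1_dvd M q)
    (fun q f hf => by
      rw [OrbitsCusp.card_orbit_zpowers]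
      exact Orbits1Cusp.dvd_width1_mul_log M _ q f hf)
    v hv
  rw [hq, OrbitsCusp.card_orbit_zpowers]
  exact_mod_cast Orbits1Cusp.width1_dvd M q

/-- the pole order of `j` at a cusp of `X₁(M)` is at most `M` -/
theorem neg_ord_jgen1_le (v : Place Kb (F1Bar M))
    (hv : 1 < v.adicValuation (jgen1 M)) : -v.ord (jgen1 M) ≤ (M : ℤ) := by
  have hinv : v.adicValuation (jgen1 M)⁻¹ < 1 := by
    rw [map_inv₀]
    exact inv_lt_one_of_one_lt₀ hv
  have h := ord_inv_jgen1_dvd M hle hdeg hsepc v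
    ((Fermat.Agent.S18.A.FibreSep.mem_nonunits_iff v _).mpr hinv)
  rw [Place.ord_inv] at h
  exact Int.le_of_dvd (by exact_mod_cast Nat.pos_of_ne_zero (NeZero.ne M)) h

end cusps

/-! ### The seam `Red.Seams.Ram1 M` -/

/-- **[B-ram]**: the four clauses of `Red.Seams.Ram1 M`, literally. -/
theorem ram1_of (hle : RepLe M) (hdeg : Deg1 M) (hsep : Orbits1PtAlt.SepTay M hle)
    (hsepc : Function.Injective (Orbits1Cusp.L M (toRepField1 M ι₀ hle))) :
    (∀ v : Place Kb (F1Bar M), v.adicValuation (jgen1 M - algebraMap Kb _ 0) < 1 →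
      v.ord (jgen1 M - algebraMap Kb _ 0) ≤ 3) ∧
    (∀ v : Place Kb (F1Bar M), v.adicValuation (jgen1 M - algebraMap Kb _ 1728) < 1 →
      v.ord (jgen1 M - algebraMap Kb _ 1728) ≤ 2) ∧
    (∀ a : Kb, a ≠ 0 → a ≠ 1728 → ∀ v : Place Kb (F1Bar M),
      v.adicValuation (jgen1 M - algebraMap Kb _ a) < 1 →
        v.ord (jgen1 M - algebraMap Kb _ a) = 1) ∧
    ∀ v : Place Kb (F1Bar M), 1 < v.adicValuation (jgen1 M) → -v.ord (jgen1 M) ≤ (M : ℤ) := by
  refine ⟨fun v hv => ?_, fun v hv => ?_, fun a h0 h1728 v hv => ?_,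
    fun v hv => neg_ord_jgen1_le M hle hdeg hsepc v hv⟩
  · rcases ord_jgen1_eq_one_or_three M hle hdeg hsep v
      ((Fermat.Agent.S18.A.FibreSep.mem_nonunits_iff v _).mpr hv) with h | h
    · rw [h]; norm_num
    · rw [h]
  · rcases ord_jgen1_sub_1728_eq_one_or_two M hle hdeg hsep v
      ((Fermat.Agent.S18.A.FibreSep.mem_nonunits_iff v _).mpr hv) with h | h
    · rw [h]; norm_num
    · rw [h]
  · exact ord_jgen1_sub_eq_one M hle hdeg hsep a h1728 h0 v
      ((Fermat.Agent.S18.A.FibreSep.mem_nonunits_iff v _).mpr hv)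

end Fermat.Agent.S48.B.B1.Ram1
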