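import Mathlib
import Fermat.Agent.S24.DegreeRel

/-!
# PROJECT D (S48), block B1: the monic relation over `ℂ[j]` for an arbitrary subgroup (helper29)

Main's `S24.DegreeRel.exists_monic_relation_of` with `Γ₀(N)` replaced by any subgroup `H` of finite
index in `SL(2, ℤ)`: a holomorphic `H`-invariant function all of whose `SL(2, ℤ)`-translates have
moderate growth at `i∞` is a root of a monic polynomial of degree `[SL(2, ℤ) : H]` over `ℂ[j]`.

Since `-1` acts trivially on `ℍ`, invariance under `Γ` gives invariance under `Γ ⊔ ⟨-1⟩`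
(`invariant_sup_neg_one`), which is how the sharp degree `[SL(2, ℤ) : ±Γ₁(M)]` is reached.
-/

set_option autoImplicit false

open UpperHalfPlane hiding I
open ModularForm EisensteinSeries Filter Complex MatrixGroups Function CongruenceSubgroup
open Matrix.SpecialLinearGroup
open scoped Real Topology Manifold

noncomputable section

namespace Fermat.Agent.S48.B.B1.RelH

open Fermat.Agent.LevelOne.JBasic Fermat.Agent.S24.LevelOnePoly Fermat.Agent.S24.DegreeRel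

variable (H : Subgroup SL(2, ℤ))

/-- translate of `r` attached to a coset of `H` -/
def translH (r : ℍ → ℂ) (q : SL(2, ℤ) ⧸ H) : ℍ → ℂ :=
  fun τ => r (q.out⁻¹ • τ)

variable {H}

lemma translH_mk {r : ℍ → ℂ} (hinv : ∀ γ ∈ H, ∀ τ, r (γ • τ) = r τ) (γ : SL(2, ℤ))
    (τ : ℍ) : translH H r (γ : SL(2, ℤ) ⧸ H) τ = r (γ⁻¹ • τ) := by
  set q : SL(2, ℤ) ⧸ H := (γ : SL(2, ℤ) ⧸ H) with hq
  have h1 : ((q.out : SL(2, ℤ)) : SL(2, ℤ) ⧸ H) = (γ : SL(2, ℤ) ⧸ H) :=
    QuotientGroup.out_eq' q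
  have h2 : q.out⁻¹ * γ ∈ H := QuotientGroup.eq.mp h1
  have h3 : (q.out⁻¹ * γ)⁻¹ ∈ H := H.inv_mem h2
  have : γ⁻¹ • τ = (q.out⁻¹ * γ)⁻¹ • (q.out⁻¹ • τ) := by
    rw [← mul_smul]; congr 1; group
  rw [this, hinv _ h3]
  rfl

lemma translH_smul {r : ℍ → ℂ} (hinv : ∀ γ ∈ H, ∀ τ, r (γ • τ) = r τ) (g : SL(2, ℤ))
    (q : SL(2, ℤ) ⧸ H) (τ : ℍ) : translH H r q (g • τ) = translH H r (g⁻¹ • q) τ := by
  obtain ⟨γ, rfl⟩ := QuotientGroup.mk_surjective q
  have : g⁻¹ • (γ : SL(2, ℤ) ⧸ H) = ((g⁻¹ * γ : SL(2, ℤ)) : SL(2, ℤ) ⧸ H) := rfl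
  rw [this, translH_mk hinv, translH_mk hinv, ← mul_smul]
  congr 1; group

/-- **Monic relation of degree `[SL(2, ℤ) : H]` over `ℂ[j]`** for an `H`-invariant holomorphic
function all of whose `SL(2,ℤ)`-translates have moderate growth at `i∞`. -/
theorem exists_monic_relation_of_subgroup (H : Subgroup SL(2, ℤ)) [Finite (SL(2, ℤ) ⧸ H)]
    (r : ℍ → ℂ) (hinv : ∀ γ ∈ H, ∀ τ, r (γ • τ) = r τ)
    (hmod : ∀ g : SL(2, ℤ), (fun τ => r (g • τ)) ∈ modAlg) :
    ∃ Φ : Polynomial (Polynomial ℂ), Φ.Monic ∧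
      Φ.natDegree = Nat.card (SL(2, ℤ) ⧸ H) ∧
      ∀ τ : ℍ, Polynomial.eval (r τ) (Φ.map (Polynomial.evalRingHom (jFun τ))) = 0 := by
  classical
  let _ : Fintype (SL(2, ℤ) ⧸ H) := Fintype.ofFinite _
  set μ := Fintype.card (SL(2, ℤ) ⧸ H) with hμ
  let a : SL(2, ℤ) ⧸ H → modAlg := fun q => ⟨translH H r q, hmod q.out⁻¹⟩
  let Ψ : Polynomial modAlg := ∏ q, (Polynomial.X - Polynomial.C (a q))
  have hΨmonic : Ψ.Monic := Polynomial.monic_prod_of_monic _ _ fun q _ => Polynomial.monic_X_sub_C _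
  have hΨdeg : Ψ.natDegree = μ := by
    rw [Polynomial.natDegree_prod_of_monic _ _ fun q _ => Polynomial.monic_X_sub_C _]
    simp [hμ]
  let ev : ℍ → modAlg →+* ℂ := fun τ =>
    (Pi.evalRingHom (fun _ : ℍ => ℂ) τ).comp (modAlg.val : modAlg →+* (ℍ → ℂ))
  have hev : ∀ τ q, ev τ (a q) = translH H r q τ := fun τ q => rfl
  have hΨmap : ∀ τ, Ψ.map (ev τ) = ∏ q, (Polynomial.X - Polynomial.C (translH H r q τ)) := by
    intro τ
    simp only [Ψ, Polynomial.map_prod, Polynomial.map_sub, Polynomial.map_X, Polynomial.map_C, hev]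
  have hΨinv : ∀ (g : SL(2, ℤ)) τ, Ψ.map (ev (g • τ)) = Ψ.map (ev τ) := by
    intro g τ
    rw [hΨmap, hΨmap]
    simp_rw [translH_smul hinv]
    exact Equiv.prod_comp (MulAction.toPerm (g⁻¹ : SL(2, ℤ)))
      (fun q => Polynomial.X - Polynomial.C (translH H r q τ))
  -- coefficient functions
  let c : ℕ → ℍ → ℂ := fun i => ((Ψ.coeff i : modAlg) : ℍ → ℂ)
  have hc : ∀ i τ, c i τ = (Ψ.map (ev τ)).coeff i := by
    intro i τ; rw [Polynomial.coeff_map]; rfl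
  have hcinv : ∀ i (g : SL(2, ℤ)) τ, c i (g • τ) = c i τ := by
    intro i g τ; rw [hc, hc, hΨinv]
  have hcmem : ∀ i, c i ∈ modAlg := fun i => (Ψ.coeff i).2
  have hP : ∀ i, ∃ P : Polynomial ℂ, ∀ τ, c i τ = P.eval (jFun τ) := by
    intro i
    obtain ⟨hmd, m, hm⟩ := hcmem i
    obtain ⟨P, -, hP⟩ := exists_polynomial_of_invariant hmd (hcinv i) m hm
    exact ⟨P, hP⟩
  choose P hPc using hP
  set R : Polynomial (Polynomial ℂ) :=
    ∑ i ∈ Finset.range μ, Polynomial.C (P i) * Polynomial.X ^ i with hR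
  have hRdeg : R.degree < μ := by
    rw [Polynomial.degree_lt_iff_coeff_zero]
    intro m hm
    rw [hR, Polynomial.finsetSum_coeff]
    refine Finset.sum_eq_zero fun i hi => ?_
    rw [Polynomial.coeff_C_mul_X_pow]
    have : i < μ := Finset.mem_range.mp hi
    rw [if_neg (by omega)]
  have hnat : (Polynomial.X ^ μ + R).natDegree = μ := by
    have h1 : R.degree < (Polynomial.X ^ μ : Polynomial (Polynomial ℂ)).degree := by
      rw [Polynomial.degree_X_pow]; exact hRdeg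
    rw [Polynomial.natDegree_add_eq_left_of_degree_lt h1, Polynomial.natDegree_X_pow]
  refine ⟨Polynomial.X ^ μ + R, Polynomial.monic_X_pow_add hRdeg,
    hnat.trans (by rw [hμ, Nat.card_eq_fintype_card]), ?_⟩
  intro τ
  have hmapmonic : (Ψ.map (ev τ)).Monic := hΨmonic.map _
  have hmapdeg : (Ψ.map (ev τ)).natDegree = μ := by
    rw [hΨmonic.natDegree_map, hΨdeg]
  have hΦ : (Polynomial.X ^ μ + R).map (Polynomial.evalRingHom (jFun τ)) = Ψ.map (ev τ) := by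
    conv_rhs => rw [hmapmonic.as_sum, hmapdeg]
    rw [Polynomial.map_add, Polynomial.map_pow, Polynomial.map_X, hR, Polynomial.map_sum]
    congr 1
    refine Finset.sum_congr rfl fun i _ => ?_
    rw [Polynomial.map_mul, Polynomial.map_C, Polynomial.map_pow, Polynomial.map_X,
      Polynomial.coe_evalRingHom, ← hPc, hc]
  rw [hΦ, hΨmap, Polynomial.eval_prod]
  refine Finset.prod_eq_zero (Finset.mem_univ ((1 : SL(2, ℤ)) : SL(2, ℤ) ⧸ H)) ?_
  rw [Polynomial.eval_sub, Polynomial.eval_X, Polynomial.eval_C, translH_mk hinv]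
  simp

/-! ### `-1` acts trivially on `ℍ` -/

theorem neg_one_smul' (τ : ℍ) : (-1 : SL(2, ℤ)) • τ = τ := by
  rw [ModularGroup.SL_neg_smul, one_smul]

theorem mem_zpowers_neg_one {z : SL(2, ℤ)} (hz : z ∈ Subgroup.zpowers (-1 : SL(2, ℤ))) :
    z = 1 ∨ z = -1 := by
  obtain ⟨k, rfl⟩ := Subgroup.mem_zpowers_iff.mp hz
  rcases Int.even_or_odd k with hk | hk
  · exact Or.inl hk.neg_one_zpow
  · exact Or.inr hk.neg_one_zpow

/-- the subgroup of `SL(2, ℤ)` leaving `r` invariant -/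
def invSubgroup (r : ℍ → ℂ) : Subgroup SL(2, ℤ) where
  carrier := {γ | ∀ τ, r (γ • τ) = r τ}
  mul_mem' := by
    intro x y hx hy τ
    rw [mul_smul, hx, hy]
  one_mem' := by
    intro τ
    rw [one_smul]
  inv_mem' := by
    intro x hx τ
    have := hx (x⁻¹ • τ)
    rw [← mul_smul, mul_inv_cancel, one_smul] at this
    exact this.symm

theorem mem_invSubgroup {r : ℍ → ℂ} {γ : SL(2, ℤ)} :
    γ ∈ invSubgroup r ↔ ∀ τ, r (γ • τ) = r τ := Iff.rfl

/-- invariance under `Γ` gives invariance under `±Γ = Γ ⊔ ⟨-1⟩` -/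
theorem invariant_sup_neg_one {Γ : Subgroup SL(2, ℤ)} {r : ℍ → ℂ}
    (hinv : ∀ γ ∈ Γ, ∀ τ, r (γ • τ) = r τ) :
    ∀ γ ∈ Γ ⊔ Subgroup.zpowers (-1 : SL(2, ℤ)), ∀ τ, r (γ • τ) = r τ := by
  have h1 : Γ ≤ invSubgroup r := fun γ hγ => hinv γ hγ
  have h2 : Subgroup.zpowers (-1 : SL(2, ℤ)) ≤ invSubgroup r := by
    rw [Subgroup.zpowers_le]
    intro τ
    rw [neg_one_smul']
  exact fun γ hγ => (sup_le h1 h2) hγ

/-- a subgroup containing a principal congruence subgroup `Γ(M)`, `M ≠ 0`, has finite index -/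
theorem finite_quotient_of_Gamma_le {Γ : Subgroup SL(2, ℤ)} {M : ℕ} [NeZero M]
    (h : CongruenceSubgroup.Gamma M ≤ Γ) : Finite (SL(2, ℤ) ⧸ Γ) := by
  have h1 : (CongruenceSubgroup.Gamma M).FiniteIndex := inferInstance
  have h2 : Γ.FiniteIndex := Subgroup.finiteIndex_of_le h
  exact Subgroup.finite_quotient_of_finiteIndex

theorem Gamma_le_Gamma1 (M : ℕ) : CongruenceSubgroup.Gamma M ≤ Gamma1 M := by
  intro γ hγ
  rw [Gamma_mem] at hγ
  rw [Gamma1_mem]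
  exact ⟨hγ.1, hγ.2.2.2, hγ.2.2.1⟩

theorem finite_quotient_Gamma1 (M : ℕ) [NeZero M] : Finite (SL(2, ℤ) ⧸ Gamma1 M) :=
  finite_quotient_of_Gamma_le (M := M) (Gamma_le_Gamma1 M)

theorem finite_quotient_sup_neg_one (M : ℕ) [NeZero M] :
    Finite (SL(2, ℤ) ⧸ (Gamma1 M ⊔ Subgroup.zpowers (-1 : SL(2, ℤ)))) :=
  finite_quotient_of_Gamma_le (M := M) ((Gamma_le_Gamma1 M).trans le_sup_left)

end Fermat.Agent.S48.B.B1.RelH

end
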