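import Mathlib
import Fermat.Agent.S48.B.B1.Seams
import Fermat.Agent.S48.B.B1.RepHom1
import Fermat.Agent.S48.B.B1.RelH
import Fermat.Agent.S30.Analytic.RepFieldEq
import Fermat.Agent.S24.LinDisjoint
import Fermat.Agent.S24.DegreeAlg
import Fermat.Agent.S24.Degree
import Fermat.Agent.S18.A.Instances

/-!
# PROJECT D (S48), block B1, brick Rc: `repField1 M` is the Laurent model `ℂ·F1 M` (helper29)

Twin of `S30/Analytic/RepFieldEq.lean` for `Γ₁(M)`.

* `holAlg1 M` : the `q`-expansions of the functions `a / Δ ^ m`, `a` of weight `12 m` on `Γ₁(M)`;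
  every element satisfies a monic relation of degree `[SL(2, ℤ) : ±Γ₁(M)]` over `ℂ[j]`
  (`RelH.exists_monic_relation_of_subgroup` for `H = PG1 M`);
* `exists_relation_of_mem_repField1` : every element of `repField1 M` satisfies a nonzero relation
  `P(j, x) = 0` of `x`-degree `≤ card (Q1 M)`;
* `exists_lower` : from `Seams.Deg1 M`, an element `g` of `FC1 M` without nonzero relation of degree
  `< card (Q1 M)` (a primitive element over `ℚ̄(j)`, pushed to `ℂ`; main's `LinDisjoint`);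
* **`repEq_of : Deg1 M → RepLe M → RepEq M`**;
* `repFieldEquiv1`, `isFF_jFC1`, `hasPrincipalDivisors_FC1`.
-/

set_option autoImplicit false
set_option linter.unusedSectionVars false

noncomputable section

namespace Fermat.Agent.S48.B.B1.RepEq1

open Polynomial IntermediateField Fermat.Agent.S24.DegreeAlg

local notation "Kb" => AlgebraicClosure ℚ

/-! ### the algebra of `q`-expansions of holomorphic invariant functions `a / Δ ^ m` -/

section Hol

open UpperHalfPlane CongruenceSubgroup ModularForm Filter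
open Fermat.Agent.S20 Fermat.Agent.S23.QRing Fermat.Agent.S24.RepHom Fermat.Agent.S24.RepAll
  Fermat.Agent.S24.LmapJ Fermat.Agent.LevelOne.JBasic Fermat.Agent.S24.LevelRaise
  Fermat.Agent.S30.Analytic.RepFieldEq
open Fermat.Agent.S48.B.B1.Seams hiding ofPS
open Fermat.Agent.S48.B.B1.RepHom1

open scoped MatrixGroups ModularForm Manifold

local notation "Δ" => ModularForm.discriminant

theorem G1_le_SL (M : ℕ) : G1 M ≤ 𝒮ℒ :=
  Subgroup.map_le_range (Matrix.SpecialLinearGroup.mapGL ℝ) (Gamma1 M)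

/-- a level one form is a form for `Γ₁(M)` -/
theorem ofLevelOne1 {M : ℕ} {k : ℤ} {f : ℍ → ℂ} (h : IsMF 𝒮ℒ k f) : IsMF (G1 M) k f :=
  h.mono (G1_le_SL M)

variable (M : ℕ) [NeZero M]

theorem isMF_disc1 : IsMF (G1 M) 12 (Δ : ℍ → ℂ) := ofLevelOne1 isMF_discriminant

theorem isMF_disc_pow1 (m : ℕ) : IsMF (G1 M) (12 * m) ((Δ : ℍ → ℂ) ^ m) :=
  ((isMF_disc1 M).pow m).cast (mul_comm _ _)

/-- `q`-expansions of the functions `a / Δ ^ m`, `a` a form of weight `12 m` for `Γ₁(M)` -/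
def holAlg1 : Subalgebra ℂ (LaurentSeries ℂ) where
  carrier := {z | ∃ (m : ℕ) (a : ℍ → ℂ), IsMF (G1 M) (12 * m) a ∧ z * dser ^ m = ofPS (qx a)}
  mul_mem' := by
    rintro z z' ⟨m, a, ha, hz⟩ ⟨m', a', ha', hz'⟩
    refine ⟨m + m', a * a', (ha.mul ha').cast (by push_cast; ring), ?_⟩
    rw [qx_mul (isQ_of_isMF1 ha) (isQ_of_isMF1 ha'), map_mul, ← hz, ← hz', pow_add]
    ring
  add_mem' := by
    rintro z z' ⟨m, a, ha, hz⟩ ⟨m', a', ha', hz'⟩
    have h1 : IsMF (G1 M) (12 * (m + m' : ℕ)) (a * (Δ : ℍ → ℂ) ^ m') :=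
      (ha.mul (isMF_disc_pow1 M m')).cast (by push_cast; ring)
    have h2 : IsMF (G1 M) (12 * (m + m' : ℕ)) (a' * (Δ : ℍ → ℂ) ^ m) :=
      (ha'.mul (isMF_disc_pow1 M m)).cast (by push_cast; ring)
    refine ⟨m + m', a * (Δ : ℍ → ℂ) ^ m' + a' * (Δ : ℍ → ℂ) ^ m, h1.add h2, ?_⟩
    rw [qx_add (isQ_of_isMF1 h1) (isQ_of_isMF1 h2),
      qx_mul (isQ_of_isMF1 ha) (isQ_of_isMF1 (isMF_disc_pow1 M m')),
      qx_mul (isQ_of_isMF1 ha') (isQ_of_isMF1 (isMF_disc_pow1 M m)), map_add, map_mul, map_mul,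
      ofPS_qx_disc_pow, ofPS_qx_disc_pow, ← hz, ← hz', pow_add]
    ring
  algebraMap_mem' := by
    intro c
    refine ⟨0, fun _ => c, (IsMF.const c).cast (by simp), ?_⟩
    rw [pow_zero, mul_one, qx_const, HahnSeries.ofPowerSeries_C, LaurentSeries.algebraMap_apply]

theorem mem_holAlg1 {z : LaurentSeries ℂ} : z ∈ holAlg1 M ↔
    ∃ (m : ℕ) (a : ℍ → ℂ), IsMF (G1 M) (12 * m) a ∧ z * dser ^ m = ofPS (qx a) := Iff.rfl

theorem jC_mem_holAlg1 : jC ∈ holAlg1 M := by
  refine ⟨1, ⇑E4cube, (ofLevelOne1 (IsMF.coe E4cube)).cast (by norm_num), ?_⟩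
  rw [pow_one, dser]
  exact ofPS_qx_E4cube.symm

end Hol

/-! ### the monic relation of degree `card (Q1 M)` for the elements of `holAlg1 M` -/

section Relation

open UpperHalfPlane CongruenceSubgroup ModularForm Filter
open Fermat.Agent.S20 Fermat.Agent.S23.QRing Fermat.Agent.S24.RepHom Fermat.Agent.S24.RepAll
  Fermat.Agent.S24.LmapJ Fermat.Agent.LevelOne.JBasic Fermat.Agent.S24.LevelRaise
  Fermat.Agent.S24.DegreeRel Fermat.Agent.S24.LevelOnePoly Fermat.Agent.S24.QRep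
  Fermat.Agent.S30.Analytic.RepFieldEq
open Fermat.Agent.S48.B.B1.Seams hiding ofPS
open Fermat.Agent.S48.B.B1.RepHom1 Fermat.Agent.S48.B.B1.RelH

open scoped MatrixGroups ModularForm Manifold

local notation "Δ" => ModularForm.discriminant
local notation "𝕢" => Function.Periodic.qParam

variable {M : ℕ} [NeZero M]

theorem smul_eq_of_isMF1 {k : ℤ} {a : ℍ → ℂ} (ha : IsMF (G1 M) k a) {γ : SL(2, ℤ)}
    (hγ : γ ∈ Gamma1 M) (τ : ℍ) : a (γ • τ) = denom γ τ ^ k * a τ := by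
  obtain ⟨A, rfl⟩ := ha
  have hγ' : (γ : GL (Fin 2) ℝ) ∈ G1 M := ⟨γ, hγ, rfl⟩
  exact SlashInvariantForm.slash_action_eqn'' A hγ' τ

theorem rfun_smul_of_mem1 {m : ℕ} {a : ℍ → ℂ} (ha : IsMF (G1 M) (12 * m) a) {γ : SL(2, ℤ)}
    (hγ : γ ∈ Gamma1 M) (τ : ℍ) : rfun m a (γ • τ) = rfun m a τ := by
  have hd : denom γ τ ≠ 0 := denom_ne_zero γ τ
  have hΔ : Δ τ ≠ 0 := discriminant_ne_zero τ
  rw [rfun, rfun, smul_eq_of_isMF1 ha hγ, Fermat.Agent.S24.LevelOnePoly.discriminant_smul, mul_pow,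
    ← zpow_natCast (denom γ τ ^ (12 : ℤ)) m, ← zpow_mul]
  field_simp

theorem rfun_smul_of_mem_PG1 {m : ℕ} {a : ℍ → ℂ} (ha : IsMF (G1 M) (12 * m) a) :
    ∀ γ ∈ PG1 M, ∀ τ : ℍ, rfun m a (γ • τ) = rfun m a τ :=
  invariant_sup_neg_one (fun _ hγ τ => rfun_smul_of_mem1 ha hγ τ)

theorem rfun_comp_mem_modAlg1 {m : ℕ} {a : ℍ → ℂ} (ha : IsMF (G1 M) (12 * m) a) (g : SL(2, ℤ)) :
    (fun τ => rfun m a (g • τ)) ∈ modAlg := by
  obtain ⟨A, rfl⟩ := ha
  have hfun : (fun τ => rfun m (⇑A) (g • τ)) = (⇑A ∣[(12 * m : ℤ)] g) / (Δ : ℍ → ℂ) ^ m := by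
    funext τ
    rw [rfun_smul]
    rfl
  rw [hfun]
  refine ⟨(mdiff_slash g A.holo').div (Fermat.Agent.S24.LevelOnePoly.mdiff_discriminant.pow m)
    (fun τ => pow_ne_zero m (discriminant_ne_zero τ)), m, ?_⟩
  have h2 : (fun τ => ((⇑A ∣[(12 * m : ℤ)] g) / (Δ : ℍ → ℂ) ^ m) τ * Δ τ ^ m) =
      ⇑A ∣[(12 * m : ℤ)] g := by
    funext τ
    simp only [Pi.div_apply, Pi.pow_apply]
    exact div_mul_cancel₀ _ (pow_ne_zero m (discriminant_ne_zero τ))
  rw [h2]
  exact ModularFormClass.bdd_at_infty_slash A g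

/-- the monic relation of degree `card (Q1 M)` over `ℂ[j]`, function level -/
theorem exists_monic_relation_rfun1 {m : ℕ} {a : ℍ → ℂ} (ha : IsMF (G1 M) (12 * m) a) :
    ∃ Φ : Polynomial (Polynomial ℂ), Φ.Monic ∧
      Φ.natDegree = Nat.card (Q1 M) ∧
      ∀ τ : ℍ, Polynomial.eval (rfun m a τ) (Φ.map (Polynomial.evalRingHom (jFun τ))) = 0 :=
  haveI : Finite (SL(2, ℤ) ⧸ PG1 M) := finite_quotient_sup_neg_one M
  exists_monic_relation_of_subgroup (PG1 M) (rfun m a) (rfun_smul_of_mem_PG1 ha)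
    (fun g => rfun_comp_mem_modAlg1 ha g)

theorem rep_rfun1 {m : ℕ} {a : ℍ → ℂ} (ha : IsMF (G1 M) (12 * m) a) {z : LaurentSeries ℂ}
    (hz : z * dser ^ m = ofPS (Fermat.Agent.S23.QRing.qx a)) : Rep (rfun m a) z := by
  have hfun : (fun τ : ℍ => rfun m a τ * 𝕢 1 τ ^ m) = a * Ufun ^ m := by
    funext τ
    simp only [rfun, Pi.mul_apply, Pi.pow_apply, Ufun, div_pow]
    ring
  have haQ : Fermat.Agent.S24.QRep.IsQ a := isQ_bridge (isQ_of_isMF1 ha)
  refine ⟨m, ?_, ?_⟩
  · rw [hfun]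
    exact haQ.mul (isQ_Ufun.pow m)
  · rw [hfun, haQ.qExpansion_mul (isQ_Ufun.pow m), isQ_Ufun.qExpansion_pow, map_mul, map_pow]
    have h1 : ofPS (qExpansion 1 a) = z * dser ^ m := hz.symm
    rw [h1, mul_assoc, ← mul_pow, mul_comm dser, ofPS_qExpansion_Ufun_mul_dser,
      HahnSeries.single_pow, one_pow]
    simp

/-- **every element of `holAlg1 M` satisfies a monic relation of degree `card (Q1 M)` over
`ℂ[j]`** -/
theorem exists_monic_relation_of_mem_holAlg1 {z : LaurentSeries ℂ} (hz : z ∈ holAlg1 M) :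
    ∃ Φ : Polynomial (Polynomial ℂ), Φ.Monic ∧
      Φ.natDegree = Nat.card (Q1 M) ∧
      Polynomial.eval₂
        (Polynomial.aeval jC : Polynomial ℂ →ₐ[ℂ] LaurentSeries ℂ).toRingHom z Φ = 0 := by
  obtain ⟨m, a, ha, hza⟩ := hz
  obtain ⟨Φ, hmon, hdeg, hrel⟩ := exists_monic_relation_rfun1 ha
  refine ⟨Φ, hmon, hdeg, ?_⟩
  rw [(rep_poly₂ (rep_rfun1 ha hza) Φ).eq_zero_iff]
  exact funext hrel

end Relation

/-! ### every element of `repField1 M` has degree `≤ card (Q1 M)` over `ℂ(j)` -/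

section Upper

open UpperHalfPlane CongruenceSubgroup ModularForm Filter
open Fermat.Agent.S20 Fermat.Agent.S23.QRing Fermat.Agent.S24.RepHom Fermat.Agent.S24.RepAll
  Fermat.Agent.S24.LmapJ Fermat.Agent.LevelOne.JBasic Fermat.Agent.S24.LevelRaise
  Fermat.Agent.S30.Analytic.RepFieldEq
open Fermat.Agent.S48.B.B1.Seams hiding ofPS
open Fermat.Agent.S48.B.B1.RepHom1

open scoped MatrixGroups ModularForm Manifold

local notation "Δ" => ModularForm.discriminant

variable (M : ℕ) [NeZero M]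

theorem evJ_mem_holAlg1 (s : Polynomial ℂ) : evJ s ∈ holAlg1 M := by
  have := Polynomial.aeval_subalgebra_coe s (holAlg1 M) ⟨jC, jC_mem_holAlg1 M⟩
  show Polynomial.aeval jC s ∈ holAlg1 M
  rw [← this]
  exact SetLike.coe_mem _

/-- clearing the denominator: a nonzero element of `holAlg1 M` divides a nonzero polynomial in `j`
inside `holAlg1 M` -/
theorem exists_mul_eq_evJ1 {z : LaurentSeries ℂ} (hz : z ∈ holAlg1 M) (hz0 : z ≠ 0) :
    ∃ s : Polynomial ℂ, s ≠ 0 ∧ ∃ t ∈ holAlg1 M, z * t = evJ s := by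
  obtain ⟨Φ, hmon, -, hrel⟩ := exists_monic_relation_of_mem_holAlg1 hz
  obtain ⟨q, hq, hqX⟩ := Polynomial.exists_eq_pow_rootMultiplicity_mul_and_not_dvd Φ hmon.ne_zero 0
  simp only [Polynomial.C_0, sub_zero, Polynomial.X_dvd_iff] at hq hqX
  have h1 : Polynomial.eval₂ (evJ) z q = 0 := by
    rw [hq, Polynomial.eval₂_mul, Polynomial.eval₂_pow, Polynomial.eval₂_X] at hrel
    exact (mul_eq_zero.mp hrel).resolve_left (pow_ne_zero _ hz0)
  obtain ⟨q', hq'⟩ := Polynomial.X_dvd_sub_C (p := q)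
  have h2 : q = Polynomial.X * q' + Polynomial.C (q.coeff 0) := by rw [← hq']; ring
  have h3 : z * Polynomial.eval₂ (evJ) z q' + evJ (q.coeff 0) = 0 := by
    rw [h2, Polynomial.eval₂_add, Polynomial.eval₂_mul, Polynomial.eval₂_X, Polynomial.eval₂_C]
      at h1
    exact h1
  have hmem : ∀ p : Polynomial (Polynomial ℂ), Polynomial.eval₂ (evJ) z p ∈ holAlg1 M := by
    intro p
    induction p using Polynomial.induction_on with
    | C a => rw [Polynomial.eval₂_C]; exact evJ_mem_holAlg1 M a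
    | add p q hp hq => rw [Polynomial.eval₂_add]; exact (holAlg1 M).add_mem hp hq
    | monomial n a _ =>
      rw [Polynomial.eval₂_mul, Polynomial.eval₂_C, Polynomial.eval₂_pow, Polynomial.eval₂_X]
      exact (holAlg1 M).mul_mem (evJ_mem_holAlg1 M a) ((holAlg1 M).pow_mem hz _)
  refine ⟨q.coeff 0, hqX, -Polynomial.eval₂ (evJ) z q', (holAlg1 M).neg_mem (hmem q'), ?_⟩
  linear_combination (-1 : LaurentSeries ℂ) * h3

theorem isMF_E₄1 : IsMF (G1 M) 4 (⇑ModularForm.E₄ : ℍ → ℂ) :=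
  ofLevelOne1 (IsMF.coe ModularForm.E₄)

/-- **Upper bound**: every element of `repField1 M` satisfies a nonzero two-variable relation
`P(j, x) = 0` of `x`-degree `≤ μ = [SL(2, ℤ) : ±Γ₁(M)]`. -/
theorem exists_relation_of_mem_repField1 {x : LaurentSeries ℂ} (hx : x ∈ repField1 M) :
    ∃ P : Polynomial (Polynomial ℂ), P ≠ 0 ∧
      P.natDegree ≤ Nat.card (Q1 M) ∧ Polynomial.eval₂ (evJ) x P = 0 := by
  obtain ⟨k, a, b, h⟩ := hx
  set j : ℕ := (-k).toNat with hj
  set m : ℕ := k.toNat with hm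
  have hkjm : k + (j : ℤ) = (m : ℤ) := by
    rw [hj, hm]
    rcases le_or_gt 0 k with hk | hk
    · rw [Int.toNat_of_nonneg hk, Int.toNat_of_nonpos (by omega)]
      simp
    · rw [Int.toNat_of_nonpos hk.le, Int.toNat_of_nonneg (by omega)]
      simp
  -- the auxiliary forms
  set c : ℍ → ℂ := (⇑ModularForm.E₄ : ℍ → ℂ) ^ (3 * j) with hc
  have hcMF : IsMF (G1 M) (12 * j) c := ((isMF_E₄1 M).pow (3 * j)).cast (by push_cast; ring)
  have hcQ : IsQ c := isQ_of_isMF1 hcMF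
  have haQ : IsQ a := isQ_of_isMF1 h.ha
  have hbQ : IsQ b := isQ_of_isMF1 h.hb
  have hb11 : IsMF (G1 M) (11 * k) (b ^ 11) := (h.hb.pow 11).cast (by push_cast; ring)
  have hb12 : IsMF (G1 M) (12 * k) (b ^ 12) := (h.hb.pow 12).cast (by push_cast; ring)
  have hn1 : IsMF (G1 M) (12 * m) (a * b ^ 11 * c) :=
    ((h.ha.mul hb11).mul hcMF).cast (by rw [← hkjm]; ring)
  have hn2 : IsMF (G1 M) (12 * m) (b ^ 12 * c) :=
    (hb12.mul hcMF).cast (by rw [← hkjm]; ring)
  have hd0 : dser ^ m ≠ 0 := pow_ne_zero m dser_ne_zero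
  have hqb : ofPS (qx b) ≠ 0 := IsRepOf1x.qx_b_ne_zero h
  have hqc : ofPS (qx c) ≠ 0 := by
    rw [hc, qx_pow (isQ_of_isMF1 (isMF_E₄1 M)), map_pow]
    refine pow_ne_zero _ ?_
    intro h0
    have h1 : qx (⇑ModularForm.E₄ : ℍ → ℂ) = 0 := ofPS_injective (by rw [h0, map_zero])
    exact E₄_fun_ne_zero ((qx_eq_zero_iff (isQ_of_isMF1 (isMF_E₄1 M))).mp h1)
  have e1 : ofPS (qx (a * b ^ 11 * c)) = ofPS (qx a) * ofPS (qx b) ^ 11 * ofPS (qx c) := by
    rw [qx_mul (haQ.mul (hbQ.pow 11)) hcQ, qx_mul haQ (hbQ.pow 11), qx_pow hbQ, map_mul, map_mul,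
      map_pow]
  have e2 : ofPS (qx (b ^ 12 * c)) = ofPS (qx b) ^ 12 * ofPS (qx c) := by
    rw [qx_mul (hbQ.pow 12) hcQ, qx_pow hbQ, map_mul, map_pow]
  set z1 : LaurentSeries ℂ := ofPS (qx (a * b ^ 11 * c)) / dser ^ m with hz1
  set z2 : LaurentSeries ℂ := ofPS (qx (b ^ 12 * c)) / dser ^ m with hz2
  have hz1mem : z1 ∈ holAlg1 M := ⟨m, _, hn1, div_mul_cancel₀ _ hd0⟩
  have hz2mem : z2 ∈ holAlg1 M := ⟨m, _, hn2, div_mul_cancel₀ _ hd0⟩
  have hz2ne : z2 ≠ 0 := by
    rw [hz2, e2]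
    exact div_ne_zero (mul_ne_zero (pow_ne_zero _ hqb) hqc) hd0
  have hxz : x * z2 = z1 := by
    rw [hz1, hz2, e1, e2, h.eq]
    field_simp
  obtain ⟨s, hs0, t, ht, hzt⟩ := exists_mul_eq_evJ1 M hz2mem hz2ne
  have hy : evJ s * x ∈ holAlg1 M := by
    have : evJ s * x = z1 * t := by rw [← hzt, ← hxz]; ring
    rw [this]
    exact (holAlg1 M).mul_mem hz1mem ht
  obtain ⟨Φ, hmon, hdeg, hrel⟩ := exists_monic_relation_of_mem_holAlg1 hy
  refine ⟨Φ.comp (Polynomial.C s * Polynomial.X), ?_, ?_, ?_⟩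
  · intro h0
    have := congrArg (fun q => Polynomial.coeff q Φ.natDegree) h0
    simp only [Polynomial.comp_C_mul_X_coeff, Polynomial.coeff_zero] at this
    rw [hmon.coeff_natDegree, one_mul] at this
    exact pow_ne_zero _ hs0 this
  · calc (Φ.comp (Polynomial.C s * Polynomial.X)).natDegree
        ≤ Φ.natDegree * (Polynomial.C s * Polynomial.X).natDegree := Polynomial.natDegree_comp_le
      _ ≤ Φ.natDegree * 1 := by
          gcongr
          exact (Polynomial.natDegree_C_mul_le _ _).trans (by simp)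
      _ = Nat.card (Q1 M) := by rw [mul_one, hdeg]
  · rw [Polynomial.eval₂_comp, Polynomial.eval₂_mul, Polynomial.eval₂_C, Polynomial.eval₂_X]
    exact hrel

end Upper

/-! ### the lower bound: a primitive element over `ℚ̄(j)`, pushed to `ℂ` -/

section Lower

open ModularCurve
open Fermat.Agent.S24.LmapJ Fermat.Agent.S30.Analytic.RepFieldEq
open Fermat.Agent.S48.B.Defs.Model
open Fermat.Agent.S48.B.B1.Seams hiding ofPS

/-- the coefficientwise image of an element of `ℚ̄ · F₀` lies in `ℂ · F₀` -/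
theorem coeffMap_mem_laurentBaseChange_of_embedding (ι : Kb →+* ℂ)
    {F₀ : IntermediateField ℚ (LaurentSeries ℚ)} {f : LaurentSeries Kb}
    (hf : f ∈ laurentBaseChange Kb F₀) : coeffMap ι f ∈ laurentBaseChange ℂ F₀ := by
  rw [mem_laurentBaseChange_iff] at hf
  induction hf using Subfield.closure_induction with
  | mem y hy =>
    rcases hy with ⟨a, rfl⟩ | ⟨z, hz, rfl⟩
    · have : coeffMap ι (algebraMap Kb (LaurentSeries Kb) a) =
          algebraMap ℂ (LaurentSeries ℂ) (ι a) := by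
        rw [algebraMap_laurentSeries_eq_single, algebraMap_laurentSeries_eq_single,
          coeffMap_single]
      rw [this]
      exact (laurentBaseChange ℂ F₀).algebraMap_mem _
    · have : coeffMap ι (coeffEmb Kb z) = coeffEmb ℂ z := by
        rw [coeffEmb, coeffMap_coeffMap]
        exact coeffMap_congr (RingHom.ext_rat _ _) z
      rw [this]
      exact coeffEmb_mem_laurentBaseChange ℂ hz
  | one => rw [map_one]; exact one_mem _
  | add y z _ _ hy hz => rw [map_add]; exact add_mem hy hz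
  | neg y _ hy => rw [map_neg]; exact neg_mem hy
  | inv y _ hy => rw [map_inv₀]; exact inv_mem hy
  | mul y z _ _ hy hz => rw [map_mul]; exact mul_mem hy hz

theorem coeffMap_coeffEmb_jq (ι : Kb →+* ℂ) : coeffMap ι (coeffEmb Kb jq) = jC := by
  rw [jC, coeffEmb, coeffEmb, coeffMap_coeffMap]
  exact coeffMap_congr (RingHom.ext_rat _ _) jq

/-- evaluation of a two-variable polynomial commutes with the inclusion of an intermediate field -/
theorem coe_eval₂_intermediate {K Ω : Type*} [Field K] [Field Ω] [Algebra K Ω]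
    (E : IntermediateField K Ω) (x r : E) (P : Polynomial (Polynomial K)) :
    ((Polynomial.eval₂ (Polynomial.aeval x : Polynomial K →ₐ[K] E).toRingHom r P : E) : Ω)
      = Polynomial.eval₂ (Polynomial.aeval (x : Ω) : Polynomial K →ₐ[K] Ω).toRingHom (r : Ω) P := by
  have := Polynomial.hom_eval₂ P (Polynomial.aeval x : Polynomial K →ₐ[K] E).toRingHom
    (E.val : E →+* Ω) r
  refine this.trans ?_
  congr 1
  refine RingHom.ext fun s => ?_
  exact (Polynomial.aeval_algHom_apply E.val x s).symm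

variable (M : ℕ) [NeZero M]

theorem coe_jgen1 : ((jgen1 M : F1Bar M) : LaurentSeries Kb) = coeffEmb Kb jq := by
  have h : ((jgen1 M : F1Bar M) : LaurentSeries Kb) =
      ((jgen M : modularFunctionFieldBar M) : LaurentSeries Kb) := rfl
  rw [h]
  exact coe_jgen M

/-- **the lower bound over `ℚ̄`**: a primitive element of `ℚ̄(X₁(M))` over `ℚ̄(j)` has no nonzero
relation over `ℚ̄[j]` of degree `< card (Q1 M)` -/
theorem exists_lower_bar (hdeg : Deg1 M) :
    ∃ g : F1Bar M, ∀ P : Polynomial (Polynomial Kb), P ≠ 0 →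
      Polynomial.eval₂ (Polynomial.aeval (coeffEmb Kb jq) :
        Polynomial Kb →ₐ[Kb] LaurentSeries Kb).toRingHom (g : LaurentSeries Kb) P = 0 →
      Nat.card (Q1 M) ≤ P.natDegree := by
  obtain ⟨⟨htr, hfin⟩, hcard⟩ := hdeg
  have := hfin
  obtain ⟨g, hg⟩ := Field.exists_primitive_element Kb⟮jgen1 M⟯ (F1Bar M)
  have hint : IsIntegral Kb⟮jgen1 M⟯ g := IsIntegral.of_finite _ g
  have hfr : Module.finrank Kb⟮jgen1 M⟯ (F1Bar M) = (minpoly Kb⟮jgen1 M⟯ g).natDegree := by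
    rw [← IntermediateField.adjoin.finrank hint, hg, IntermediateField.finrank_top']
  refine ⟨g, fun P hP0 hPr => ?_⟩
  have hinj := toSimple_injective htr
  have h1 : P.map (toSimple (jgen1 M)) ≠ 0 := by
    rwa [Ne, Polynomial.map_eq_zero_iff hinj]
  have h2 : Polynomial.aeval g (P.map (toSimple (jgen1 M))) = 0 := by
    rw [aeval_map_toSimple]
    apply Subtype.ext
    rw [coe_eval₂_intermediate, coe_jgen1, hPr]
    rfl
  calc Nat.card (Q1 M) = (minpoly Kb⟮jgen1 M⟯ g).natDegree := by rw [← hcard, hfr]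
    _ ≤ (P.map (toSimple (jgen1 M))).natDegree := Polynomial.natDegree_le_natDegree
        (minpoly.degree_le_of_ne_zero _ g h1 h2)
    _ ≤ P.natDegree := Polynomial.natDegree_map_le

end Lower

/-! ### the main theorem -/

section Main

open ModularCurve AlgebraicCurve
open Fermat.Agent.S24.LmapJ Fermat.Agent.S24.FF Fermat.Agent.S30.Analytic.RepFieldEq
open Fermat.Agent.S48.B.Defs.Model
open Fermat.Agent.S48.B.B1.Seams hiding ofPS
open Fermat.Agent.S48.B.B1.RepHom1

variable (M : ℕ) [NeZero M]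

theorem algebraMap_mem_repField1 (c : ℂ) : algebraMap ℂ (LaurentSeries ℂ) c ∈ repField1 M := by
  rw [algebraMap_laurentSeries_eq_single]
  exact const_mem_repField1 c

/-- `repField1 M` as an intermediate field of `ℂ((q)) / ℂ` -/
def repIF1 : IntermediateField ℂ (LaurentSeries ℂ) :=
  (repField1 M).toIntermediateField (fun c => algebraMap_mem_repField1 M c)

theorem mem_repIF1 {x : LaurentSeries ℂ} : x ∈ repIF1 M ↔ x ∈ repField1 M := Iff.rfl

theorem mem_repIF1_iff_repSet1 {x : LaurentSeries ℂ} : x ∈ repIF1 M ↔ x ∈ repSet1 M := Iff.rfl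

theorem jC_mem_FC1 : jC ∈ laurentBaseChange ℂ (F1 M) :=
  laurentBaseChange_mono ℂ (full_le_F1 M) (jC_mem_FC M)

/-- **the lower bound over `ℂ`**: an element of `ℂ · F1 M` without nonzero relation over `ℂ[j]` of
degree `< card (Q1 M)` -/
theorem exists_lower (hdeg : Deg1 M) :
    ∃ g ∈ laurentBaseChange ℂ (F1 M), ∀ P : Polynomial (Polynomial ℂ), P ≠ 0 →
      Polynomial.eval₂ (evJ) g P = 0 → Nat.card (Q1 M) ≤ P.natDegree := by
  obtain ⟨ι⟩ := Fermat.Agent.S24.Degree.exists_embedding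
  obtain ⟨g, hg⟩ := exists_lower_bar M hdeg
  refine ⟨coeffMap ι (g : LaurentSeries Kb),
    coeffMap_mem_laurentBaseChange_of_embedding ι g.2, fun P hP0 hPr => ?_⟩
  have h0 : P.eval₂ ((Polynomial.aeval (coeffMap ι (coeffEmb Kb jq) : LaurentSeries ℂ) :
        Polynomial ℂ →ₐ[ℂ] LaurentSeries ℂ) : Polynomial ℂ →+* LaurentSeries ℂ)
        (coeffMap ι (g : LaurentSeries Kb) : LaurentSeries ℂ) = 0 := by
    rw [coeffMap_coeffEmb_jq]
    exact hPr
  obtain ⟨Q, hQ0, hQd, hQ⟩ := Fermat.Agent.S24.LinDisjoint.exists_rel_over_base' ι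
    (coeffEmb Kb jq) (g : LaurentSeries Kb) P hP0 h0
  exact (hg Q hQ0 hQ).trans hQd

/-- **`repField1 M ⊆ ℂ · F1 M`** -/
theorem repIF1_le_FC1 (hdeg : Deg1 M) (hle : RepLe M) :
    repIF1 M ≤ laurentBaseChange ℂ (F1 M) := by
  obtain ⟨g, hgFC, hlow⟩ := exists_lower M hdeg
  intro r hr
  have h1 : r ∈ IntermediateField.adjoin ℂ ({jC, g} : Set (LaurentSeries ℂ)) :=
    mem_adjoin_pair_of_relations (repIF1 M) jC g (hle (jC_mem_FC1 M)) (hle hgFC)
      (transcendental_coeffEmb_jq ℂ) (Nat.card (Q1 M))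
      (fun x hx => exists_relation_of_mem_repField1 M hx) hlow hr
  have h2 : IntermediateField.adjoin ℂ ({jC, g} : Set (LaurentSeries ℂ)) ≤
      laurentBaseChange ℂ (F1 M) := by
    rw [IntermediateField.adjoin_le_iff]
    rintro y (rfl | rfl)
    · exact jC_mem_FC1 M
    · exact hgFC
  exact h2 h1

/-- **[B-rep] = [Rep-c]** : the elements of `ℂ · F1 M` are exactly the `q`-expansions of the
quotients of forms of equal weight on `Γ₁(M)`. -/
theorem repEq_of (hdeg : Deg1 M) (hle : RepLe M) : RepEq M :=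
  Set.Subset.antisymm hle (fun _ hr => repIF1_le_FC1 M hdeg hle hr)

/-- `ℂ · F1 M = ℂ(j, g)` for the element `g` of `exists_lower` -/
theorem exists_FC1_eq_adjoin_pair (hdeg : Deg1 M) (hle : RepLe M) :
    ∃ g ∈ laurentBaseChange ℂ (F1 M), laurentBaseChange ℂ (F1 M) =
      IntermediateField.adjoin ℂ ({jC, g} : Set (LaurentSeries ℂ)) := by
  obtain ⟨g, hgFC, hlow⟩ := exists_lower M hdeg
  refine ⟨g, hgFC, le_antisymm ?_ ?_⟩
  · intro r hr
    exact mem_adjoin_pair_of_relations (repIF1 M) jC g (hle (jC_mem_FC1 M)) (hle hgFC)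
      (transcendental_coeffEmb_jq ℂ) (Nat.card (Q1 M))
      (fun x hx => exists_relation_of_mem_repField1 M hx) hlow (hle hr)
  · rw [IntermediateField.adjoin_le_iff]
    rintro y (rfl | rfl)
    · exact jC_mem_FC1 M
    · exact hgFC

variable {M}

theorem mem_repField1_iff (h : RepEq M) {x : LaurentSeries ℂ} :
    x ∈ repField1 M ↔ x ∈ laurentBaseChange ℂ (F1 M) := by
  have : x ∈ repSet1 M ↔ x ∈ (laurentBaseChange ℂ (F1 M) : Set (LaurentSeries ℂ)) := by rw [h]
  exact this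

/-- the identification as a ring isomorphism (identity on the underlying series) -/
def repFieldEquiv1 (h : RepEq M) : repField1 M ≃+* laurentBaseChange ℂ (F1 M) where
  toFun x := ⟨x.1, (mem_repField1_iff h).mp x.2⟩
  invFun x := ⟨x.1, (mem_repField1_iff h).mpr x.2⟩
  left_inv _ := rfl
  right_inv _ := rfl
  map_mul' _ _ := rfl
  map_add' _ _ := rfl

@[simp]
theorem coe_repFieldEquiv1 (h : RepEq M) (x : repField1 M) :
    ((repFieldEquiv1 h x : laurentBaseChange ℂ (F1 M)) : LaurentSeries ℂ) =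
      (x : LaurentSeries ℂ) := rfl

@[simp]
theorem coe_repFieldEquiv1_symm (h : RepEq M) (x : laurentBaseChange ℂ (F1 M)) :
    (((repFieldEquiv1 h).symm x : repField1 M) : LaurentSeries ℂ) = (x : LaurentSeries ℂ) := rfl

/-! ### `ℂ · F1 M` is a function field over `ℂ` -/

variable (M)

/-- the function `j` as an element of `ℂ · F1 M` -/
def jFC1 : laurentBaseChange ℂ (F1 M) := ⟨jC, jC_mem_FC1 M⟩

theorem transcendental_jFC1 : Transcendental ℂ (jFC1 M) := by
  intro halg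
  apply transcendental_coeffEmb_jq ℂ
  have := halg.algebraMap (A := LaurentSeries ℂ)
  exact this

theorem isFF_jFC1 (hdeg : Deg1 M) (hle : RepLe M) : IsFF ℂ (jFC1 M) := by
  refine ⟨transcendental_jFC1 M, ?_⟩
  obtain ⟨g, hgFC, hpair⟩ := exists_FC1_eq_adjoin_pair M hdeg hle
  set gF : laurentBaseChange ℂ (F1 M) := ⟨g, hgFC⟩ with hgF
  have hpairtop : IntermediateField.adjoin ℂ ({jFC1 M, gF} : Set (laurentBaseChange ℂ (F1 M))) = ⊤ := by
    apply IntermediateField.map_injective (laurentBaseChange ℂ (F1 M)).val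
    rw [IntermediateField.adjoin_map, ← AlgHom.fieldRange_eq_map,
      IntermediateField.fieldRange_val, Set.image_pair]
    exact hpair.symm
  have hint : IsIntegral (IntermediateField.adjoin ℂ ({jFC1 M} : Set (laurentBaseChange ℂ (F1 M)))) gF := by
    obtain ⟨P, hP0, -, hPr⟩ := exists_relation_of_mem_repField1 M (hle hgFC)
    have hinj := toSimple_injective (transcendental_jFC1 M)
    refine IsAlgebraic.isIntegral ⟨P.map (toSimple (jFC1 M)), ?_, ?_⟩
    · rwa [Ne, Polynomial.map_eq_zero_iff hinj]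
    · rw [aeval_map_toSimple]
      apply Subtype.ext
      rw [coe_eval₂_intermediate, ZeroMemClass.coe_zero]
      exact hPr
  have htop : IntermediateField.adjoin (IntermediateField.adjoin ℂ ({jFC1 M} : Set (laurentBaseChange ℂ (F1 M))))
      ({gF} : Set (laurentBaseChange ℂ (F1 M))) = ⊤ := by
    rw [← IntermediateField.restrictScalars_eq_top_iff (K := ℂ),
      IntermediateField.adjoin_adjoin_left, ← hpairtop]
    rfl
  have := IntermediateField.adjoin.finiteDimensional hint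
  rw [htop] at this
  exact Module.Finite.equiv (IntermediateField.topEquiv
    (F := IntermediateField.adjoin ℂ ({jFC1 M} : Set (laurentBaseChange ℂ (F1 M))))
    (E := laurentBaseChange ℂ (F1 M))).toLinearEquiv

theorem hasPrincipalDivisors_FC1 (hdeg : Deg1 M) (hle : RepLe M) :
    HasPrincipalDivisors ℂ (laurentBaseChange ℂ (F1 M)) :=
  Fermat.Agent.S18.A.Instances.hasPrincipalDivisors_of_charZero (isFF_jFC1 M hdeg hle)

end Main

end Fermat.Agent.S48.B.B1.RepEq1

end
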