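import Mathlib
import Fermat.Agent.S48.B.B1.Seams
import Fermat.Agent.S48.B.B1.Seams2
import Fermat.Agent.S48.B.B1.FrickeInj
import Fermat.Agent.S48.B.B1.Wp.Forms
import Fermat.Agent.S48.B.B1.FrickeRep
import Fermat.Agent.S48.B.B1.RepAll1
import Fermat.Agent.S48.B.B1.Diamond
import Fermat.Agent.S48.B.B1.DiamondUnique
import Fermat.Agent.S48.B.B1.Degree1
import Fermat.Agent.S48.B.B1.RepEq1
import Fermat.Agent.S48.B.B1.Lmap1Sep
import Fermat.Agent.S48.B.B1.Count1
import Fermat.Agent.S48.B.B1.Genus1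
import Fermat.Agent.S48.B.B1.Ram1
import Fermat.Agent.S48.B.B1.Deg1p.Upper

/-!
# PROJECT D (S48), part B, block B1 = S24' : ASSEMBLY (helper7, leader B1)

Every seam of `Seams.lean` / `Seams2.lean` is a theorem, hypothesis-free, for every `M ≥ 1`:

```
 wpForms        (W,   helper16)  Wp/Forms
 frickeRep      (Ra,  helper23)  FrickeRep          (explicit form: helper7, FrickeRepX)
 repLe          (Rb,  helper20)  RepAll1
 diamondExists  (Dia, helper7)   Diamond            diamondAn (helper8's literal)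
 degLe, deg1, gal1 (Deg, helper2) Degree1            (+ FrickeInj: helper7, TateX)
 repEq          (Rc,  helper29)  RepEq1 / RelH
 places1        (Pl,  helper20 helper27 helper29 helper7)  LaurentCusp1, Orbits1Cusp, LaurentPt1, Lmap1J,
                                 Lmap1Taylor, Orbits1Abs, Orbits1PtGlue, Orbits1PtAlt, Lmap1Sep
 counts1        (Cnt, helper15)  Count1/*
 genus1         (Gen, helper20)  Genus1
 ram1           (Ram, helper27)  Ram1               (helper11's literal `Red.Seams.Ram1 M`, as a conjunction)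
 deg1p          (DegP, helper23 helper8 helper10 helper2)  Deg1p/{Index, Lower, Main, Upper}, ES/Descent, RepRelG
```
-/

set_option autoImplicit false

noncomputable section

namespace Fermat.Agent.S48.B.B1.Main

open ModularCurve AlgebraicCurve
open Fermat.Agent.S48.B.Defs.Model Fermat.Agent.S48.B.B1.Seams Fermat.Agent.S48.B.B1.Seams2

local notation "Kb" => AlgebraicClosure ℚ

variable (M : ℕ) [NeZero M]

/-- **(W)** -/
theorem wpForms : WpForms M := Fermat.Agent.S48.B.B1.Wp.Forms.wpForms M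

/-- **[Rep-a]** -/
theorem frickeRep : FrickeRep M :=
  Fermat.Agent.S48.B.B1.FrickeRep.frickeRep_of_wpForms M (wpForms M)

/-- **[Rep-b]** -/
theorem repLe : RepLe M := Fermat.Agent.S48.B.B1.RepAll1.repLe_of_frickeRep M (frickeRep M)

/-- `h_a = h_b ↔ a = ± b` -/
theorem frickeInj : FrickeInj M := Fermat.Agent.S48.B.B1.FrickeInj.frickeInj M

/-- **[Dia]** -/
theorem diamondExists : DiamondExists M :=
  Fermat.Agent.S48.B.B1.Diamond.diamondExists_of (wpForms M) (repLe M)

/-- **[Dia], analytic form** -/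
theorem diamondAn : DiamondAn M :=
  Fermat.Agent.S48.B.B1.Diamond.diamondAn_of (wpForms M) (repLe M)

/-- `diamondAut M L d` is the diamond automorphism, over every field of characteristic zero -/
theorem isDiamondAut_diamondAut (L : Type*) [Field L] [Algebra ℚ L] (d : (ZMod M)ˣ) :
    IsDiamondAut M L d (diamondAut M L d) :=
  Fermat.Agent.S48.B.B1.DiamondUnique.diamondAut_spec (wpForms M) (repLe M) d

/-- upper bound for the degree -/
theorem degLe : DegLe M := Fermat.Agent.S48.B.B1.Degree1.Upper.degLe_of_repLe M (repLe M)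

/-- **[B-deg]** -/
theorem deg1 : Deg1 M :=
  Fermat.Agent.S48.B.B1.Degree1.deg1_of M (degLe M) (diamondExists M) (frickeInj M)

/-- **[B-deg], Galois part** -/
theorem gal1 : Gal1 M :=
  Fermat.Agent.S48.B.B1.Degree1.gal1_of M (degLe M) (diamondExists M) (frickeInj M)

/-- **[B-rep]** -/
theorem repEq : RepEq M := Fermat.Agent.S48.B.B1.RepEq1.repEq_of M (deg1 M) (repLe M)

/-- **[B-places]** -/
theorem places1 : Places1 M :=
  Fermat.Agent.S48.B.B1.Lmap1Sep.places1_of_wpForms (wpForms M) (repLe M) (deg1 M)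

/-- **[Cnt]** -/
theorem counts1 : Counts1 M := Fermat.Agent.S48.B.B1.Count1.counts1 M

/-- **[B-genus]** -/
theorem genus1 : Genus1 M :=
  Fermat.Agent.S48.B.B1.Genus1.genus1_of M (deg1 M) (places1 M) (counts1 M)

/-- **[B-ram]** : the four clauses of helper11's `Red.Seams.Ram1 M` (block B3), literally -/
theorem ram1 :
    (∀ v : Place Kb (F1Bar M), v.adicValuation (jgen1 M - algebraMap Kb _ 0) < 1 →
      v.ord (jgen1 M - algebraMap Kb _ 0) ≤ 3) ∧
    (∀ v : Place Kb (F1Bar M), v.adicValuation (jgen1 M - algebraMap Kb _ 1728) < 1 →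
      v.ord (jgen1 M - algebraMap Kb _ 1728) ≤ 2) ∧
    (∀ a : Kb, a ≠ 0 → a ≠ 1728 → ∀ v : Place Kb (F1Bar M),
      v.adicValuation (jgen1 M - algebraMap Kb _ a) < 1 →
        v.ord (jgen1 M - algebraMap Kb _ a) = 1) ∧
    ∀ v : Place Kb (F1Bar M), 1 < v.adicValuation (jgen1 M) → -v.ord (jgen1 M) ≤ (M : ℤ) :=
  Fermat.Agent.S48.B.B1.Ram1.ram1_of M (repLe M) (deg1 M)
    (Fermat.Agent.S48.B.B1.Lmap1Sep.sepTay_of (wpForms M) (repLe M))
    (Fermat.Agent.S48.B.B1.Lmap1Sep.injective_L_of (wpForms M) (repLe M))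

/-- **[B-deg], mixed level `(M; ℓ)`** -/
theorem deg1p (l : ℕ) [NeZero l] : Deg1p M l :=
  Fermat.Agent.S48.B.B1.Deg1p.Upper.deg1p (deg1 M) (repLe M) (diamondAn M) (diamondExists M)

end Fermat.Agent.S48.B.B1.Main

end
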