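import Mathlib
import Fermat.Agent.S24.LaurentPt
import Fermat.Agent.S48.B.B1.Seams
import Fermat.Agent.S48.B.B1.RepHom1

/-!
# PROJECT D (S48), part B, block B1, brick [Pl / LaurentPt1]: the point homomorphisms for `Γ₁(M)`
(helper29)

Twin of main's `S24/LaurentPt.lean` on `RepHom1`.  For `τ ∈ ℍ` and `γ ∈ SL(2, ℤ)`,
`Lpt1 M τ γ : repField1 M →+* ℂ((t))` sends (the `q`-expansion of) a modular function `f = a / b`
for `Γ₁(M)` to the Laurent expansion of `f ∘ γ` at `τ`.  The level-free half of the original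
(`taylorHolHom`, `valuation_ofPS`, `ordAt`, `ordAt_slash`, `ordAt_fc_self`, ...) is imported from
main and reused as it is.

New with respect to the `Γ₀` original: the family is indexed by `Q1 M = SL(2, ℤ) ⧸ ±Γ₁(M)`, so the
elliptic hypotheses read `γ σ γ⁻¹ ∈ PG1 M`; a translate `c ∣[k] γ` is then only invariant under `σ`
up to the sign `(-1) ^ k`, the same for numerator and denominator
(`exists_slash_slash_of_conj_mem_PG1`), which is all the cross relation needs.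
-/

set_option autoImplicit false
set_option linter.unusedSectionVars false

noncomputable section

namespace Fermat.Agent.S48.B.B1.LaurentPt1

open UpperHalfPlane CongruenceSubgroup Fermat.Agent.S20
  Fermat.Agent.S24.Taylor Fermat.Agent.S24.TaylorInv WithZero Filter Topology
open Fermat.Agent.S24.RepHom (HolHom mdiff_of_isMF mdiff_slash slash_ne_zero Lval
  slash_eq_of_isMF_levelOne ofPS_injective ofPS)
open Fermat.Agent.S24.LaurentPt (taylorHolHom valuation_ofPS ordAt ordAt_slash ordAt_fc_self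
  ordAt_discriminant)
open Fermat.Agent.S48.B.B1.Seams hiding ofPS
open Fermat.Agent.S48.B.B1.RepHom1

open scoped ModularForm Manifold MatrixGroups

variable {M : ℕ} [NeZero M]

/-- **The point homomorphisms**: `Lpt1 M τ γ g` is the Laurent expansion at `τ` (in `t = z - τ`) of
`(a / b) ∘ γ`, where `a / b` is any representation of `g` as a quotient of forms for `Γ₁(M)`. -/
def Lpt1 (M : ℕ) [NeZero M] (τ : ℍ) (γ : SL(2, ℤ)) : repField1 M →+* LaurentSeries ℂ :=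
  Lmap1 (taylorHolHom τ) γ (slashP1_mdiff M γ)

theorem Lpt1_spec (τ : ℍ) (γ : SL(2, ℤ)) (g : repField1 M) {k : ℤ} {a b : ℍ → ℂ}
    (h : IsRepOf1 M (g : LaurentSeries ℂ) k a b) :
    Lpt1 M τ γ g * ofPS (taylorAt τ (b ∣[k] γ)) = ofPS (taylorAt τ (a ∣[k] γ)) :=
  Lmap1_spec (T := taylorHolHom τ) (slashP1_mdiff M γ) g h

theorem slash_mdiff1 {k : ℤ} {a : ℍ → ℂ} (γ : SL(2, ℤ)) (h : IsMF (G1 M) k a) :
    MDiff (a ∣[k] γ) := slashP1_mdiff M γ k a h

/-- The numerator of a representation of a non-zero element is non-zero. -/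
theorem num_ne_zero1 {g : repField1 M} (hg : g ≠ 0) {k : ℤ} {a b : ℍ → ℂ}
    (h : IsRepOf1 M (g : LaurentSeries ℂ) k a b) (τ : ℍ) (γ : SL(2, ℤ)) :
    taylorAt τ (a ∣[k] γ) ≠ 0 := by
  intro h0
  have h1 := Lpt1_spec τ γ g h
  rw [h0, map_zero] at h1
  rcases mul_eq_zero.mp h1 with h2 | h2
  · exact hg ((map_eq_zero (Lpt1 M τ γ)).mp h2)
  · exact den_ne_zero1 (T := taylorHolHom τ) (slashP1_mdiff M γ) h h2

theorem den_taylor_ne_zero1 {g : repField1 M} {k : ℤ} {a b : ℍ → ℂ}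
    (h : IsRepOf1 M (g : LaurentSeries ℂ) k a b) (τ : ℍ) (γ : SL(2, ℤ)) :
    taylorAt τ (b ∣[k] γ) ≠ 0 := by
  intro h0
  have := den_ne_zero1 (T := taylorHolHom τ) (slashP1_mdiff M γ) h
  apply this
  show ofPS (taylorAt τ (b ∣[k] γ)) = 0
  rw [h0, map_zero]

/-- **Valuation of the point homomorphisms**, in terms of the orders of the translates. -/
theorem valuation_Lpt1 (τ : ℍ) (γ : SL(2, ℤ)) {g : repField1 M} (hg : g ≠ 0) {k : ℤ}
    {a b : ℍ → ℂ} (h : IsRepOf1 M (g : LaurentSeries ℂ) k a b) :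
    Valued.v (Lpt1 M τ γ g) = exp (-(ordAt τ (a ∣[k] γ) - ordAt τ (b ∣[k] γ))) := by
  have h1 := congrArg (Valued.v (R := LaurentSeries ℂ)) (Lpt1_spec τ γ g h)
  rw [map_mul, valuation_ofPS (num_ne_zero1 hg h τ γ), valuation_ofPS (den_taylor_ne_zero1 h τ γ)]
    at h1
  have h2 : exp (-(ordAt τ (a ∣[k] γ) - ordAt τ (b ∣[k] γ)))
      = exp (-ordAt τ (a ∣[k] γ)) * exp (ordAt τ (b ∣[k] γ)) := by
    rw [← exp_add]; congr 1; ring
  rw [h2, ordAt, ordAt, ← h1, mul_assoc, ← exp_add, neg_add_cancel, exp_zero, mul_one]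

theorem log_valuation_Lpt1 (τ : ℍ) (γ : SL(2, ℤ)) {g : repField1 M} (hg : g ≠ 0) {k : ℤ}
    {a b : ℍ → ℂ} (h : IsRepOf1 M (g : LaurentSeries ℂ) k a b) :
    log (Valued.v (Lpt1 M τ γ g)) = -(ordAt τ (a ∣[k] γ) - ordAt τ (b ∣[k] γ)) := by
  rw [valuation_Lpt1 τ γ hg h, log_exp]

/-- **Valuation of the point homomorphisms**, in terms of the orders at the point `γ • τ`. -/
theorem valuation_Lpt1_smul (τ : ℍ) (γ : SL(2, ℤ)) {g : repField1 M} (hg : g ≠ 0) {k : ℤ}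
    {a b : ℍ → ℂ} (h : IsRepOf1 M (g : LaurentSeries ℂ) k a b) :
    Valued.v (Lpt1 M τ γ g) = exp (-(ordAt (γ • τ) a - ordAt (γ • τ) b)) := by
  rw [valuation_Lpt1 τ γ hg h, ordAt_slash (mdiff_of_isMF h.ha), ordAt_slash (mdiff_of_isMF h.hb)]

/-- The valuation of `Lpt1 M τ γ g` only depends on the point `γ • τ`. -/
theorem valuation_Lpt1_congr {τ τ' : ℍ} {γ γ' : SL(2, ℤ)} (hpt : γ • τ = γ' • τ')
    (g : repField1 M) : Valued.v (Lpt1 M τ γ g) = Valued.v (Lpt1 M τ' γ' g) := by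
  by_cases hg : g = 0
  · simp [hg]
  · obtain ⟨k, a, b, h⟩ := g.2
    rw [valuation_Lpt1_smul τ γ hg h, valuation_Lpt1_smul τ' γ' hg h, hpt]

/-- The valuation ring pulled back along `Lpt1 M τ γ` only depends on the point `γ • τ`. -/
theorem comap_Lpt1_congr {τ τ' : ℍ} {γ γ' : SL(2, ℤ)} (hpt : γ • τ = γ' • τ') :
    (Valued.v (R := LaurentSeries ℂ)).valuationSubring.comap (Lpt1 M τ γ)
      = (Valued.v (R := LaurentSeries ℂ)).valuationSubring.comap (Lpt1 M τ' γ') := by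
  ext g
  simp only [ValuationSubring.mem_comap, Valuation.mem_valuationSubring_iff]
  rw [valuation_Lpt1_congr hpt g]

/-- Replacing `γ` by `γ * δ` with `δ` in the stabiliser of `τ` does not change the pulled back
valuation ring. -/
theorem comap_Lpt1_mul_stabilizer (τ : ℍ) (γ : SL(2, ℤ)) {δ : SL(2, ℤ)} (hδ : δ • τ = τ) :
    (Valued.v (R := LaurentSeries ℂ)).valuationSubring.comap (Lpt1 M τ (γ * δ))
      = (Valued.v (R := LaurentSeries ℂ)).valuationSubring.comap (Lpt1 M τ γ) :=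
  comap_Lpt1_congr (by rw [mul_smul, hδ])

/-! ### Injectivity in the coset -/

/-- Two point homomorphisms agree at `g` iff the translates of the representing quotient agree. -/
theorem Lpt1_eq_iff (τ : ℍ) (γ γ' : SL(2, ℤ)) (g : repField1 M) {k : ℤ} {a b : ℍ → ℂ}
    (h : IsRepOf1 M (g : LaurentSeries ℂ) k a b) :
    Lpt1 M τ γ g = Lpt1 M τ γ' g ↔ (a ∣[k] γ) * (b ∣[k] γ') = (a ∣[k] γ') * (b ∣[k] γ) := by
  have hA := slash_mdiff1 (M := M) γ h.ha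
  have hB := slash_mdiff1 (M := M) γ h.hb
  have hA' := slash_mdiff1 (M := M) γ' h.ha
  have hB' := slash_mdiff1 (M := M) γ' h.hb
  have e1 : Lpt1 M τ γ g = ofPS (taylorAt τ (a ∣[k] γ)) / ofPS (taylorAt τ (b ∣[k] γ)) :=
    Lmap1_eq_div (T := taylorHolHom τ) (slashP1_mdiff M γ) g h
  have e2 : Lpt1 M τ γ' g = ofPS (taylorAt τ (a ∣[k] γ')) / ofPS (taylorAt τ (b ∣[k] γ')) :=
    Lmap1_eq_div (T := taylorHolHom τ) (slashP1_mdiff M γ') g h
  have d1 : ofPS (taylorAt τ (b ∣[k] γ)) ≠ 0 :=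
    den_ne_zero1 (T := taylorHolHom τ) (slashP1_mdiff M γ) h
  have d2 : ofPS (taylorAt τ (b ∣[k] γ')) ≠ 0 :=
    den_ne_zero1 (T := taylorHolHom τ) (slashP1_mdiff M γ') h
  rw [e1, e2, div_eq_div_iff d1 d2, ← map_mul, ← map_mul, ← taylorAt_mul τ hA hB',
    ← taylorAt_mul τ hA' hB]
  constructor
  · intro h1
    exact taylorAt_injective τ (hA.mul hB') (hA'.mul hB) (ofPS_injective h1)
  · intro h1
    rw [h1]

/-! ### Level one elements -/

/-- On quotients of level one forms the point homomorphisms do not depend on `γ`. -/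
theorem Lpt1_levelOne (τ : ℍ) (γ : SL(2, ℤ)) (g : repField1 M) {k : ℤ} {a b : ℍ → ℂ}
    (h : IsRepOf1 M (g : LaurentSeries ℂ) k a b) (ha : IsMF 𝒮ℒ k a) (hb : IsMF 𝒮ℒ k b) :
    Lpt1 M τ γ g = ofPS (taylorAt τ a) / ofPS (taylorAt τ b) :=
  Lmap1_levelOne (T := taylorHolHom τ) (slashP1_mdiff M γ) g h ha hb

theorem valuation_Lpt1_levelOne (τ : ℍ) (γ : SL(2, ℤ)) {g : repField1 M} (hg : g ≠ 0) {k : ℤ}
    {a b : ℍ → ℂ} (h : IsRepOf1 M (g : LaurentSeries ℂ) k a b) (ha : IsMF 𝒮ℒ k a)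
    (hb : IsMF 𝒮ℒ k b) :
    Valued.v (Lpt1 M τ γ g) = exp (-(ordAt τ a - ordAt τ b)) := by
  rw [valuation_Lpt1 τ γ hg h, slash_eq_of_isMF_levelOne ha, slash_eq_of_isMF_levelOne hb]

open Fermat.Agent.LevelOne.JBasic in
/-- **`hm` for `y = j - j(τ)`**: if `g ∈ repField1 M` is represented by `(E₄³ - j(τ) Δ, Δ)`, its
image under every point homomorphism at `τ` has valuation `exp (-m)`, `m = 3, 2, 1`. -/
theorem valuation_Lpt1_jSub (τ : ℍ) (γ : SL(2, ℤ)) {g : repField1 M}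
    (h : IsRepOf1 M (g : LaurentSeries ℂ) 12 (fc (jFun τ)) ModularForm.discriminant) :
    Valued.v (Lpt1 M τ γ g)
      = exp (-((if jFun τ = 0 then 3 else if jFun τ = 1728 then 2 else 1 : ℕ) : ℤ)) := by
  have hg : g ≠ 0 := by
    intro h0
    have h1 := h.eq
    rw [h0] at h1
    simp only [ZeroMemClass.coe_zero, zero_mul] at h1
    have h2 : Fermat.Agent.S23.QRing.qx (fc (jFun τ)) = 0 := ofPS_injective (by rw [h1, map_zero])
    have h3 := tendsto_fc (jFun τ)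
    rw [(Fermat.Agent.S23.QRing.qx_eq_zero_iff (isQ_of_isMF1 h.ha)).mp h2] at h3
    have h4 : Tendsto (0 : ℍ → ℂ) atImInfty (𝓝 0) := tendsto_const_nhds
    exact one_ne_zero (tendsto_nhds_unique h3 h4)
  rw [valuation_Lpt1_levelOne τ γ hg h ⟨fc (jFun τ), rfl⟩
    ⟨Fermat.Agent.LevelOne.Ramanujan.ΔMF, rfl⟩, ordAt_fc_self,
    ordAt_discriminant, sub_zero]
  split_ifs <;> rfl

/-! ### Elliptic points: divisibility of the valuations -/

/-- If `γ σ γ⁻¹ ∈ Γ₁(M)`, the translates by `γ` are invariant under the slash action of `σ`. -/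
theorem slash_slash_of_conj_mem1 {γ σ : SL(2, ℤ)} (hσ : γ * σ * γ⁻¹ ∈ Gamma1 M) {k : ℤ}
    {c : ℍ → ℂ} (hc : IsMF (G1 M) k c) : (c ∣[k] γ) ∣[k] σ = c ∣[k] γ := by
  rw [← SlashAction.slash_mul]
  have : γ * σ = (γ * σ * γ⁻¹) * γ := by group
  rw [this, slash_mul_left_of_mem1 hσ hc]

/-- If `γ σ γ⁻¹ ∈ ±Γ₁(M)`, the translates by `γ` of the forms of weight `k` are invariant under the
slash action of `σ` up to a common non-zero scalar (`1` or `(-1) ^ k`). -/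
theorem exists_slash_slash_of_conj_mem_PG1 {γ σ : SL(2, ℤ)} (hσ : γ * σ * γ⁻¹ ∈ PG1 M) (k : ℤ) :
    ∃ ε : ℂ, ε ≠ 0 ∧ ∀ c : ℍ → ℂ, IsMF (G1 M) k c → (c ∣[k] γ) ∣[k] σ = ε • (c ∣[k] γ) := by
  rcases mem_PG1_iff.mp hσ with h | h
  · exact ⟨1, one_ne_zero, fun c hc => by rw [one_smul, slash_slash_of_conj_mem1 h hc]⟩
  · refine ⟨(-1 : ℂ) ^ (-k), zpow_ne_zero _ (by norm_num), fun c hc => ?_⟩
    rw [← SlashAction.slash_mul]
    have h1 : γ * σ = -((-(γ * σ * γ⁻¹)) * γ) := by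
      rw [neg_mul, neg_neg]
      group
    rw [h1, slash_neg_mul, slash_mul_left_of_mem1 h hc]

/-- The cross relation needed for `TaylorInv`. -/
theorem cross_of_conj_mem_PG1 {γ σ : SL(2, ℤ)} (hσ : γ * σ * γ⁻¹ ∈ PG1 M) {k : ℤ}
    {a b : ℍ → ℂ} (ha : IsMF (G1 M) k a) (hb : IsMF (G1 M) k b) (z : ℍ) :
    (a ∣[k] γ) (σ • z) * (b ∣[k] γ) z = (a ∣[k] γ) z * (b ∣[k] γ) (σ • z) := by
  obtain ⟨ε, hε, hinv⟩ := exists_slash_slash_of_conj_mem_PG1 (M := M) hσ k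
  have h1 := congrFun (hinv a ha) z
  have h2 := congrFun (hinv b hb) z
  rw [ModularForm.SL_slash_apply, Pi.smul_apply, smul_eq_mul] at h1 h2
  have hd : (denom (σ : GL (Fin 2) ℝ) z) ^ (-k) ≠ 0 := zpow_ne_zero _ (denom_ne_zero _ _)
  have e1 : (a ∣[k] γ) (σ • z) = ε * (a ∣[k] γ) z / (denom (σ : GL (Fin 2) ℝ) z) ^ (-k) := by
    rw [← h1]
    field_simp
  have e2 : (b ∣[k] γ) (σ • z) = ε * (b ∣[k] γ) z / (denom (σ : GL (Fin 2) ℝ) z) ^ (-k) := by
    rw [← h2]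
    field_simp
  rw [e1, e2]
  ring

theorem slash_fun_ne_zero1 {g : repField1 M} (hg : g ≠ 0) {k : ℤ} {a b : ℍ → ℂ}
    (h : IsRepOf1 M (g : LaurentSeries ℂ) k a b) (γ : SL(2, ℤ)) : a ∣[k] γ ≠ 0 := by
  intro h0
  apply num_ne_zero1 hg h UpperHalfPlane.I γ
  rw [h0, taylorAt_zero]

/-- **(Inv) for the point homomorphisms**: if `σ` fixes `τ` and `γ σ γ⁻¹ ∈ ±Γ₁(M)`, then
`(denom σ τ) ^ (2 * log v(Lpt1 M τ γ g)) = 1`. -/
theorem denom_zpow_log_valuation_Lpt1 {τ : ℍ} {γ σ : SL(2, ℤ)} (hfix : σ • τ = τ)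
    (hσ : γ * σ * γ⁻¹ ∈ PG1 M) {g : repField1 M} (hg : g ≠ 0) :
    (denom (σ : GL (Fin 2) ℝ) τ) ^ (2 * log (Valued.v (Lpt1 M τ γ g))) = 1 := by
  obtain ⟨k, a, b, h⟩ := g.2
  have hA := slash_mdiff1 (M := M) γ h.ha
  have hB := slash_mdiff1 (M := M) γ h.hb
  have := denom_zpow_eq_one_of_invariant hA hB (slash_fun_ne_zero1 hg h γ)
    (slash_ne_zero γ h.hb0) σ τ hfix (cross_of_conj_mem_PG1 hσ h.ha h.hb)
  rw [log_valuation_Lpt1 τ γ hg h, mul_neg, zpow_neg, ordAt, ordAt, this, inv_one]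

open Fermat.Agent.LevelOne.JBasic in
/-- **`hs` at `i`**: if `γ S γ⁻¹ ∈ ±Γ₁(M)`, all valuations of `Lpt1 M i γ` are even. -/
theorem two_dvd_log_valuation_Lpt1 {γ : SL(2, ℤ)}
    (hσ : γ * ModularGroup.S * γ⁻¹ ∈ PG1 M) {g : repField1 M} (hg : g ≠ 0) :
    (2 : ℤ) ∣ log (Valued.v (Lpt1 M UpperHalfPlane.I γ g)) := by
  obtain ⟨k, a, b, h⟩ := g.2
  have hA := slash_mdiff1 (M := M) γ h.ha
  have hB := slash_mdiff1 (M := M) γ h.hb
  have := two_dvd_of_S_invariant hA hB (slash_fun_ne_zero1 hg h γ)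
    (slash_ne_zero γ h.hb0) (cross_of_conj_mem_PG1 hσ h.ha h.hb)
  rw [log_valuation_Lpt1 UpperHalfPlane.I γ hg h, dvd_neg]
  exact this

open Fermat.Agent.LevelOne.JBasic in
/-- **`hs` at `ρ`**: if `γ (S T) γ⁻¹ ∈ ±Γ₁(M)`, all valuations of `Lpt1 M ρ γ` are divisible
by `3`. -/
theorem three_dvd_log_valuation_Lpt1 {γ : SL(2, ℤ)}
    (hσ : γ * (ModularGroup.S * ModularGroup.T) * γ⁻¹ ∈ PG1 M) {g : repField1 M} (hg : g ≠ 0) :
    (3 : ℤ) ∣ log (Valued.v (Lpt1 M rho γ g)) := by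
  obtain ⟨k, a, b, h⟩ := g.2
  have hA := slash_mdiff1 (M := M) γ h.ha
  have hB := slash_mdiff1 (M := M) γ h.hb
  have := three_dvd_of_ST_invariant hA hB (slash_fun_ne_zero1 hg h γ)
    (slash_ne_zero γ h.hb0) (cross_of_conj_mem_PG1 hσ h.ha h.hb)
  rw [log_valuation_Lpt1 rho γ hg h, dvd_neg]
  exact this

/-! ### Constants, and the coset-indexed family -/

theorem Lpt1_const (τ : ℍ) (γ : SL(2, ℤ)) (c : ℂ) (hc : HahnSeries.C c ∈ repField1 M) :
    Lpt1 M τ γ ⟨HahnSeries.C c, hc⟩ = HahnSeries.C c := by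
  have := Lmap1_const (T := taylorHolHom τ) (slashP1_mdiff M γ) c hc
  rw [LaurentSeries.algebraMap_apply] at this
  exact this

theorem valuation_Lpt1_const_le_one (τ : ℍ) (γ : SL(2, ℤ)) (c : ℂ)
    (hc : HahnSeries.C c ∈ repField1 M) : Valued.v (Lpt1 M τ γ ⟨HahnSeries.C c, hc⟩) ≤ 1 := by
  rw [Lpt1_const, ← HahnSeries.ofPowerSeries_C]
  by_cases h0 : PowerSeries.C c = (0 : PowerSeries ℂ)
  · rw [h0, map_zero, map_zero]
    exact zero_le
  · rw [show HahnSeries.ofPowerSeries ℤ ℂ (PowerSeries.C c) = ofPS (PowerSeries.C c) from rfl,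
      valuation_ofPS h0, ← exp_zero, exp_le_exp]
    simp

/-- `Lpt1 M τ γ` only depends on the coset `±Γ₁(M) γ`. -/
theorem Lpt1_mul_left (τ : ℍ) (γ : SL(2, ℤ)) {δ : SL(2, ℤ)} (hδ : δ ∈ PG1 M) :
    Lpt1 M τ (δ * γ) = Lpt1 M τ γ :=
  Lmap1_eq_of_mem_PG1 (T := taylorHolHom τ) hδ (slashP1_mdiff M γ) (slashP1_mdiff M (δ * γ))
    (fun _ => mdifferentiable_const)

/-- The family of point homomorphisms at `τ`, indexed by `q = g ±Γ₁(M) ∈ SL(2, ℤ) ⧸ ±Γ₁(M)`: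
`LptQ1 M τ (g ±Γ₁(M)) = Lpt1 M τ g⁻¹`. -/
def LptQ1 (M : ℕ) [NeZero M] (τ : ℍ) (q : Q1 M) : repField1 M →+* LaurentSeries ℂ :=
  Lpt1 M τ (Quotient.out q)⁻¹

theorem LptQ1_mk (τ : ℍ) (g : SL(2, ℤ)) :
    LptQ1 M τ (QuotientGroup.mk g : Q1 M) = Lpt1 M τ g⁻¹ := by
  obtain ⟨δ, hδ⟩ := QuotientGroup.mk_out_eq_mul (PG1 M) g
  unfold LptQ1
  rw [hδ, mul_inv_rev]
  exact Lpt1_mul_left τ g⁻¹ (inv_mem δ.2)

theorem LptQ1_smul_mk (τ : ℍ) (d g : SL(2, ℤ)) :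
    LptQ1 M τ (d • (QuotientGroup.mk g : Q1 M)) = Lpt1 M τ (g⁻¹ * d⁻¹) := by
  rw [MulAction.Quotient.smul_mk, LptQ1_mk, smul_eq_mul, mul_inv_rev]

/-- **`hsame`**: if `d` fixes `τ`, the places attached to `q` and `d • q` agree. -/
theorem comap_LptQ1_smul (τ : ℍ) {d : SL(2, ℤ)} (hd : d • τ = τ) (q : Q1 M) :
    (Valued.v (R := LaurentSeries ℂ)).valuationSubring.comap (LptQ1 M τ (d • q))
      = (Valued.v (R := LaurentSeries ℂ)).valuationSubring.comap (LptQ1 M τ q) := by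
  induction q using QuotientGroup.induction_on with
  | H g =>
    rw [LptQ1_smul_mk, LptQ1_mk]
    apply comap_Lpt1_mul_stabilizer
    rw [← hd, ← mul_smul, inv_mul_cancel, one_smul, hd]

omit [NeZero M] in
/-- `d` fixes the coset `g ±Γ₁(M)` iff `g⁻¹ d g ∈ ±Γ₁(M)`. -/
theorem smul_mk_eq_iff1 (d g : SL(2, ℤ)) :
    d • (QuotientGroup.mk g : Q1 M) = QuotientGroup.mk g
      ↔ g⁻¹ * d * g⁻¹⁻¹ ∈ PG1 M := by
  rw [MulAction.Quotient.smul_mk, smul_eq_mul, eq_comm, QuotientGroup.eq, inv_inv, mul_assoc]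

open Fermat.Agent.LevelOne.JBasic in
/-- **`hs` at `i`** for the coset-indexed family. -/
theorem two_dvd_log_valuation_LptQ1 {q : Q1 M} (hq : ModularGroup.S • q = q)
    {g : repField1 M} (hg : g ≠ 0) :
    (2 : ℤ) ∣ log (Valued.v (LptQ1 M UpperHalfPlane.I q g)) := by
  induction q using QuotientGroup.induction_on with
  | H γ =>
    rw [LptQ1_mk]
    exact two_dvd_log_valuation_Lpt1 ((smul_mk_eq_iff1 _ _).mp hq) hg

open Fermat.Agent.LevelOne.JBasic in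
/-- **`hs` at `ρ`** for the coset-indexed family. -/
theorem three_dvd_log_valuation_LptQ1 {q : Q1 M}
    (hq : (ModularGroup.S * ModularGroup.T) • q = q) {g : repField1 M} (hg : g ≠ 0) :
    (3 : ℤ) ∣ log (Valued.v (LptQ1 M rho q g)) := by
  induction q using QuotientGroup.induction_on with
  | H γ =>
    rw [LptQ1_mk]
    exact three_dvd_log_valuation_Lpt1 ((smul_mk_eq_iff1 _ _).mp hq) hg

open Fermat.Agent.LevelOne.JBasic in
/-- **`hm`** for the coset-indexed family. -/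
theorem valuation_LptQ1_jSub (τ : ℍ) (q : Q1 M) {g : repField1 M}
    (h : IsRepOf1 M (g : LaurentSeries ℂ) 12 (fc (jFun τ)) ModularForm.discriminant) :
    Valued.v (LptQ1 M τ q g)
      = exp (-((if jFun τ = 0 then 3 else if jFun τ = 1728 then 2 else 1 : ℕ) : ℤ)) :=
  valuation_Lpt1_jSub τ _ h

/-- **`hinj`**: the family `q ↦ LptQ1 M τ q` is injective as soon as some element of `repField1 M`
has pairwise distinct translates. -/
theorem LptQ1_injective_of (τ : ℍ) (g : repField1 M) {k : ℤ} {a b : ℍ → ℂ}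
    (h : IsRepOf1 M (g : LaurentSeries ℂ) k a b)
    (hsep : ∀ γ γ' : SL(2, ℤ), (a ∣[k] γ⁻¹) * (b ∣[k] γ'⁻¹) = (a ∣[k] γ'⁻¹) * (b ∣[k] γ⁻¹) →
      (QuotientGroup.mk γ : Q1 M) = QuotientGroup.mk γ') :
    Function.Injective (LptQ1 M τ) := by
  intro q q' hqq
  induction q using QuotientGroup.induction_on with
  | H γ =>
    induction q' using QuotientGroup.induction_on with
    | H γ' =>
      rw [LptQ1_mk, LptQ1_mk] at hqq
      exact hsep γ γ' ((Lpt1_eq_iff τ γ⁻¹ γ'⁻¹ g h).mp (by rw [hqq]))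

end Fermat.Agent.S48.B.B1.LaurentPt1

end
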