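import Mathlib
import Fermat.Agent.S21.ParabolicDimAbstract
import Fermat.Agent.S24.GenusNat
import Fermat.Agent.S24.Hurwitz
import Fermat.Agent.S24.OrbitDefs
import Fermat.Agent.S48.B.B1.Seams
import Fermat.Agent.S48.B.B1.RepHom1
import Fermat.Agent.S48.B.B1.LaurentCusp1

/-!
# PROJECT D (S48), part B, block B1, brick [Gen / Genus1]: the genus of `X₁(M)`

`genus1_of : Seams.Deg1 M → Seams.Places1 M → Seams.Counts1 M → Seams.Genus1 M`.

Twin of main's `S24/Final.lean` + `S24/GenusNat.lean`, on main's Riemann–Hurwitz count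
(`S24/Hurwitz.genus_eq`, generic).  The genus of the Prelude is `(deg K + 2).toNat / 2`, so the
formula `g₁(M) = 1 + d₁/12 - c/2` needs a *natural number* `g` with the Hurwitz identity:

* **parity** : main's `GenusNat.even_card_add_orbits` (generic in the finite `G`-set);
* **nonnegativity** : `#(S-orbits) + #(T-orbits) + #(S T-orbits) ≤ #Q + 2` for the transitive
  action of `SL(2, ℤ) = ⟨S, T⟩` on `Q1 M`.  This is main's abstract bound
  `S21/ParabolicDimAbstract.finrank_add_card_le` applied to the ZERO subspace of `Hom(±Γ₁(M), ℂ)`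
  (no arithmetic inequality between `∑ φ(d) φ(M/d)` and `φ(M) ψ(M)` is needed).
-/

set_option autoImplicit false

open AlgebraicCurve IntermediateField CongruenceSubgroup ModularGroup MulAction
open scoped MatrixGroups

noncomputable section

namespace Fermat.Agent.S48.B.B1.Genus1

open Fermat.Agent.S24.FF Fermat.Agent.S21.ParabolicDim
open Fermat.Agent.S48.B.Defs.Model Fermat.Agent.S48.B.B1.Seams Fermat.Agent.S48.B.B1.RepHom1
  Fermat.Agent.S48.B.B1.LaurentCusp1

local notation "Kb" => AlgebraicClosure ℚ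

variable (M : ℕ) [NeZero M]

/-! ### The action of `SL(2, ℤ)` on `Q1 M` -/

omit [NeZero M] in
theorem smul_mk1 (h g : SL(2, ℤ)) :
    h • (QuotientGroup.mk g : Q1 M) = QuotientGroup.mk (h * g) := rfl

/-- The coset data of `±Γ₁(M)` in `SL(2,ℤ)`. -/
def cosetData1 : CosetData (PG1 M) (Q1 M) where
  x₀ := (QuotientGroup.mk 1 : Q1 M)
  r := Quotient.out
  mem_iff := by
    intro g
    rw [smul_mk1, QuotientGroup.eq, mul_one, mul_one, inv_mem_iff]
  r_smul := by
    intro x
    rw [smul_mk1, mul_one]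
    exact QuotientGroup.out_eq' x

omit [NeZero M] in
/-- `-1` acts trivially on `Q1 M`. -/
theorem neg_one_smul1 (x : Q1 M) : (-1 : SL(2, ℤ)) • x = x := by
  induction x using QuotientGroup.induction_on with
  | H g =>
    rw [smul_mk1, QuotientGroup.eq]
    have h : (-1 * g)⁻¹ * g = -1 := by
      rw [neg_one_mul, ← mul_neg_one g, mul_inv_rev, mul_assoc, inv_mul_cancel, mul_one]
      decide
    rw [h]
    exact (le_sup_right : Subgroup.zpowers (-1 : SL(2, ℤ)) ≤ PG1 M) (Subgroup.mem_zpowers _)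

omit [NeZero M] in
theorem S_sq_smul1 (x : Q1 M) : (S : SL(2, ℤ)) ^ 2 • x = x := by
  rw [S_sq]
  exact neg_one_smul1 M x

omit [NeZero M] in
theorem ST_cube_smul1 (x : Q1 M) : (S * T : SL(2, ℤ)) ^ 3 • x = x := by
  rw [ST_cube]
  exact neg_one_smul1 M x

omit [NeZero M] in
theorem T_pow_smul1 (x : Q1 M) : (T : SL(2, ℤ)) ^ M • x = x := by
  rw [Fermat.Agent.S24.OrbitDefs.smul_eq_iff]
  have h := conj_T_pow_mem_PG1 M (Quotient.out x)⁻¹
  rw [inv_inv, zpow_natCast] at h
  exact h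

instance finite_Q1 : Finite (Q1 M) := by
  have : (PG1 M).FiniteIndex := Subgroup.finiteIndex_of_le (Gamma1_le_PG1 (M := M))
  exact Subgroup.finite_quotient_of_finiteIndex

/-! ### Nonnegativity and parity -/

/-- **Nonnegativity of the genus**, orbit form (Ree's inequality for `S`, `T`, `S T` on `Q1 M`),
from main's abstract parabolic bound at the zero subspace. -/
theorem card_orbits_le :
    Nat.card (orbitRel.Quotient (Subgroup.zpowers (S : SL(2, ℤ))) (Q1 M))
      + Nat.card (orbitRel.Quotient (Subgroup.zpowers (T : SL(2, ℤ))) (Q1 M))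
      + Nat.card (orbitRel.Quotient (Subgroup.zpowers (S * T : SL(2, ℤ))) (Q1 M))
      ≤ Nat.card (Q1 M) + 2 := by
  classical
  have : Fintype (Q1 M) := Fintype.ofFinite _
  let Os := orbitRel.Quotient (Subgroup.zpowers (S : SL(2, ℤ))) (Q1 M)
  let Ot := orbitRel.Quotient (Subgroup.zpowers (T : SL(2, ℤ))) (Q1 M)
  let Ou := orbitRel.Quotient (Subgroup.zpowers (S * T : SL(2, ℤ))) (Q1 M)
  have : Fintype Os := Fintype.ofFinite _
  have : Fintype Ot := Fintype.ofFinite _
  have : Fintype Ou := Fintype.ofFinite _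
  have hinv : ∀ (g : SL(2, ℤ)) (x : Q1 M),
      (Quotient.mk'' (g • x) : orbitRel.Quotient (Subgroup.zpowers g) (Q1 M)) =
        Quotient.mk'' x := by
    intro g x
    apply Quotient.sound'
    exact ⟨⟨g, Subgroup.mem_zpowers g⟩, rfl⟩
  have hM : M ≠ 0 := NeZero.ne M
  have hzero : ∀ (g : SL(2, ℤ)) (ψ : Additive (PG1 M) →+ ℂ),
      ψ ∈ (⊥ : Submodule ℂ (Additive (PG1 M) →+ ℂ)) → ∀ x : Q1 M,
        (cosetData1 M).coc ψ g x = 0 := by
    intro g ψ hψ x
    rw [Submodule.mem_bot] at hψ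
    rw [hψ]
    rfl
  obtain ⟨-, hmain⟩ := finrank_add_card_le (cosetData1 M) (s := S) (t := T)
    _root_.SpecialLinearGroup.SL2Z_generators
    (Os := Os) (Ot := Ot) (Ou := Ou)
    (fun x => Quotient.mk'' x) (fun x => Quotient.mk'' x) (fun x => Quotient.mk'' x)
    Quotient.mk''_surjective Quotient.mk''_surjective Quotient.mk''_surjective
    (hinv S) (hinv T) (hinv (S * T))
    (ks := 2) (kt := M) (ku := 3) (by norm_num) hM (by norm_num)
    (S_sq_smul1 M) (T_pow_smul1 M) (ST_cube_smul1 M)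
    (⊥ : Submodule ℂ (Additive (PG1 M) →+ ℂ))
    (hzero _) (hzero _) (hzero _)
  rw [finrank_bot, zero_add] at hmain
  rw [Nat.card_eq_fintype_card, Nat.card_eq_fintype_card, Nat.card_eq_fintype_card,
    Nat.card_eq_fintype_card]
  exact hmain

/-- **Integrality**: `#Q + 2 = a + b + c + 2 g` with `a, b, c` the numbers of orbits of `⟨S⟩`,
`⟨S T⟩`, `⟨T⟩` on `Q1 M`. -/
theorem exists_nat_genus_orbits1 :
    ∃ g : ℕ, Nat.card (Q1 M) + 2 =
      Nat.card (orbitRel.Quotient (Subgroup.zpowers (S : SL(2, ℤ))) (Q1 M))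
      + Nat.card (orbitRel.Quotient (Subgroup.zpowers (S * T : SL(2, ℤ))) (Q1 M))
      + Nat.card (orbitRel.Quotient (Subgroup.zpowers (T : SL(2, ℤ))) (Q1 M))
      + 2 * g := by
  classical
  have : Fintype (Q1 M) := Fintype.ofFinite _
  have hpar := Fermat.Agent.S24.GenusNat.even_card_add_orbits (α := Q1 M)
    (S : SL(2, ℤ)) (T : SL(2, ℤ))
  have hle := card_orbits_le M
  rw [← Nat.card_eq_fintype_card] at hpar
  set n := Nat.card (Q1 M)
  set a := Nat.card (orbitRel.Quotient (Subgroup.zpowers (S : SL(2, ℤ))) (Q1 M))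
  set b := Nat.card (orbitRel.Quotient (Subgroup.zpowers (S * T : SL(2, ℤ))) (Q1 M))
  set c := Nat.card (orbitRel.Quotient (Subgroup.zpowers (T : SL(2, ℤ))) (Q1 M))
  have hpar' : Even (n + a + c + b) := hpar
  have hle' : a + c + b ≤ n + 2 := hle
  obtain ⟨k, hk⟩ := hpar'
  refine ⟨(n + 2 - (a + b + c)) / 2, ?_⟩
  have h2 : 2 ∣ n + 2 - (a + b + c) := by
    refine ⟨n + 1 - k, ?_⟩
    omega
  have := Nat.mul_div_cancel' h2
  omega

/-- The same in the Riemann–Hurwitz shape (over `ℤ`). -/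
theorem exists_nat_genus_hurwitz1 :
    ∃ g : ℕ,
      ((Nat.card (Q1 M) : ℤ)
          - (Nat.card (orbitRel.Quotient (Subgroup.zpowers (S : SL(2, ℤ))) (Q1 M)) : ℤ))
        + ((Nat.card (Q1 M) : ℤ)
          - (Nat.card (orbitRel.Quotient (Subgroup.zpowers (S * T : SL(2, ℤ))) (Q1 M)) : ℤ))
        - (Nat.card (Q1 M) : ℤ)
        - (Nat.card (orbitRel.Quotient (Subgroup.zpowers (T : SL(2, ℤ))) (Q1 M)) : ℤ)
        = 2 * (g : ℤ) - 2 := by
  obtain ⟨g, h⟩ := exists_nat_genus_orbits1 M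
  refine ⟨g, ?_⟩
  have h' := congrArg (Nat.cast : ℕ → ℤ) h
  push_cast at h'
  linarith

/-! ### The genus from the degree and the four counts -/

/-- **Riemann–Hurwitz for `X₁(M)`, orbit form**: the genus `g` of `ℚ̄(X₁(M))` satisfies
`#Q + 2 = a + b + c + 2 g`, given the degree and the four place counts. -/
theorem genus_orbits_of
    [AlgebraicCurve.HasCanonicalDivisor (K := Kb) (F := ↥(F1Bar M))]
    (hdeg : Deg1 M) (hpl : Places1 M) :
    ((Nat.card (Q1 M) : ℤ)
        - (Nat.card (orbitRel.Quotient (Subgroup.zpowers (S : SL(2, ℤ))) (Q1 M)) : ℤ))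
      + ((Nat.card (Q1 M) : ℤ)
        - (Nat.card (orbitRel.Quotient (Subgroup.zpowers (S * T : SL(2, ℤ))) (Q1 M)) : ℤ))
      - (Nat.card (Q1 M) : ℤ)
      - (Nat.card (orbitRel.Quotient (Subgroup.zpowers (T : SL(2, ℤ))) (Q1 M)) : ℤ)
      = 2 * (AlgebraicCurve.genus Kb ↥(F1Bar M) : ℤ) - 2 := by
  classical
  obtain ⟨hx, hd⟩ := hdeg
  obtain ⟨hgen, h1728, h0, hinf⟩ := hpl
  obtain ⟨g, hg⟩ := exists_nat_genus_hurwitz1 M
  have h17280 : (1728 : Kb) ≠ 0 := by norm_num
  have key := Fermat.Agent.S24.Hurwitz.genus_eq (K := Kb) (F := ↥(F1Bar M)) hx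
    ({1728, 0} : Finset Kb)
    (fun a ha => by
      rw [Finset.mem_insert, Finset.mem_singleton, not_or] at ha
      rw [hgen a ha.1 ha.2, hd]) g
    (by
      rw [Finset.sum_pair h17280, h1728, h0, hinf, hd]
      exact hg)
  rw [key]
  exact hg

/-- **[B-genus]** the genus of `X₁(M)`, `M ≥ 5`, from the degree, the places and the counts. -/
theorem genus1_of (hdeg : Deg1 M) (hpl : Places1 M) (hcnt : Counts1 M) : Genus1 M := by
  intro _ hM5
  obtain ⟨hn, h2n, ha, hb, hc, h2c⟩ := hcnt hM5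
  have key := genus_orbits_of M hdeg hpl
  rw [hn, hc] at key
  -- hide the foreign terms before any cast (no congruence lemma is generated about `genus`)
  generalize AlgebraicCurve.genus Kb ↥(F1Bar M) = G at key ⊢
  generalize Nat.card (orbitRel.Quotient (Subgroup.zpowers (S : SL(2, ℤ))) (Q1 M)) = a at key ha
  generalize Nat.card (orbitRel.Quotient (Subgroup.zpowers (S * T : SL(2, ℤ))) (Q1 M)) = b
    at key hb
  -- everything in `ℚ`
  have keyQ : ((d1 M : ℚ) - (a : ℚ)) + ((d1 M : ℚ) - (b : ℚ)) - (d1 M : ℚ) - (cusps1 M : ℚ)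
      = 2 * (G : ℚ) - 2 := by
    exact_mod_cast key
  have haQ : (2 : ℚ) * (a : ℚ) = (d1 M : ℚ) := by exact_mod_cast ha
  have hbQ : (3 : ℚ) * (b : ℚ) = (d1 M : ℚ) := by exact_mod_cast hb
  unfold g1
  linarith

end Fermat.Agent.S48.B.B1.Genus1

end
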